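import Mathlib
import Fermat.Agent.LG.Th2
import Fermat.Agent.LG.WQ2

/-!
The degrees of the function fields of `X₀(N)`.
-/

set_option autoImplicit false
set_option linter.unusedSectionVars false

open Polynomial ModularCurve IntermediateField

noncomputable section

universe u

namespace Fermat.Agent.CR

open Fermat.Agent.LG Fermat.Agent.ModFun

section Deg

variable {K : Type u} [Field K]

/-- `F0 K N` is finite over `F0 K M` for `M ∣ N`, of degree `ψ(N) / ψ(M)`. -/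
theorem finrank_F0 (ι : K →+* ℂ) {M N : ℕ} [NeZero M] [NeZero N] (h : M ∣ N) {d : ℕ}
    (hd : dedekindPsi N = dedekindPsi M * d) :
    letI := algI (F0_mono (K := K) h)
    FiniteDimensional (F0 K M) (F0 K N) ∧ Module.finrank (F0 K M) (F0 K N) = d := by
  obtain ⟨h1, h2⟩ := finrank_LJ ι M
  obtain ⟨h3, h4⟩ := finrank_LJ ι N
  have t := tower_I (LJ_le_F0 (K := K) M) (F0_mono (K := K) h) (LJ_le_F0 (K := K) N)
  rw [hd] at h4
  exact @finrank_quot (LJ K) (F0 K M) (F0 K N) _ _ _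
    (algI (LJ_le_F0 (K := K) M)) (algI (F0_mono (K := K) h))
    (algI (LJ_le_F0 (K := K) N)) t h1 h3 _ _ h2 h4

theorem psi_pow {q M : ℕ} (hq : q.Prime) (hqM : ¬ q ∣ M) (r : ℕ) :
    dedekindPsi (q ^ (r + 1) * M) = dedekindPsi M * (q ^ (r + 1) + q ^ r) := by
  have hco : q.Coprime M := (Nat.Prime.coprime_iff_not_dvd hq).mpr hqM
  rw [Fermat.Agent.Gamma0Comb.dedekindPsi_mul (hco.pow_left (r + 1)),
    Fermat.Agent.Gamma0Comb.dedekindPsi_prime_pow hq r]
  ring

theorem dvd_powMul {q M N : ℕ} (r : ℕ) (hN : N = q ^ r * M) : M ∣ N := hN ▸ dvd_mul_left M _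

/-- the degree of `X₀(q^(r+1) M)` over `X₀(M)` -/
theorem finrank_powMul (ι : K →+* ℂ) {q M N : ℕ} [NeZero M] [NeZero N] (hq : q.Prime)
    (hqM : ¬ q ∣ M) (r : ℕ) (hN : N = q ^ (r + 1) * M) :
    letI := algI (F0_mono (K := K) (dvd_powMul (r + 1) hN))
    FiniteDimensional (F0 K M) (F0 K N) ∧
      Module.finrank (F0 K M) (F0 K N) = q ^ (r + 1) + q ^ r := by
  exact finrank_F0 ι (dvd_powMul (r + 1) hN) (by rw [hN, psi_pow hq hqM r])

/-- the degree of `X₀(q^(r+2) M)` over `X₀(q^(r+1) M)` is `q`. -/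
theorem finrank_step (ι : K →+* ℂ) {q M N N' : ℕ} [NeZero N] [NeZero N'] (hq : q.Prime)
    (hqM : ¬ q ∣ M) (r : ℕ) (hN : N = q ^ (r + 1) * M) (hN' : N' = q ^ (r + 2) * M) (h : N ∣ N') :
    letI := algI (F0_mono (K := K) h)
    FiniteDimensional (F0 K N) (F0 K N') ∧ Module.finrank (F0 K N) (F0 K N') = q := by
  refine finrank_F0 ι h ?_
  rw [hN, hN', psi_pow hq hqM r, psi_pow hq hqM (r + 1)]
  ring

/-- the degree of `X₀(q M)` over `X₀(M)` is `q + 1`. -/
theorem finrank_one (ι : K →+* ℂ) {q M N : ℕ} [NeZero M] [NeZero N] (hq : q.Prime)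
    (hqM : ¬ q ∣ M) (hN : N = q * M) (h : M ∣ N) :
    letI := algI (F0_mono (K := K) h)
    FiniteDimensional (F0 K M) (F0 K N) ∧ Module.finrank (F0 K M) (F0 K N) = q + 1 := by
  refine finrank_F0 ι h ?_
  have := psi_pow (M := M) hq hqM 0
  rw [zero_add, pow_one, pow_zero] at this
  rw [hN, this]

end Deg

end Fermat.Agent.CR
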