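import Mathlib
import Fermat.Agent.LG.W2
import Fermat.Agent.CR.Deg

/-!
The Atkin–Lehner involution `w` of the function field of `X₀(q ^ n M)`.
-/

set_option autoImplicit false
set_option linter.unusedSectionVars false

open Matrix.SpecialLinearGroup CongruenceSubgroup ModularGroup
open scoped MatrixGroups ModularForm Manifold
open UpperHalfPlane hiding I J
open Complex (I)
open Fermat.Agent.ModFun

noncomputable section

namespace Fermat.Agent.CR

open Fermat.Agent.LG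

section Power

variable {q M N n : ℕ} [NeZero q] [NeZero M] [NeZero N] (B : Bez (q ^ n) M)

/-- the intermediate matrices -/
def gmk {q M n : ℕ} (B : Bez (q ^ n) M) {a b : ℕ} (h : a + b = n) : SL(2, ℤ) :=
  ⟨!![(q : ℤ) ^ a, B.y; M, (q : ℤ) ^ b * B.w], by
  rw [Matrix.det_fin_two_of]
  have := B.det
  have h' : (q : ℤ) ^ n = (q : ℤ) ^ a * (q : ℤ) ^ b := by rw [← pow_add, h]
  push_cast at this
  rw [h'] at this
  linarith⟩

theorem gmk_mem {a b : ℕ} (h : a + b = n) : gmk B h ∈ Gamma0 M := by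
  rw [Gamma0_mem, ZMod.intCast_zmod_eq_zero_iff_dvd]
  change (M : ℤ) ∣ M
  exact dvd_rfl

theorem W_eq_gmk {a b : ℕ} (h : a + b = n) (τ : ℍ) :
    tri (q ^ a) 0 1 (B.W τ) = gmk B h • tri (q ^ b) 0 1 τ := by
  apply UpperHalfPlane.ext
  have e1 := denom_SL_ne_zero B.g0 (tri (q ^ n) 0 1 τ)
  have e2 := denom_SL_ne_zero (gmk B h) (tri (q ^ b) 0 1 τ)
  have c1 := coe_smul_SL B.g0 (tri (q ^ n) 0 1 τ)
  have c2 := coe_smul_SL (gmk B h) (tri (q ^ b) 0 1 τ)
  rw [coe_tri] at e1 e2 c1 c2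
  rw [Bez.W, coe_tri, c1, c2]
  have h1 : (B.g0 0 0 : ℂ) = 1 := by
    have : B.g0 0 0 = 1 := rfl
    rw [this]; norm_num
  have h2 : (B.g0 0 1 : ℂ) = B.y := rfl
  have h3 : (B.g0 1 0 : ℂ) = M := by
    have : B.g0 1 0 = M := rfl
    rw [this]; norm_num
  have h4 : (B.g0 1 1 : ℂ) = (q : ℂ) ^ n * B.w := by
    have : B.g0 1 1 = ((q ^ n : ℕ) : ℤ) * B.w := rfl
    rw [this]; push_cast; ring
  have h5 : (gmk B h 0 0 : ℂ) = (q : ℂ) ^ a := by
    have : gmk B h 0 0 = (q : ℤ) ^ a := rfl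
    rw [this]; push_cast; ring
  have h6 : (gmk B h 0 1 : ℂ) = B.y := rfl
  have h7 : (gmk B h 1 0 : ℂ) = M := by
    have : gmk B h 1 0 = M := rfl
    rw [this]; norm_num
  have h8 : (gmk B h 1 1 : ℂ) = (q : ℂ) ^ b * B.w := by
    have : gmk B h 1 1 = (q : ℤ) ^ b * B.w := rfl
    rw [this]; push_cast; ring
  rw [h3, h4] at e1
  rw [h7, h8] at e2
  rw [h1, h2, h3, h4, h5, h6, h7, h8]
  have hq : (q : ℂ) ≠ 0 := by exact_mod_cast NeZero.ne q
  push_cast at e1 e2 ⊢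
  have hn : (q : ℂ) ^ n = (q : ℂ) ^ a * (q : ℂ) ^ b := by rw [← pow_add, h]
  rw [hn] at e1 ⊢
  simp only [add_zero, div_one, one_mul] at e1 e2 ⊢
  rw [mul_div_assoc', div_eq_div_iff e1 e2]
  ring

/-- `w` exchanges the functions of `q ^ a d` and `q ^ b d`. -/
theorem swap_gmk {a b : ℕ} (h : a + b = n) {d : ℕ} [NeZero d] (hd : d ∣ M) :
    JSwap B.W (q ^ a * d) (q ^ b * d) := by
  have key : ∀ {a b : ℕ} (_ : a + b = n) (τ : ℍ),
      Jd (q ^ a * d) (B.W τ) = Jd (q ^ b * d) τ := by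
    intro a b h τ
    rw [Jd, Jd, tri_mul_one, tri_mul_one, W_eq_gmk B h]
    exact Jd_invariant hd (gmk_mem B h) _
  exact ⟨key h, key (by omega)⟩

theorem pow_dvd_cases {q M n d : ℕ} (hq : q.Prime) (hd : d ∣ q ^ n * M) :
    ∃ a e : ℕ, a ≤ n ∧ e ∣ M ∧ d = q ^ a * e := by
  obtain ⟨x, y, hx, hy, rfl⟩ := (Nat.dvd_mul).1 hd
  obtain ⟨a, ha, rfl⟩ := (Nat.dvd_prime_pow hq).1 hx
  exact ⟨a, y, ha, hy, rfl⟩

theorem wPermR (hq : q.Prime) (hN : N = q ^ n * M) : WPerm N B.W where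
  perm d hd0 hd := by
    subst hN
    obtain ⟨a, e, ha, he, rfl⟩ := pow_dvd_cases hq hd
    have : NeZero e := ⟨by rintro rfl; exact NeZero.ne (q ^ a * 0) (Nat.mul_zero _)⟩
    exact ⟨q ^ (n - a) * e, inferInstance,
      mul_dvd_mul (pow_dvd_pow q (Nat.sub_le n a)) he, swap_gmk B (by omega) he⟩

variable {K : Type*} [Field K] {ι : K →+* ℂ}

/-- The Atkin–Lehner involution of the function field of `X₀(q ^ n M)`. -/
def wR (ι : K →+* ℂ) (hq : q.Prime) (hN : N = q ^ n * M) : F0 K N ≃+* F0 K N :=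
  (wPermR B hq hN).wF ι

theorem wR_wR (hq : q.Prime) (hN : N = q ^ n * M) (x : F0 K N) :
    wR B ι hq hN (wR B ι hq hN x) = x := (wPermR B hq hN).wF_wF x

theorem wR_C (hq : q.Prime) (hN : N = q ^ n * M) (a : K) :
    wR B ι hq hN (algebraMap K _ a) = algebraMap K _ a := (wPermR B hq hN).wF_C a

theorem wR_gen (hq : q.Prime) (hN : N = q ^ n * M) {a b : ℕ} (h : a + b = n) {d : ℕ} [NeZero d]
    (hd : d ∣ M) (hm : ModularCurve.qExpand K (q ^ a * d) (ModularCurve.jqModC K) ∈ F0 K N) :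
    (wR B ι hq hN ⟨_, hm⟩ : LaurentSeries K) =
      ModularCurve.qExpand K (q ^ b * d) (ModularCurve.jqModC K) :=
  (wPermR B hq hN).wF_gen (swap_gmk B h hd)
    (hN ▸ mul_dvd_mul (pow_dvd_pow q (by omega)) hd) _

end Power

section Maps

variable {K : Type*} [Field K]

/-- the map `f(τ) ↦ f(mτ)` -/
def qE (m : ℕ) [NeZero m] {M N : ℕ} [NeZero M] [NeZero N] (h : m * M ∣ N) : F0 K M →+* F0 K N :=
  ((ModularCurve.qExpand K m).comp (F0 K M).val.toRingHom).codRestrict (F0 K N).toSubring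
      fun x => qExpand_mem_F0_of_dvd h x.2

theorem qE_coe {m : ℕ} [NeZero m] {M N : ℕ} [NeZero M] [NeZero N] (h : m * M ∣ N) (x : F0 K M) :
    (qE m h x : LaurentSeries K) = ModularCurve.qExpand K m (x : LaurentSeries K) := rfl

theorem qE_C {m : ℕ} [NeZero m] {M N : ℕ} [NeZero M] [NeZero N] (h : m * M ∣ N) (a : K) :
    qE m h (algebraMap K (F0 K M) a) = algebraMap K (F0 K N) a := by
  apply Subtype.ext
  change ModularCurve.qExpand K m (algebraMap K (LaurentSeries K) a) =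
    algebraMap K (LaurentSeries K) a
  rw [ModularCurve.algebraMap_laurentSeries_eq_single, ModularCurve.qExpand_single, mul_zero]

theorem qE_qE {m m' m'' : ℕ} [NeZero m] [NeZero m'] [NeZero m''] {M N R : ℕ} [NeZero M] [NeZero N]
    [NeZero R] (h : m * M ∣ N) (h' : m' * N ∣ R) (hm : m' * m = m'') (h'' : m'' * M ∣ R)
    (x : F0 K M) : qE m' h' (qE m h x) = qE m'' h'' x := by
  subst hm
  apply Subtype.ext
  rw [qE_coe, qE_coe, qE_coe, ModularCurve.qExpand_qExpand]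

theorem dvd_aux {q n k c c' : ℕ} (M : ℕ) (h : c + k + c' = n) :
    q ^ c * (q ^ k * M) ∣ q ^ n * M := by
  rw [← mul_assoc, ← pow_add]
  exact mul_dvd_mul (pow_dvd_pow q (by omega)) dvd_rfl

variable {q M N N' n k : ℕ} [NeZero q] [NeZero M] [NeZero N] [NeZero N'] {ι : K →+* ℂ}

theorem wR_qE (B : Bez (q ^ n) M) (B' : Bez (q ^ k) M) (hq : q.Prime) (hN : N = q ^ n * M)
    (hN' : N' = q ^ k * M) {c c' : ℕ} (h : c + k + c' = n) (h1 : q ^ c * N' ∣ N)
    (h2 : q ^ c' * N' ∣ N) (x : F0 K N') :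
    wR B ι hq hN (qE (q ^ c) h1 x) = qE (q ^ c') h2 (wR B' ι hq hN' x) := by
  have key : (wR B ι hq hN : F0 K N →+* F0 K N).comp (qE (q ^ c) h1) =
      (qE (q ^ c') h2).comp (wR B' ι hq hN' : F0 K N' →+* F0 K N') := by
    apply ringHom_ext_adjoin
    · intro a
      change wR B ι hq hN (qE (q ^ c) h1 (algebraMap K _ a)) =
        qE (q ^ c') h2 (wR B' ι hq hN' (algebraMap K _ a))
      rw [qE_C, wR_C, wR_C, qE_C]
    · rintro x ⟨d, hd0, hd, rfl⟩
      subst hN'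
      obtain ⟨a, e, ha, he, rfl⟩ := pow_dvd_cases hq hd
      have : NeZero e := ⟨by rintro rfl; exact NeZero.ne (q ^ a * 0) (Nat.mul_zero _)⟩
      change wR B ι hq hN (qE (q ^ c) h1 ⟨_, _⟩) = qE (q ^ c') h2 (wR B' ι hq rfl ⟨_, _⟩)
      have h4 : ModularCurve.qExpand K (q ^ (c + a) * e) (ModularCurve.jqModC K) ∈ F0 K N :=
        IntermediateField.subset_adjoin _ _ (gens_dvd
          (hN ▸ mul_dvd_mul (pow_dvd_pow q (by omega)) he))
      have h3 : qE (q ^ c) h1 ⟨ModularCurve.qExpand K (q ^ a * e) (ModularCurve.jqModC K),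
          IntermediateField.subset_adjoin K _ (gens_dvd hd)⟩ = ⟨_, h4⟩ := by
        apply Subtype.ext
        rw [qE_coe, ModularCurve.qExpand_qExpand]
        have h5 : q ^ c * (q ^ a * e) = q ^ (c + a) * e := by rw [pow_add, mul_assoc]
        congr! 2
      rw [h3]
      apply Subtype.ext
      rw [wR_gen B hq hN (a := c + a) (b := c' + (k - a)) (by omega) he, qE_coe,
        wR_gen B' hq rfl (a := a) (b := k - a) (by omega) he, ModularCurve.qExpand_qExpand]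
      have h5 : q ^ (c' + (k - a)) * e = q ^ c' * (q ^ (k - a) * e) := by rw [pow_add, mul_assoc]
      congr! 2
  exact congrArg (fun φ : F0 K N' →+* F0 K N => φ x) key

/-- functions of level `M` at the place `c` -/
theorem wR_ev (B : Bez (q ^ n) M) (hq : q.Prime) (hN : N = q ^ n * M)
    {c c' : ℕ} (h : c + c' = n) (h1 : q ^ c * M ∣ N)
    (h2 : q ^ c' * M ∣ N) (x : F0 K M) :
    wR B ι hq hN (qE (q ^ c) h1 x) = qE (q ^ c') h2 x := by
  have key : (wR B ι hq hN : F0 K N →+* F0 K N).comp (qE (q ^ c) h1) = qE (q ^ c') h2 := by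
    apply ringHom_ext_adjoin
    · intro a
      change wR B ι hq hN (qE (q ^ c) h1 (algebraMap K _ a)) =
        qE (q ^ c') h2 (algebraMap K _ a)
      rw [qE_C, wR_C, qE_C]
    · rintro x ⟨e, hd0, he, rfl⟩
      change wR B ι hq hN (qE (q ^ c) h1 ⟨_, _⟩) = qE (q ^ c') h2 ⟨_, _⟩
      have h4 : ModularCurve.qExpand K (q ^ c * e) (ModularCurve.jqModC K) ∈ F0 K N :=
        IntermediateField.subset_adjoin _ _ (gens_dvd ((mul_dvd_mul_left _ he).trans h1))
      have h3 : qE (q ^ c) h1 ⟨ModularCurve.qExpand K e (ModularCurve.jqModC K),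
          IntermediateField.subset_adjoin K _ (gens_dvd he)⟩ = ⟨_, h4⟩ := by
        apply Subtype.ext
        rw [qE_coe, ModularCurve.qExpand_qExpand]
      rw [h3]
      apply Subtype.ext
      rw [wR_gen B hq hN (a := c) (b := c') h he, qE_coe, ModularCurve.qExpand_qExpand]
  exact congrArg (fun φ : F0 K M →+* F0 K N => φ x) key

end Maps

end Fermat.Agent.CR
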