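import Mathlib
import Fermat.Agent.CA.GMap
import Fermat.Agent.LG.GVal
import Fermat.Agent.CR.Tow

/-!
Frobenius on the reductions of the functions of level `M`.
-/

set_option autoImplicit false
set_option linter.unusedSectionVars false
set_option linter.unusedVariables false

open IsLocalRing Polynomial ModularCurve

noncomputable section

universe u

namespace Fermat.Agent.CR

open Fermat.Agent.Geo Fermat.Agent.LG Fermat.Agent.CA Fermat.Agent.ModFun

section Gauss

variable {O L : Type u} [CommRing O] [IsDomain O] [IsDiscreteValuationRing O] [Field L]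
  [Algebra O L] [IsFractionRing O L]

/-- elements with reduction zero -/
def gN (O : Type u) {L : Type u} [CommRing O] [IsDomain O] [IsDiscreteValuationRing O] [Field L]
    [Algebra O L] [IsFractionRing O L] (x : LaurentSeries L) : Prop :=
  ∃ h : x ∈ gV O L, gR (⟨x, h⟩ : gV O L) = 0

theorem gN_qExpand (m : ℕ) [NeZero m] {x : LaurentSeries L} (h : gN O x) :
    gN O (qExpand L m x) := by
  obtain ⟨h1, h2⟩ := h
  refine ⟨qExpand_mem_gV m h1, ?_⟩
  rw [gR_qExpand m h1, h2, map_zero]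

theorem gN_inv {x : LaurentSeries L} (hx : x ∈ gK O L) (h : x ∉ gV O L) : gN O x⁻¹ := by
  have h1 : x⁻¹ ∈ gV O L := (mem_or_inv_mem hx).resolve_left h
  refine ⟨h1, ?_⟩
  by_contra h3
  have := isUnit_of_gR_ne_zero h3
  change (x⁻¹)⁻¹ ∈ gV O L at this
  rw [inv_inv] at this
  exact h this

theorem gN_not {x : LaurentSeries L} (h0 : x ≠ 0) (h : gN O x) : x⁻¹ ∉ gV O L := by
  intro h1
  obtain ⟨h2, h3⟩ := h
  have h5 : (⟨x, h2⟩ : gV O L) * ⟨x⁻¹, h1⟩ = 1 := by
    apply Subtype.ext
    change x * x⁻¹ = 1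
    exact mul_inv_cancel₀ h0
  have h6 := congrArg gR h5
  rw [map_mul, h3, zero_mul, map_one] at h6
  exact zero_ne_one h6

theorem qExpand_mem_gV_iff (m : ℕ) [NeZero m] {x : LaurentSeries L} (hx : x ∈ gK O L) :
    qExpand L m x ∈ gV O L ↔ x ∈ gV O L := by
  refine ⟨fun h => ?_, fun h => qExpand_mem_gV m h⟩
  by_contra hcon
  have hx0 : x ≠ 0 := by rintro rfl; exact hcon (zero_mem _)
  have h1 := gN_qExpand m (gN_inv hx hcon)
  rw [map_inv₀] at h1
  refine gN_not (inv_ne_zero ?_) h1 (by rwa [inv_inv])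
  exact (map_ne_zero_iff _ (qExpand_injective m)).mpr hx0

theorem gN_iff {E : Type u} [Field E] {θ : E →+* LaurentSeries L} {hθ : ∀ x, θ x ∈ gK O L}
    {x : E} : x ∈ (gW θ hθ).nonunits ↔ gN O (θ x) := by
  constructor
  · intro h
    have hx : θ x ∈ gV O L := (gW θ hθ).nonunits_le h
    exact ⟨hx, (mem_nonunits_iff_gR (hθ := hθ) hx).mp h⟩
  · rintro ⟨hx, h⟩
    exact (mem_nonunits_iff_gR (hθ := hθ) hx).mpr h

theorem dL_symm (d : O ≃+* O) (a : L) : dL L d (dL L d.symm a) = a := by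
  have h : ((dL L d : L →+* L).comp (dL L d.symm : L →+* L)) = RingHom.id L := by
    apply IsLocalization.ringHom_ext (nonZeroDivisors O)
    ext a
    change dL L d (dL L d.symm (algebraMap O L a)) = algebraMap O L a
    rw [dL_algebraMap, dL_algebraMap, RingEquiv.apply_symm_apply]
  exact congrArg (fun φ : L →+* L => φ a) h

/-- **Frobenius**: `x(q τ) ≡ y(τ) ^ q` with `y` the twist of `x`. -/
theorem frob_descent {q : ℕ} [NeZero q] [ExpChar (ResidueField O) q] (d : O ≃+* O)
    (hd : ∀ a, dbar d a = a ^ q) {x : LaurentSeries L} (hx : x ∈ gV O L) :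
    gN O (qExpand L q x - coeffMap (dL L d.symm : L →+* L) x ^ q) := by
  set y := coeffMap (dL L d.symm : L →+* L) x with hy
  have hyV : y ∈ gV O L := coeffMap_mem_gV d.symm hx
  have hxy : coeffMap (dL L d : L →+* L) y = x := by
    ext n
    rw [hy, coeffMap_coeff, coeffMap_coeff]
    exact dL_symm d _
  have h1 := gR_coeffMap d hyV
  have h2 : gR (⟨x, hx⟩ : gV O L) = coeffMap (dbar d) (gR (⟨y, hyV⟩ : gV O L)) := by
    rw [← h1]
    congr 1
    exact Subtype.ext hxy.symm
  have h3 : dbar d = frobenius (ResidueField O) q := RingHom.ext fun a => hd a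
  refine ⟨sub_mem (qExpand_mem_gV q hx) (pow_mem hyV q), ?_⟩
  have h4 : (⟨qExpand L q x - y ^ q, sub_mem (qExpand_mem_gV q hx) (pow_mem hyV q)⟩ : gV O L) =
      ⟨_, qExpand_mem_gV q hx⟩ - ⟨y, hyV⟩ ^ q := Subtype.ext rfl
  rw [h4, map_sub, map_pow, gR_qExpand q hx, h2, h3, ← pow_eq_qExpand, sub_self]

end Gauss

end Fermat.Agent.CR
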