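import Mathlib
import Fermat.Agent.CR.Frob
import Fermat.Agent.CA.TriC

/-!
The base case `r = 2` of the description of the components of `X₀(q ^ r M)`.
-/

set_option autoImplicit false
set_option linter.unusedSectionVars false
set_option linter.unusedVariables false

open IsLocalRing Polynomial ModularCurve

noncomputable section

universe u

namespace Fermat.Agent.CR

open Fermat.Agent.Geo Fermat.Agent.LG Fermat.Agent.CA Fermat.Agent.ModFun

section Ev

variable {L : Type u} [Field L] {q M N n : ℕ} [NeZero q] [NeZero M] [NeZero N]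

theorem ev_dvd (hN : N = q ^ n * M) (k : ℕ) : q ^ min k n * M ∣ N := by
  rw [hN]
  exact mul_dvd_mul (pow_dvd_pow q (min_le_right _ _)) dvd_rfl

/-- the embedding `f(τ) ↦ f(q ^ k τ)` of the level `M` in the level `q ^ n M` (`k ≤ n`) -/
def ev (L : Type u) [Field L] (hN : N = q ^ n * M) (k : ℕ) : F0 L M →+* F0 L N :=
  qE (q ^ min k n) (ev_dvd hN k)

theorem ev_coe (hN : N = q ^ n * M) {k : ℕ} (hk : k ≤ n) (f : F0 L M) :
    ((ev L hN k f : F0 L N) : LaurentSeries L) = qExpand L (q ^ k) (f : LaurentSeries L) := by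
  have h : min k n = k := min_eq_left hk
  change qExpand L (q ^ min k n) (f : LaurentSeries L) = _
  have key : ∀ a b : ℕ, a = b → ∀ [NeZero a] [NeZero b] (x : LaurentSeries L),
      qExpand L a x = qExpand L b x := by
    intro a b hab
    subst hab
    intro _ _ x
    rfl
  exact key _ _ (by rw [h]) _

theorem ev_zero_coe (hN : N = q ^ n * M) (f : F0 L M) :
    ((ev L hN 0 f : F0 L N) : LaurentSeries L) = f := by
  rw [ev_coe hN (Nat.zero_le n)]
  have key : ∀ a : ℕ, a = 1 → ∀ [NeZero a] (x : LaurentSeries L), qExpand L a x = x := by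
    intro a ha
    subst ha
    intro _ x
    rw [qExpand_one_apply]
  exact key _ (pow_zero q) _

theorem ev_C (hN : N = q ^ n * M) (k : ℕ) (a : L) :
    ev L hN k (algebraMap L _ a) = algebraMap L _ a := qE_C _ _

theorem wR_ev' (B : Bez (q ^ n) M) {ι : L →+* ℂ} (hq : q.Prime) (hN : N = q ^ n * M) {k : ℕ}
    (hk : k ≤ n) (f : F0 L M) : wR B ι hq hN (ev L hN k f) = ev L hN (n - k) f :=
  wR_ev B hq hN (by omega) _ _ f

/-- the shift of the embeddings -/
theorem qE_ev {N' n' c : ℕ} [NeZero N'] (hN : N = q ^ n * M) (hN' : N' = q ^ n' * M)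
    (h : q ^ c * N' ∣ N) {k : ℕ} (hk : k ≤ n') (hc : c + k ≤ n) (f : F0 L M) :
    qE (q ^ c) h (ev L hN' k f) = ev L hN (c + k) f := by
  apply Subtype.ext
  rw [qE_coe, ev_coe hN' hk, ev_coe hN hc, qExpand_qExpand]
  have key : ∀ a b : ℕ, a = b → ∀ [NeZero a] [NeZero b] (x : LaurentSeries L),
      qExpand L a x = qExpand L b x := by
    intro a b hab
    subst hab
    intro _ _ x
    rfl
  exact key _ _ (by rw [pow_add]) _

end Ev

section Base

variable {O L O' L' : Type u} [CommRing O] [IsDomain O] [IsDiscreteValuationRing O]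
    [Field L] [Algebra O L] [IsFractionRing O L] [CommRing O'] [IsDomain O']
    [IsDiscreteValuationRing O'] [Field L'] [Algebra O' L'] [IsFractionRing O' L']
    {q M N p : ℕ} [NeZero q] [NeZero M] [NeZero N] [Fact p.Prime] {κ : ℤ}
    {i : L →+* L'} {i' : O →+* O'} {ζ : O'ˣ} {ι : L →+* ℂ} {ι' : L' →+* ℂ} {π : O}
    [Algebra O (Kt L p κ)] [Algebra O (F0 L M)] [Algebra O (F0 L N)]
    [Algebra (Kt L p κ) (F0 L M)] [Algebra (Kt L p κ) (F0 L N)] [Algebra (F0 L M) (F0 L N)]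
    [IsScalarTower O (Kt L p κ) (F0 L M)] [IsScalarTower O (Kt L p κ) (F0 L N)]
    [IsScalarTower O (F0 L M) (F0 L N)] [IsScalarTower (Kt L p κ) (F0 L M) (F0 L N)]

theorem ev_zero (C : Cpt O (Kt L p κ) (F0 L M) (F0 L N)) {n : ℕ} (hN : N = q ^ n * M) :
    ev L hN 0 = algebraMap (F0 L M) (F0 L N) := by
  ext f : 1
  apply Subtype.ext
  rw [ev_zero_coe, C.MF]

/-- low functions at the middle cusp -/
theorem th_low' (hN : N = q ^ 2 * M) {ζ' : L'ˣ}
    {θ : F0 L N →+* LaurentSeries L'} (h : IsTh i q M N ζ' θ) (z : F0 L N)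
    (hz : (z : LaurentSeries L) ∈ F0 L (q * M)) :
    θ z = coeffMap i (z : LaurentSeries L) := by
  have h1 := h.low_eq hN ⟨_, hz⟩
  have h2 : IntermediateField.inclusion (F0_mono (K := L) (dvd_sq₂ hN)) ⟨(z : LaurentSeries L), hz⟩ = z := by
    apply Subtype.ext
    exact IntermediateField.coe_inclusion _ _
  rw [h2] at h1
  exact h1

theorem ev1_mem (hN : N = q ^ 2 * M) (f : F0 L M) :
    ((ev L hN 1 f : F0 L N) : LaurentSeries L) ∈ F0 L (q * M) := by
  rw [ev_coe hN one_le_two]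
  exact qExpand_mem_F0_of_dvd (by rw [pow_one]) f.2

theorem ev0_mem (hN : N = q ^ 2 * M) (f : F0 L M) :
    ((ev L hN 0 f : F0 L N) : LaurentSeries L) ∈ F0 L (q * M) := by
  rw [ev_zero_coe hN]
  exact F0_mono (dvd_mul_left M q) f.2

variable {B : Bez (q ^ 2) M} {hq : q.Prime} {hN : N = q ^ 2 * M}
  {θ₁ : F0 L N →+* LaurentSeries L'}

variable (D : L2 (O := O) (L := L) (O' := O') (L' := L') (K := Kt L p κ) (F := F0 L N) (F0 L M) q
      (tK L p κ) (tS O p κ) (algebraMap (F0 L N) (LaurentSeries L)) θ₁ i i' ζ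
      (B.wF2 ι hq hN)) 

include D

theorem base_comap0 (C : Cpt O (Kt L p κ) (F0 L M) (F0 L N)) {k : ℕ} (hk : k ≤ 2) (f : F0 L M) :
    ev L hN k f ∈ D.P0 ↔ algebraMap (F0 L M) (F0 L N) f ∈ D.P0 := by
  rw [D.mem0, D.mem0]
  change ((ev L hN k f : F0 L N) : LaurentSeries L) ∈ gV O L ↔
    ((algebraMap (F0 L M) (F0 L N) f : F0 L N) : LaurentSeries L) ∈ gV O L
  rw [ev_coe hN hk, C.MF, qExpand_mem_gV_iff]
  have := D.hgK (algebraMap (F0 L M) (F0 L N) f)
  change ((algebraMap (F0 L M) (F0 L N) f : F0 L N) : LaurentSeries L) ∈ gK O L at this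
  rwa [C.MF] at this

theorem base_comap1 (C : Cpt O (Kt L p κ) (F0 L M) (F0 L N)) (hθ : IsTh i q M N (CA.zL L' ζ) θ₁)
    {k : ℕ} (hk : k ≤ 1) (f : F0 L M) :
    ev L hN k f ∈ D.P1 ↔ algebraMap (F0 L M) (F0 L N) f ∈ D.P0 := by
  haveI := D.loc
  have hlow : ((ev L hN k f : F0 L N) : LaurentSeries L) ∈ F0 L (q * M) := by
    interval_cases k
    · exact ev0_mem hN f
    · exact ev1_mem hN f
  rw [D.mem1, th_low' hN hθ _ hlow, coeffMap_gV_iff D.comp, ← base_comap0 D C (k := k) (by omega),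
    D.mem0]
  · exact Iff.rfl
  · exact D.hgK (ev L hN k f)

theorem wF2_ev {k : ℕ} (hk : k ≤ 2) (f : F0 L M) :
    B.wF2 ι hq hN (ev L hN k f) = ev L hN (2 - k) f := wR_ev' B hq hN hk f

theorem base_comap (C : Cpt O (Kt L p κ) (F0 L M) (F0 L N)) (hθ : IsTh i q M N (CA.zL L' ζ) θ₁)
    (hw1 : ∀ x, B.wF2 ι hq hN x ∈ D.P1 ↔ x ∈ D.P1) (j : Fin 3)
    {k : ℕ} (hk : k ≤ 2) (f : F0 L M) :
    ev L hN k f ∈ D.PP j ↔ algebraMap (F0 L M) (F0 L N) f ∈ D.P0 := by
  fin_cases j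
  · exact base_comap0 D C hk f
  · change ev L hN k f ∈ D.P1 ↔ _
    rcases Nat.lt_or_ge k 2 with h | h
    · exact base_comap1 D C hθ (by omega) f
    · have h2 : k = 2 := by omega
      subst h2
      rw [← hw1, wF2_ev D le_rfl]
      exact base_comap1 D C hθ (by omega) f
  · change ev L hN k f ∈ D.P2 ↔ _
    rw [D.mem2, wF2_ev D hk]
    exact base_comap0 D C (by omega) f

omit D in
theorem coe_fr (d : O ≃+* O) (f : F0 L M) : ((actF (dL L d.symm) M f : F0 L M) : LaurentSeries L) =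
    coeffMap (dL L d.symm : L →+* L) (f : LaurentSeries L) := rfl

/-- the twist is integral -/
theorem fr_mem (C : Cpt O (Kt L p κ) (F0 L M) (F0 L N)) (d : O ≃+* O) {f : F0 L M}
    (hf : algebraMap (F0 L M) (F0 L N) f ∈ D.P0) :
    algebraMap (F0 L M) (F0 L N) (actF (dL L d.symm) M f) ∈ D.P0 := by
  rw [D.mem0] at hf ⊢
  change ((algebraMap (F0 L M) (F0 L N) _ : F0 L N) : LaurentSeries L) ∈ gV O L at hf ⊢
  rw [C.MF] at hf ⊢
  exact coeffMap_mem_gV d.symm hf

variable [ExpChar (ResidueField O) q]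

/-- an `F`-step at `P_∞` -/
theorem base_F0 (C : Cpt O (Kt L p κ) (F0 L M) (F0 L N)) (d : O ≃+* O)
    (hd : ∀ a, dbar d a = a ^ q) {k : ℕ} (hk : k + 1 ≤ 2) {f : F0 L M}
    (hf : algebraMap (F0 L M) (F0 L N) f ∈ D.P0) :
    ev L hN (k + 1) f - ev L hN k (actF (dL L d.symm) M f) ^ q ∈ D.P0.nonunits := by
  have hf' : (f : LaurentSeries L) ∈ gV O L := by
    have h1 := hf
    rw [D.mem0] at h1
    change ((algebraMap (F0 L M) (F0 L N) _ : F0 L N) : LaurentSeries L) ∈ gV O L at h1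
    rwa [C.MF] at h1
  have h2 := gN_qExpand (q ^ k) (frob_descent d hd hf')
  rw [L2.P0, gN_iff]
  have h3 : (algebraMap (F0 L N) (LaurentSeries L))
      (ev L hN (k + 1) f - ev L hN k (actF (dL L d.symm) M f) ^ q) =
      qExpand L (q ^ k) (qExpand L q (f : LaurentSeries L) -
        coeffMap (dL L d.symm : L →+* L) (f : LaurentSeries L) ^ q) := by
    rw [map_sub, map_pow, map_sub, map_pow]
    change ((ev L hN (k + 1) f : F0 L N) : LaurentSeries L) -
      ((ev L hN k (actF (dL L d.symm) M f) : F0 L N) : LaurentSeries L) ^ q = _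
    rw [ev_coe hN hk, ev_coe hN (by omega), qExpand_qExpand, coe_fr]
    congr 1
  rw [h3]
  exact h2

/-- an `F`-step at the middle component -/
theorem base_F1 (C : Cpt O (Kt L p κ) (F0 L M) (F0 L N)) (hθ : IsTh i q M N (CA.zL L' ζ) θ₁)
    (d : O ≃+* O) (hd : ∀ a, dbar d a = a ^ q) {f : F0 L M}
    (hf : algebraMap (F0 L M) (F0 L N) f ∈ D.P0) :
    ev L hN 1 f - ev L hN 0 (actF (dL L d.symm) M f) ^ q ∈ D.P1.nonunits := by
  haveI := D.loc
  have hf' : (f : LaurentSeries L) ∈ gV O L := by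
    have h1 := hf
    rw [D.mem0] at h1
    change ((algebraMap (F0 L M) (F0 L N) _ : F0 L N) : LaurentSeries L) ∈ gV O L at h1
    rwa [C.MF] at h1
  obtain ⟨h1, h2⟩ := frob_descent d hd hf'
  obtain ⟨h3, h4⟩ := coeffMap_gV D.comp h1
  rw [L2.P1, gN_iff]
  have h5 : θ₁ (ev L hN 1 f - ev L hN 0 (actF (dL L d.symm) M f) ^ q) =
      coeffMap i (qExpand L q (f : LaurentSeries L) -
        coeffMap (dL L d.symm : L →+* L) (f : LaurentSeries L) ^ q) := by
    rw [map_sub, map_pow, map_sub, map_pow, th_low' hN hθ _ (ev1_mem hN f),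
      th_low' hN hθ _ (ev0_mem hN _), ev_coe hN one_le_two, ev_zero_coe hN, coe_fr]
    congr 2
    have key : ∀ a b : ℕ, a = b → ∀ [NeZero a] [NeZero b] (x : LaurentSeries L),
        qExpand L a x = qExpand L b x := by
      intro a b hab
      subst hab
      intro _ _ x
      rfl
    exact key _ _ (pow_one q) _
  rw [h5]
  exact ⟨h3, by rw [h4, h2, map_zero]⟩

/-- the `F`-steps -/
theorem base_F (C : Cpt O (Kt L p κ) (F0 L M) (F0 L N)) (hθ : IsTh i q M N (CA.zL L' ζ) θ₁)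
    (d : O ≃+* O) (hd : ∀ a, dbar d a = a ^ q) (j : Fin 3) {k : ℕ} (hk : k + 1 + j ≤ 2)
    {f : F0 L M} (hf : algebraMap (F0 L M) (F0 L N) f ∈ D.P0) :
    ev L hN (k + 1) f - ev L hN k (actF (dL L d.symm) M f) ^ q ∈ (D.PP j).nonunits := by
  fin_cases j
  · exact base_F0 D C d hd (by simpa using hk) hf
  · have h0 : k = 0 := by simp at hk; omega
    subst h0
    exact base_F1 D C hθ d hd hf
  · exfalso
    simp at hk

omit [ExpChar (ResidueField O) q] in
theorem w_nonunits0 (x : F0 L N) : B.wF2 ι hq hN x ∈ D.P0.nonunits ↔ x ∈ D.P2.nonunits := by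
  have : D.P2 = D.P0.comap (B.wF2 ι hq hN : F0 L N →+* F0 L N) := by
    ext x; exact D.mem2
  rw [this]
  exact (comap_mem_nonunits D.P0 (B.wF2 ι hq hN : F0 L N →+* F0 L N) x).symm

omit [ExpChar (ResidueField O) q] in
theorem w_nonunits1 (hw1 : ∀ x, B.wF2 ι hq hN x ∈ D.P1 ↔ x ∈ D.P1) (x : F0 L N) :
    B.wF2 ι hq hN x ∈ D.P1.nonunits ↔ x ∈ D.P1.nonunits := by
  have : D.P1 = D.P1.comap (B.wF2 ι hq hN : F0 L N →+* F0 L N) := by
    ext x; exact (hw1 x).symm
  conv_rhs => rw [this]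
  exact (comap_mem_nonunits D.P1 (B.wF2 ι hq hN : F0 L N →+* F0 L N) x).symm

/-- the `V`-steps -/
theorem base_V (C : Cpt O (Kt L p κ) (F0 L M) (F0 L N)) (hθ : IsTh i q M N (CA.zL L' ζ) θ₁)
    (hw1 : ∀ x, B.wF2 ι hq hN x ∈ D.P1 ↔ x ∈ D.P1)
    (d : O ≃+* O) (hd : ∀ a, dbar d a = a ^ q) (j : Fin 3) {k : ℕ} (hk : 2 ≤ k + j) (hk2 : k < 2)
    {f : F0 L M} (hf : algebraMap (F0 L M) (F0 L N) f ∈ D.P0) :
    ev L hN k f - ev L hN (k + 1) (actF (dL L d.symm) M f) ^ q ∈ (D.PP j).nonunits := by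
  fin_cases j
  · exfalso
    have : k + 0 = k := rfl
    change 2 ≤ k + 0 at hk
    omega
  · have h0 : k = 1 := by simp at hk; omega
    subst h0
    change _ ∈ D.P1.nonunits
    rw [← w_nonunits1 D hw1, map_sub, map_pow, wF2_ev D (by omega), wF2_ev D (by omega)]
    exact base_F1 D C hθ d hd hf
  · change _ ∈ D.P2.nonunits
    rw [← w_nonunits0 D, map_sub, map_pow, wF2_ev D (by omega), wF2_ev D (by omega)]
    obtain ⟨l, hl⟩ : ∃ l, l + 1 + k = 2 := ⟨1 - k, by omega⟩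
    have e1 : 2 - k = l + 1 := by omega
    have e2 : 2 - (k + 1) = l := by omega
    rw [e1, e2]
    exact base_F0 D C d hd (by omega) hf

end Base

end Fermat.Agent.CR
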