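import Mathlib
import Fermat.Agent.CA.UC

/-!
Algebra of the Kronecker congruence: the recursion for the local parameters `δ`.
-/

set_option autoImplicit false
set_option linter.unusedSectionVars false
set_option linter.unusedVariables false

open Polynomial

noncomputable section

universe u

namespace Fermat.Agent.CR

open Fermat.Agent.Geo Fermat.Agent.LG Fermat.Agent.CA

/-- the modular polynomial -/
def Phi (q : ℕ) (c : ℕ → ℤ[X]) {E : Type*} [CommRing E] (x y : E) : E :=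
  ∑ i ∈ Finset.range (q + 2), aeval y (c i) * x ^ i

theorem mrel_iff {q : ℕ} {c : ℕ → ℤ[X]} {E : Type*} [CommRing E] {x y : E} :
    MRel q c x y ↔ Phi q c x y = 0 := Iff.rfl

/-- the error term -/
def Err (q : ℕ) (e : ℕ → ℤ[X]) {E : Type*} [CommRing E] (x y : E) : E :=
  ∑ i ∈ Finset.range (q + 1), aeval y (e i) * x ^ i

theorem exists_err {q : ℕ} {c : ℕ → ℤ[X]} (hc : KShape q c) : ∃ e : ℕ → ℤ[X],
    ∀ {E : Type*} [CommRing E] (x y : E),
      Phi q c x y = (x ^ q - y) * (x - y ^ q) + (q : E) * Err q e x y := by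
  have h2 := hc.two_le
  obtain ⟨e0, h0⟩ := hc.c0
  obtain ⟨e1, h1⟩ := hc.c1
  obtain ⟨eq', hq'⟩ := hc.cq
  have hmid : ∀ i, ∃ ei, 1 < i → i < q → c i = C (q : ℤ) * ei := by
    intro i
    by_cases h : 1 < i ∧ i < q
    · obtain ⟨ei, hi⟩ := hc.ci i h.1 h.2
      exact ⟨ei, fun _ _ => hi⟩
    · exact ⟨0, fun h1 h2 => absurd ⟨h1, h2⟩ h⟩
  choose em hem using hmid
  refine ⟨fun i => if i = 0 then e0 else if i = 1 then e1 else if i = q then eq' else em i, ?_⟩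
  intro E _ x y
  have hz : ∀ p : ℤ[X], aeval y (C (q : ℤ) * p) = (q : E) * aeval y p := by
    intro p
    rw [map_mul, aeval_C]
    simp
  obtain ⟨k, rfl⟩ : ∃ k, q = k + 2 := ⟨q - 2, by omega⟩
  have hc0 : aeval y (c 0) = y ^ (k + 2 + 1) + ((k + 2 : ℕ) : E) * aeval y e0 := by
    have : c 0 = X ^ (k + 2 + 1) + C ((k + 2 : ℕ) : ℤ) * e0 := by rw [← h0]; ring
    rw [this, map_add, hz, map_pow, aeval_X]
  have hc1 : aeval y (c 1) = -y + ((k + 2 : ℕ) : E) * aeval y e1 := by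
    have : c 1 = -X + C ((k + 2 : ℕ) : ℤ) * e1 := by rw [← h1]; ring
    rw [this, map_add, hz, map_neg, aeval_X]
  have hcq : aeval y (c (k + 2)) = -y ^ (k + 2) + ((k + 2 : ℕ) : E) * aeval y eq' := by
    have : c (k + 2) = -X ^ (k + 2) + C ((k + 2 : ℕ) : ℤ) * eq' := by rw [← hq']; ring
    rw [this, map_add, hz, map_neg, map_pow, aeval_X]
  have hct : aeval y (c (k + 2 + 1)) = 1 := by rw [hc.top, map_one]
  rw [Phi, Err]
  rw [Finset.sum_range_succ, Finset.sum_range_succ, Finset.sum_range_succ' _ (k + 1),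
    Finset.sum_range_succ' _ k, Finset.sum_range_succ _ (k + 2), Finset.sum_range_succ' _ (k + 1),
    Finset.sum_range_succ' _ k]
  have hm : ∑ i ∈ Finset.range k, aeval y (c (i + 1 + 1)) * x ^ (i + 1 + 1) =
      ((k + 2 : ℕ) : E) * ∑ i ∈ Finset.range k, aeval y (em (i + 1 + 1)) * x ^ (i + 1 + 1) := by
    rw [Finset.mul_sum]
    refine Finset.sum_congr rfl fun i hi => ?_
    rw [hem (i + 1 + 1) (by omega) (by have := Finset.mem_range.mp hi; omega), hz]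
    ring
  have hm' : ∑ i ∈ Finset.range k, aeval y (if i + 1 + 1 = 0 then e0 else if i + 1 + 1 = 1 then e1
      else if i + 1 + 1 = k + 2 then eq' else em (i + 1 + 1)) * x ^ (i + 1 + 1) =
      ∑ i ∈ Finset.range k, aeval y (em (i + 1 + 1)) * x ^ (i + 1 + 1) := by
    refine Finset.sum_congr rfl fun i hi => ?_
    have := Finset.mem_range.mp hi
    rw [if_neg (by omega), if_neg (by omega), if_neg (by omega)]
  rw [hm, hm', hct, hcq]
  simp only [if_true, zero_add, if_neg (show ¬ (1 = 0) by omega),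
    if_neg (show ¬ (k + 2 = 0) by omega), if_neg (show ¬ (k + 2 = 1) by omega)]
  rw [hc0, hc1]
  ring

section Ring

variable {R : Type*} [CommRing R]

theorem err_sub (q : ℕ) (e : ℕ → ℤ[X]) (x y x' y' : R) : ∃ a b : R,
    Err q e x' y' - Err q e x y = (x' - x) * a + (y' - y) * b := by
  let I : Ideal R := Ideal.span {x' - x, y' - y}
  have h : Err q e x' y' - Err q e x y ∈ I := by
    rw [← Ideal.Quotient.eq_zero_iff_mem, map_sub, sub_eq_zero]
    have hmap : ∀ x y : R, Ideal.Quotient.mk I (Err q e x y) =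
        Err q e (Ideal.Quotient.mk I x) (Ideal.Quotient.mk I y) := by
      intro x y
      rw [Err, map_sum, Err]
      refine Finset.sum_congr rfl fun i _ => ?_
      rw [map_mul, map_pow]
      congr 1
      rw [aeval_def, aeval_def, hom_eval₂]
      have hr : (Ideal.Quotient.mk I).comp (algebraMap ℤ R) = algebraMap ℤ (R ⧸ I) :=
        RingHom.ext_int _ _
      rw [hr]
      rfl
    have hx : Ideal.Quotient.mk I x' = Ideal.Quotient.mk I x :=
      Ideal.Quotient.eq.mpr (Ideal.subset_span (by simp))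
    have hy : Ideal.Quotient.mk I y' = Ideal.Quotient.mk I y :=
      Ideal.Quotient.eq.mpr (Ideal.subset_span (by simp))
    rw [hmap, hmap, hx, hy]
  obtain ⟨a, b, hab⟩ := Ideal.mem_span_pair.mp h
  exact ⟨a, b, by rw [← hab]; ring⟩

/-- **The recursion for `δ`.** -/
theorem delta_rec {q : ℕ} (hq : q.Prime) {c : ℕ → ℤ[X]} (hc : KShape q c) {u0 u1 v0 v1 : R}
    (hu : Phi q c u1 u0 = 0) (hv : Phi q c v1 v0 = 0) (hAu : IsUnit (u1 ^ q - u0))
    (hAv : IsUnit (v1 ^ q - v0)) : ∃ ρ σ : R,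
    (v1 - u1) * (1 + (q : R) * ρ) = (v0 - u0) ^ q + (q : R) * (v0 - u0) * σ := by
  obtain ⟨e, he⟩ := exists_err hc
  rw [he] at hu hv
  obtain ⟨Au, hAu'⟩ := hAu
  obtain ⟨Av, hAv'⟩ := hAv
  obtain ⟨a, b, hab⟩ := err_sub q e u1 u0 v1 v0
  obtain ⟨γ, hγ⟩ := exists_add_pow_prime_eq hq u0 (v0 - u0)
  have hγ' : v0 ^ q = u0 ^ q + (v0 - u0) ^ q + q * u0 * (v0 - u0) * γ := by
    rw [← hγ]; congr 1; ring
  have h1 : (u1 - u0 ^ q) = -((q : R) * Err q e u1 u0 * (↑Au⁻¹ : R)) := by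
    have : (u1 - u0 ^ q) = ((u1 ^ q - u0) * (u1 - u0 ^ q)) * (↑Au⁻¹ : R) := by
      rw [← hAu']
      rw [mul_comm, ← mul_assoc, Units.inv_mul, one_mul]
    rw [this, eq_neg_of_add_eq_zero_left hu]
    ring
  have h2 : (v1 - v0 ^ q) = -((q : R) * Err q e v1 v0 * (↑Av⁻¹ : R)) := by
    have : (v1 - v0 ^ q) = ((v1 ^ q - v0) * (v1 - v0 ^ q)) * (↑Av⁻¹ : R) := by
      rw [← hAv']
      rw [mul_comm, ← mul_assoc, Units.inv_mul, one_mul]
    rw [this, eq_neg_of_add_eq_zero_left hv]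
    ring
  -- the difference of the inverses
  obtain ⟨g, hg⟩ : (v1 - u1) ∣ v1 ^ q - u1 ^ q := sub_dvd_pow_sub_pow v1 u1 q
  have h3 : (↑Av⁻¹ : R) - (↑Au⁻¹ : R) = (↑Av⁻¹ : R) * (↑Au⁻¹ : R) * ((v0 - u0) - (v1 - u1) * g) := by
    have e1 : (v0 - u0) - (v1 - u1) * g = (Au : R) - (Av : R) := by
      rw [← hg, hAu', hAv']; ring
    rw [e1, mul_sub]
    have e2 : (↑Av⁻¹ : R) * (↑Au⁻¹ : R) * (Au : R) = (↑Av⁻¹ : R) := by
      rw [mul_assoc, Units.inv_mul, mul_one]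
    have e3 : (↑Av⁻¹ : R) * (↑Au⁻¹ : R) * (Av : R) = (↑Au⁻¹ : R) := by
      rw [mul_right_comm, Units.inv_mul, one_mul]
    rw [e2, e3]
  refine ⟨a * (↑Au⁻¹ : R) - Err q e v1 v0 * ((↑Av⁻¹ : R) * (↑Au⁻¹ : R) * g),
    u0 * γ - b * (↑Au⁻¹ : R) - Err q e v1 v0 * ((↑Av⁻¹ : R) * (↑Au⁻¹ : R)), ?_⟩
  have h4 : Err q e v1 v0 * (↑Av⁻¹ : R) - Err q e u1 u0 * (↑Au⁻¹ : R) =
      Err q e v1 v0 * ((↑Av⁻¹ : R) * (↑Au⁻¹ : R) * ((v0 - u0) - (v1 - u1) * g)) +
        ((v1 - u1) * a + (v0 - u0) * b) * (↑Au⁻¹ : R) := by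
    rw [← h3, ← hab]; ring
  have h5 : v1 - u1 = (v0 - u0) ^ q + q * u0 * (v0 - u0) * γ -
      (q : R) * (Err q e v1 v0 * (↑Av⁻¹ : R) - Err q e u1 u0 * (↑Au⁻¹ : R)) := by
    have : v1 - u1 = (v1 - v0 ^ q) - (u1 - u0 ^ q) + (v0 ^ q - u0 ^ q) := by ring
    rw [this, h1, h2, hγ']
    ring
  rw [h4] at h5
  linear_combination h5

/-- the value of the modular polynomial at a neighbouring point -/
theorem phi_neighbour {q : ℕ} (hq : q.Prime) {c : ℕ → ℤ[X]} (hc : KShape q c) {u0 u1 v1 : R}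
    (hu : Phi q c u1 u0 = 0) : ∃ a b r : R,
    Phi q c v1 u0 = (v1 - u1) * ((u1 ^ q - u0) + (v1 - u1) * a + (q : R) * b +
      (u1 - u0 ^ q) * r) := by
  obtain ⟨e, he⟩ := exists_err hc
  obtain ⟨a, b, hab⟩ := err_sub q e u1 u0 v1 u0
  obtain ⟨g, hg⟩ : (v1 - u1) ∣ v1 ^ q - u1 ^ q := sub_dvd_pow_sub_pow v1 u1 q
  have h1 : Phi q c v1 u0 = Phi q c v1 u0 - Phi q c u1 u0 := by rw [hu, sub_zero]
  refine ⟨g, a, g, ?_⟩
  rw [h1, he, he]
  have h2 : (v1 ^ q - u0) * (v1 - u0 ^ q) - (u1 ^ q - u0) * (u1 - u0 ^ q) =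
      (v1 ^ q - u1 ^ q) * (v1 - u0 ^ q) + (u1 ^ q - u0) * (v1 - u1) := by ring
  have h3 : (v1 ^ q - u0) * (v1 - u0 ^ q) + (q : R) * Err q e v1 u0 -
      ((u1 ^ q - u0) * (u1 - u0 ^ q) + (q : R) * Err q e u1 u0) =
      ((v1 ^ q - u0) * (v1 - u0 ^ q) - (u1 ^ q - u0) * (u1 - u0 ^ q)) +
        (q : R) * (Err q e v1 u0 - Err q e u1 u0) := by ring
  rw [h3, h2, hg, hab]
  ring

end Ring

section Val

variable {F : Type u} [Field F] {W : ValuationSubring F}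

theorem phi_coe {q : ℕ} {c : ℕ → ℤ[X]} (x y : W) : ((Phi q c x y : W) : F) =
    Phi q c (x : F) (y : F) := by
  rw [Phi, Phi, AddSubmonoidClass.coe_finsetSum]
  refine Finset.sum_congr rfl fun i _ => ?_
  push_cast
  congr 1
  change W.subtype (aeval y (c i)) = _
  rw [aeval_def, hom_eval₂, aeval_def]
  have hr : W.subtype.comp (algebraMap ℤ W) = algebraMap ℤ F := RingHom.ext_int _ _
  rw [hr]
  rfl

theorem isUnit_of_notMem {x : W} (h : (x : F) ∉ W.nonunits) : IsUnit x := by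
  by_contra hcon
  exact h (ValuationSubring.mem_nonunits_iff_exists_mem_maximalIdeal.mpr
    ⟨x.2, (IsLocalRing.mem_maximalIdeal _).mpr hcon⟩)

/-- **The step of the recursion for `δ`**, in a valuation ring. -/
theorem delta_val {q : ℕ} (hq : q.Prime) {c : ℕ → ℤ[X]} (hc : KShape q c)
    (hqW : (q : F) ∈ W.nonunits) {u0 u1 v0 v1 : F} (hu0 : u0 ∈ W) (hu1 : u1 ∈ W) (hv0 : v0 ∈ W)
    (hv1 : v1 ∈ W) (hu : MRel q c u1 u0) (hv : MRel q c v1 v0)
    (hAu : u1 ^ q - u0 ∉ W.nonunits) (hAv : v1 ^ q - v0 ∉ W.nonunits)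
    (hδ : v0 - u0 ∈ W.nonunits) {n : ℕ} (hn : 1 ≤ n)
    (hδ' : UC W ((v1 - u1) ^ n / (q : F)) ((v1 - u1) ^ n / (q : F))) :
    UC W ((v0 - u0) ^ q / (v1 - u1)) 1 ∧
      UC W ((v0 - u0) ^ (q * n) / (q : F)) ((v1 - u1) ^ n / (q : F)) := by
  obtain ⟨ρ, σ, h⟩ := delta_rec (R := W) hq hc (u0 := ⟨u0, hu0⟩) (u1 := ⟨u1, hu1⟩)
    (v0 := ⟨v0, hv0⟩) (v1 := ⟨v1, hv1⟩) (Subtype.ext ((phi_coe _ _).trans hu))
    (Subtype.ext ((phi_coe _ _).trans hv)) (isUnit_of_notMem hAu) (isUnit_of_notMem hAv)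
  have h' : (v1 - u1) * (1 + (q : F) * ρ) = (v0 - u0) ^ q + (q : F) * (v0 - u0) * σ := by
    have := congrArg (fun z : W => (z : F)) h
    simpa using this
  have hq0 : (q : F) ≠ 0 := by
    intro h0
    have := hδ'.ne
    rw [h0, div_zero] at this
    exact this rfl
  have hd0 : v1 - u1 ≠ 0 := by
    intro h0
    have := hδ'.ne
    rw [h0, zero_pow (by omega), zero_div] at this
    exact this rfl
  obtain ⟨k, rfl⟩ : ∃ k, n = k + 1 := ⟨n - 1, by omega⟩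
  have e1 : (v0 - u0) ^ q / (v1 - u1) - 1 = (q : F) * ρ -
      ((((v1 - u1) ^ (k + 1) / (q : F))⁻¹ * (v1 - u1) ^ k) * σ) * (v0 - u0) := by
    have : (v0 - u0) ^ q = (v1 - u1) * (1 + (q : F) * ρ) - (q : F) * (v0 - u0) * σ := by
      rw [h']; ring
    rw [this]
    field_simp
    ring
  have h1 : UC W ((v0 - u0) ^ q / (v1 - u1)) 1 := by
    refine UC.mk_right one_ne_zero W.one_mem (by rw [inv_one]; exact W.one_mem) ?_
    rw [e1]
    refine nonunits_sub (by rw [mul_comm]; exact mul_mem_nonunits ρ.2 hqW) ?_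
    exact mul_mem_nonunits (W.mul_mem _ _ (W.mul_mem _ _ hδ'.inv
      (pow_mem (sub_mem hv1 hu1) k)) σ.2) hδ
  refine ⟨h1, ?_⟩
  have h2 := (h1.pow (k + 1)).mul hδ'
  rw [one_pow, one_mul] at h2
  convert h2 using 1
  rw [div_pow, ← pow_mul]
  field_simp

end Val

end Fermat.Agent.CR
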