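import Mathlib
import Fermat.Agent.CR.Kron
import Fermat.Agent.CA.ValZ

/-!
The valuations of the function field of `X₀(q^r M)` over the Gauss valuation: the structure `Lev`.
-/

set_option autoImplicit false
set_option linter.unusedSectionVars false
set_option linter.unusedVariables false

open Polynomial

noncomputable section

universe u

namespace Fermat.Agent.CR

open Fermat.Agent.Geo Fermat.Agent.LG Fermat.Agent.CA

/-- the uniformiser of the component number `i` (`i` = the number of Verschiebung steps):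
with `a = r - i`, `s = min a i` it is `ϖ` if `s = 0` and `x (a + s) - x (a - s)` otherwise. -/
def dlt {F : Type u} [Field F] (ϖ : F) (r : ℕ) (x : ℕ → F) (i : ℕ) : F :=
  if min (r - i) i = 0 then ϖ else x (r - i + min (r - i) i) - x (r - i - min (r - i) i)

/-- The valuations of `F` over the Gauss valuation of `K`: `m k : M →+* F` (`k ≤ r`) is
`f(τ) ↦ f(q^k τ)`, `G` the valuation of `M` over the Gauss valuation, `P i` (`i ≤ r`) the
component with `x (k + 1) ≡ x k ^ q` for `k < r - i` and `x k ≡ x (k + 1) ^ q` for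
`r - i ≤ k < r`, `x k = m k t`. -/
structure Lev {O K M F : Type u} [CommRing O] [IsDomain O] [IsDiscreteValuationRing O]
    [Field K] [Field M] [Field F] [Algebra O K] [Algebra O F] [Algebra K M] [Algebra K F]
    {t : K} {π : O} (ht : IsParam O t) (hπ : Prime π) (q : ℕ) (G : ValuationSubring M)
    (r : ℕ) (m : ℕ → M →+* F) (P : ℕ → ValuationSubring F) : Prop where
  ov : ∀ i, i ≤ r → Over (gaussVal ht hπ) (algebraMap O K π) (P i)
  all : ∀ W : ValuationSubring F, Over (gaussVal ht hπ) (algebraMap O K π) W →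
    ∃ i, i ≤ r ∧ W = P i
  inj : ∀ i j, i ≤ r → j ≤ r → P i = P j → i = j
  m0 : ∀ a : K, m 0 (algebraMap K M a) = algebraMap K F a
  comap : ∀ i k, i ≤ r → k ≤ r → (P i).comap (m k) = G
  Ff : ∀ i k, k + 1 + i ≤ r → ∀ f ∈ G, ∃ g ∈ G, m (k + 1) f - (m k g) ^ q ∈ (P i).nonunits
  Ft : ∀ i k, k + 1 + i ≤ r → m (k + 1) (algebraMap K M t) - (m k (algebraMap K M t)) ^ q ∈
    (P i).nonunits
  Vf : ∀ i k, i ≤ r → r ≤ k + i → k < r → ∀ f ∈ G, ∃ g ∈ G,
    m k f - (m (k + 1) g) ^ q ∈ (P i).nonunits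
  Vt : ∀ i k, i ≤ r → r ≤ k + i → k < r →
    m k (algebraMap K M t) - (m (k + 1) (algebraMap K M t)) ^ q ∈ (P i).nonunits
  unif : ∀ i, i ≤ r → Uni (P i) (dlt (algebraMap O F π) r (fun k => m k (algebraMap K M t)) i)
  pw : ∀ i, 1 ≤ i → i < r →
    UC (P i) (dlt (algebraMap O F π) r (fun k => m k (algebraMap K M t)) i ^
        (Nat.totient (q ^ min (r - i) i)) / (q : F))
      (dlt (algebraMap O F π) r (fun k => m k (algebraMap K M t)) i ^
        (Nat.totient (q ^ min (r - i) i)) / (q : F))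
  res0 : ∀ i, 2 * i ≤ r → ∀ z ∈ P i, ∃ f ∈ G, z - m 0 f ∈ (P i).nonunits
  resr : ∀ i, i ≤ r → r ≤ 2 * i → ∀ z ∈ P i, ∃ f ∈ G, z - m r f ∈ (P i).nonunits
  tr : ∀ W : ValuationSubring F, W.comap (m 1) = G → W.comap (m 0) = G

end Fermat.Agent.CR
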