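import Mathlib
import Fermat.Agent.CA.ValZ

/-!
Unique extensions of discrete valuation rings (abstract).
-/

set_option autoImplicit false
set_option linter.unusedSectionVars false
set_option linter.style.haveILetI false
set_option linter.unusedVariables false

open IsLocalRing Polynomial

universe u

namespace Fermat.Agent.CR

open Fermat.Agent.Geo Fermat.Agent.LG Fermat.Agent.CA

section Gen

variable {E : Type u} [Field E]

theorem mem_nu {W : ValuationSubring E} {c : E} (h : c ∈ W.nonunits) : c ∈ W := W.nonunits_le h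

theorem uc_self_of {W : ValuationSubring E} {c : E} (h : c ∈ W) (hn : c ∉ W.nonunits) :
    UC W c c := by
  have h0 : c ≠ 0 := by
    rintro rfl
    exact hn (zero_mem_nonunits _)
  exact UC.refl h0 h (inv_mem_of_notMem_nonunits hn)

/-- A uniformiser from a factorisation property. -/
theorem uni_of_vl {W : ValuationSubring E} {u : E} (hu : u ∈ W.nonunits) (hu0 : u ≠ 0)
    (h : ∀ z : E, z ≠ 0 → ∃ n : ℤ, Vl W u z n) : Uni W u := by
  have hpow : ∀ n : ℕ, u ^ n ∈ W := fun n => pow_mem (mem_nu hu) n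
  refine ⟨hu, hu0, fun x hx => ?_, fun x => ?_⟩
  · by_cases hx0 : x = 0
    · rw [hx0, zero_div]
      exact zero_mem _
    obtain ⟨n, hn⟩ := h x hx0
    have h1 : 1 ≤ n := by
      by_contra hcon
      have h2 : n ≤ 0 := by omega
      obtain ⟨k, hk⟩ : ∃ k : ℕ, n = -(k : ℤ) := ⟨(-n).toNat, by omega⟩
      rw [Vl, hk, zpow_neg, div_inv_eq_mul, zpow_natCast] at hn
      apply hn.notMem
      rw [mul_comm]
      exact mul_mem_nonunits (hpow k) hx
    obtain ⟨k, hk⟩ : ∃ k : ℕ, n = (k : ℤ) + 1 := ⟨(n - 1).toNat, by omega⟩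
    rw [Vl, hk, zpow_add_one₀ hu0, zpow_natCast] at hn
    have e : x / u = x / (u ^ k * u) * u ^ k := by
      have := pow_ne_zero k hu0
      field_simp
    rw [e]
    exact W.mul_mem _ _ hn.mem (hpow k)
  · by_cases hx0 : x = 0
    · exact ⟨0, by rw [hx0, mul_zero]; exact zero_mem _⟩
    obtain ⟨n, hn⟩ := h x hx0
    refine ⟨n.natAbs, ?_⟩
    have e : u ^ n.natAbs * x = x / u ^ n * u ^ ((n.natAbs : ℤ) + n).toNat := by
      have h1 : (u : E) ^ (((n.natAbs : ℤ) + n).toNat) = u ^ ((n.natAbs : ℤ) + n) := by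
        rw [← zpow_natCast]
        congr 1
        omega
      rw [h1, zpow_add₀ hu0, zpow_natCast]
      have := zpow_ne_zero n hu0
      field_simp
    rw [e]
    exact W.mul_mem _ _ hn.mem (hpow _)

/-- Two valuation rings with the same factorisations are equal. -/
theorem le_of_vl {W W' : ValuationSubring E} {u : E} (hu : u ∈ W.nonunits) (hu' : u ∈ W'.nonunits)
    (hu0 : u ≠ 0) (h : ∀ z : E, z ≠ 0 → ∃ n : ℤ, Vl W u z n ∧ Vl W' u z n) : W ≤ W' := by
  intro z hz
  by_cases hz0 : z = 0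
  · rw [hz0]; exact zero_mem _
  obtain ⟨n, hn, hn'⟩ := h z hz0
  have h1 : 0 ≤ n := by
    by_contra hcon
    obtain ⟨k, hk⟩ : ∃ k : ℕ, n = -((k : ℤ) + 1) := ⟨(-n - 1).toNat, by omega⟩
    rw [Vl, hk, zpow_neg, div_inv_eq_mul, zpow_add_one₀ hu0, zpow_natCast] at hn
    apply hn.notMem
    rw [← mul_assoc]
    exact mul_mem_nonunits (W.mul_mem _ _ hz (pow_mem (mem_nu hu) k)) hu
  obtain ⟨k, hk⟩ : ∃ k : ℕ, n = (k : ℤ) := ⟨n.toNat, by omega⟩
  rw [Vl, hk, zpow_natCast] at hn'
  have e : z = z / u ^ k * u ^ k := (div_mul_cancel₀ _ (pow_ne_zero _ hu0)).symm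
  rw [e]
  exact W'.mul_mem _ _ hn'.mem (pow_mem (mem_nu hu') k)

theorem eq_of_vl {W W' : ValuationSubring E} {u : E} (hu : u ∈ W.nonunits)
    (hu' : u ∈ W'.nonunits) (hu0 : u ≠ 0)
    (h : ∀ z : E, z ≠ 0 → ∃ n : ℤ, Vl W u z n ∧ Vl W' u z n) : W = W' :=
  le_antisymm (le_of_vl hu hu' hu0 h) (le_of_vl hu' hu hu0 fun z hz => by
    obtain ⟨n, h1, h2⟩ := h z hz
    exact ⟨n, h2, h1⟩)

/-- Factorisations in a noetherian ring with principal centre. -/
theorem vl_of_principal {A : Subring E} [IsNoetherianRing A]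
    (hfrac : ∀ z : E, ∃ a b : A, b ≠ 0 ∧ z * b = a) {u : A} (hu0 : u ≠ 0)
    (hunit : ¬ IsUnit u) {z : E} (hz : z ≠ 0) :
    ∃ n : ℤ, ∀ W : ValuationSubring E, (∀ a : A, (a : E) ∈ W) →
      (∀ a : A, (a : E) ∈ W.nonunits → u ∣ a) → Vl W (u : E) z n := by
  obtain ⟨a, b, hb, hab⟩ := hfrac z
  have ha : a ≠ 0 := by
    rintro rfl
    rw [ZeroMemClass.coe_zero, mul_eq_zero] at hab
    rcases hab with h | h
    · exact hz h
    · exact hb (Subtype.ext h)
  have hu0' : (u : E) ≠ 0 := fun h => hu0 (Subtype.ext h)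
  obtain ⟨a', ha', ha''⟩ := (FiniteMultiplicity.of_not_isUnit hunit ha).exists_eq_pow_mul_and_not_dvd
  obtain ⟨b', hb', hb''⟩ := (FiniteMultiplicity.of_not_isUnit hunit hb).exists_eq_pow_mul_and_not_dvd
  refine ⟨(multiplicity u a : ℤ) - multiplicity u b, fun W hAW hc => ?_⟩
  have h1 : UC W (a' : E) (a' : E) := uc_self_of (hAW a') fun h => ha'' (hc _ h)
  have h2 : UC W (b' : E) (b' : E) := uc_self_of (hAW b') fun h => hb'' (hc _ h)
  have h3 := h1.div h2
  have hb0 : (b' : E) ≠ 0 := h2.ne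
  have e1 : (a : E) = (u : E) ^ (multiplicity u a) * a' := by
    conv_lhs => rw [ha']
    rw [Subring.coe_mul, Subring.coe_pow]
  have e2 : (b : E) = (u : E) ^ (multiplicity u b) * b' := by
    conv_lhs => rw [hb']
    rw [Subring.coe_mul, Subring.coe_pow]
  have e : z / (u : E) ^ ((multiplicity u a : ℤ) - multiplicity u b) = a' / b' := by
    rw [zpow_sub₀ hu0', zpow_natCast, zpow_natCast]
    rw [e1, e2] at hab
    have p1 := pow_ne_zero (multiplicity u a) hu0'
    have p2 := pow_ne_zero (multiplicity u b) hu0'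
    field_simp
    linear_combination hab
  rw [Vl, e]
  exact h3

end Gen

section Ram

variable {F E : Type u} [Field F] [Field E] [Algebra F E] {V : ValuationSubring F}
  [IsDiscreteValuationRing V]

/-- **Ramified step.** -/
theorem ram_step {ϖ : F} (hϖ : Uni V ϖ) {δ : E} (hgen : Algebra.adjoin F {δ} = ⊤)
    {H : F[X]} (hH : ∀ i, H.coeff i ∈ V) (hHδ : aeval δ H = 0)
    (hH0 : UC V (H.coeff 0 / ϖ) (H.coeff 0 / ϖ)) {W : ValuationSubring E}
    (hVW : ∀ x ∈ V, algebraMap F E x ∈ W) (hδ : δ ∈ W.nonunits) :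
    Uni W δ ∧ (∀ x ∈ W, ∃ v ∈ V, x - algebraMap F E v ∈ W.nonunits) ∧
      ∀ W' : ValuationSubring E, (∀ x ∈ V, algebraMap F E x ∈ W') → δ ∈ W'.nonunits → W' = W := by
  letI : Algebra V E := ((algebraMap F E).comp V.toSubring.subtype).toAlgebra
  have hVE : ∀ v : V, algebraMap V E v = algebraMap F E v := fun v => rfl
  haveI : IsScalarTower V F E := IsScalarTower.of_algebraMap_eq fun a => rfl
  -- `δ ≠ 0`
  have hc0 : H.coeff 0 ≠ 0 := by
    intro h
    rw [h, zero_div] at hH0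
    exact hH0.ne rfl
  have hHdec : aeval δ H = δ * aeval δ H.divX + algebraMap F E (H.coeff 0) := by
    conv_lhs => rw [← H.divX_mul_X_add]
    rw [map_add, map_mul, aeval_X, aeval_C, mul_comm]
  have hδ0 : δ ≠ 0 := by
    rintro rfl
    rw [hHδ, zero_mul, zero_add] at hHdec
    exact hc0 ((map_eq_zero _).mp hHdec.symm)
  let A : Subring E := (Algebra.adjoin V {δ}).toSubring
  haveI : IsNoetherianRing A := by
    haveI : Algebra.FiniteType V (Algebra.adjoin V ({δ} : Set E)) :=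
      (Subalgebra.fg_iff_finiteType _).mp ⟨{δ}, by rw [Finset.coe_singleton]⟩
    exact Algebra.FiniteType.isNoetherianRing V (Algebra.adjoin V ({δ} : Set E))
  have hmemA : ∀ P : V[X], aeval δ P ∈ A := fun P => by
    change aeval δ P ∈ Algebra.adjoin V {δ}
    rw [Algebra.adjoin_singleton_eq_range_aeval]
    exact ⟨P, rfl⟩
  have hAex : ∀ a ∈ A, ∃ P : V[X], aeval δ P = a := fun a ha => by
    change a ∈ Algebra.adjoin V {δ} at ha
    rw [Algebra.adjoin_singleton_eq_range_aeval] at ha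
    exact ha
  have hlift : ∀ P : F[X], (∀ i, P.coeff i ∈ V) → aeval δ P ∈ A := by
    intro P hP
    obtain ⟨Q, hQ⟩ : ∃ Q : V[X], Q.map V.subtype = P := by
      rw [← Polynomial.mem_lifts, Polynomial.lifts_iff_coeff_lifts]
      intro i
      exact ⟨⟨_, hP i⟩, rfl⟩
    have : aeval δ P = aeval δ Q := by
      rw [← hQ, Polynomial.aeval_def, Polynomial.eval₂_map, Polynomial.aeval_def]
      rfl
    rw [this]
    exact hmemA Q
  let u : A := ⟨δ, by simpa using hmemA X⟩
  have hu0 : u ≠ 0 := fun h => hδ0 (congrArg Subtype.val h)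
  have hsub : ∀ W' : ValuationSubring E, (∀ x ∈ V, algebraMap F E x ∈ W') → δ ∈ W'.nonunits →
      ∀ a : A, (a : E) ∈ W' := by
    intro W' h1 h2 a
    obtain ⟨P, hP⟩ := hAex a a.2
    rw [← hP, Polynomial.aeval_eq_sum_range]
    refine sum_mem fun i _ => ?_
    rw [Algebra.smul_def]
    exact W'.mul_mem _ _ (h1 _ (P.coeff i).2) (pow_mem (mem_nu h2) i)
  -- `δ ∣ ϖ`
  have hdv : ∃ c : A, algebraMap F E ϖ = δ * c := by
    have h1 : aeval δ H.divX ∈ A := hlift _ fun i => by
      rw [Polynomial.coeff_divX]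
      exact hH _
    have h2 : (H.coeff 0 / ϖ)⁻¹ ∈ V := hH0.inv
    have h3 : algebraMap F E ((H.coeff 0 / ϖ)⁻¹) ∈ A := by
      have := hmemA (C ⟨_, h2⟩)
      rw [aeval_C] at this
      exact this
    refine ⟨⟨_, A.neg_mem (A.mul_mem h1 h3)⟩, ?_⟩
    have h4 : algebraMap F E (H.coeff 0) = -(δ * aeval δ H.divX) := by
      rw [hHδ] at hHdec
      linear_combination -hHdec
    have hϖ0 : algebraMap F E ϖ ≠ 0 := (_root_.map_ne_zero _).mpr hϖ.ne
    have hc0' : algebraMap F E (H.coeff 0) ≠ 0 := (_root_.map_ne_zero _).mpr hc0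
    have h5 : algebraMap F E ((H.coeff 0 / ϖ)⁻¹) = algebraMap F E ϖ / algebraMap F E (H.coeff 0) := by
      rw [inv_div, map_div₀]
    change algebraMap F E ϖ = δ * -(aeval δ H.divX * algebraMap F E ((H.coeff 0 / ϖ)⁻¹))
    rw [h5]
    field_simp
    linear_combination h4
  have hcen : ∀ W' : ValuationSubring E, (∀ x ∈ V, algebraMap F E x ∈ W') → δ ∈ W'.nonunits →
      ∀ a : A, (a : E) ∈ W'.nonunits → u ∣ a := by
    intro W' h1 h2 a ha
    obtain ⟨P, hP⟩ := hAex a a.2
    have h3 : (a : E) = δ * aeval δ P.divX + algebraMap F E (P.coeff 0) := by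
      rw [← hP]
      conv_lhs => rw [← P.divX_mul_X_add]
      rw [map_add, map_mul, aeval_X, aeval_C, mul_comm]
      rfl
    have h4 : algebraMap F E (P.coeff 0) ∈ W'.nonunits := by
      have e : algebraMap F E (P.coeff 0) = (a : E) - aeval δ P.divX * δ := by
        rw [h3]; ring
      rw [e]
      exact CA.nonunits_sub ha (mul_mem_nonunits (hsub W' h1 h2 ⟨_, hmemA _⟩) h2)
    have h5 : (P.coeff 0 : F) ∈ V.nonunits := by
      by_contra hcon
      have h6 := inv_mem_of_notMem_nonunits hcon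
      have h7 := h1 _ h6
      rw [map_inv₀] at h7
      have h8 : (P.coeff 0 : F) ≠ 0 := fun h => hcon (by rw [h]; exact zero_mem_nonunits _)
      exact notMem_nonunits_of_inv h7 ((_root_.map_ne_zero _).mpr h8) h4
    obtain ⟨c, hc⟩ := hdv
    have h6 := hϖ.dvd _ h5
    refine ⟨⟨_, hmemA P.divX⟩ + c * ⟨algebraMap F E ((P.coeff 0 : F) / ϖ), by
      have := hmemA (C ⟨_, h6⟩)
      rw [aeval_C] at this
      exact this⟩, Subtype.ext ?_⟩
    rw [h3]
    change _ = δ * (aeval δ P.divX + c * algebraMap F E ((P.coeff 0 : F) / ϖ))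
    rw [mul_add, ← mul_assoc, ← hc, ← map_mul, mul_div_cancel₀ _ hϖ.ne]
  have hfrac : ∀ z : E, ∃ a b : A, b ≠ 0 ∧ z * b = a := by
    intro z
    have hz : z ∈ Algebra.adjoin F {δ} := by rw [hgen]; trivial
    rw [Algebra.adjoin_singleton_eq_range_aeval] at hz
    obtain ⟨P, hP⟩ := hz
    have hbd : ∃ n : ℕ, ∀ i ∈ Finset.range (P.natDegree + 1), ϖ ^ n * P.coeff i ∈ V := by
      generalize Finset.range (P.natDegree + 1) = S
      classical
      induction S using Finset.induction_on with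
      | empty => exact ⟨0, fun i hi => absurd hi (Finset.notMem_empty i)⟩
      | insert i S hi ih =>
        obtain ⟨n, hn⟩ := ih
        obtain ⟨m, hm⟩ := hϖ.arch (P.coeff i)
        refine ⟨n + m, fun j hj => ?_⟩
        rcases Finset.mem_insert.mp hj with rfl | hj
        · rw [pow_add, mul_assoc]
          exact V.mul_mem _ _ (pow_mem (mem_nu hϖ.non) n) hm
        · rw [pow_add, mul_comm (ϖ ^ n), mul_assoc]
          exact V.mul_mem _ _ (pow_mem (mem_nu hϖ.non) m) (hn j hj)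
    obtain ⟨n, hn⟩ := hbd
    have h1 : algebraMap F E (ϖ ^ n) * z ∈ A := by
      have h2 : aeval δ (C (ϖ ^ n) * P) ∈ A := hlift _ fun i => by
        rw [coeff_C_mul]
        by_cases hi : i ∈ Finset.range (P.natDegree + 1)
        · exact hn i hi
        · rw [Polynomial.coeff_eq_zero_of_natDegree_lt (by
            rw [Finset.mem_range] at hi; omega), mul_zero]
          exact zero_mem _
      rw [map_mul, aeval_C] at h2
      have h3 : aeval δ P = z := hP
      rwa [h3] at h2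
    have h2 : algebraMap F E (ϖ ^ n) ∈ A := by
      have := hmemA (C ⟨_, pow_mem (mem_nu hϖ.non) n⟩)
      rw [aeval_C] at this
      exact this
    refine ⟨⟨_, h1⟩, ⟨_, h2⟩, fun h => ?_, mul_comm _ _⟩
    have := congrArg Subtype.val h
    exact (_root_.map_ne_zero (algebraMap F E)).mpr (pow_ne_zero n hϖ.ne) this
  have hunit : ¬ IsUnit u := by
    intro h
    obtain ⟨v, hv⟩ := h.exists_right_inv
    have h1 := congrArg Subtype.val hv
    have h2 : δ * (v : E) = 1 := h1
    have h3 : (1 : E) ∈ W.nonunits := by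
      rw [← h2, mul_comm]
      exact mul_mem_nonunits (hsub W hVW hδ v) hδ
    exact notMem_nonunits_of_inv (by rw [inv_one]; exact one_mem _) one_ne_zero h3
  have key : ∀ z : E, z ≠ 0 → ∃ n : ℤ, ∀ W' : ValuationSubring E,
      (∀ x ∈ V, algebraMap F E x ∈ W') → δ ∈ W'.nonunits → Vl W' δ z n := by
    intro z hz
    obtain ⟨n, hn⟩ := vl_of_principal hfrac hu0 hunit hz
    exact ⟨n, fun W' h1 h2 => hn W' (hsub W' h1 h2) (hcen W' h1 h2)⟩
  have hUni : Uni W δ := uni_of_vl hδ hδ0 fun z hz => by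
    obtain ⟨n, hn⟩ := key z hz
    exact ⟨n, hn W hVW hδ⟩
  refine ⟨hUni, fun x hx => ?_, fun W' h1 h2 => ?_⟩
  · -- residues
    by_cases hxn : x ∈ W.nonunits
    · exact ⟨0, zero_mem _, by rwa [map_zero, sub_zero]⟩
    have hx0 : x ≠ 0 := fun h => hxn (by rw [h]; exact zero_mem_nonunits _)
    obtain ⟨a, b, hb, hab⟩ := hfrac x
    have ha : a ≠ 0 := by
      rintro rfl
      rw [ZeroMemClass.coe_zero, mul_eq_zero] at hab
      rcases hab with h | h
      · exact hx0 h
      · exact hb (Subtype.ext h)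
    obtain ⟨a', ha', ha''⟩ :=
      (FiniteMultiplicity.of_not_isUnit hunit ha).exists_eq_pow_mul_and_not_dvd
    obtain ⟨b', hb', hb''⟩ :=
      (FiniteMultiplicity.of_not_isUnit hunit hb).exists_eq_pow_mul_and_not_dvd
    have k1 : UC W (a' : E) (a' : E) :=
      uc_self_of (hsub W hVW hδ a') fun h => ha'' (hcen W hVW hδ _ h)
    have k2 : UC W (b' : E) (b' : E) :=
      uc_self_of (hsub W hVW hδ b') fun h => hb'' (hcen W hVW hδ _ h)
    have e1 : (a : E) = δ ^ (multiplicity u a) * a' := by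
      conv_lhs => rw [ha']
      rw [Subring.coe_mul, Subring.coe_pow]
    have e2 : (b : E) = δ ^ (multiplicity u b) * b' := by
      conv_lhs => rw [hb']
      rw [Subring.coe_mul, Subring.coe_pow]
    have hx1 : Vl W δ x ((multiplicity u a : ℤ) - multiplicity u b) := by
      have e : x / δ ^ ((multiplicity u a : ℤ) - multiplicity u b) = a' / b' := by
        rw [zpow_sub₀ hδ0, zpow_natCast, zpow_natCast]
        rw [e1, e2] at hab
        have p1 := pow_ne_zero (multiplicity u a) hδ0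
        have p2 := pow_ne_zero (multiplicity u b) hδ0
        have p3 := k2.ne
        field_simp
        linear_combination hab
      rw [Vl, e]
      exact k1.div k2
    have hx2 : Vl W δ x 0 := vl_zero_iff.mpr (uc_self_of hx hxn)
    have hm : multiplicity u a = multiplicity u b := by
      have := hx1.unique hx2 hUni
      omega
    have hxab : x = a' / b' := by
      rw [e1, e2, hm] at hab
      have p2 := pow_ne_zero (multiplicity u b) hδ0
      have p3 := k2.ne
      field_simp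
      refine mul_left_cancel₀ p2 ?_
      linear_combination hab
    have hres : ∀ c : A, ∃ v ∈ V, (c : E) - algebraMap F E v ∈ W.nonunits := by
      intro c
      obtain ⟨P, hP⟩ := hAex c c.2
      refine ⟨P.coeff 0, (P.coeff 0).2, ?_⟩
      have e : (c : E) - algebraMap F E (P.coeff 0) = aeval δ P.divX * δ := by
        have h3 : aeval δ P = aeval δ P.divX * δ + algebraMap F E (P.coeff 0) := by
          conv_lhs => rw [← P.divX_mul_X_add]
          rw [map_add, map_mul, aeval_X, aeval_C]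
          rfl
        rw [← hP, h3]
        ring
      rw [e]
      exact mul_mem_nonunits (hsub W hVW hδ ⟨_, hmemA _⟩) hδ
    obtain ⟨va, hva, hva'⟩ := hres a'
    obtain ⟨vb, hvb, hvb'⟩ := hres b'
    have k3 : UC W (a' : E) (algebraMap F E va) := ⟨k1.ne, k1.mem, k1.inv, hva'⟩
    have k4 : UC W (b' : E) (algebraMap F E vb) := ⟨k2.ne, k2.mem, k2.inv, hvb'⟩
    have k5 := k3.div k4
    have hvbn : vb ∉ V.nonunits := by
      intro h
      have h6 := hϖ.dvd _ h
      obtain ⟨c, hc⟩ := hdv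
      have h7 : algebraMap F E vb ∈ W.nonunits := by
        have e : algebraMap F E vb = algebraMap F E (vb / ϖ) * c * δ := by
          rw [mul_assoc, mul_comm (c : E) δ, ← hc, ← map_mul, div_mul_cancel₀ _ hϖ.ne]
        rw [e]
        exact mul_mem_nonunits (W.mul_mem _ _ (hVW _ h6) (hsub W hVW hδ c)) hδ
      exact k4.notMem' h7
    refine ⟨va / vb, ?_, ?_⟩
    · rw [div_eq_mul_inv]
      exact V.mul_mem _ _ hva (inv_mem_of_notMem_nonunits hvbn)
    · rw [map_div₀, hxab]
      exact k5.sub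
  · exact eq_of_vl h2 hδ hδ0 fun z hz => by
      obtain ⟨n, hn⟩ := key z hz
      exact ⟨n, hn W' h1 h2, hn W hVW hδ⟩

end Ram

section Core

variable {A B : Type u} [Field A] [Field B] [Algebra A B] {V : ValuationSubring A}
  {W : ValuationSubring B}

theorem comap_nu (hVW : W.comap (algebraMap A B) = V) (x : A) :
    algebraMap A B x ∈ W.nonunits ↔ x ∈ V.nonunits := by
  subst hVW
  exact (comap_mem_nonunits W (algebraMap A B) x).symm

theorem comap_mem (hVW : W.comap (algebraMap A B) = V) (x : A) :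
    algebraMap A B x ∈ W ↔ x ∈ V := by
  subst hVW
  exact Iff.rfl

theorem comap_uc (hVW : W.comap (algebraMap A B) = V) {x y : A} (h : UC V x y) :
    UC W (algebraMap A B x) (algebraMap A B y) :=
  ⟨(_root_.map_ne_zero _).mpr h.ne, (comap_mem hVW _).mpr h.mem, by
    rw [← map_inv₀]; exact (comap_mem hVW _).mpr h.inv, by
    rw [← map_sub]; exact (comap_nu hVW _).mpr h.sub⟩

theorem zpow_nu {W : ValuationSubring B} {d : B} (hd : d ∈ W.nonunits) (hd0 : d ≠ 0) {k : ℤ}
    (hk : 0 < k) : d ^ k ∈ W.nonunits := by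
  obtain ⟨n, hn⟩ : ∃ n : ℕ, k = (n : ℤ) + 1 := ⟨(k - 1).toNat, by omega⟩
  rw [hn, zpow_add_one₀ hd0, zpow_natCast]
  exact mul_mem_nonunits (pow_mem (mem_nu hd) n) hd

theorem vl_div_nu {W : ValuationSubring B} {d x : B} {k m : ℤ} (h : Vl W d x k)
    (hd : d ∈ W.nonunits) (hd0 : d ≠ 0) (hkm : m < k) : x / d ^ m ∈ W.nonunits := by
  have e : x / d ^ m = (x / d ^ k) * d ^ (k - m) := by
    rw [zpow_sub₀ hd0]
    have h1 := zpow_ne_zero k hd0
    have h2 := zpow_ne_zero m hd0
    field_simp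
  rw [e]
  exact mul_mem_nonunits h.mem (zpow_nu hd hd0 (by omega))

/-- A sum with one dominating term. -/
theorem vl_sum {W : ValuationSubring B} {d : B} (hd : d ∈ W.nonunits) (hd0 : d ≠ 0)
    {ι : Type*} [DecidableEq ι] {S : Finset ι} {t : ι → B} {i₀ : ι} (hi₀ : i₀ ∈ S) {m : ℤ}
    (h₀ : Vl W d (t i₀) m) (h : ∀ i ∈ S, i ≠ i₀ → t i / d ^ m ∈ W.nonunits) :
    Vl W d (∑ i ∈ S, t i) m := by
  have h1 : UC W (t i₀ / d ^ m) ((∑ i ∈ S, t i) / d ^ m) := by
    refine ⟨UC.ne h₀, UC.mem h₀, UC.inv h₀, ?_⟩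
    rw [← Finset.add_sum_erase S t hi₀, add_div, sub_add_cancel_left, Finset.sum_div]
    refine CA.nonunits_neg (sum_mem fun i hi => ?_)
    rw [Finset.mem_erase] at hi
    exact h i hi.2 hi.1
  exact h1.symm.rfl_left

theorem core_eq_of_le {W W' : ValuationSubring B} {d : B} (h : Uni W d) (hle : W ≤ W')
    (hd : d ∈ W'.nonunits) : W' = W := by
  refine le_antisymm (fun z hz => ?_) hle
  by_cases hz0 : z = 0
  · rw [hz0]; exact zero_mem _
  by_contra hzW
  obtain ⟨n, hn⟩ := h.exists_vl hz0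
  have h1 : n < 0 := by
    by_contra hcon
    obtain ⟨k, hk⟩ : ∃ k : ℕ, n = (k : ℤ) := ⟨n.toNat, by omega⟩
    apply hzW
    have e : z = z / d ^ n * d ^ k := by
      rw [hk, zpow_natCast, div_mul_cancel₀ _ (pow_ne_zero _ h.ne)]
    rw [e]
    exact W.mul_mem _ _ hn.mem (pow_mem (mem_nu h.non) k)
  have h2 : (1 : B) ∈ W'.nonunits := by
    have e : (1 : B) = (z / d ^ n)⁻¹ * z * d ^ (-n) := by
      have h3 := zpow_ne_zero n h.ne
      rw [zpow_neg]
      field_simp
    rw [e]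
    exact mul_mem_nonunits (W'.mul_mem _ _ (hle (UC.inv hn)) hz) (zpow_nu hd h.ne (by omega))
  exact notMem_nonunits_of_inv (by rw [inv_one]; exact one_mem _) one_ne_zero h2

/-- The common core of the two cases. -/
theorem core_uni [FiniteDimensional A B] {n : ℕ} {b : Fin n → B}
    (hn : Module.finrank A B ≤ n) {d : B} (hd : d ∈ W.nonunits) (hd0 : d ≠ 0)
    (hP : ∀ c : Fin n → A, c ≠ 0 → ∃ k : ℤ, Vl W d (∑ j, c j • b j) k ∧
      (0 ≤ k → ∀ j, c j ∈ V)) :
    Uni W d ∧ ∀ y ∈ W, ∃ c : Fin n → A, (∀ j, c j ∈ V) ∧ y = ∑ j, c j • b j := by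
  have hli : LinearIndependent A b := by
    rw [Fintype.linearIndependent_iff]
    intro c hc
    by_contra hcon
    push Not at hcon
    obtain ⟨i, hi⟩ := hcon
    obtain ⟨k, hk, -⟩ := hP c fun h => hi (congrFun h i)
    rw [hc] at hk
    exact hk.ne rfl
  have hcard : Fintype.card (Fin n) = Module.finrank A B := by
    refine le_antisymm ?_ (by rwa [Fintype.card_fin])
    exact hli.fintype_card_le_finrank
  have hspan := hli.span_eq_top_of_card_eq_finrank' hcard
  have hrep : ∀ y : B, ∃ c : Fin n → A, ∑ j, c j • b j = y := by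
    intro y
    have : y ∈ Submodule.span A (Set.range b) := by rw [hspan]; trivial
    rwa [Submodule.mem_span_range_iff_exists_fun] at this
  have hU : Uni W d := by
    refine uni_of_vl hd hd0 fun z hz => ?_
    obtain ⟨c, hc⟩ := hrep z
    obtain ⟨k, hk, -⟩ := hP c fun h => hz (by
      rw [← hc, h]
      simp)
    rw [hc] at hk
    exact ⟨k, hk⟩
  refine ⟨hU, fun y hy => ?_⟩
  obtain ⟨c, hc⟩ := hrep y
  by_cases hc0 : c = 0
  · refine ⟨c, fun j => ?_, hc.symm⟩
    rw [hc0]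
    exact zero_mem _
  obtain ⟨k, hk, hk'⟩ := hP c hc0
  refine ⟨c, hk' ?_, hc.symm⟩
  by_contra hcon
  rw [hc] at hk
  have h1 : (1 : B) ∈ W.nonunits := by
    have e : (1 : B) = (y / d ^ k)⁻¹ * y * d ^ (-k) := by
      have h3 := zpow_ne_zero k hd0
      have h4 : y ≠ 0 := hk.ne
      rw [zpow_neg]
      field_simp
    rw [e]
    exact mul_mem_nonunits (W.mul_mem _ _ (UC.inv hk) hy) (zpow_nu hd hd0 (by omega))
  exact notMem_nonunits_of_inv (by rw [inv_one]; exact one_mem _) one_ne_zero h1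

end Core

section Aux

variable {B : Type u} [Field B] {W : ValuationSubring B}

theorem nu_of_pow {x : B} {n : ℕ} (h : x ^ n ∈ W.nonunits) : x ∈ W.nonunits := by
  rw [ValuationSubring.mem_nonunits_iff] at h ⊢
  rw [map_pow] at h
  by_contra hcon
  exact absurd h (not_lt.mpr (one_le_pow_of_one_le' (not_lt.mp hcon) n))

theorem mem_of_pow {x : B} {n : ℕ} (hn : n ≠ 0) (h : x ^ n ∈ W) : x ∈ W := by
  rw [← ValuationSubring.valuation_le_one_iff] at h ⊢
  rw [map_pow] at h
  exact (pow_le_one_iff hn).mp h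

theorem mem_of_vl {d x : B} {k : ℤ} (h : Vl W d x k) (hd : d ∈ W) (hd0 : d ≠ 0) (hk : 0 ≤ k) :
    x ∈ W := by
  obtain ⟨n, hn⟩ : ∃ n : ℕ, k = (n : ℤ) := ⟨k.toNat, by omega⟩
  have e : x = x / d ^ k * d ^ n := by
    rw [hn, zpow_natCast, div_mul_cancel₀ _ (pow_ne_zero _ hd0)]
  rw [e]
  exact W.mul_mem _ _ (UC.mem h) (pow_mem hd n)

theorem frob_sum {q : ℕ} (hq : q.Prime) (hqW : (q : B) ∈ W.nonunits) {ι : Type*} (S : Finset ι)
    {t : ι → B} (ht : ∀ i ∈ S, t i ∈ W) :
    (∑ i ∈ S, t i) ^ q - ∑ i ∈ S, t i ^ q ∈ W.nonunits := by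
  classical
  haveI := Fact.mk hq
  haveI : CharP (ResidueField W) q := by
    rw [CharP.charP_iff_prime_eq_zero hq]
    have h1 : ((q : W) : B) ∈ W.nonunits := by simpa using hqW
    rw [ValuationSubring.coe_mem_nonunits_iff] at h1
    have h2 := (residue_eq_zero_iff (q : W)).mpr h1
    rwa [map_natCast] at h2
  let t' : S → W := fun i => ⟨t i, ht i i.2⟩
  have h1 : ((∑ i, t' i) ^ q - ∑ i, t' i ^ q : W) ∈ maximalIdeal W := by
    rw [← residue_eq_zero_iff, map_sub, map_pow, map_sum, map_sum, sum_pow_char, sub_eq_zero]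
    exact Finset.sum_congr rfl fun i _ => (map_pow _ _ _).symm
  rw [← ValuationSubring.coe_mem_nonunits_iff] at h1
  have e1 : ∑ i ∈ S, t i = ∑ i : S, t i := (Finset.sum_coe_sort S t).symm
  have e2 : ∑ i ∈ S, t i ^ q = ∑ i : S, t i ^ q := (Finset.sum_coe_sort S fun i => t i ^ q).symm
  rw [e1, e2]
  simpa [t'] using h1

theorem frob_sub {q : ℕ} (hq : q.Prime) (hqW : (q : B) ∈ W.nonunits) {x y : B} (hx : x ∈ W)
    (hy : y ∈ W) : (x ^ q - y ^ q ∈ W.nonunits ↔ x - y ∈ W.nonunits) := by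
  haveI := Fact.mk hq
  haveI : CharP (ResidueField W) q := by
    rw [CharP.charP_iff_prime_eq_zero hq]
    have h1 : ((q : W) : B) ∈ W.nonunits := by simpa using hqW
    rw [ValuationSubring.coe_mem_nonunits_iff] at h1
    have h2 := (residue_eq_zero_iff (q : W)).mpr h1
    rwa [map_natCast] at h2
  have e1 : x ^ q - y ^ q = ((⟨x, hx⟩ ^ q - ⟨y, hy⟩ ^ q : W) : B) := rfl
  have e2 : x - y = ((⟨x, hx⟩ - ⟨y, hy⟩ : W) : B) := rfl
  rw [e1, e2, ValuationSubring.coe_mem_nonunits_iff, ValuationSubring.coe_mem_nonunits_iff,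
    ← residue_eq_zero_iff, ← residue_eq_zero_iff, map_sub, map_sub, map_pow, map_pow,
    ← sub_pow_char]
  exact pow_eq_zero_iff hq.ne_zero

end Aux

section CaseE

variable {A B : Type u} [Field A] [Field B] [Algebra A B] {V : ValuationSubring A}
  {W : ValuationSubring B} [FiniteDimensional A B]

/-- **Totally ramified case.** -/
theorem ext_e (hVW : W.comap (algebraMap A B) = V) {δ : A} (hδ : Uni V δ) {q : ℕ} (hq : 0 < q)
    (hn : Module.finrank A B ≤ q) {d : B}
    (hu : UC W (d ^ q / algebraMap A B δ) (d ^ q / algebraMap A B δ)) :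
    Uni W d ∧ (∀ y ∈ W, ∃ c : Fin q → A, (∀ j, c j ∈ V) ∧ y = ∑ j, c j • d ^ (j : ℕ)) ∧
    (∀ y ∈ W, ∃ c ∈ V, y - algebraMap A B c ∈ W.nonunits) ∧
    ∀ W' : ValuationSubring B, W'.comap (algebraMap A B) = V → W' = W := by
  classical
  have hδ0 : algebraMap A B δ ≠ 0 := (_root_.map_ne_zero _).mpr hδ.ne
  have hd0 : d ≠ 0 := by
    rintro rfl
    rw [zero_pow hq.ne', zero_div] at hu
    exact hu.ne rfl
  have hdq : d ^ q = d ^ q / algebraMap A B δ * algebraMap A B δ :=
    (div_mul_cancel₀ _ hδ0).symm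
  have hdn : d ∈ W.nonunits := by
    refine nu_of_pow (n := q) ?_
    rw [hdq]
    exact mul_mem_nonunits hu.mem ((comap_nu hVW δ).mpr hδ.non)
  have hvδ : Vl W d (algebraMap A B δ) q := by
    have h1 := hu.invs
    rw [inv_div] at h1
    rw [Vl, zpow_natCast]
    exact h1
  have hvc : ∀ {c : A} {k : ℤ}, Vl V δ c k → Vl W d (algebraMap A B c) (q * k) := by
    intro c k hc
    have h1 := comap_uc hVW hc
    have h2 := (hvδ.zpow hd0 k).of_uc h1 hd0
    have e : algebraMap A B δ ^ k * algebraMap A B (c / δ ^ k) = algebraMap A B c := by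
      rw [← map_zpow₀, ← map_mul, mul_div_cancel₀ _ (zpow_ne_zero k hδ.ne)]
    rw [e, mul_comm k] at h2
    exact h2
  have key : ∀ c : Fin q → A, c ≠ 0 → ∃ k : ℤ, Vl W d (∑ j, c j • d ^ (j : ℕ)) k ∧
      (0 ≤ k → ∀ j, c j ∈ V) := by
    intro c hc
    have hex : ∀ j : Fin q, ∃ k : ℤ, c j ≠ 0 → Vl V δ (c j) k := by
      intro j
      by_cases h : c j = 0
      · exact ⟨0, fun h' => absurd h h'⟩
      · obtain ⟨k, hk⟩ := hδ.exists_vl h
        exact ⟨k, fun _ => hk⟩
    choose k hk using hex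
    obtain ⟨i₁, hi₁⟩ : ∃ i, c i ≠ 0 := by
      by_contra hcon
      push Not at hcon
      exact hc (funext hcon)
    obtain ⟨i₀, hi₀, hmin⟩ := Finset.exists_min_image (Finset.univ.filter fun i => c i ≠ 0)
      (fun i => (q : ℤ) * k i + (i : ℕ)) ⟨i₁, Finset.mem_filter.mpr ⟨Finset.mem_univ _, hi₁⟩⟩
    have hci₀ : c i₀ ≠ 0 := (Finset.mem_filter.mp hi₀).2
    have hval : ∀ i, c i ≠ 0 → Vl W d (c i • d ^ (i : ℕ)) (q * k i + (i : ℕ)) := by
      intro i hi
      have h1 := (hvc (hk i hi)).mul (vl_self (V := W) hd0 ((i : ℕ) : ℤ)) hd0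
      rw [zpow_natCast] at h1
      rw [Algebra.smul_def]
      exact h1
    refine ⟨q * k i₀ + (i₀ : ℕ), ?_, fun h0 j => ?_⟩
    · refine vl_sum hdn hd0 (Finset.mem_univ i₀) (hval i₀ hci₀) fun i _ hi => ?_
      by_cases hci : c i = 0
      · rw [hci, zero_smul, zero_div]
        exact zero_mem_nonunits _
      refine vl_div_nu (hval i hci) hdn hd0 ?_
      have h1 := hmin i (Finset.mem_filter.mpr ⟨Finset.mem_univ _, hci⟩)
      refine lt_of_le_of_ne h1 fun h2 => hi ?_
      have h3 : ((q : ℤ) * k i₀ + (i₀ : ℕ)) % q = ((q : ℤ) * k i + (i : ℕ)) % q := by rw [h2]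
      rw [Int.mul_add_emod_self_left, Int.mul_add_emod_self_left,
        Int.emod_eq_of_lt (by positivity) (by exact_mod_cast i₀.2),
        Int.emod_eq_of_lt (by positivity) (by exact_mod_cast i.2)] at h3
      exact Fin.ext (by exact_mod_cast h3.symm)
    · by_cases hcj : c j = 0
      · rw [hcj]; exact zero_mem _
      have h1 := hmin j (Finset.mem_filter.mpr ⟨Finset.mem_univ _, hcj⟩)
      have h2 : 0 ≤ k j := by
        by_contra hcon
        have h3 : k j ≤ -1 := by omega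
        have h4 : (q : ℤ) * k j ≤ q * (-1) := mul_le_mul_of_nonneg_left h3 (by positivity)
        have h5 : ((j : ℕ) : ℤ) < q := by exact_mod_cast j.2
        have h6 : 0 ≤ (q : ℤ) * k j + (j : ℕ) := h0.trans h1
        linarith
      exact mem_of_vl (hk j hcj) (mem_nu hδ.non) hδ.ne h2
  obtain ⟨hU, hrep⟩ := core_uni hn hdn hd0 key
  refine ⟨hU, hrep, fun y hy => ?_, fun W' hW' => ?_⟩
  · obtain ⟨c, hc, rfl⟩ := hrep y hy
    refine ⟨c ⟨0, hq⟩, hc _, ?_⟩
    rw [← Finset.add_sum_erase _ _ (Finset.mem_univ (⟨0, hq⟩ : Fin q))]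
    rw [pow_zero, Algebra.smul_def (c ⟨0, hq⟩), mul_one, add_sub_cancel_left]
    refine sum_mem fun i hi => ?_
    have hi0 : (i : ℕ) ≠ 0 := fun h => (Finset.ne_of_mem_erase hi) (Fin.ext h)
    obtain ⟨m, hm⟩ : ∃ m, (i : ℕ) = m + 1 := ⟨(i : ℕ) - 1, by omega⟩
    rw [Algebra.smul_def, hm, pow_succ, ← mul_assoc]
    exact mul_mem_nonunits (W.mul_mem _ _ ((comap_mem hVW _).mpr (hc i))
      (pow_mem (mem_nu hdn) m)) hdn
  · -- uniqueness
    obtain ⟨c, hc, hc'⟩ := hrep _ hu.mem
    have hint : d ∈ W' := by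
      -- `d` is integral over `V`
      by_contra hd
      have hdi : d⁻¹ ∈ W'.nonunits := by
        rw [ValuationSubring.mem_nonunits_iff]
        rw [← ValuationSubring.valuation_le_one_iff, not_le] at hd
        rw [map_inv₀]
        exact inv_lt_one_of_one_lt₀ hd
      have h1 : (1 : B) ∈ W'.nonunits := by
        have e : (1 : B) = ∑ j : Fin q, algebraMap A B (c j) * (d⁻¹) ^ (q - 1 - (j : ℕ)) *
            (algebraMap A B δ * d⁻¹) := by
          have h2 : (d⁻¹) ^ q * (d ^ q / algebraMap A B δ) * algebraMap A B δ = 1 := by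
            rw [mul_assoc, div_mul_cancel₀ _ hδ0, ← mul_pow, inv_mul_cancel₀ hd0, one_pow]
          rw [hc', Finset.mul_sum, Finset.sum_mul] at h2
          rw [← h2]
          refine Finset.sum_congr rfl fun j _ => ?_
          rw [Algebra.smul_def]
          have h3 : (d⁻¹) ^ q * d ^ (j : ℕ) = (d⁻¹) ^ (q - 1 - (j : ℕ)) * d⁻¹ := by
            have h4 : (d⁻¹) ^ q = (d⁻¹) ^ (q - 1 - (j : ℕ)) * d⁻¹ * (d⁻¹) ^ (j : ℕ) := by
              rw [← pow_succ, ← pow_add]
              congr 1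
              have := j.2
              omega
            rw [h4, mul_assoc, ← mul_pow, inv_mul_cancel₀ hd0, one_pow, mul_one]
          linear_combination (algebraMap A B (c j) * algebraMap A B δ) * h3
        rw [e]
        refine sum_mem fun j _ => ?_
        refine mul_mem_nonunits (W'.mul_mem _ _ ((comap_mem hW' _).mpr (hc j))
          (pow_mem (mem_nu hdi) _)) ?_
        exact mul_mem_nonunits ((comap_mem hW' _).mpr (mem_nu hδ.non)) hdi
      exact notMem_nonunits_of_inv (by rw [inv_one]; exact one_mem _) one_ne_zero h1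
    have hle : W ≤ W' := by
      intro y hy
      obtain ⟨c', hc1, rfl⟩ := hrep y hy
      refine sum_mem fun j _ => ?_
      rw [Algebra.smul_def]
      exact W'.mul_mem _ _ ((comap_mem hW' _).mpr (hc1 j)) (pow_mem hint _)
    refine core_eq_of_le hU hle ?_
    refine nu_of_pow (n := q) ?_
    rw [hdq]
    exact mul_mem_nonunits (hle hu.mem) ((comap_nu hW' δ).mpr hδ.non)

end CaseE

end Fermat.Agent.CR
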