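import Mathlib
import Fermat.Agent.CR.Lev
import Fermat.Agent.CR.Ext

/-!
Transcendence: a valuation ring which restricts to the Gauss valuation along `m 1` restricts to it
along `m 0` (modular equation and Kronecker congruence).
-/

set_option autoImplicit false
set_option linter.unusedSectionVars false
set_option linter.style.haveILetI false
set_option linter.unusedVariables false

open IsLocalRing Polynomial

universe u

namespace Fermat.Agent.CR

open Fermat.Agent.Geo Fermat.Agent.LG Fermat.Agent.CA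

section Gen

variable {F : Type u} [Field F] {W : ValuationSubring F}

theorem nu_or_of_mul {a b : F} (ha : a ∈ W) (hb : b ∈ W) (h : a * b ∈ W.nonunits) :
    a ∈ W.nonunits ∨ b ∈ W.nonunits := by
  by_cases h1 : a ∈ W.nonunits
  · exact Or.inl h1
  · right
    have h2 := inv_mem_of_notMem_nonunits h1
    have ha0 : a ≠ 0 := by
      rintro rfl
      exact h1 (zero_mem_nonunits _)
    have h3 := mul_mem_nonunits h2 h
    rwa [inv_mul_cancel_left₀ ha0] at h3

theorem mrel_mem_val {q : ℕ} {c : ℕ → ℤ[X]} (hc : KShape q c) {x x' : F} (hrel : MRel q c x x')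
    (hM : x' ∈ W) : x ∈ W := by
  by_contra hx
  have hxi : x⁻¹ ∈ W.nonunits := by
    rw [ValuationSubring.mem_nonunits_iff_or]
    right
    rwa [inv_inv]
  have hx0 : x ≠ 0 := by
    rintro rfl
    exact hx (zero_mem _)
  have hxiW : x⁻¹ ∈ W := mem_nu hxi
  have h1 : ∑ i ∈ Finset.range (q + 2), aeval x' (c i) * x ^ i = 0 := hrel
  rw [Finset.sum_range_succ, hc.top, map_one, one_mul] at h1
  have h2 : (1 : F) = -∑ i ∈ Finset.range (q + 1), aeval x' (c i) * x⁻¹ ^ (q + 1 - i) := by
    have h3 : ∑ i ∈ Finset.range (q + 1), aeval x' (c i) * x⁻¹ ^ (q + 1 - i) =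
        x⁻¹ ^ (q + 1) * ∑ i ∈ Finset.range (q + 1), aeval x' (c i) * x ^ i := by
      rw [Finset.mul_sum]
      refine Finset.sum_congr rfl fun i hi => ?_
      have hi' := Finset.mem_range.mp hi
      have h4 : x⁻¹ ^ (q + 1) = x⁻¹ ^ (q + 1 - i) * x⁻¹ ^ i := by
        rw [← pow_add]; congr 1; omega
      have h5 : x⁻¹ ^ i * x ^ i = 1 := by rw [← mul_pow, inv_mul_cancel₀ hx0, one_pow]
      rw [h4]
      linear_combination (-(aeval x' (c i)) * x⁻¹ ^ (q + 1 - i)) * h5
    have h6 : x⁻¹ ^ (q + 1) * x ^ (q + 1) = 1 := by rw [← mul_pow, inv_mul_cancel₀ hx0, one_pow]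
    rw [h3]
    linear_combination x⁻¹ ^ (q + 1) * h1 - h6
  have h3 : (1 : F) ∈ W.nonunits := by
    rw [h2]
    apply nonunits_neg
    have : ∀ S : Finset ℕ, (∀ i ∈ S, i < q + 1) →
        ∑ i ∈ S, aeval x' (c i) * x⁻¹ ^ (q + 1 - i) ∈ W.nonunits := by
      intro S
      induction S using Finset.induction_on with
      | empty => intro _; rw [Finset.sum_empty]; exact zero_mem_nonunits _
      | insert i S hi ih =>
        intro hS
        rw [Finset.sum_insert hi]
        refine nonunits_add ?_ (ih fun j hj => hS j (Finset.mem_insert_of_mem hj))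
        refine mul_mem_nonunits ?_ ?_
        · rw [aeval_eq_sum_range]
          refine sum_mem fun j _ => ?_
          rw [zsmul_eq_mul]
          exact mul_mem (intCast_mem _ _) (pow_mem hM _)
        · obtain ⟨k, hk⟩ : ∃ k, q + 1 - i = k + 1 := ⟨q - i, by
            have := hS i (Finset.mem_insert_self _ _); omega⟩
          rw [hk, pow_succ]
          exact mul_mem_nonunits (pow_mem hxiW k) hxi
    exact this _ fun i hi => Finset.mem_range.mp hi
  rw [ValuationSubring.mem_nonunits_iff] at h3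
  simp at h3

variable {O : Type u} [CommRing O]

theorem eval₂_mem_val {j : O →+* F} (hj : ∀ a, j a ∈ W) {x : F} (hx : x ∈ W) (s : O[X]) :
    s.eval₂ j x ∈ W := by
  rw [eval₂_eq_sum_range]
  exact sum_mem fun i _ => mul_mem (hj _) (pow_mem hx _)

theorem nu_sum {ι : Type*} {S : Finset ι} {f : ι → F} (h : ∀ i ∈ S, f i ∈ W.nonunits) :
    ∑ i ∈ S, f i ∈ W.nonunits := by
  classical
  induction S using Finset.induction_on with
  | empty => rw [Finset.sum_empty]; exact zero_mem_nonunits _
  | insert i S hi ih =>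
    rw [Finset.sum_insert hi]
    exact nonunits_add (h i (Finset.mem_insert_self _ _))
      (ih fun j hj => h j (Finset.mem_insert_of_mem hj))

theorem eval₂_sub_nu {j : O →+* F} (hj : ∀ a, j a ∈ W) {x y : F} (hx : x ∈ W) (hy : y ∈ W)
    (hxy : x - y ∈ W.nonunits) (s : O[X]) : s.eval₂ j x - s.eval₂ j y ∈ W.nonunits := by
  rw [eval₂_eq_sum_range, eval₂_eq_sum_range, ← Finset.sum_sub_distrib]
  refine nu_sum fun i _ => ?_
  rw [← mul_sub]
  exact mul_mem_nonunits (hj _) (nonunits_pow_sub i hx hy hxy)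

end Gen

/-- **Transcendence.** -/
theorem tr_of_rel {O K M F : Type u} [CommRing O] [IsDomain O] [IsDiscreteValuationRing O]
    [Field K] [Field M] [Field F] [Algebra O K] [Algebra K M]
    {t : K} {π : O} {ht : IsParam O t} {hπ : Prime π} {q : ℕ} (hq : q.Prime) (hqπ : (q : O) = π)
    {c : ℕ → ℤ[X]} (hc : KShape q c) {G : ValuationSubring M}
    (hG : Over (gaussVal ht hπ) (algebraMap O K π) G)
    (hun : ∀ W : ValuationSubring M, Over (gaussVal ht hπ) (algebraMap O K π) W → W = G)
    {m0 m1 : M →+* F} (hO : ∀ a : O, m0 (algebraMap K M (algebraMap O K a)) =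
      m1 (algebraMap K M (algebraMap O K a)))
    (hrel : MRel q c (m0 (algebraMap K M t)) (m1 (algebraMap K M t)))
    {W : ValuationSubring F} (h : W.comap m1 = G) : W.comap m0 = G := by
  set x0 := m0 (algebraMap K M t) with hx0
  set x1 := m1 (algebraMap K M t) with hx1
  set j : O →+* F := (m0.comp (algebraMap K M)).comp (algebraMap O K) with hj
  have hj1 : j = (m1.comp (algebraMap K M)).comp (algebraMap O K) := RingHom.ext hO
  have hmem : ∀ {f : M}, f ∈ G → m1 f ∈ W := fun hf => by
    rw [← h] at hf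
    exact hf
  have hnon : ∀ {f : M}, m1 f ∈ W.nonunits ↔ f ∈ G.nonunits := fun {f} => by
    rw [← comap_mem_nonunits, h]
  have e0 : ∀ s : O[X], m0 (algebraMap K M (aeval t s)) = s.eval₂ j x0 := by
    intro s
    rw [aeval_def, hom_eval₂, hom_eval₂]
    rfl
  have e1 : ∀ s : O[X], m1 (algebraMap K M (aeval t s)) = s.eval₂ j x1 := by
    intro s
    rw [aeval_def, hom_eval₂, hom_eval₂, hj1]
    rfl
  have hjW : ∀ a : O, j a ∈ W := by
    intro a
    rw [hj1]
    apply hmem
    apply hG.1
    have := aeval_mem_gauss ht hπ (C a)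
    rwa [aeval_C] at this
  have x1W : x1 ∈ W := hmem (hG.1 _ (self_mem_gaussVal ht hπ))
  have x0W : x0 ∈ W := mrel_mem_val hc hrel x1W
  have hqW : (q : F) ∈ W.nonunits := by
    have h1 : (q : F) = m1 (algebraMap K M (algebraMap O K π)) := by
      rw [← hqπ, map_natCast, map_natCast, map_natCast]
    rw [h1, hnon]
    exact hG.2
  have hs1 : ∀ s : O[X], ¬ C π ∣ s → s.eval₂ j x1 ∉ W.nonunits := by
    intro s hs
    rw [← e1, hnon]
    have h0 : aeval t s ≠ 0 := by
      intro h
      have : s = 0 := ht.inj (by rw [h, map_zero])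
      exact hs (this ▸ dvd_zero _)
    apply notMem_nonunits_of_inv
    · rw [← map_inv₀]
      exact hG.1 _ (aeval_inv_mem_gauss ht hπ hs)
    · rwa [Ne, map_eq_zero]
  -- Kronecker
  obtain ⟨e, he⟩ := exists_err hc
  have hkr : (x0 ^ q - x1) * (x0 - x1 ^ q) ∈ W.nonunits := by
    have h1 : Phi q c x0 x1 = 0 := hrel
    rw [he] at h1
    have h2 : (x0 ^ q - x1) * (x0 - x1 ^ q) = -(Err q e x0 x1 * (q : F)) := by
      linear_combination h1
    rw [h2]
    apply nonunits_neg
    refine mul_mem_nonunits ?_ hqW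
    rw [Err]
    refine sum_mem fun i _ => mul_mem ?_ (pow_mem x0W _)
    rw [aeval_eq_sum_range]
    refine sum_mem fun k _ => ?_
    rw [zsmul_eq_mul]
    exact mul_mem (intCast_mem _ _) (pow_mem x1W _)
  have hs0 : ∀ s : O[X], ¬ C π ∣ s → s.eval₂ j x0 ∉ W.nonunits := by
    intro s hs hn
    rcases nu_or_of_mul (sub_mem (pow_mem x0W q) x1W) (sub_mem x0W (pow_mem x1W q)) hkr with h1 | h1
    · -- `x0 ^ q ≡ x1`
      set s' : O[X] := ∑ i ∈ Finset.range (s.natDegree + 1), C (s.coeff i ^ q) * X ^ i with hs'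
      have hcf : ∀ i, s'.coeff i = s.coeff i ^ q := by
        intro i
        rw [hs', finsetSum_coeff]
        simp only [coeff_C_mul, coeff_X_pow, mul_ite, mul_one, mul_zero]
        rw [Finset.sum_ite_eq]
        split_ifs with hi
        · rfl
        · rw [coeff_eq_zero_of_natDegree_lt (by simpa using hi), zero_pow hq.ne_zero]
      have hsn : ¬ C π ∣ s' := by
        intro hd
        apply hs
        rw [C_dvd_iff_dvd_coeff] at hd ⊢
        intro i
        have := hd i
        rw [hcf] at this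
        exact hπ.dvd_of_dvd_pow this
      apply hs1 s' hsn
      have h2 := eval₂_sub_nu hjW (pow_mem x0W q) x1W h1 s'
      have h3 := frob_sum hq hqW (Finset.range (s.natDegree + 1))
        (t := fun i => j (s.coeff i) * x0 ^ i) (fun i _ => mul_mem (hjW _) (pow_mem x0W _))
      have h4 : s'.eval₂ j (x0 ^ q) = ∑ i ∈ Finset.range (s.natDegree + 1),
          (j (s.coeff i) * x0 ^ i) ^ q := by
        rw [hs', eval₂_finsetSum]
        refine Finset.sum_congr rfl fun i _ => ?_
        rw [eval₂_mul, eval₂_C, eval₂_X_pow, map_pow, mul_pow, ← pow_mul, ← pow_mul, mul_comm q i]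
      rw [← h4, ← eval₂_eq_sum_range] at h3
      have h5 : s.eval₂ j x0 ^ q ∈ W.nonunits := by
        obtain ⟨k, hk⟩ : ∃ k, q = k + 1 := ⟨q - 1, by have := hq.two_le; omega⟩
        rw [hk, pow_succ]
        exact mul_mem_nonunits (pow_mem (eval₂_mem_val hjW x0W s) k) hn
      have h6 := nonunits_sub h5 (nonunits_add h3 h2)
      have e2 : s.eval₂ j x0 ^ q - (s.eval₂ j x0 ^ q - s'.eval₂ j (x0 ^ q) +
          (s'.eval₂ j (x0 ^ q) - s'.eval₂ j x1)) = s'.eval₂ j x1 := by ring
      rwa [e2] at h6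
    · -- `x0 ≡ x1 ^ q`
      have hsn : ¬ C π ∣ expand O q s := by
        intro hd
        apply hs
        rw [C_dvd_iff_dvd_coeff] at hd ⊢
        intro i
        have := hd (i * q)
        rwa [coeff_expand_mul hq.pos] at this
      apply hs1 _ hsn
      have h2 := eval₂_sub_nu hjW x0W (pow_mem x1W q) h1 s
      have h3 : (expand O q s).eval₂ j x1 = s.eval₂ j (x1 ^ q) := by
        rw [expand_eq_comp_X_pow, eval₂_comp, eval₂_X_pow]
      rw [h3]
      have h6 := nonunits_sub hn h2
      rwa [sub_sub_cancel] at h6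
  apply hun
  refine ⟨fun a ha => ?_, ?_⟩
  · obtain ⟨s, b, hs, hab⟩ := (mem_placeVal_iff ht _).mp ha
    rw [ValuationSubring.mem_comap]
    have h1 := congrArg (fun z => m0 (algebraMap K M z)) hab
    simp only [map_mul, e0] at h1
    have h2 := hs0 s hs
    have h0 : s.eval₂ j x0 ≠ 0 := by
      intro h0
      rw [h0] at h2
      exact h2 (zero_mem_nonunits _)
    have h3 : m0 (algebraMap K M a) = (s.eval₂ j x0)⁻¹ * b.eval₂ j x0 := by
      rw [← h1, inv_mul_cancel_left₀ h0]
    rw [h3]
    exact mul_mem (inv_mem_of_notMem_nonunits h2) (eval₂_mem_val hjW x0W b)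
  · rw [comap_mem_nonunits, hO, hnon]
    exact hG.2

end Fermat.Agent.CR
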