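import Mathlib
import Fermat.Agent.CR.Base
import Fermat.Agent.CR.Lev
import Fermat.Agent.CR.TrL

/-!
The base case `r = 2` of the description of the components of `X₀(q ^ r M)`.
-/

set_option autoImplicit false
set_option linter.unusedSectionVars false
set_option linter.unusedVariables false

open IsLocalRing Polynomial ModularCurve

noncomputable section

universe u

namespace Fermat.Agent.CR

open Fermat.Agent.Geo Fermat.Agent.LG Fermat.Agent.CA Fermat.Agent.ModFun

section AbsBase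

variable {O K M F : Type u} [CommRing O] [IsDomain O] [IsDiscreteValuationRing O] [CharZero O]
  [Field K] [Field M] [Field F] [Algebra O K] [Algebra O M] [Algebra O F] [Algebra K M]
  [Algebra K F] [Algebra M F] [IsScalarTower O K M] [IsScalarTower O K F] [IsScalarTower K M F]
  [IsScalarTower O M F]
  {t : K} {π : O} [FiniteDimensional K M] [Algebra.IsSeparable K M]
  [FiniteDimensional K F] [Algebra.IsSeparable K F]
  {ht : IsParam O t} {hπ : Prime π} {q : ℕ} {c : ℕ → ℤ[X]} {C₀ : ℤ}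
  {P : Fin 3 → ValuationSubring F} {w : F ≃+* F} {X₁ : F}

/-- the three components, as a function on `ℕ` -/
def PN (P : Fin 3 → ValuationSubring F) (i : ℕ) : ValuationSubring F :=
  P (Fin.ofNat 3 i)

theorem PN_eq (P : Fin 3 → ValuationSubring F) {i : ℕ} (hi : i < 3) : PN P i = P ⟨i, hi⟩ := by
  rw [PN]
  congr 1
  apply Fin.ext
  exact Nat.mod_eq_of_lt hi

/-- **The base case.** -/
theorem lev_two (T : Tri (M := M) ht hπ q c C₀ P w X₁) {m : ℕ → M →+* F}
    (hm0 : m 0 = algebraMap M F) (hm2 : ∀ f, m 2 f = w (algebraMap M F f))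
    (hm1 : m 1 (algebraMap K M t) = X₁)
    (hcomap : ∀ (j : Fin 3) (k : ℕ), k ≤ 2 → ∀ f, m k f ∈ P j ↔ algebraMap M F f ∈ P 0)
    {φ : M → M} (hφ : ∀ f, algebraMap M F f ∈ P 0 → algebraMap M F (φ f) ∈ P 0)
    (hφt : φ (algebraMap K M t) = algebraMap K M t)
    (hF : ∀ (j : Fin 3) (k : ℕ), k + 1 + j ≤ 2 → ∀ f, algebraMap M F f ∈ P 0 →
      m (k + 1) f - (m k (φ f)) ^ q ∈ (P j).nonunits)
    (hV : ∀ (j : Fin 3) (k : ℕ), 2 ≤ k + j → k < 2 → ∀ f, algebraMap M F f ∈ P 0 →
      m k f - (m (k + 1) (φ f)) ^ q ∈ (P j).nonunits)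
    (hO1 : ∀ a : O, m 0 (algebraMap K M (algebraMap O K a)) =
      m 1 (algebraMap K M (algebraMap O K a))) :
    Lev ht hπ q ((P 0).comap (algebraMap M F)) 2 m (PN P) where
  ov i hi := by
    rw [PN_eq P (by omega)]
    exact T.sys.ov _
  all W hW := by
    obtain ⟨j, rfl⟩ := T.sys.all W hW
    exact ⟨j, by have := j.2; omega, (PN_eq P j.2).symm⟩
  inj i j hi hj h := by
    rw [PN_eq P (by omega : i < 3), PN_eq P (by omega : j < 3)] at h
    exact congrArg Fin.val (T.inj h)
  m0 a := by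
    rw [hm0, ← IsScalarTower.algebraMap_apply]
  comap i k hi hk := by
    rw [PN_eq P (by omega : i < 3)]
    ext f
    exact hcomap _ k hk f
  Ff i k hik f hf := by
    rw [PN_eq P (by omega : i < 3)]
    exact ⟨φ f, hφ f hf, hF _ k hik f hf⟩
  Ft i k hik := by
    rw [PN_eq P (by omega : i < 3)]
    have h := hF ⟨i, by omega⟩ k hik (algebraMap K M t) (by
      rw [← IsScalarTower.algebraMap_apply]
      exact T.t_mem 0)
    rwa [hφt] at h
  Vf i k hi hik hk f hf := by
    rw [PN_eq P (by omega : i < 3)]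
    exact ⟨φ f, hφ f hf, hV _ k hik hk f hf⟩
  Vt i k hi hik hk := by
    rw [PN_eq P (by omega : i < 3)]
    have h := hV ⟨i, by omega⟩ k hik hk (algebraMap K M t) (by
      rw [← IsScalarTower.algebraMap_apply]
      exact T.t_mem 0)
    rwa [hφt] at h
  unif i hi := by
    rw [PN_eq P (by omega : i < 3)]
    interval_cases i
    · exact T.uni0
    · have : dlt (algebraMap O F π) 2 (fun k => m k (algebraMap K M t)) 1 =
          w (algebraMap K F t) - algebraMap K F t := by
        rw [dlt, if_neg (by norm_num)]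
        change m 2 _ - m 0 _ = _
        rw [hm0, hm2, ← IsScalarTower.algebraMap_apply]
      rw [this]
      exact T.uni1
    · exact T.uni2
  pw i hi1 hi2 := by
    have h1 : i = 1 := by omega
    subst h1
    rw [PN_eq P (by omega : 1 < 3)]
    have h0 : dlt (algebraMap O F π) 2 (fun k => m k (algebraMap K M t)) 1 =
        w (algebraMap K F t) - algebraMap K F t := by
      rw [dlt, if_neg (by norm_num)]
      change m 2 _ - m 0 _ = _
      rw [hm0, hm2, ← IsScalarTower.algebraMap_apply]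
    have h2 : Nat.totient (q ^ min (2 - 1) 1) = q - 1 := by
      rw [show min (2 - 1) 1 = 1 by norm_num, pow_one, Nat.totient_prime T.prime]
    rw [h0, h2, T.q_cast]
    have h3 := T.delq
    have h4 := T.delq'
    have h5 : ((w (algebraMap K F t) - algebraMap K F t) ^ (q - 1) / algebraMap O F π)⁻¹ ∈
        P 1 := by rw [inv_div]; exact h4
    exact UC.refl (by rw [Ne, div_eq_zero_iff, not_or]; exact ⟨pow_ne_zero _ T.uni1.ne, T.π_ne⟩) h3 h5
  res0 i hi z hz := by
    rw [PN_eq P (by omega : i < 3)] at hz ⊢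
    rw [hm0]
    have h1 : i = 0 ∨ i = 1 := by omega
    rcases h1 with rfl | rfl
    · exact T.res0 z hz
    · exact T.res1 z hz
  resr i hi2 hi z hz := by
    rw [PN_eq P (by omega : i < 3)] at hz ⊢
    have h1 : i = 1 ∨ i = 2 := by omega
    rcases h1 with rfl | rfl
    · obtain ⟨f, hf, hf2⟩ := T.res1 (w z) ((T.wP1 z).mpr hz)
      refine ⟨f, hf, ?_⟩
      rw [hm2]
      have := (T.w1_nonunits _).mpr hf2
      rw [map_sub, T.ww] at this
      exact this
    · obtain ⟨f, hf, hf2⟩ := T.res0 (w z) ((T.wP0 z).mpr hz)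
      refine ⟨f, hf, ?_⟩
      rw [hm2]
      have := (T.w2_nonunits _).mpr hf2
      rw [map_sub, T.ww] at this
      exact this
  tr W h := by
    refine tr_of_rel T.prime T.hq T.shape T.gm.ov T.gm.uniq hO1 ?_ h
    rw [hm0, hm1, ← IsScalarTower.algebraMap_apply]
    exact T.rel'

end AbsBase

section Conc

variable {O L O' L' : Type u} [CommRing O] [IsDomain O] [IsDiscreteValuationRing O] [CharZero O]
    [Field L] [Algebra O L] [IsFractionRing O L] [CommRing O'] [IsDomain O']
    [IsDiscreteValuationRing O'] [Field L'] [Algebra O' L'] [IsFractionRing O' L']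
    {q M N p : ℕ} [NeZero q] [NeZero M] [NeZero N] [Fact p.Prime] {κ : ℤ}
    {i : L →+* L'} {i' : O →+* O'} {ζ : O'ˣ} {ι : L →+* ℂ} {ι' : L' →+* ℂ} {π : O}
    [Algebra O (Kt L p κ)] [Algebra O (F0 L M)] [Algebra O (F0 L N)]
    [Algebra (Kt L p κ) (F0 L M)] [Algebra (Kt L p κ) (F0 L N)] [Algebra (F0 L M) (F0 L N)]
    [IsScalarTower O (Kt L p κ) (F0 L M)] [IsScalarTower O (Kt L p κ) (F0 L N)]
    [IsScalarTower O (F0 L M) (F0 L N)] [IsScalarTower (Kt L p κ) (F0 L M) (F0 L N)]
    [ExpChar (ResidueField O) q]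
    [FiniteDimensional (Kt L p κ) (F0 L M)] [Algebra.IsSeparable (Kt L p κ) (F0 L M)]
    [FiniteDimensional (Kt L p κ) (F0 L N)] [Algebra.IsSeparable (Kt L p κ) (F0 L N)]

/-- **The base case**, concretely. -/
theorem lev_base {B : Bez (q ^ 2) M} {hq : q.Prime} {hN : N = q ^ 2 * M}
    {θ₁ : F0 L N →+* LaurentSeries L'}
    (D : L2 (O := O) (L := L) (O' := O') (L' := L') (K := Kt L p κ) (F := F0 L N) (F0 L M) q
      (tK L p κ) (tS O p κ) (algebraMap (F0 L N) (LaurentSeries L)) θ₁ i i' ζ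
      (B.wF2 ι hq hN))
    (C : Cpt O (Kt L p κ) (F0 L M) (F0 L N)) (hθ : IsTh i q M N (CA.zL L' ζ) θ₁)
    {ht : IsParam O (tK L p κ)} {hπ : Prime π} {c : ℕ → ℤ[X]} {C₀ : ℤ} {X₁ : F0 L N}
    (hX : (X₁ : LaurentSeries L) = qExpand L q (tS L p κ))
    (T : Tri (M := F0 L M) ht hπ q c C₀ D.PP (B.wF2 ι hq hN) X₁)
    (d : O ≃+* O) (hd : ∀ a, dbar d a = a ^ q) :
    Lev ht hπ q (D.P0.comap (algebraMap (F0 L M) (F0 L N))) 2 (ev L hN) (PN D.PP) := by
  have hw1 : ∀ x, B.wF2 ι hq hN x ∈ D.P1 ↔ x ∈ D.P1 := fun x => T.wP1 x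
  have hKM : ((algebraMap (Kt L p κ) (F0 L M) (tK L p κ) : F0 L M) : LaurentSeries L) =
      tS L p κ := C.KM (tK L p κ)
  refine lev_two T (φ := fun f => actF (dL L d.symm) M f) (ev_zero C hN) ?_ ?_ ?_ ?_ ?_ ?_ ?_ ?_
  · intro f
    rw [← ev_zero C hN, wF2_ev D (by omega)]
  · apply Subtype.ext
    rw [ev_coe hN one_le_two, hX, hKM]
    have key : ∀ a b : ℕ, a = b → ∀ [NeZero a] [NeZero b] (x : LaurentSeries L),
        qExpand L a x = qExpand L b x := by
      intro a b hab
      subst hab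
      intro _ _ x
      rfl
    exact key _ _ (pow_one q) _
  · intro j k hk f
    exact base_comap D C hθ hw1 j hk f
  · intro f hf
    exact fr_mem D C d hf
  · apply Subtype.ext
    rw [coe_actF, hKM, coeffMap_tS']
  · intro j k hk f hf
    exact base_F D C hθ d hd j hk hf
  · intro j k hk hk2 f hf
    exact base_V D C hθ hw1 d hd j hk hk2 hf
  · intro a
    apply Subtype.ext
    rw [ev_zero_coe hN, ev_coe hN one_le_two]
    have h1 : ((algebraMap (Kt L p κ) (F0 L M) (algebraMap O (Kt L p κ) a) : F0 L M) :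
        LaurentSeries L) = HahnSeries.C (algebraMap O L a) := by
      rw [C.KM]
      exact C.OK a
    rw [h1]
    change _ = qExpand L (q ^ 1) (HahnSeries.single 0 (algebraMap O L a))
    rw [qExpand_single, mul_zero]
    rfl

end Conc

end Fermat.Agent.CR
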