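import Mathlib
import Fermat.Agent.CA.Cusp2

/-!
Cusps of curves with `r + 1` components: exactly one component passes through a cusp and it has a
local equation there.
-/

set_option autoImplicit false
set_option linter.unusedSectionVars false
set_option linter.style.haveILetI false
set_option linter.unusedVariables false

open IsLocalRing Polynomial

universe u

namespace Fermat.Agent.CR

open Fermat.Agent.Geo Fermat.Agent.LG Fermat.Agent.CA

variable {q : ℕ} {c : ℕ → ℤ[X]}

section Kap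

variable {O F : Type u} [CommRing O] [Field F] [Algebra O F] {u : F}
  {y : Ideal (chart O u)} [hy : y.IsPrime]

theorem locM_aeval_sub {s : F} (hs : locM y s) (p : ℤ[X]) :
    locM y (aeval s p - ((p.coeff 0 : ℤ) : F)) := by
  have h := congrArg (aeval s) (divX_mul_X_add p)
  rw [map_add, map_mul, aeval_X, aeval_C] at h
  have e : aeval s p - ((p.coeff 0 : ℤ) : F) = aeval s (divX p) * s := by
    rw [← h]; simp
  rw [e]
  exact hs.mul_left (aevalZ_mem hs.mem)

/-- The first coefficient of `x ^ q / x'` at a cusp. -/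
theorem exists_kappa (hc : KShape q c) (hq0 : q ≠ 0) (hqF : ((q : ℕ) : F) ≠ 0) : ∃ κ : ℤ,
    ∀ {x x' : F}, x ≠ 0 → x' ≠ 0 → MRel q c x x' → locM y x⁻¹ → locM y x'⁻¹ →
      x ^ q / x' ∈ locS y → locM y ((x ^ q / x' - 1) / q - κ) := by
  obtain ⟨l, hl, hli, hlq, hK⟩ := hc.exists_lambda hq0
  refine ⟨(l 0).coeff (q + 1), ?_⟩
  intro x x' hx hx' rel m m' hv
  have hq2 := hc.two_le
  set κ : ℤ := (l 0).coeff (q + 1) with hκ
  set v := x ^ q / x' with hvdef
  have e1 : x / x' ^ q = x⁻¹ ^ (q - 1) * x'⁻¹ ^ (q - 1) * v := by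
    obtain ⟨k, rfl⟩ : ∃ k, q = k + 2 := ⟨q - 2, by omega⟩
    rw [hvdef, show k + 2 - 1 = k + 1 by omega, inv_pow, inv_pow]
    field_simp
    ring
  have hβ : locM y (x / x' ^ q) := by
    rw [e1]
    exact ((m.pow (by omega)).mul_right (pow_mem m'.mem _)).mul_right hv
  set α := 1 - x / x' ^ q with hα
  have hαS : α ∈ locS y := sub_mem (one_mem _) hβ.mem
  have hαM : ¬ locM y α := by
    intro h
    have := h.add hβ
    rw [hα, sub_add_cancel] at this
    exact not_locM_one this
  have hαi := inv_mem_of_not_locM hαS hαM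
  have hα0 : α ≠ 0 := fun h => hαM (h ▸ locM_zero)
  have hA : x - x' ^ q = -(x' ^ q * α) := by rw [hα]; field_simp; ring
  set Λ : F := ∑ i ∈ Finset.range (q + 1), aeval x' (l i) * x ^ i with hΛ
  have hE : (x' ^ q * α) * (x ^ q - x') = q * Λ := by
    have h2 : (0 : F) = _ := (rel : _ = (0 : F)).symm.trans (hK x x')
    rw [hA] at h2
    linear_combination h2
  have hmain : (v - 1) / q = α⁻¹ * (Λ * x'⁻¹ ^ (q + 1)) := by
    have h3 : v - 1 = (x ^ q - x') / x' := by rw [hvdef]; field_simp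
    have h4 : x ^ q - x' = q * Λ / (x' ^ q * α) := by
      rw [eq_div_iff (mul_ne_zero (pow_ne_zero _ hx') hα0), ← hE]; ring
    rw [h3, h4, inv_pow, pow_succ]
    field_simp
  have hS : locM y (Λ * x'⁻¹ ^ (q + 1) - κ) := by
    rw [hΛ, Finset.sum_range_succ', add_mul, pow_zero, mul_one]
    have e2 : aeval x' (l 0) * x'⁻¹ ^ (q + 1) = aeval x'⁻¹ (reflect (q + 1) (l 0)) :=
      (aeval_reflect (hl 0 (by omega)) hx').symm
    rw [e2]
    have h5 := locM_aeval_sub m' (reflect (q + 1) (l 0))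
    have e3 : (reflect (q + 1) (l 0)).coeff 0 = κ := by
      rw [coeff_reflect, revAt_le (by omega), Nat.sub_zero]
    rw [e3] at h5
    rw [add_sub_assoc]
    refine locM.add ?_ h5
    rw [Finset.sum_mul]
    refine locM_sum fun i hi => ?_
    have hi' := Finset.mem_range.mp hi
    by_cases hiq : i + 1 = q
    · rw [hiq]
      obtain ⟨ρ, hρ, hρe⟩ := aeval_eq_pow_mul hlq hx' m'.mem
      have e4 : aeval x' (l q) * x ^ q * x'⁻¹ ^ (q + 1) = x'⁻¹ * (v * ρ) := by
        rw [hρe, hvdef, show q + 1 = (q - 1) + 2 by omega, pow_add, inv_pow]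
        field_simp
      rw [e4]
      exact m'.mul_right (mul_mem hv hρ)
    · obtain ⟨ρ, hρ, hρe⟩ := aeval_eq_pow_mul (hli (i + 1) (by omega) (by omega)) hx' m'.mem
      have e4 : aeval x' (l (i + 1)) * x ^ (i + 1) * x'⁻¹ ^ (q + 1) =
          x⁻¹ ^ (q - (i + 1)) * (v * ρ) := by
        have e5 : x ^ q = x ^ (i + 1) * x ^ (q - (i + 1)) := by
          rw [← pow_add]; congr 1; omega
        rw [hρe, hvdef, e5, pow_succ, inv_pow, inv_pow]
        field_simp
        ring
      rw [e4]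
      exact (m.pow (by omega)).mul_right (mul_mem hv hρ)
  rw [hmain]
  have e6 : α⁻¹ * (Λ * x'⁻¹ ^ (q + 1)) - κ = α⁻¹ * (Λ * x'⁻¹ ^ (q + 1) - κ) +
      (x / x' ^ q) * (α⁻¹ * κ) := by
    have h7 : x / x' ^ q = 1 - α := by rw [hα]; ring
    rw [h7]
    field_simp
    ring
  rw [e6]
  exact (hS.mul_left hαi).add (hβ.mul_right (mul_mem hαi (intCast_mem _ _)))

/-- The recursion for the local parameters. -/
theorem rec_step (hqp : q.Prime) {R R' μ : F} (hR : R ∈ locS y) (hD : locM y (R - 1))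
    (hR' : R' ∈ locS y) (hne : R' - 1 ≠ 0) (hqD : (q : F) / (R' - 1) ∈ locS y) (hμ : locM y μ)
    (hrat : R ^ q = R' * (1 + q * μ)) : locM y ((R - 1) ^ q / (R' - 1) - 1) := by
  obtain ⟨e, he⟩ := exists_add_pow_prime_eq hqp (1 : locS y) ⟨R - 1, hD.mem⟩
  have h1 := congrArg (fun z : locS y => (z : F)) he
  simp only [Subring.coe_pow, Subring.coe_add, Subring.coe_one, Subring.coe_mul,
    Subring.coe_natCast, one_pow, mul_one] at h1
  rw [add_sub_cancel] at h1
  have e1 : (R - 1) ^ q / (R' - 1) - 1 = (q : F) / (R' - 1) * (μ * R' - (R - 1) * e) := by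
    have h2 : (R - 1) ^ q = R' * (1 + q * μ) - 1 - q * (R - 1) * e := by
      rw [← hrat, h1]; ring
    rw [h2]
    field_simp
    ring
  rw [e1]
  exact ((hμ.mul_right hR').sub (hD.mul_right e.2)).mul_left hqD

end Kap

/-- the functions `x_k` (or `C₀ / x_k`) near a cusp. `P i` has `r - i` Frobenius steps followed by
`i` Verschiebung steps. -/
structure CRow {F : Type u} [Field F] (q r : ℕ) (c : ℕ → ℤ[X])
    (P : Fin (r + 1) → ValuationSubring F) (x : ℕ → F) : Prop where
  rel : ∀ k < r, MRel q c (x k) (x (k + 1))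
  rel' : ∀ k < r, MRel q c (x (k + 1)) (x k)
  n : ∀ k ≤ r, x k ≠ 0
  m : ∀ k ≤ r, ∀ i, (x k)⁻¹ ∈ P i
  cF : ∀ (i : Fin (r + 1)) (k : ℕ), k + i < r → x (k + 1) - x k ^ q ∈ (P i).nonunits
  cV : ∀ (i : Fin (r + 1)) (k : ℕ), k < r → r ≤ k + i → x k - x (k + 1) ^ q ∈ (P i).nonunits
  ne : ∀ k, k + 2 ≤ r → x (k + 2) ≠ x k
  del : ∀ (i : Fin (r + 1)), 0 < (i : ℕ) → (i : ℕ) < r →
    x (r - i + min (i : ℕ) (r - i)) / x (r - i - min (i : ℕ) (r - i)) - 1 ∈ (P i).nonunits
  unif : ∀ (i : Fin (r + 1)), 0 < (i : ℕ) → (i : ℕ) < r → ∀ z ∈ (P i).nonunits,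
    z / (x (r - i + min (i : ℕ) (r - i)) / x (r - i - min (i : ℕ) (r - i)) - 1) ∈ P i

section Cusp

variable {O K F : Type u} [CommRing O] [IsDomain O] [IsDiscreteValuationRing O]
  [Field K] [Field F] [Algebra O K] [Algebra O F] [Algebra K F] [IsScalarTower O K F]
  {s : K} {π : O} [FiniteDimensional K F] [Algebra.IsSeparable K F]
  {hs : IsParam O s} {hπ : Prime π} {r : ℕ} {P : Fin (r + 1) → ValuationSubring F}
  {y : Ideal (chart O (algebraMap K F s))} [hy : y.IsPrime] {x : ℕ → F}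

namespace CRow

variable (h : CRow q r c P x) (hc : KShape q c) (hS : CompSys hs hπ P)

include h hc in
theorem locs (hq : locM y ((q : ℕ) : F)) (hM : locM y (x 0)⁻¹) :
    (∀ k ≤ r, locM y (x k)⁻¹) ∧ (∀ k < r, x (k + 1) / x k ^ q ∈ locS y) ∧
      (∀ k < r, x k / x (k + 1) ^ q ∈ locS y) := by
  have h1 : ∀ k ≤ r, locM y (x k)⁻¹ := by
    intro k
    induction k with
    | zero => exact fun _ => hM
    | succ k ih =>
      intro hk
      exact hc.inv_locM hq (h.n _ hk) (h.n k (by omega)) (h.rel' k (by omega)) (ih (by omega))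
  exact ⟨h1, fun k hk => hc.quot_locS (h.n _ (by omega)) (h.rel' k hk) (h1 k (by omega)).mem,
    fun k hk => hc.quot_locS (h.n _ (by omega)) (h.rel k hk) (h1 (k + 1) (by omega)).mem⟩

include h hS in
theorem unitF {i : Fin (r + 1)} (hi : Meets y (P i)) {k : ℕ} (hk : k + i < r)
    (hl : x (k + 1) / x k ^ q ∈ locS y) : locM y (x (k + 1) / x k ^ q - 1) :=
  locM_of_nonunits (hS.ov i) hi (Subring.sub_mem _ hl (Subring.one_mem _))
    (div_sub_one_nonunits (pow_ne_zero _ (h.n _ (by omega)))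
      (by rw [← inv_pow]; exact pow_mem (h.m _ (by omega) i) _) (h.cF i k hk))

include h hS in
theorem unitV {i : Fin (r + 1)} (hi : Meets y (P i)) {k : ℕ} (hk : k < r) (hk' : r ≤ k + i)
    (hl : x k / x (k + 1) ^ q ∈ locS y) : locM y (x k / x (k + 1) ^ q - 1) :=
  locM_of_nonunits (hS.ov i) hi (Subring.sub_mem _ hl (Subring.one_mem _))
    (div_sub_one_nonunits (pow_ne_zero _ (h.n _ (by omega)))
      (by rw [← inv_pow]; exact pow_mem (h.m _ (by omega) i) _) (h.cV i k hk hk'))

theorem not_locM_of_sub_one {C : Subalgebra O F} {y : Ideal C} [y.IsPrime] {a : F}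
    (ha : locM y (a - 1)) : ¬ locM y a := by
  intro h
  have := h.sub ha
  rw [sub_sub_cancel] at this
  exact not_locM_one this

include h hc hS in
theorem disj (hqM : locM y ((q : ℕ) : F)) (hM : locM y (x 0)⁻¹) :
    ∀ i j, Meets y (P i) → Meets y (P j) → i = j := by
  obtain ⟨h1, h2, h3⟩ := h.locs hc hqM hM
  have hq2 : 2 ≤ q := hc.two_le
  have key : ∀ i j : Fin (r + 1), (i : ℕ) < j → Meets y (P i) → Meets y (P j) → False := by
    intro i j hij hi hj
    have hj' := j.2
    have k0 : r - j < r := by omega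
    have a1 := not_locM_of_sub_one (h.unitF hS hi (k := r - j) (by omega) (h2 _ k0))
    have a2 := not_locM_of_sub_one (h.unitV hS hj k0 (by omega) (h3 _ k0))
    exact cusp_contra hq2 (h.n (r - j + 1) (by omega)) (h.n (r - j) (by omega)) (h.n 0 (by omega))
      (h1 (r - j) (by omega)) (h2 _ k0) a1 (h3 _ k0) a2
  intro i j hi hj
  rcases lt_trichotomy (i : ℕ) j with hij | hij | hij
  · exact (key i j hij hi hj).elim
  · exact Fin.ext hij
  · exact (key j i hij hj hi).elim

include h hc hS in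
/-- The local parameters `x_(a+j) / x_(a-j) - 1`. -/
theorem chain (hqp : q.Prime) (hqM : locM y ((q : ℕ) : F)) (hqF : ((q : ℕ) : F) ≠ 0)
    (hM : locM y (x 0)⁻¹) {i : Fin (r + 1)} (hi : Meets y (P i)) :
    ∀ j : ℕ, 1 ≤ j → j ≤ i → j ≤ r - i →
      x (r - i + j) / x (r - i - j) ∈ locS y ∧
      locM y (x (r - i + j) / x (r - i - j) - 1) ∧
      x (r - i + j) / x (r - i - j) - 1 ≠ 0 ∧
      (q : F) / (x (r - i + j) / x (r - i - j) - 1) ∈ locS y := by
  obtain ⟨h1, h2, h3⟩ := h.locs hc hqM hM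
  obtain ⟨κ, hκ⟩ := exists_kappa (y := y) hc hqp.ne_zero hqF
  set a := r - (i : ℕ) with ha
  have hir := i.2
  have hq2 := hqp.two_le
  -- the step
  have hstep : ∀ j : ℕ, 1 ≤ j → j ≤ i → j ≤ a →
      x (a + (j - 1)) / x (a - (j - 1)) ∈ locS y → locM y (x (a + (j - 1)) / x (a - (j - 1)) - 1) →
      x (a + j) / x (a - j) ∈ locS y ∧ locM y (x (a + j) / x (a - j) - 1) ∧
      ∃ μ, locM y μ ∧ (x (a + j) / x (a - j)) ^ q =
        x (a + (j - 1)) / x (a - (j - 1)) * (1 + q * μ) := by
    intro j hj1 hji hja hR' hD'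
    obtain ⟨n, rfl⟩ : ∃ n, j = n + 1 := ⟨j - 1, by omega⟩
    rw [Nat.add_sub_cancel] at *
    obtain ⟨b, hb⟩ : ∃ b, a = b + (n + 1) := ⟨a - (n + 1), by omega⟩
    have e1 : a - (n + 1) = b := by omega
    have e2 : a - n = b + 1 := by omega
    have e3 : a + (n + 1) = a + n + 1 := by omega
    rw [e1, e3]
    rw [e2] at hR' hD' ⊢
    have kV : a + n < r := by omega
    have kF : b < r := by omega
    have lV := h3 _ kV
    have lF := h2 _ kF
    have mV := h.unitV hS hi kV (by omega) lV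
    have mF := h.unitF hS hi (k := b) (by omega) lF
    have uV := inv_mem_of_not_locM lV (not_locM_of_sub_one mV)
    have uF := inv_mem_of_not_locM lF (not_locM_of_sub_one mF)
    rw [inv_div] at uV uF
    have n1 := h.n (a + n) (by omega)
    have n2 := h.n (a + n + 1) (by omega)
    have n3 := h.n b (by omega)
    have n4 := h.n (b + 1) (by omega)
    set R := x (a + n + 1) / x b with hR
    set R' := x (a + n) / x (b + 1) with hR'd
    have eR : R ^ q = (x (a + n + 1) ^ q / x (a + n)) * (x (b + 1) / x b ^ q) * R' := by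
      rw [hR, hR'd, div_pow]
      field_simp
    have hRS : R ∈ locS y := by
      apply locS_of_pow (n := q) hqp.pos
      rw [eR]
      exact Subring.mul_mem _ (Subring.mul_mem _ uV lF) hR'
    -- the congruences
    have kp := hκ n2 n1 (h.rel' _ kV) (h1 _ (by omega)) (h1 _ (by omega)) uV
    have km := hκ n3 n4 (h.rel _ kF) (h1 _ (by omega)) (h1 _ (by omega)) uF
    set vp := x (a + n + 1) ^ q / x (a + n) with hvp
    set vm := x b ^ q / x (b + 1) with hvm
    have hvm0 : vm ≠ 0 := div_ne_zero (pow_ne_zero _ n3) n4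
    have evm : x (b + 1) / x b ^ q = vm⁻¹ := by rw [hvm, inv_div]
    have hμ : ∃ μ, locM y μ ∧ R ^ q = R' * (1 + q * μ) := by
      refine ⟨((vp - 1) / q - (vm - 1) / q) * vm⁻¹, ?_, ?_⟩
      · refine locM.mul_right ?_ (by rw [← evm]; exact lF)
        have e4 : (vp - 1) / q - (vm - 1) / q = ((vp - 1) / q - κ) - ((vm - 1) / q - κ) := by ring
        rw [e4]
        exact kp.sub km
      · rw [eR, evm]
        field_simp
        ring
    obtain ⟨μ, hμ1, hμ2⟩ := hμ
    refine ⟨hRS, ?_, μ, hμ1, hμ2⟩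
    -- `R - 1` is in the maximal ideal
    have hRm1 : R - 1 ∈ locS y := Subring.sub_mem _ hRS (Subring.one_mem _)
    obtain ⟨e, he⟩ := exists_add_pow_prime_eq hqp (1 : locS y) ⟨R - 1, hRm1⟩
    have h5 := congrArg (fun z : locS y => (z : F)) he
    simp only [Subring.coe_pow, Subring.coe_add, Subring.coe_one, Subring.coe_mul,
      Subring.coe_natCast, one_pow, mul_one] at h5
    rw [add_sub_cancel] at h5
    have e5 : (R - 1) ^ q = (R' - 1) + (q : F) * (μ * R' - (R - 1) * e) := by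
      have : (R - 1) ^ q = R ^ q - 1 - q * (R - 1) * e := by rw [h5]; ring
      rw [this, hμ2]
      ring
    have h6 : locM y ((R - 1) ^ q) := by
      rw [e5]
      exact hD'.add (hqM.mul_right (Subring.sub_mem _ (Subring.mul_mem _ hμ1.mem hR')
        (Subring.mul_mem _ hRm1 e.2)))
    exact h6.of_pow hRm1
  intro j hj1
  induction j, hj1 using Nat.le_induction with
  | base =>
    intro hji hja
    have h0 : x a ≠ 0 := h.n a (by omega)
    obtain ⟨g1, g2, -⟩ := hstep 1 le_rfl hji hja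
      (by simp only [Nat.sub_self, add_zero, Nat.sub_zero, div_self h0]; exact Subring.one_mem _)
      (by simp only [Nat.sub_self, add_zero, Nat.sub_zero, div_self h0, sub_self]
          exact locM_zero)
    obtain ⟨b, hb⟩ : ∃ b, a = b + 1 := ⟨a - 1, by omega⟩
    have e1 : a - 1 = b := by omega
    have e2 : a + 1 = b + 2 := by omega
    have hne := h.ne b (by omega)
    have hX0 := h.n b (by omega)
    rw [e1, e2] at g1 g2 ⊢
    have hz0 : x (b + 2) / x b - 1 ≠ 0 := by
      intro h0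
      have := sub_eq_zero.mp h0
      rw [div_eq_one_iff_eq hX0] at this
      exact hne this
    refine ⟨g1, g2, hz0, ?_⟩
    have lF := h2 b (by omega)
    have mF := h.unitF hS hi (k := b) (by omega) lF
    have uF := inv_mem_of_not_locM lF (not_locM_of_sub_one mF)
    rw [inv_div] at uF
    have hom := hc.omega hqp hqM hqF hX0 (h.n (b + 1) (by omega)) (h.rel b (by omega))
      (h.rel' (b + 1) (by omega)) (h1 b (by omega)) (h1 (b + 1) (by omega)) uF g1 g2 hne
    set z := x (b + 2) / x b - 1 with hz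
    have hw : z ^ (q - 1) / q ∈ locS y := by
      have := Subring.sub_mem _ hom.mem (Subring.one_mem _)
      rwa [add_sub_cancel_right] at this
    have hwM : ¬ locM y (z ^ (q - 1) / q) := by
      intro h3
      have := hom.sub h3
      rw [add_sub_cancel_left] at this
      exact not_locM_one this
    have hwi := inv_mem_of_not_locM hw hwM
    have e : ((q : ℕ) : F) / z = (z ^ (q - 1) / q)⁻¹ * z ^ (q - 2) := by
      obtain ⟨n, hn⟩ : ∃ n, q = n + 2 := ⟨q - 2, by omega⟩
      have e1 : q - 1 = n + 1 := by omega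
      have e2 : q - 2 = n := by omega
      rw [e1, e2, inv_div, pow_succ]
      field_simp
    rw [e]
    exact Subring.mul_mem _ hwi (Subring.pow_mem _ g2.mem _)
  | succ j hj ih =>
    intro hji hja
    obtain ⟨k1, k2, k3, k4⟩ := ih (by omega) (by omega)
    obtain ⟨g1, g2, μ, g3, g4⟩ := hstep (j + 1) (by omega) hji hja
      (by rw [Nat.add_sub_cancel]; exact k1) (by rw [Nat.add_sub_cancel]; exact k2)
    rw [Nat.add_sub_cancel] at g4
    have g5 := rec_step hqp g1 g2 k1 k3 k4 g3 g4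
    have g6 := not_locM_of_sub_one g5
    set z := x (a + (j + 1)) / x (a - (j + 1)) - 1 with hz
    set z' := x (a + j) / x (a - j) - 1 with hz'
    have hzz : z ^ q / z' ∈ locS y := by
      have := Subring.add_mem _ g5.mem (Subring.one_mem _)
      rwa [sub_add_cancel] at this
    have hz0 : z ≠ 0 := by
      intro h0
      apply g6
      rw [h0, zero_pow hqp.ne_zero, zero_div]
      exact locM_zero
    refine ⟨g1, g2, hz0, ?_⟩
    have e : (q : F) / z = (q : F) / z' * (z ^ q / z')⁻¹ * z ^ (q - 1) := by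
      obtain ⟨n, hn⟩ : ∃ n, q = n + 1 := ⟨q - 1, by omega⟩
      have e1 : q - 1 = n := by omega
      rw [e1]
      nth_rewrite 3 [hn]
      rw [inv_div, pow_succ]
      field_simp
    rw [e]
    exact Subring.mul_mem _ (Subring.mul_mem _ k4 (inv_mem_of_not_locM hzz g6))
      (Subring.pow_mem _ g2.mem _)

include h hc hS in
theorem exists_locEq (hqp : q.Prime) (hqπ : ((q : ℕ) : F) = algebraMap O F π)
    (hqM : locM y ((q : ℕ) : F)) (hM : locM y (x 0)⁻¹)
    (u0 : ∀ z ∈ (P 0).nonunits, z / algebraMap O F π ∈ P 0)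
    (ur : ∀ z ∈ (P (Fin.last r)).nonunits, z / algebraMap O F π ∈ P (Fin.last r))
    (i : Fin (r + 1)) (hi : Meets y (P i)) : ∃ a, LocEq y (P i) a := by
  have hdis := h.disj hc hS hqM hM
  have hπ0 : algebraMap O F π ≠ 0 := pi_ne_zero hs hπ
  have hπl : algebraMap O F π ∈ locS y := by rw [← hqπ]; exact hqM.mem
  have hov := fun i => (hS.ov i).2
  simp only [← IsScalarTower.algebraMap_apply] at hov
  have hend : (∀ z ∈ (P i).nonunits, z / algebraMap O F π ∈ P i) → ∃ a, LocEq y (P i) a :=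
    fun hu => ⟨algebraMap O F π, hS.locEq hi hπ0 hπl (hov i) hu
      (fun j hj hm => (hj (hdis j i hm hi)).elim) (n := 1)
      (by rw [pow_one, div_self hπ0]; exact Subring.one_mem _)⟩
  by_cases hi0 : (i : ℕ) = 0
  · have : i = 0 := Fin.ext hi0
    subst this
    exact hend u0
  by_cases hir : (i : ℕ) = r
  · have : i = Fin.last r := Fin.ext hir
    subst this
    exact hend ur
  have hi2 := i.2
  have hqF : ((q : ℕ) : F) ≠ 0 := by rw [hqπ]; exact hπ0
  obtain ⟨g1, g2, g3, g4⟩ := h.chain hc hS hqp hqM hqF hM hi (min (i : ℕ) (r - i)) (by omega)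
    (min_le_left _ _) (min_le_right _ _)
  refine ⟨_, hS.locEq hi g3 g2.mem (h.del i (by omega) (by omega))
    (h.unif i (by omega) (by omega)) (fun j hj hm => (hj (hdis j i hm hi)).elim) (n := 1) ?_⟩
  rw [pow_one, ← hqπ]
  exact g4

end CRow

end Cusp

end Fermat.Agent.CR
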