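import Mathlib
import Fermat.Agent.CR.Cusp

/-!
Cusps of curves with `r + 1` components: the functions `x_k` and `C₀ / x_k`.
-/

set_option autoImplicit false
set_option linter.unusedSectionVars false
set_option linter.style.haveILetI false
set_option linter.unusedVariables false

open IsLocalRing Polynomial

universe u

namespace Fermat.Agent.CR

open Fermat.Agent.Geo Fermat.Agent.LG Fermat.Agent.CA

variable {F : Type u} [Field F] {q r : ℕ} {c : ℕ → ℤ[X]} {P : Fin (r + 1) → ValuationSubring F}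
  {x : ℕ → F}

/-- From differences to quotients. -/
theorem CRow.of (rel : ∀ k < r, MRel q c (x k) (x (k + 1)))
    (rel' : ∀ k < r, MRel q c (x (k + 1)) (x k)) (n : ∀ k ≤ r, x k ≠ 0)
    (mem : ∀ k ≤ r, ∀ i, x k ∈ P i) (m : ∀ k ≤ r, ∀ i, (x k)⁻¹ ∈ P i)
    (cF : ∀ (i : Fin (r + 1)) (k : ℕ), k + i < r → x (k + 1) - x k ^ q ∈ (P i).nonunits)
    (cV : ∀ (i : Fin (r + 1)) (k : ℕ), k < r → r ≤ k + i →
      x k - x (k + 1) ^ q ∈ (P i).nonunits)
    (ne : ∀ k, k + 2 ≤ r → x (k + 2) ≠ x k)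
    (dl : ∀ (i : Fin (r + 1)), 0 < (i : ℕ) → (i : ℕ) < r →
      x (r - i + min (i : ℕ) (r - i)) - x (r - i - min (i : ℕ) (r - i)) ∈ (P i).nonunits)
    (dlu : ∀ (i : Fin (r + 1)), 0 < (i : ℕ) → (i : ℕ) < r → ∀ z ∈ (P i).nonunits,
      z / (x (r - i + min (i : ℕ) (r - i)) - x (r - i - min (i : ℕ) (r - i))) ∈ P i) :
    CRow q r c P x where
  rel := rel
  rel' := rel'
  n := n
  m := m
  cF := cF
  cV := cV
  ne := ne
  del i h0 hr := by
    have h1 := n (r - i - min (i : ℕ) (r - i)) (by omega)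
    exact div_sub_one_nonunits h1 (m _ (by omega) i) (dl i h0 hr)
  unif i h0 hr z hz := by
    have h1 := n (r - i - min (i : ℕ) (r - i)) (by omega)
    have h2 := mul_mem (dlu i h0 hr z hz) (mem (r - i - min (i : ℕ) (r - i)) (by omega) i)
    have e : z / (x (r - i + min (i : ℕ) (r - i)) / x (r - i - min (i : ℕ) (r - i)) - 1) =
        z / (x (r - i + min (i : ℕ) (r - i)) - x (r - i - min (i : ℕ) (r - i))) *
          x (r - i - min (i : ℕ) (r - i)) := by
      rw [div_sub_one h1, div_div_eq_mul_div, div_mul_eq_mul_div]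
    rw [e]
    exact h2

/-- The other cusps. -/
theorem CRow.inv (h : CRow q r c P x) (hq : q.Prime) {C₀ : ℤ} (C0 : (C₀ : F) ≠ 0)
    (C0i : ∀ i, ((C₀ : ℤ) : F)⁻¹ ∈ P i) (hqn : ∀ i, ((q : ℕ) : F) ∈ (P i).nonunits)
    (mem : ∀ k ≤ r, ∀ i, x k ∈ P i)
    (rel : ∀ k < r, MRel q c ((C₀ : F) / x k) ((C₀ : F) / x (k + 1)))
    (rel' : ∀ k < r, MRel q c ((C₀ : F) / x (k + 1)) ((C₀ : F) / x k)) :
    CRow q r c P (fun k => (C₀ : F) / x k) where
  rel := rel
  rel' := rel'
  n k hk := div_ne_zero C0 (h.n k hk)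
  m k hk i := by
    rw [inv_div, div_eq_mul_inv]
    exact mul_mem (mem k hk i) (C0i i)
  cF i k hk := inv_cong (h.n _ (by omega)) (h.n _ (by omega)) (h.m _ (by omega) i)
    (h.m _ (by omega) i) (intCast_mem _ _) (int_pow_sub hq (hqn i) _) (h.cF i k hk)
  cV i k hk hk' := inv_cong (h.n _ (by omega)) (h.n _ (by omega)) (h.m _ (by omega) i)
    (h.m _ (by omega) i) (intCast_mem _ _) (int_pow_sub hq (hqn i) _) (h.cV i k hk hk')
  ne k hk h0 := by
    have h1 := h.n k (by omega)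
    have h2 := h.n (k + 2) hk
    rw [div_eq_div_iff h2 h1] at h0
    exact h.ne k hk (mul_left_cancel₀ C0 h0).symm
  del i h0 hr := by
    have h1 := h.n (r - i - min (i : ℕ) (r - i)) (by omega)
    have h2 := h.n (r - i + min (i : ℕ) (r - i)) (by omega)
    have h3 := mul_mem_nonunits (mul_mem (mem (r - i - min (i : ℕ) (r - i)) (by omega) i)
      (h.m (r - i + min (i : ℕ) (r - i)) (by omega) i)) (h.del i h0 hr)
    have e : (C₀ : F) / x (r - i + min (i : ℕ) (r - i)) /
        ((C₀ : F) / x (r - i - min (i : ℕ) (r - i))) - 1 =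
        -(x (r - i - min (i : ℕ) (r - i)) * (x (r - i + min (i : ℕ) (r - i)))⁻¹ *
          (x (r - i + min (i : ℕ) (r - i)) / x (r - i - min (i : ℕ) (r - i)) - 1)) := by
      field_simp
      ring
    rw [e]
    exact nonunits_neg h3
  unif i h0 hr z hz := by
    have h1 := h.n (r - i - min (i : ℕ) (r - i)) (by omega)
    have h2 := h.n (r - i + min (i : ℕ) (r - i)) (by omega)
    have h3 := mul_mem (mul_mem (mem (r - i + min (i : ℕ) (r - i)) (by omega) i)
      (h.m (r - i - min (i : ℕ) (r - i)) (by omega) i)) (h.unif i h0 hr z hz)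
    have e1 : (C₀ : F) / x (r - i + min (i : ℕ) (r - i)) /
        ((C₀ : F) / x (r - i - min (i : ℕ) (r - i))) - 1 =
        -(x (r - i - min (i : ℕ) (r - i)) * (x (r - i + min (i : ℕ) (r - i)))⁻¹ *
          (x (r - i + min (i : ℕ) (r - i)) / x (r - i - min (i : ℕ) (r - i)) - 1)) := by
      field_simp
      ring
    have e : z / ((C₀ : F) / x (r - i + min (i : ℕ) (r - i)) /
        ((C₀ : F) / x (r - i - min (i : ℕ) (r - i))) - 1) =
        -(x (r - i + min (i : ℕ) (r - i)) * (x (r - i - min (i : ℕ) (r - i)))⁻¹ *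
          (z / (x (r - i + min (i : ℕ) (r - i)) / x (r - i - min (i : ℕ) (r - i)) - 1))) := by
      rw [e1, div_neg, neg_inj]
      rw [div_mul_eq_div_div, div_mul_eq_div_div]
      simp only [div_eq_mul_inv, inv_inv]
      ring
    rw [e]
    exact neg_mem h3

end Fermat.Agent.CR
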