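import Mathlib
import Fermat.Agent.CA.CuspV
import Fermat.Agent.CR.Cusp

/-!
The valuation of an `m`-th power along the component of the cusp `∞`, for curves with `r + 1`
components.
-/

set_option autoImplicit false
set_option linter.unusedSectionVars false
set_option linter.style.haveILetI false
set_option linter.unusedVariables false

open IsLocalRing Polynomial ModularCurve

noncomputable section

universe u

namespace Fermat.Agent.CR

open Fermat.Agent.Geo Fermat.Agent.LG Fermat.Agent.ModFun Fermat.Agent.CA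

variable {O K F : Type u} [CommRing O] [IsDomain O] [IsDiscreteValuationRing O]
  [Field K] [Field F] [Algebra O K] [Algebra O F] [Algebra K F] [IsScalarTower O K F]
  {s : K} {π : O} [FiniteDimensional K F] [Algebra.IsSeparable K F]
  {hs : IsParam O s} {hπ : Prime π} {q r : ℕ} {c : ℕ → ℤ[X]}
  {P : Fin (r + 1) → ValuationSubring F} {x : ℕ → F}
  {L : Type u} [Field L] [Algebra O L] [IsFractionRing O L] {θ : F →+* LaurentSeries L}

theorem CRow.dvd_val (h : CRow q r c P x) (hc : KShape q c) (hS : CompSys hs hπ P) (hr : 1 ≤ r)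
    (hx0 : x 0 = (algebraMap K F s)⁻¹) (hqπ : ((q : ℕ) : F) = algebraMap O F π)
    (u0 : ∀ z ∈ (P 0).nonunits, z / algebraMap O F π ∈ P 0)
    (θC : ∀ a : O, θ (algebraMap O F a) = HahnSeries.C (algebraMap O L a))
    {Z : PowerSeries L} (hsZ : θ (algebraMap K F s) = HahnSeries.ofPowerSeries ℤ L Z)
    (hZ : PowerSeries.constantCoeff Z = 0) (uF : Un O (θ (x r / x (r - 1) ^ q)))
    (hval : ∀ (y : Ideal (chart O (algebraMap K F s))) [y.IsPrime],
      locM y (algebraMap K F s) → Meets y (P 0) → ValAt y (P 0))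
    {m : ℕ} (hm : 0 < m) {h₀ : F} (hor : Hor π m h₀) {n : ℤ}
    (hn : Vl (P 0) (algebraMap O F π) h₀ n) {y : LaurentSeries L} (hy : y ^ m = θ h₀) :
    (m : ℤ) ∣ n := by
  have hp0 : algebraMap O F π ≠ 0 := pi_ne_zero hs hπ
  set I := yI θC hsZ hZ with hI
  haveI hIm : I.IsMaximal := yI_max θC hsZ hZ
  haveI hIp : I.IsPrime := hIm.isPrime'
  have hsM : locM I (algebraMap K F s) := locM_of_mem (s_mem θC hsZ hZ)
  have hM0 : locM I (x 0)⁻¹ := by
    rw [hx0, inv_inv]
    exact hsM
  have hπm : π ∈ maximalIdeal O := by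
    rw [mem_maximalIdeal]; exact hπ.not_unit
  have hpM : locM I (algebraMap O F π) := locM_of_mem (C_mem θC hsZ hZ hπm)
  have hqM : locM I ((q : ℕ) : F) := by rw [hqπ]; exact hpM
  obtain ⟨h1, h2, h3⟩ := h.locs hc hqM hM0
  have hr1 : r - 1 < r := by omega
  have er : r - 1 + 1 = r := by omega
  have l3 := h2 (r - 1) hr1
  have l4 := h3 (r - 1) hr1
  rw [er] at l3 l4
  have b3 : ¬ locM I (x r / x (r - 1) ^ q) := (locS_un θC hsZ hZ (hy := hIp) l3).mpr uF
  have k1 : ¬ locM I (x (r - 1) / x r ^ q) → False := fun b =>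
    cusp_contra hc.two_le (h.n r le_rfl) (h.n (r - 1) (by omega)) (h.n 0 (by omega))
      (h1 (r - 1) (by omega)) l3 b3 l4 b
  -- the component
  have hm0 : Meets I (P 0) := by
    obtain ⟨i, hi⟩ := hS.exists_meets hpM
    by_cases hi0 : (i : ℕ) = 0
    · have : i = 0 := Fin.ext hi0
      rwa [this] at hi
    · have := h.unitV hS hi (k := r - 1) hr1 (by omega) (by rw [er]; exact l4)
      rw [er] at this
      exact (k1 (CRow.not_locM_of_sub_one this)).elim
  have hdisj := h.disj hc hS hqM hM0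
  have hπl : algebraMap O F π ∈ locS I := hpM.mem
  have hov := fun i => (hS.ov i).2
  simp only [← IsScalarTower.algebraMap_apply] at hov
  have hLE : LocEq I (P 0) (algebraMap O F π) := hS.locEq hm0 hp0 hπl (hov 0) u0
      (fun j hj hm => (hj (hdisj j 0 hm hm0)).elim) (n := 1)
      (by rw [pow_one, div_self hp0]; exact Subring.one_mem _)
  have h' : UC (P 0) (h₀ / algebraMap O F π ^ n) (h₀ / algebraMap O F π ^ n) := hn
  obtain ⟨g, hg0, hg1, hg2⟩ := exists_local_pow' hLE hm0 (hS.ov 0) (hval I hsM hm0) hm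
    h'.ne (fun V hV hOV hπV => by
      obtain ⟨g, hg0, hg1, hg2⟩ := hor V hV hOV hπV
      have hz : ∀ k : ℤ, algebraMap O F π ^ k ∈ V := fun k => by
        cases k with
        | ofNat k => rw [Int.ofNat_eq_natCast, zpow_natCast]; exact pow_mem (hOV π) _
        | negSucc k =>
          rw [zpow_negSucc, ← inv_pow]
          exact pow_mem hπV _
      refine ⟨g, hg0, ?_, ?_⟩
      · have := V.mul_mem _ _ hg1 (hz (-n))
        rwa [zpow_neg, mul_assoc, ← div_eq_mul_inv] at this
      · have := V.mul_mem _ _ hg2 (hz n)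
        have e : (g ^ m * (h₀ / algebraMap O F π ^ n))⁻¹ = (g ^ m * h₀)⁻¹ * algebraMap O F π ^ n := by
          rw [← mul_div_assoc, inv_div, div_eq_mul_inv, mul_comm]
        rwa [e]) (fun W hW hWI => by
      obtain ⟨i, rfl⟩ := hS.all W hW
      have hi : Meets I (P i) := by
        intro c hc
        by_contra hcI
        have h3 := hWI _ (inv_mem_locS hcI)
        exact notMem_nonunits_of_inv h3 (ne_zero_of_notMem hcI) hc
      obtain rfl := hdisj 0 i hm0 hi
      exact ⟨1, one_ne_zero, by rw [one_pow, one_mul]; exact h'.mem,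
        by rw [one_pow, one_mul]; exact h'.inv⟩)
  have hun := (locS_un θC hsZ hZ (hy := hIp) hg1).mp hg2
  obtain ⟨-, u, hu⟩ := id hun
  -- leading coefficients
  have e1 : θ h₀ = HahnSeries.C (algebraMap O L π ^ n) *
      (θ (h₀ / algebraMap O F π ^ n / g ^ m) * θ g ^ m) := by
    rw [← map_pow, ← map_mul, div_mul_cancel₀ _ (pow_ne_zero _ hg0), map_zpow₀, ← θC, ← map_zpow₀,
      ← map_mul, mul_div_cancel₀ _ (zpow_ne_zero _ hp0)]
  have hlp : ∀ (x : LaurentSeries L) (k : ℕ), (x ^ k).leadingCoeff = x.leadingCoeff ^ k := by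
    intro x k
    induction k with
    | zero => rw [pow_zero, pow_zero, HahnSeries.leadingCoeff_one]
    | succ k ih => rw [pow_succ, HahnSeries.leadingCoeff_mul, ih, pow_succ]
  have e2 := congrArg HahnSeries.leadingCoeff e1
  have hC : (HahnSeries.C (algebraMap O L π ^ n) : LaurentSeries L).leadingCoeff =
      algebraMap O L π ^ n := by
    rw [HahnSeries.C_apply, HahnSeries.leadingCoeff_of_single]
  rw [← hy, HahnSeries.leadingCoeff_mul, HahnSeries.leadingCoeff_mul, hlp, hlp, hu, hC] at e2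
  have hgl : (θ g).leadingCoeff ≠ 0 := by
    rw [HahnSeries.leadingCoeff_ne_zero, Ne, _root_.map_eq_zero]
    exact hg0
  refine dvd_of_pow_eq hπ (z := y.leadingCoeff / (θ g).leadingCoeff) (u := u) ?_
  rw [div_pow, e2]
  field_simp

end Fermat.Agent.CR
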