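import Mathlib
import Fermat.Agent.CA.Final3

/-!
Components of the reduction of `X₀(q ^ r M)`, `r ≥ 3`: a function whose norms are `m`-th powers is
an `m`-th power along every component.
-/

set_option autoImplicit false
set_option linter.unusedSectionVars false
set_option linter.style.haveILetI false
set_option linter.unusedVariables false

open IsLocalRing Polynomial

universe u

namespace Fermat.Agent.CR

open Fermat.Agent.Geo Fermat.Agent.LG Fermat.Agent.CA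

section Approx

variable {F : Type u} [Field F] {V V' : ValuationSubring F} {u u' : F}

theorem one_notMem (V : ValuationSubring F) : (1 : F) ∉ V.nonunits := one_notMem_nonunits' V

theorem uni_le_eq (h : Uni V u) (h' : Uni V' u') (hle : V ≤ V') : V = V' := by
  by_contra hne
  apply hne
  refine le_antisymm hle fun x hx => ?_
  by_contra hxV
  have hx0 : x ≠ 0 := by rintro rfl; exact hxV V.zero_mem
  obtain ⟨k, hk⟩ := h.exists_vl hx0
  have hk0 : k < 0 := by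
    by_contra hcon
    push Not at hcon
    obtain ⟨n, rfl⟩ := Int.eq_ofNat_of_zero_le hcon
    apply hxV
    have h1 := hk.mem
    rw [zpow_natCast] at h1
    have h2 := V.mul_mem _ _ h1 (pow_mem (show u ∈ V from V.nonunits_le h.non) n)
    rwa [div_mul_cancel₀ _ (pow_ne_zero n h.ne)] at h2
  obtain ⟨n, hn⟩ : ∃ n : ℕ, k = -(n + 1 : ℕ) := ⟨(-k - 1).toNat, by omega⟩
  subst hn
  have h1 : u⁻¹ ∈ V' := by
    have h2 := V'.mul_mem _ _ hx (hle (UC.inv hk))
    have e : x * (x / u ^ (-((n + 1 : ℕ) : ℤ)))⁻¹ = (u ^ (n + 1))⁻¹ := by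
      rw [zpow_neg, zpow_natCast]
      field_simp
    rw [e] at h2
    have h3 := V'.mul_mem _ _ h2 (pow_mem (show u ∈ V' from hle (V.nonunits_le h.non)) n)
    have e2 : (u ^ (n + 1))⁻¹ * u ^ n = u⁻¹ := by
      have := h.ne
      rw [pow_succ]
      field_simp
    rwa [e2] at h3
  have h2 : ∀ y : F, y ∈ V' := by
    intro y
    obtain ⟨m, hm⟩ := h.arch y
    have h3 := V'.mul_mem _ _ (pow_mem h1 m) (hle hm)
    have e : u⁻¹ ^ m * (u ^ m * y) = y := by
      have := h.ne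
      rw [inv_pow]
      field_simp
    rwa [e] at h3
  exact notMem_nonunits_of_inv (h2 u'⁻¹) h'.ne h'.non

theorem uc_one_add {x : F} (hx : x ∈ V.nonunits) : UC V (1 + x) 1 := by
  refine UC.mk_right one_ne_zero V.one_mem (by rw [inv_one]; exact V.one_mem) ?_
  rwa [add_sub_cancel_left]

/-- two different discrete valuations are independent -/
theorem exists_sep (h : Uni V u) (h' : Uni V' u') (hne : V ≠ V') :
    ∃ z : F, UC V z 1 ∧ UC V' (1 - z) 1 := by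
  have h1 : ¬ V ≤ V' := fun hle => hne (uni_le_eq h h' hle)
  have h2 : ¬ V' ≤ V := fun hle => hne (uni_le_eq h' h hle).symm
  obtain ⟨x, hx, hx'⟩ := SetLike.not_le_iff_exists.mp h1
  obtain ⟨y, hy, hy'⟩ := SetLike.not_le_iff_exists.mp h2
  have hx0 : x ≠ 0 := by rintro rfl; exact hx' V'.zero_mem
  have hy0 : y ≠ 0 := by rintro rfl; exact hy' V.zero_mem
  have inv_non : ∀ {W : ValuationSubring F} {a : F}, a ∉ W → a⁻¹ ∈ W.nonunits := by
    intro W a ha
    by_contra hcon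
    apply ha
    have := inv_mem_of_notMem_nonunits hcon
    rwa [inv_inv] at this
  have k1 : x * y⁻¹ ∈ V.nonunits := mul_mem_nonunits hx (inv_non hy')
  have k2 : y * x⁻¹ ∈ V'.nonunits := mul_mem_nonunits hy (inv_non hx')
  have u1 := uc_one_add k1
  have u2 := uc_one_add k2
  refine ⟨(1 + x * y⁻¹)⁻¹, ?_, ?_⟩
  · have := u1.invs
    rwa [inv_one] at this
  · have e : 1 - (1 + x * y⁻¹)⁻¹ = (1 + y * x⁻¹)⁻¹ := by
      have h3 := u1.ne
      have h4 := u2.ne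
      have h5 : y + x ≠ 0 := by
        intro h0
        apply h3
        have : 1 + x * y⁻¹ = (y + x) * y⁻¹ := by field_simp
        rw [this, h0, zero_mul]
      have h6 : 1 + x * y⁻¹ = (y + x) / y := by field_simp
      have h7 : 1 + y * x⁻¹ = (y + x) / x := by field_simp; ring
      rw [h6, h7, inv_div, inv_div]
      field_simp
      ring
    rw [e]
    have := u2.invs
    rwa [inv_one] at this

theorem exists_pow_non (h : Uni V u) {c : F} (hc : c ∈ V.nonunits) (x : F) :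
    ∃ N : ℕ, ∀ n, N ≤ n → c ^ n * x ∈ V.nonunits := by
  obtain ⟨n, hn⟩ := h.arch x
  have h1 := V.mul_mem _ _ (pow_mem (h.dvd c hc) n) hn
  have e : (c / u) ^ n * (u ^ n * x) = c ^ n * x := by
    have := h.ne
    rw [div_pow]
    field_simp
  rw [e] at h1
  refine ⟨n + 1, fun k hk => ?_⟩
  obtain ⟨j, rfl⟩ : ∃ j, k = n + j + 1 := ⟨k - n - 1, by omega⟩
  have e2 : c ^ (n + j + 1) * x = c ^ j * (c ^ n * x) * c := by ring
  rw [e2]
  exact mul_mem_nonunits (V.mul_mem _ _ (pow_mem (show c ∈ V from V.nonunits_le hc) j) h1) hc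

/-- weak approximation -/
theorem exists_glue (h : Uni V u) (h' : Uni V' u') (hne : V ≠ V') {g g' : F} (hg : g ≠ 0)
    (hg' : g' ≠ 0) : ∃ G : F, G ≠ 0 ∧ UC V (G / g) 1 ∧ UC V' (G / g') 1 := by
  obtain ⟨z, hz, hz'⟩ := exists_sep h h' hne
  have n1 : 1 - z ∈ V.nonunits := by
    have := nonunits_neg hz.sub
    rwa [neg_sub] at this
  have n2 : z ∈ V'.nonunits := by
    have := nonunits_neg hz'.sub
    have e : -(1 - z - 1) = z := by ring
    rwa [e] at this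
  obtain ⟨N, hN⟩ := exists_pow_non h n1 (g' / g)
  obtain ⟨N', hN'⟩ := exists_pow_non h' n2 (g / g')
  set n := max N N'
  have a1 := hN n (le_max_left _ _)
  have a2 := hN' n (le_max_right _ _)
  have key : ∀ {W : ValuationSubring F} {a b : F}, UC W a 1 → b ∈ W.nonunits →
      UC W (a + b) 1 := by
    intro W a b ha hb
    refine UC.mk_right one_ne_zero W.one_mem (by rw [inv_one]; exact W.one_mem) ?_
    have := nonunits_add ha.sub hb
    have e : a - 1 + b = a + b - 1 := by ring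
    rwa [e] at this
  have b1 := key (by have := hz.pow n; rwa [one_pow] at this) a1
  have b2 := key (by have := hz'.pow n; rwa [one_pow] at this) a2
  have e1 : (g * z ^ n + g' * (1 - z) ^ n) / g = z ^ n + (1 - z) ^ n * (g' / g) := by field_simp
  have e2 : (g * z ^ n + g' * (1 - z) ^ n) / g' = (1 - z) ^ n + z ^ n * (g / g') := by
    field_simp; ring
  refine ⟨g * z ^ n + g' * (1 - z) ^ n, ?_, by rw [e1]; exact b1, by rw [e2]; exact b2⟩
  intro h0
  have h1 := b1.ne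
  rw [← e1, h0, zero_div] at h1
  exact h1 rfl

end Approx

section Norm

variable {F : Type u} [Field F] {V : ValuationSubring F} {u : F} {Nm : F →* F} {q m : ℕ}

theorem nm_ne {x : F} (hx : x ≠ 0) : Nm x ≠ 0 := by
  intro h
  have h1 : Nm x * Nm x⁻¹ = 1 := by rw [← map_mul, mul_inv_cancel₀ hx, map_one]
  rw [h, zero_mul] at h1
  exact zero_ne_one h1

/-- the valuation of a norm -/
theorem vl_norm (hV : Uni V u) (hn : ∀ x, UC V x x → UC V (Nm x) (x ^ q)) {p : F} {e : ℤ}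
    (hp : Vl V u p e) (he : e ≠ 0) (hNp : Nm p = p ^ q) {x : F} {a : ℤ} (hx : Vl V u x a) :
    Vl V u (Nm x) (q * a) := by
  obtain ⟨b, hb⟩ := hV.exists_vl (nm_ne (Nm := Nm) hx.ne)
  have h1 : Vl V u (x ^ e / p ^ a) 0 := by
    have := (hx.zpow hV.ne e).div (hp.zpow hV.ne a) hV.ne
    have e1 : e * a - a * e = 0 := by ring
    rwa [e1] at this
  have h2 := hn _ (vl_zero_iff.mp h1)
  have h3 : Vl V u (Nm (x ^ e / p ^ a)) 0 := vl_zero_iff.mpr h2.rfl_left
  have e2 : Nm (x ^ e / p ^ a) = Nm x ^ e / (p ^ q) ^ a := by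
    rw [div_eq_mul_inv, map_mul, hom_inv Nm (zpow_ne_zero _ hp.ne), hom_zpow Nm hx.ne,
      hom_zpow Nm hp.ne, hNp, div_eq_mul_inv]
  rw [e2] at h3
  have h4 := (hb.zpow hV.ne e).div ((hp.pow hV.ne q).zpow hV.ne a) hV.ne
  have h5 := h4.unique h3 hV
  have h6 : e * (b - q * a) = 0 := by linarith [h5]
  rcases mul_eq_zero.mp h6 with h | h
  · exact absurd h he
  · have : b = q * a := by omega
    rwa [← this]

/-- an element whose norm is an `m`-th power is an `m`-th power along `V` -/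
theorem exists_root_comp (hV : Uni V u) (hn : ∀ x, UC V x x → UC V (Nm x) (x ^ q)) {p : F}
    {e : ℤ} (hp : Vl V u p e) (he : e ≠ 0) (hNp : Nm p = p ^ q) (hqm : Nat.Coprime q m)
    (hm : 0 < m) {h H : F} (h0 : h ≠ 0) (hN : Nm h = H ^ m) :
    ∃ g : F, g ≠ 0 ∧ UC V (h / g ^ m) 1 := by
  obtain ⟨a, ha⟩ := hV.exists_vl h0
  have hH0 : H ≠ 0 := by
    rintro rfl
    rw [zero_pow hm.ne'] at hN
    exact nm_ne h0 hN
  obtain ⟨b, hb⟩ := hV.exists_vl hH0
  have h1 := (vl_norm hV hn hp he hNp ha).unique (by rw [hN]; exact hb.pow hV.ne m) hV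
  have hdvd : (m : ℤ) ∣ a := by
    have h2 : (m : ℤ) ∣ q * a := ⟨b, h1⟩
    exact (Nat.isCoprime_iff_coprime.mpr hqm.symm).dvd_of_dvd_mul_left h2
  obtain ⟨n, rfl⟩ := hdvd
  set h' := h / (u ^ n) ^ m with hh'
  have hun : (u ^ n) ^ m = u ^ ((m : ℤ) * n) := by
    rw [mul_comm, zpow_mul, zpow_natCast]
  have hu' : UC V h' h' := by
    rw [hh', hun]
    exact ha
  set H' := H / Nm (u ^ n) with hH'
  have hN' : Nm h' = H' ^ m := by
    have h2 : Nm h' * Nm (u ^ n) ^ m = H ^ m := by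
      rw [← map_pow, ← map_mul, hh', div_mul_cancel₀ _ (pow_ne_zero _ (zpow_ne_zero _ hV.ne)), hN]
    have h3 : Nm (u ^ n) ≠ 0 := nm_ne (zpow_ne_zero _ hV.ne)
    rw [hH', div_pow, ← h2, mul_div_cancel_right₀ _ (pow_ne_zero _ h3)]
  have h2 := hn h' hu'
  rw [hN'] at h2
  have hH'0 : H' ≠ 0 := by
    intro h3
    rw [h3, zero_pow hm.ne'] at h2
    exact h2.ne rfl
  have hbez : (q : ℤ) * Nat.gcdA q m + m * Nat.gcdB q m = 1 := by
    rw [← Nat.gcd_eq_gcd_ab, hqm]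
    rfl
  set A := Nat.gcdA q m
  set B := Nat.gcdB q m
  refine ⟨u ^ n * (H' ^ A * h' ^ B), mul_ne_zero (zpow_ne_zero _ hV.ne)
    (mul_ne_zero (zpow_ne_zero _ hH'0) (zpow_ne_zero _ hu'.ne)), ?_⟩
  have h3 : UC V ((h' ^ q / H' ^ m) ^ A) 1 := by
    have h4 : UC V (h' ^ q / H' ^ m) 1 := by
      have := h2.symm.div h2.rfl_left
      rwa [div_self h2.ne] at this
    have := h4.zpow A
    rwa [one_zpow] at this
  have e1 : h / (u ^ n * (H' ^ A * h' ^ B)) ^ m = (h' ^ q / H' ^ m) ^ A := by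
    have h5 : h / (u ^ n * (H' ^ A * h' ^ B)) ^ m = h' / (H' ^ A * h' ^ B) ^ m := by
      rw [hh', mul_pow, div_div]
    have h6 : (H' ^ A * h' ^ B) ^ m = (H' ^ m) ^ A * h' ^ ((m : ℤ) * B) := by
      rw [mul_pow, ← zpow_natCast (H' ^ A), ← zpow_mul, mul_comm A, zpow_mul, zpow_natCast,
        ← zpow_natCast (h' ^ B), ← zpow_mul, mul_comm B]
    have h7 : h' = (h' ^ q) ^ A * h' ^ ((m : ℤ) * B) := by
      have h8 : (h' ^ q) ^ A * h' ^ ((m : ℤ) * B) = h' ^ ((q : ℤ) * A + m * B) := by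
        rw [zpow_add₀ hu'.ne, zpow_mul h' (q : ℤ) A, zpow_natCast]
      rw [h8, hbez, zpow_one]
    rw [h5, h6]
    have h9 : h' ^ ((m : ℤ) * B) ≠ 0 := zpow_ne_zero _ hu'.ne
    calc h' / ((H' ^ m) ^ A * h' ^ ((m : ℤ) * B))
        = ((h' ^ q) ^ A * h' ^ ((m : ℤ) * B)) / ((H' ^ m) ^ A * h' ^ ((m : ℤ) * B)) := by
          rw [← h7]
      _ = (h' ^ q / H' ^ m) ^ A := by
          rw [mul_div_mul_right _ _ h9, div_zpow]
  rw [e1]
  exact h3

end Norm

/-- the norms, along the components `P i` -/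
structure NormR {ι : Type} {O M F : Type u} [CommRing O] [Field M] [Field F] [Algebra O F]
    [Algebra M F] (q : ℕ) (P : ι → ValuationSubring F) (i0 i1 : ι) (Na Nb : F →* F) : Prop where
  aO : ∀ a : O, Na (algebraMap O F a) = algebraMap O F a ^ q
  bO : ∀ a : O, Nb (algebraMap O F a) = algebraMap O F a ^ q
  na : ∀ i, i ≠ i0 → i ≠ i1 → ∀ x, UC (P i) x x → UC (P i) (Na x) (x ^ q)
  nb0 : ∀ x, UC (P i0) x x → UC (P i0) (Nb x) (x ^ q)
  nb1 : ∀ x, UC (P i1) x x → UC (P i1) (Nb x) (x ^ q)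
  n0 : ∀ (x : F) (f0 f1 : M), UC (P i0) x (algebraMap M F f0) → UC (P i1) x (algebraMap M F f1) →
    UC (P i0) (Na x) (algebraMap M F f0 * algebraMap M F f1 ^ (q - 1))

/-- the function `h`, its roots along the components, the roots of its norms -/
structure KitR {ι : Type} {O F : Type u} [CommRing O] [Field F] [Algebra O F] (m : ℕ)
    (P : ι → ValuationSubring F) (i0 i1 : ι) (Na Nb : F →* F) (h Ha Hb G : F) (g : ι → F)
    (ξ : ι → O) (ξa ξb0 ξb1 : O) : Prop where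
  h_ne : h ≠ 0
  g_ne : ∀ i, g i ≠ 0
  G_ne : G ≠ 0
  hg : ∀ i, UC (P i) (h / g i ^ m) 1
  nma : Na h = Ha ^ m
  nmb : Nb h = Hb ^ m
  a : ∀ i, i ≠ i0 → i ≠ i1 → UC (P i) (Ha / Na (g i)) (algebraMap O F (ξ i))
  b0 : UC (P i0) (Hb / Nb (g i0)) (algebraMap O F ξb0)
  b1 : UC (P i1) (Hb / Nb (g i1)) (algebraMap O F ξb1)
  G0 : UC (P i0) (G / g i0) 1
  G1 : UC (P i1) (G / g i1) 1
  a0 : UC (P i0) (Ha / Na G) (algebraMap O F ξa)
  hξ : ∀ i, ξ i ^ m = 1
  hξa : ξa ^ m = 1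
  hξb0 : ξb0 ^ m = 1
  hξb1 : ξb1 ^ m = 1

section Kit

variable {ι : Type} {O M F : Type u} [CommRing O] [IsDomain O] [IsDiscreteValuationRing O]
  [Field M] [Field F] [Algebra O F] [Algebra M F] {π : O} {q m : ℕ}
  {P : ι → ValuationSubring F} {i0 i1 : ι} {Na Nb : F →* F} {ϖ : ι → F} {e : ι → ℤ}

theorem exists_xi {ζ : O} (hζ : IsPrimitiveRoot ζ m) (hm : 0 < m) {V : ValuationSubring F}
    (hO : ∀ o : O, algebraMap O F o ∈ V) {x : F} (h : UC V (x ^ m) 1) :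
    ∃ η : O, η ^ m = 1 ∧ UC V x (algebraMap O F η) := by
  have hx : x ≠ 0 := by
    rintro rfl
    rw [zero_pow hm.ne'] at h
    exact h.ne rfl
  obtain ⟨η, h1, h2⟩ := UC.exists_root (b := 1) hζ hm hO hx one_ne_zero (by rwa [one_pow])
  exact ⟨η, h1, by rwa [mul_one] at h2⟩

theorem exists_kit (hOP : ∀ i (o : O), algebraMap O F o ∈ P i) (hne : P i0 ≠ P i1)
    (hU : ∀ i, Uni (P i) (ϖ i)) (hπe : ∀ i, Vl (P i) (ϖ i) (algebraMap O F π) (e i))
    (he : ∀ i, e i ≠ 0) (he0 : e i0 = 1)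
    (B : NormR (O := O) (M := M) q P i0 i1 Na Nb) (hq : 1 ≤ q) (hm : 0 < m)
    (hqm : Nat.Coprime q m) {ζ : O} (hζ : IsPrimitiveRoot ζ m)
    (hroot : ∀ u : O, IsUnit u → ∃ v : O, v ^ m = u) {h : F} {n : ℤ}
    (hv0 : Vl (P i0) (ϖ i0) h (m * n)) (hNa : NmP π Na m h) (hNb : NmP π Nb m h) :
    ∃ (Ha Hb G : F) (g : ι → F) (ξ : ι → O) (ξa ξb0 ξb1 : O),
      KitR m P i0 i1 Na Nb h Ha Hb G g ξ ξa ξb0 ξb1 := by
  have h0 : h ≠ 0 := hv0.ne
  have hp0 : algebraMap O F π ≠ 0 := (hπe i0).ne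
  have uc_unit : ∀ i {o : O}, IsUnit o → UC (P i) (algebraMap O F o) (algebraMap O F o) := by
    rintro i o ⟨v, rfl⟩
    have h1 : algebraMap O F (v : O) * algebraMap O F (↑v⁻¹ : O) = 1 := by
      rw [← map_mul, Units.mul_inv, map_one]
    exact UC.refl (left_ne_zero_of_mul_eq_one h1) (hOP i _) (by
      rw [inv_eq_of_mul_eq_one_right h1]; exact hOP i _)
  -- the norm is an `m`-th power
  have root_of : ∀ {Nm : F →* F} {k : ℤ} {u : O} {H : F}, IsUnit u →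
      Nm h = algebraMap O F π ^ k * algebraMap O F u * H ^ m → (m : ℤ) ∣ k →
      ∃ H' : F, Nm h = H' ^ m := by
    rintro Nm k u H hu hH ⟨j, rfl⟩
    obtain ⟨v, hv⟩ := hroot u hu
    refine ⟨algebraMap O F π ^ j * algebraMap O F v * H, ?_⟩
    rw [hH, mul_pow, mul_pow, ← map_pow, hv, ← zpow_natCast (algebraMap O F π ^ j), ← zpow_mul,
      mul_comm j (m : ℤ)]
  have ne_of : ∀ {Nm : F →* F} {k : ℤ} {u : O} {H : F},
      Nm h = algebraMap O F π ^ k * algebraMap O F u * H ^ m → H ≠ 0 := by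
    rintro Nm k u H hH rfl
    rw [zero_pow hm.ne', mul_zero] at hH
    exact nm_ne h0 hH
  -- `Nb`
  obtain ⟨Hb, hHb⟩ : ∃ Hb : F, Nb h = Hb ^ m := by
    obtain ⟨k, u, H, hu, hH⟩ := hNb
    have hH0 := ne_of hH
    refine root_of hu hH ?_
    have v1 := vl_norm (hU i0) B.nb0 (hπe i0) (he i0) (B.bO π) hv0
    obtain ⟨j, hj⟩ := (hU i0).exists_vl hH0
    have v2 := ((((hπe i0).zpow (hU i0).ne k).of_uc (uc_unit i0 hu) (hU i0).ne).mul
      (hj.pow (hU i0).ne m) (hU i0).ne)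
    rw [← hH, he0] at v2
    have := v1.unique v2 (hU i0)
    exact ⟨q * n - j, by linarith⟩
  -- the roots at `i0`, `i1`
  obtain ⟨g0, hg0, ug0⟩ := exists_root_comp (hU i0) B.nb0 (hπe i0) (he i0) (B.bO π) hqm hm h0 hHb
  obtain ⟨g1, hg1, ug1⟩ := exists_root_comp (hU i1) B.nb1 (hπe i1) (he i1) (B.bO π) hqm hm h0 hHb
  obtain ⟨G, hG, uG0, uG1⟩ := exists_glue (hU i0) (hU i1) hne hg0 hg1
  have hGm : ∀ {V : ValuationSubring F} {g : F}, g ≠ 0 → UC V (h / g ^ m) 1 → UC V (G / g) 1 →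
      UC V (h / G ^ m) 1 := by
    intro V g hg a b
    have := a.div (b.pow m)
    have e1 : h / g ^ m / (G / g) ^ m = h / G ^ m := by
      rw [div_pow]; field_simp
    rwa [e1, one_pow, div_one] at this
  have x0 := hGm hg0 ug0 uG0
  have x1 := hGm hg1 ug1 uG1
  have xN : UC (P i0) (Na (h / G ^ m)) 1 := by
    have := B.n0 (h / G ^ m) 1 1 (by rwa [map_one]) (by rwa [map_one])
    rwa [map_one, one_pow, mul_one] at this
  have hNG : Na (h / G ^ m) = Na h / Na G ^ m := by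
    rw [div_eq_mul_inv, map_mul, hom_inv Na (pow_ne_zero _ hG), map_pow, div_eq_mul_inv]
  -- `Na`
  obtain ⟨Ha, hHa⟩ : ∃ Ha : F, Na h = Ha ^ m := by
    obtain ⟨k, u, H, hu, hH⟩ := hNa
    have hH0 := ne_of hH
    refine root_of hu hH ?_
    obtain ⟨j, hj⟩ := (hU i0).exists_vl hH0
    obtain ⟨j', hj'⟩ := (hU i0).exists_vl (nm_ne (Nm := Na) hG)
    have v2 := ((((hπe i0).zpow (hU i0).ne k).of_uc (uc_unit i0 hu) (hU i0).ne).mul
      (hj.pow (hU i0).ne m) (hU i0).ne)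
    rw [← hH, he0] at v2
    have v3 := v2.div (hj'.pow (hU i0).ne m) (hU i0).ne
    rw [← hNG] at v3
    have := v3.unique (vl_zero_iff.mpr xN.rfl_left) (hU i0)
    exact ⟨j' - j, by linarith⟩
  -- the other roots
  have hgi : ∀ i, ∃ g : F, g ≠ 0 ∧ UC (P i) (h / g ^ m) 1 ∧ (i = i0 → g = g0) ∧
      (i = i1 → g = g1) := by
    intro i
    by_cases hi0 : i = i0
    · subst hi0
      refine ⟨g0, hg0, ug0, fun _ => rfl, fun h => ?_⟩
      exact absurd (congrArg P h) hne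
    by_cases hi1 : i = i1
    · subst hi1
      exact ⟨g1, hg1, ug1, fun h => absurd h hi0, fun _ => rfl⟩
    obtain ⟨g, h1, h2⟩ := exists_root_comp (hU i) (B.na i hi0 hi1) (hπe i) (he i) (B.aO π) hqm hm
      h0 hHa
    exact ⟨g, h1, h2, fun h => absurd h hi0, fun h => absurd h hi1⟩
  choose g hg hgu hgi0 hgi1 using hgi
  have e0 := hgi0 i0 rfl
  have e1 := hgi1 i1 rfl
  have quot : ∀ {Nm : F →* F} {H g : F}, g ≠ 0 → Nm h = H ^ m →
      (H / Nm g) ^ m = Nm (h / g ^ m) := by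
    intro Nm H g hg hH
    rw [div_eq_mul_inv h, map_mul, hom_inv Nm (pow_ne_zero _ hg), map_pow, hH, div_pow,
      div_eq_mul_inv]
  have xiN : ∀ {Nm : F →* F} {H : F} (i : ι), (∀ x, UC (P i) x x → UC (P i) (Nm x) (x ^ q)) →
      Nm h = H ^ m → ∃ η : O, η ^ m = 1 ∧ UC (P i) (H / Nm (g i)) (algebraMap O F η) := by
    intro Nm H i hn hH
    refine exists_xi hζ hm (hOP i) ?_
    rw [quot (hg i) hH]
    have := (hn _ (hgu i).rfl_left).trans ((hgu i).pow q)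
    rwa [one_pow] at this
  have hξ : ∀ i, ∃ η : O, η ^ m = 1 ∧ (i ≠ i0 → i ≠ i1 →
      UC (P i) (Ha / Na (g i)) (algebraMap O F η)) := by
    intro i
    by_cases hi : i ≠ i0 ∧ i ≠ i1
    · obtain ⟨η, a, b⟩ := xiN i (B.na i hi.1 hi.2) hHa
      exact ⟨η, a, fun _ _ => b⟩
    · exact ⟨1, one_pow _, fun a b => absurd ⟨a, b⟩ hi⟩
  choose ξ hξ1 hξ2 using hξ
  obtain ⟨ξb0, b01, b02⟩ := xiN i0 B.nb0 hHb
  obtain ⟨ξb1, b11, b12⟩ := xiN i1 B.nb1 hHb
  obtain ⟨ξa, a1, a2⟩ : ∃ η : O, η ^ m = 1 ∧ UC (P i0) (Ha / Na G) (algebraMap O F η) := by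
    refine exists_xi hζ hm (hOP i0) ?_
    rw [quot hG hHa]
    exact xN
  refine ⟨Ha, Hb, G, g, ξ, ξa, ξb0, ξb1, ?_⟩
  exact ⟨h0, hg, hG, hgu, hHa, hHb, hξ2, b02, b12, by rw [e0]; exact uG0, by rw [e1]; exact uG1,
    a2, hξ1, a1, b01, b11⟩

end Kit

end Fermat.Agent.CR
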