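import Mathlib
import Fermat.Agent.CR.Comp

/-!
Labels at the crossing points of the reduction of `X₀(q ^ r M)`, `r ≥ 3`.
-/

set_option autoImplicit false
set_option linter.unusedSectionVars false
set_option linter.style.haveILetI false
set_option linter.unusedVariables false

open IsLocalRing Polynomial

universe u

namespace Fermat.Agent.CR

open Fermat.Agent.Geo Fermat.Agent.LG Fermat.Agent.CA

/-- the constants at the labels -/
structure LamR {ι : Type} {O : Type u} [CommRing O] (q m : ℕ) (i0 i1 : ι) (ξ : ι → O)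
    (ξa ξb0 ξb1 : O) (Λ : ι → O) : Prop where
  l1 : Λ i1 = (ξa ^ q * ξb1 * ξb0 ^ (m - 1)) ^ (m - 1)
  l0 : Λ i0 = (ξb0 ^ (m - 1) * ξb1) ^ q * (ξa ^ q * ξb1 * ξb0 ^ (m - 1)) ^ (m - 1)
  li : ∀ i, i ≠ i0 → i ≠ i1 → Λ i = (ξ i ^ (m - 1)) ^ q
  pow : ∀ i, Λ i ^ m = 1

theorem exists_lamR {ι : Type} {O : Type u} [CommRing O] {q m : ℕ} {i0 i1 : ι} (hne : i0 ≠ i1)
    {ξ : ι → O} {ξa ξb0 ξb1 : O} (h1 : ∀ i, ξ i ^ m = 1) (h2 : ξa ^ m = 1) (h3 : ξb0 ^ m = 1)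
    (h4 : ξb1 ^ m = 1) : ∃ Λ : ι → O, LamR q m i0 i1 ξ ξa ξb0 ξb1 Λ := by
  classical
  have e : ∀ (x : O) (n : ℕ), x ^ m = 1 → (x ^ n) ^ m = 1 := fun x n h => by
    rw [← pow_mul, mul_comm, pow_mul, h, one_pow]
  have k1 : ((ξa ^ q * ξb1 * ξb0 ^ (m - 1)) ^ (m - 1)) ^ m = 1 := by
    apply e
    rw [mul_pow, mul_pow, e _ _ h2, h4, e _ _ h3, one_mul, one_mul]
  refine ⟨fun i => if i = i0 then (ξb0 ^ (m - 1) * ξb1) ^ q *
    (ξa ^ q * ξb1 * ξb0 ^ (m - 1)) ^ (m - 1) else if i = i1 then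
    (ξa ^ q * ξb1 * ξb0 ^ (m - 1)) ^ (m - 1) else (ξ i ^ (m - 1)) ^ q, ?_, ?_, ?_, ?_⟩
  · simp [hne.symm]
  · simp
  · intro i hi0 hi1
    simp [hi0, hi1]
  · intro i
    split_ifs
    · rw [mul_pow, k1, mul_one]
      apply e
      rw [mul_pow, e _ _ h3, h4, one_mul]
    · exact k1
    · exact e _ _ (e _ _ (h1 i))

/-- the algebra of the labels -/
theorem label_algR {κ : Type*} [Field κ] {q m : ℕ} (hq : 1 ≤ q) (hm : 0 < m)
    {R0 R1 k k' a b0 b1 : κ} (ha : a ^ m = 1) (hb0 : b0 ^ m = 1) (hb1 : b1 ^ m = 1)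
    (E0 : k = a * (R0 * R1 ^ (q - 1))) (F0 : k' = b0 * R0 ^ q) (F1 : k' = b1 * R1 ^ q) :
    R1 ^ (q ^ 2) = (a ^ q * b1 * b0 ^ (m - 1)) ^ (m - 1) * k ^ q ∧
    R0 ^ (q ^ 2) = ((b0 ^ (m - 1) * b1) ^ q * (a ^ q * b1 * b0 ^ (m - 1)) ^ (m - 1)) * k ^ q := by
  have inv : ∀ c : κ, c ^ m = 1 → c ^ (m - 1) * c = 1 := fun c hc => by
    rw [← pow_succ, Nat.sub_add_cancel hm]; exact hc
  have e : ∀ (x : κ) (n : ℕ), x ^ m = 1 → (x ^ n) ^ m = 1 := fun x n h => by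
    rw [← pow_mul, mul_comm, pow_mul, h, one_pow]
  have hc : (a ^ q * b1 * b0 ^ (m - 1)) ^ m = 1 := by
    rw [mul_pow, mul_pow, e _ _ ha, hb1, e _ _ hb0, one_mul, one_mul]
  have h1 : R0 ^ q = b0 ^ (m - 1) * b1 * R1 ^ q := by
    have h2 : b0 * R0 ^ q = b1 * R1 ^ q := F0.symm.trans F1
    have h3 := inv b0 hb0
    linear_combination b0 ^ (m - 1) * h2 - R0 ^ q * h3
  have h2 : k ^ q = a ^ q * b1 * b0 ^ (m - 1) * R1 ^ (q ^ 2) := by
    have h3 : R1 ^ (q ^ 2) = R1 ^ q * (R1 ^ (q - 1)) ^ q := by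
      rw [← pow_mul, ← pow_add]
      congr 1
      obtain ⟨n, rfl⟩ : ∃ n, q = n + 1 := ⟨q - 1, by omega⟩
      rw [Nat.add_sub_cancel]; ring
    rw [E0, mul_pow, mul_pow, h1, h3]
    ring
  have h3 : R1 ^ (q ^ 2) = (a ^ q * b1 * b0 ^ (m - 1)) ^ (m - 1) * k ^ q := by
    rw [h2, ← mul_assoc, inv _ hc, one_mul]
  refine ⟨h3, ?_⟩
  have h4 : R0 ^ (q ^ 2) = (R0 ^ q) ^ q := by rw [← pow_mul, sq]
  have h5 : R1 ^ (q ^ 2) = (R1 ^ q) ^ q := by rw [← pow_mul, sq]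
  rw [h4, h1, mul_pow, ← h5, h3]
  ring

section

variable {O K M F : Type u} [CommRing O] [IsDomain O] [IsDiscreteValuationRing O]
  [Field K] [Field M] [Field F] [Algebra O K] [Algebra O F] [Algebra K F] [Algebra M F]
  [IsScalarTower O K F] {t : K} {π : O} [FiniteDimensional K F] [Algebra.IsSeparable K F]
  {ht : IsParam O t} {hπ : Prime π} {q m : ℕ} {ι : Type} {P : ι → ValuationSubring F}
  {i0 i1 : ι} {Na Nb : F →* F}
  {y : Ideal (chart O (algebraMap K F t))} [hy : y.IsPrime]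

theorem nm_div {Nm : F →* F} {x z : F} (hz : z ≠ 0) : Nm (x / z) = Nm x / Nm z := by
  rw [div_eq_mul_inv, map_mul, hom_inv Nm hz, div_eq_mul_inv]

theorem ptAt_crossR (hov : ∀ i, Over (gaussVal ht hπ) (algebraMap O K π) (P i))
    (hmt : ∀ i, Meets y (P i)) (hval : ∀ i, ValAt y (P i)) (hq : 1 ≤ q) (hm : 0 < m)
    (B : NormR (O := O) (M := M) q P i0 i1 Na Nb)
    (hNaS : ∀ v ∈ locS y, Na v ∈ locS y) (hNbS : ∀ v ∈ locS y, Nb v ∈ locS y)
    (hres : ∀ i, i = i0 ∨ i = i1 → ∀ r ∈ locS y, ¬ locM y r →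
      ∃ f : M, algebraMap M F f ∈ locS y ∧ UC (P i) r (algebraMap M F f))
    {h Ha Hb G : F} {g : ι → F} {ξ : ι → O} {ξa ξb0 ξb1 : O}
    (k : KitR m P i0 i1 Na Nb h Ha Hb G g ξ ξa ξb0 ξb1) {Λ : ι → O}
    (L : LamR q m i0 i1 ξ ξa ξb0 ξb1 Λ) {gy : F} (hgy : gy ≠ 0) (hv : h / gy ^ m ∈ locS y)
    (hvM : ¬ locM y (h / gy ^ m)) :
    PtAt y (fun i => Meets y (P i)) P g Λ h m (q ^ 2) := by
  classical
  -- the local residues
  have hru : ∀ i, ∃ r ∈ locS y, ¬ locM y r ∧ UC (P i) (g i / gy) r := by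
    intro i
    obtain ⟨r, hr, hrM, hrg⟩ := exists_r (hov i) (hmt i) (hval i) hm hgy (k.g_ne i) hv hvM
      (k.hg i).sub
    obtain ⟨v1, v2, v3⟩ := meets_notMem (hov i) (hmt i) hr hrM
    exact ⟨r, hr, hrM, UC.mk_right (by intro h0; rw [h0] at v3; exact v3 (zero_mem_nonunits _))
      v1 v2 hrg⟩
  choose r hr hrM hrg using hru
  have hOl : ∀ o : O, algebraMap O F o ∈ locS y := fun o =>
    mem_locS_of_mem ((chart O _).algebraMap_mem _)
  have hOP : ∀ i (o : O), algebraMap O F o ∈ P i := fun i o => locS_le_over (hov i) (hmt i) (hOl o)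
  have hxu : ∀ i {o : O}, o ^ m = 1 → UC (P i) (algebraMap O F o) (algebraMap O F o) := by
    intro i o ho
    have : UC (P i) ((algebraMap O F o) ^ m) ((algebraMap O F o) ^ m) := by
      rw [← map_pow, ho, map_one]; exact UC.one
    refine UC.refl ?_ (hOP i o) (mem_of_pow_mem' hm (by rw [inv_pow]; exact this.inv))
    intro h0
    rw [h0, zero_pow hm.ne'] at this
    exact this.ne rfl
  -- the quotients of the roots of the norms
  have key : ∀ {Nm : F →* F} {H : F}, (∀ v ∈ locS y, Nm v ∈ locS y) → Nm h = H ^ m →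
      H / Nm gy ∈ locS y := by
    intro Nm H hS hH
    apply locS_of_pow hm
    have : (H / Nm gy) ^ m = Nm (h / gy ^ m) := by
      rw [nm_div (pow_ne_zero _ hgy), map_pow, hH, div_pow]
    rw [this]
    exact hS _ hv
  have ka := key hNaS k.nma
  have kb := key hNbS k.nmb
  set kA := Ha / Na gy with hkA
  set kB := Hb / Nb gy with hkB
  have comp : ∀ {Nm : F →* F} {H : F} {o : O} (i : ι),
      (∀ x, UC (P i) x x → UC (P i) (Nm x) (x ^ q)) →
      UC (P i) (H / Nm (g i)) (algebraMap O F o) →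
      UC (P i) (H / Nm gy) (algebraMap O F o * r i ^ q) := by
    intro Nm H o i hn ho
    have h1 := (hn _ (hrg i).rfl_left).trans ((hrg i).pow q)
    have h2 := ho.mul h1
    have e : H / Nm (g i) * Nm (g i / gy) = H / Nm gy := by
      rw [nm_div hgy]
      have := nm_ne (Nm := Nm) (k.g_ne i)
      field_simp
    rwa [e] at h2
  have A : ∀ i, i ≠ i0 → i ≠ i1 → locM y (kA - algebraMap O F (ξ i) * r i ^ q) := by
    intro i hi0 hi1
    have := comp i (B.na i hi0 hi1) (k.a i hi0 hi1)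
    exact locM_of_nonunits (hov i) (hmt i) (sub_mem ka (mul_mem (hOl _) (pow_mem (hr i) _)))
      this.sub
  have B0 : locM y (kB - algebraMap O F ξb0 * r i0 ^ q) :=
    locM_of_nonunits (hov i0) (hmt i0) (sub_mem kb (mul_mem (hOl _) (pow_mem (hr i0) _)))
      (comp i0 B.nb0 k.b0).sub
  have B1 : locM y (kB - algebraMap O F ξb1 * r i1 ^ q) :=
    locM_of_nonunits (hov i1) (hmt i1) (sub_mem kb (mul_mem (hOl _) (pow_mem (hr i1) _)))
      (comp i1 B.nb1 k.b1).sub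
  -- the link
  obtain ⟨f0, hf0, uf0⟩ := hres i0 (Or.inl rfl) _ (hr i0) (hrM i0)
  obtain ⟨f1, hf1, uf1⟩ := hres i1 (Or.inr rfl) _ (hr i1) (hrM i1)
  have G0 : UC (P i0) (G / gy) (algebraMap M F f0) := by
    have := k.G0.mul ((hrg i0).trans uf0)
    have e : G / g i0 * (g i0 / gy) = G / gy := by
      have := k.g_ne i0
      field_simp
    rwa [e, one_mul] at this
  have G1 : UC (P i1) (G / gy) (algebraMap M F f1) := by
    have := k.G1.mul ((hrg i1).trans uf1)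
    have e : G / g i1 * (g i1 / gy) = G / gy := by
      have := k.g_ne i1
      field_simp
    rwa [e, one_mul] at this
  have A0 : locM y (kA - algebraMap O F ξa * (algebraMap M F f0 * algebraMap M F f1 ^ (q - 1))) := by
    have h1 := k.a0.mul (B.n0 _ f0 f1 G0 G1)
    have e : Ha / Na G * Na (G / gy) = kA := by
      rw [nm_div hgy, hkA]
      have := nm_ne (Nm := Na) k.G_ne
      field_simp
    rw [e] at h1
    exact locM_of_nonunits (hov i0) (hmt i0) (sub_mem ka (mul_mem (hOl _)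
      (mul_mem hf0 (pow_mem hf1 _)))) h1.sub
  have d0 : locM y (r i0 - algebraMap M F f0) :=
    locM_of_nonunits (hov i0) (hmt i0) (sub_mem (hr i0) hf0) uf0.sub
  have d1 : locM y (r i1 - algebraMap M F f1) :=
    locM_of_nonunits (hov i1) (hmt i1) (sub_mem (hr i1) hf1) uf1.sub
  -- the residue field
  haveI := isLocalRing_locS (y := y)
  let j : O →+* locS y := (algebraMap O F).codRestrict (locS y) hOl
  let res := IsLocalRing.residue (locS y)
  have hres' : ∀ x : locS y, res x = 0 ↔ locM y (x : F) := fun x => by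
    rw [IsLocalRing.residue_eq_zero_iff, mem_maximalIdeal_locS]
  have heq : ∀ (x z : F) (hx : x ∈ locS y) (hz : z ∈ locS y), locM y (x - z) →
      res ⟨x, hx⟩ = res ⟨z, hz⟩ := by
    intro x z hx hz h
    rw [← sub_eq_zero, ← map_sub, hres']
    exact h
  have hp : ∀ {x : O}, x ^ m = 1 → (res (j x)) ^ m = 1 := fun {x} hx => by
    rw [← map_pow, ← map_pow, hx, map_one, map_one]
  have E : ∀ i, i ≠ i0 → i ≠ i1 → res ⟨kA, ka⟩ = res (j (ξ i)) * res ⟨r i, hr i⟩ ^ q := by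
    intro i hi0 hi1
    rw [heq _ _ ka (mul_mem (hOl _) (pow_mem (hr i) _)) (A i hi0 hi1)]
    rw [← map_pow, ← map_mul]
    rfl
  have F0 : res ⟨kB, kb⟩ = res (j ξb0) * res ⟨r i0, hr i0⟩ ^ q := by
    rw [heq _ _ kb (mul_mem (hOl _) (pow_mem (hr i0) _)) B0]
    rw [← map_pow, ← map_mul]
    rfl
  have F1 : res ⟨kB, kb⟩ = res (j ξb1) * res ⟨r i1, hr i1⟩ ^ q := by
    rw [heq _ _ kb (mul_mem (hOl _) (pow_mem (hr i1) _)) B1]
    rw [← map_pow, ← map_mul]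
    rfl
  have E0 : res ⟨kA, ka⟩ = res (j ξa) * (res ⟨r i0, hr i0⟩ * res ⟨r i1, hr i1⟩ ^ (q - 1)) := by
    have e3 : res (j ξa) * (res ⟨_, hf0⟩ * res ⟨_, hf1⟩ ^ (q - 1)) =
        res (j ξa * (⟨_, hf0⟩ * ⟨_, hf1⟩ ^ (q - 1))) := by rw [map_mul, map_mul, map_pow]
    rw [heq _ _ (hr i0) hf0 d0, heq _ _ (hr i1) hf1 d1,
      heq _ _ ka (mul_mem (hOl _) (mul_mem hf0 (pow_mem hf1 _))) A0, e3]
    rfl
  obtain ⟨L1, L0⟩ := label_algR hq hm (hp k.hξa) (hp k.hξb0) (hp k.hξb1) E0 F0 F1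
  have Lall : ∀ i, res ⟨r i, hr i⟩ ^ (q ^ 2) = res (j (Λ i)) * res ⟨kA, ka⟩ ^ q := by
    intro i
    by_cases hi0 : i = i0
    · subst hi0
      rw [L0, L.l0]
      simp only [map_mul, map_pow]
    by_cases hi1 : i = i1
    · subst hi1
      rw [L1, L.l1]
      simp only [map_mul, map_pow]
    rw [L.li i hi0 hi1, E i hi0 hi1]
    have h1 : res (j (ξ i)) ^ (m - 1) * res (j (ξ i)) = 1 := by
      rw [← pow_succ, Nat.sub_add_cancel hm]; exact hp (k.hξ i)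
    have h2 : res (j ((ξ i ^ (m - 1)) ^ q)) = (res (j (ξ i)) ^ (m - 1)) ^ q := by
      simp only [map_pow]
    rw [h2, ← mul_pow, ← mul_assoc, h1, one_mul, ← pow_mul, sq]
  intro i i' hi hi'
  refine ⟨gy, hgy, hv, hvM, _, hr i, _, hr i', hrM i, hrM i', (hrg i).sub, (hrg i').sub, ?_⟩
  have hfin : res (j (Λ i')) * res ⟨r i, hr i⟩ ^ (q ^ 2) =
      res (j (Λ i)) * res ⟨r i', hr i'⟩ ^ (q ^ 2) := by
    rw [Lall i, Lall i']; ring
  rw [← sub_eq_zero] at hfin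
  simp only [← map_mul, ← map_pow, ← map_sub] at hfin
  rw [hres'] at hfin
  exact hfin

end

end Fermat.Agent.CR
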