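import Mathlib
import Fermat.Agent.CR.Lab
import Fermat.Agent.CA.CuspV

/-!
The abstract theorem for `X₀(q ^ r M)`, `r ≥ 3`.
-/

set_option autoImplicit false
set_option linter.unusedSectionVars false
set_option linter.style.haveILetI false
set_option linter.unusedVariables false

open IsLocalRing Polynomial ModularCurve

noncomputable section

universe u

namespace Fermat.Agent.CR

open Fermat.Agent.Geo Fermat.Agent.LG Fermat.Agent.CA Fermat.Agent.ModFun

/-- a point through which at most one component passes -/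
structure SingleAt {O K F : Type u} [CommRing O] [Field K] [Field F] [Algebra O K] [Algebra O F]
    [Algebra K F] [IsScalarTower O K F] {s : K} {ι : Type}
    (y : Ideal (chart O (algebraMap K F s))) [y.IsPrime]
    (P : ι → ValuationSubring F) : Prop where
  disj : ∀ i j, Meets y (P i) → Meets y (P j) → i = j
  loc : ∀ i, Meets y (P i) → ∃ a, LocEq y (P i) a
  val : ∀ i, Meets y (P i) → ValAt y (P i)

/-- a crossing point -/
structure CrossAt {O K F : Type u} (M : Type u) [CommRing O] [Field K] [Field F] [Field M]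
    [Algebra O K] [Algebra O F] [Algebra K F] [Algebra M F] [IsScalarTower O K F] {s : K} {ι : Type}
    (y : Ideal (chart O (algebraMap K F s))) [y.IsPrime]
    (P : ι → ValuationSubring F) (i0 i1 : ι) (Na Nb : F →* F) : Prop where
  meet : ∀ i, Meets y (P i)
  val : ∀ i, ValAt y (P i)
  loc : ∃ i a, LocEq y (P i) a
  na : ∀ v ∈ locS y, Na v ∈ locS y
  nb : ∀ v ∈ locS y, Nb v ∈ locS y
  res : ∀ i, i = i0 ∨ i = i1 → ∀ r ∈ locS y, ¬ locM y r →
    ∃ f : M, algebraMap M F f ∈ locS y ∧ UC (P i) r (algebraMap M F f)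

section Val

variable {O K F : Type u} [CommRing O] [IsDomain O] [IsDiscreteValuationRing O] [CharZero O]
  [Field K] [Field F] [Algebra O K] [Algebra O F] [Algebra K F] [IsScalarTower O K F]
  {t : K} {π : O} [FiniteDimensional K F] [Algebra.IsSeparable K F]
  {ht : IsParam O t} {hπ : Prime π} {ι : Type} [Fintype ι] {P : ι → ValuationSubring F} {i0 : ι}
  {L : Type u} [Field L] [Algebra O L] [IsFractionRing O L] {θ : F →+* LaurentSeries L}

theorem sys_inv (sys : CompSys ht hπ P) : CompSys ht.inv hπ P where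
  ov i := by rw [gaussVal_inv ht ht.inv hπ]; exact sys.ov i
  all W hW := sys.all W (by rwa [gaussVal_inv ht ht.inv hπ] at hW)
  rank := sys.rank

theorem dvd_valR (sys : CompSys ht hπ P)
    (θC : ∀ a : O, θ (algebraMap O F a) = HahnSeries.C (algebraMap O L a))
    {Z : PowerSeries L} (hs : θ (algebraMap K F t⁻¹) = HahnSeries.ofPowerSeries ℤ L Z)
    (hZ : PowerSeries.constantCoeff Z = 0)
    (hI0 : Meets (yI θC hs hZ) (P i0))
    (hIs : ∀ [(yI θC hs hZ).IsPrime], SingleAt (yI θC hs hZ) P)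
    {m : ℕ} (hm : 0 < m) {h₀ : F} (hor : Hor π m h₀) {n : ℤ}
    (hn : Vl (P i0) (algebraMap O F π) h₀ n) {y : LaurentSeries L} (hy : y ^ m = θ h₀) :
    (m : ℤ) ∣ n := by
  have hti : algebraMap K F t⁻¹ = (algebraMap K F t)⁻¹ := map_inv₀ _ _
  have hp0 : algebraMap O F π ≠ 0 := pi_ne_zero ht hπ
  have sys' := sys_inv sys
  haveI hIm : (yI θC hs hZ).IsMaximal := yI_max θC hs hZ
  haveI hIp : (yI θC hs hZ).IsPrime := hIm.isPrime'
  set I := yI θC hs hZ with hI
  have hS := hIs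
  obtain ⟨a, hLE⟩ := hS.loc i0 hI0
  have h' : UC (P i0) (h₀ / algebraMap O F π ^ n) (h₀ / algebraMap O F π ^ n) := hn
  obtain ⟨g, hg0, hg1, hg2⟩ := exists_local_pow' hLE hI0 (sys'.ov i0) (hS.val i0 hI0) hm
    h'.ne (fun V hV hOV hπV => by
      obtain ⟨g, hg0, hg1, hg2⟩ := hor V hV hOV hπV
      have hz : ∀ k : ℤ, algebraMap O F π ^ k ∈ V := fun k => by
        cases k with
        | ofNat k => rw [Int.ofNat_eq_natCast, zpow_natCast]; exact pow_mem (hOV π) _
        | negSucc k =>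
          rw [zpow_negSucc, ← inv_pow]
          exact pow_mem hπV _
      refine ⟨g, hg0, ?_, ?_⟩
      · have := V.mul_mem _ _ hg1 (hz (-n))
        rwa [zpow_neg, mul_assoc, ← div_eq_mul_inv] at this
      · have := V.mul_mem _ _ hg2 (hz n)
        have e : (g ^ m * (h₀ / algebraMap O F π ^ n))⁻¹ = (g ^ m * h₀)⁻¹ * algebraMap O F π ^ n := by
          rw [← mul_div_assoc, inv_div, div_eq_mul_inv, mul_comm]
        rwa [e]) (fun W hW hWI => by
      obtain ⟨i, rfl⟩ := sys'.all W hW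
      have hi : Meets I (P i) := by
        intro c hc
        by_contra hcI
        have h3 := hWI _ (inv_mem_locS hcI)
        exact notMem_nonunits_of_inv h3 (ne_zero_of_notMem hcI) hc
      obtain rfl := hS.disj i0 i hI0 hi
      exact ⟨1, one_ne_zero, by rw [one_pow, one_mul]; exact h'.mem,
        by rw [one_pow, one_mul]; exact h'.inv⟩)
  have hun := (locS_un θC hs hZ (hy := hIp) hg1).mp hg2
  obtain ⟨-, u, hu⟩ := id hun
  -- leading coefficients
  have e1 : θ h₀ = HahnSeries.C (algebraMap O L π ^ n) *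
      (θ (h₀ / algebraMap O F π ^ n / g ^ m) * θ g ^ m) := by
    rw [← map_pow, ← map_mul, div_mul_cancel₀ _ (pow_ne_zero _ hg0), map_zpow₀, ← θC, ← map_zpow₀,
      ← map_mul, mul_div_cancel₀ _ (zpow_ne_zero _ hp0)]
  have hlp : ∀ (x : LaurentSeries L) (k : ℕ), (x ^ k).leadingCoeff = x.leadingCoeff ^ k := by
    intro x k
    induction k with
    | zero => rw [pow_zero, pow_zero, HahnSeries.leadingCoeff_one]
    | succ k ih => rw [pow_succ, HahnSeries.leadingCoeff_mul, ih, pow_succ]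
  have e2 := congrArg HahnSeries.leadingCoeff e1
  have hC : (HahnSeries.C (algebraMap O L π ^ n) : LaurentSeries L).leadingCoeff =
      algebraMap O L π ^ n := by
    rw [HahnSeries.C_apply, HahnSeries.leadingCoeff_of_single]
  rw [← hy, HahnSeries.leadingCoeff_mul, HahnSeries.leadingCoeff_mul, hlp, hlp, hu, hC] at e2
  have hgl : (θ g).leadingCoeff ≠ 0 := by
    rw [HahnSeries.leadingCoeff_ne_zero, Ne, _root_.map_eq_zero]
    exact hg0
  refine dvd_of_pow_eq hπ (z := y.leadingCoeff / (θ g).leadingCoeff) (u := u) ?_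
  rw [div_pow, e2]
  field_simp

end Val

section Main

variable {O K M F : Type u} [CommRing O] [IsDomain O] [IsDiscreteValuationRing O] [CharZero O]
  [Field K] [Field M] [Field F] [Algebra O K] [Algebra O F] [Algebra K F] [Algebra M F]
  [IsScalarTower O K F]
  {t : K} {π : O} [FiniteDimensional K F] [Algebra.IsSeparable K F]
  {ht : IsParam O t} {hπ : Prime π} {q m : ℕ} {ι : Type} [Fintype ι]
  {P : ι → ValuationSubring F} {i0 i1 : ι} {Na Nb : F →* F}

theorem hP_of {h : F} {V : ValuationSubring F} {g : F} (hg : g ≠ 0) (u : UC V (h / g ^ m) 1) :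
    ∃ g : F, g ≠ 0 ∧ g ^ m * h ∈ V ∧ (g ^ m * h)⁻¹ ∈ V := by
  refine ⟨g⁻¹, inv_ne_zero hg, ?_, ?_⟩
  · rw [inv_pow, mul_comm, ← div_eq_mul_inv]; exact u.mem
  · rw [inv_pow, mul_comm, ← div_eq_mul_inv]; exact u.inv

/-- **The abstract theorem.** -/
theorem main_absR (sys : CompSys ht hπ P) (inj : Function.Injective P) (hne : i0 ≠ i1)
    {ϖ : ι → F} {e : ι → ℤ}
    (hU : ∀ i, Uni (P i) (ϖ i)) (hπe : ∀ i, Vl (P i) (ϖ i) (algebraMap O F π) (e i))
    (he : ∀ i, e i ≠ 0) (he0 : e i0 = 1)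
    (B : NormR (O := O) (M := M) q P i0 i1 Na Nb) (hq : 1 ≤ q)
    (hfin : ∀ (y : Ideal (chart O (algebraMap K F t))) [y.IsMaximal] [y.IsPrime],
      SingleAt y P ∨ CrossAt M y P i0 i1 Na Nb)
    (hinf : ∀ (y : Ideal (chart O (algebraMap K F t⁻¹))) [y.IsMaximal] [y.IsPrime],
      (⟨_, self_mem_chart _⟩ : chart O (algebraMap K F t⁻¹)) ∈ y → SingleAt y P)
    {E : Type u} [Field E] [Algebra O E] [Algebra K E] [Algebra F E]
    [IsScalarTower O K E] [IsScalarTower K F E] [IsScalarTower O F E]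
    [FiniteDimensional K E] [Algebra.IsSeparable K E] [FiniteDimensional F E] [IsGalois F E]
    (hinj : Function.Injective (algebraMap O E))
    (hO : ∀ x : E, IsIntegral O x → ∃ o : O, algebraMap O E o = x)
    (hmu : IsUnit (m : O)) (hm : 0 < m) (hqm : Nat.Coprime q m) {ζ : O}
    (hζ : IsPrimitiveRoot ζ m) (hroot : ∀ u : O, IsUnit u → ∃ v : O, v ^ m = u)
    {f : E} {h : F} (hf : f ^ m = algebraMap F E h) {n : ℤ}
    (hv0 : Vl (P i0) (ϖ i0) h (m * n)) (hNa : NmP π Na m h) (hNb : NmP π Nb m h)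
    (hor : Hor π m h) : ∃ a : F, f = algebraMap F E a := by
  have hOP : ∀ i (o : O), algebraMap O F o ∈ P i := fun i a =>
    mem_of_intOver (sys.ov i).1 (intOver_of_mem_chart ht hπ
      ((chart O (algebraMap K F t)).algebraMap_mem a))
  obtain ⟨Ha, Hb, G, g, ξ, ξa, ξb0, ξb1, k⟩ := exists_kit hOP (inj.ne hne) hU hπe he he0 B hq hm
    hqm hζ hroot hv0 hNa hNb
  obtain ⟨Λ, L⟩ := exists_lamR (q := q) hne k.hξ k.hξa k.hξb0 k.hξb1
  have h0 := k.h_ne
  have hf0 : f ≠ 0 := by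
    rintro rfl
    rw [zero_pow hm.ne'] at hf
    exact h0 ((map_eq_zero (algebraMap F E)).mp hf.symm)
  have hPW : ∀ W : ValuationSubring F, Over (gaussVal ht hπ) (algebraMap O K π) W →
      ∃ g : F, g ≠ 0 ∧ g ^ m * h ∈ W ∧ (g ^ m * h)⁻¹ ∈ W := fun W hW => by
    obtain ⟨i, rfl⟩ := sys.all W hW
    exact hP_of (k.g_ne i) (k.hg i)
  have sys' := sys_inv sys
  have hPW' : ∀ W : ValuationSubring F, Over (gaussVal ht.inv hπ) (algebraMap O K π) W →
      ∃ g : F, g ≠ 0 ∧ g ^ m * h ∈ W ∧ (g ^ m * h)⁻¹ ∈ W := fun W hW => by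
    obtain ⟨i, rfl⟩ := sys'.all W hW
    exact hP_of (k.g_ne i) (k.hg i)
  have hg1 : ∀ i, h / g i ^ m - 1 ∈ (P i).nonunits := fun i => (k.hg i).sub
  have hO' : ∀ W : ValuationSubring E, Over (gaussVal ht hπ) (algebraMap O K π) W →
      Over (gaussVal ht hπ) (algebraMap O K π) (W.comap (algebraMap F E)) := by
    intro W hW
    refine ⟨fun x hx => ?_, ?_⟩
    · rw [ValuationSubring.mem_comap, ← IsScalarTower.algebraMap_apply]
      exact hW.1 x hx
    · rw [comap_mem_nonunits, ← IsScalarTower.algebraMap_apply]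
      exact hW.2
  obtain ⟨W₁, hW₁⟩ : ∃ W₁ : ValuationSubring E, Over (gaussVal ht hπ) (algebraMap O K π) W₁ := by
    haveI : IsDiscreteValuationRing (gaussVal ht hπ) := isDiscreteValuationRing_gaussVal ht hπ
    obtain ⟨ϖ, hϖ, hϖπ⟩ := exists_gauss_unif ht hπ
    obtain ⟨W, hW⟩ := exists_over (E := E) hϖ
    exact ⟨W, by rwa [hϖπ] at hW⟩
  obtain ⟨a, ha⟩ : ∃ a : F, f ^ (q ^ 2) = algebraMap F E a := by
    refine pow_mem_of_labels ht ht.inv hπ hinj hO hmu hm hζ inj
      (fun W hW => sys.all _ (hO' W hW)) hW₁ hf0 hf k.g_ne hg1 L.pow (fun y₀ _ _ => ?_)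
      (fun y₀ _ _ hy => ?_)
    · rcases hfin y₀ with hS | hC
      · exact ptAt_single sys hS.disj hS.loc hS.val hm h0 hor hPW k.g_ne hg1 Λ
      · obtain ⟨i, a, hLE⟩ := hC.loc
        obtain ⟨gy, hgy, hv, hvM⟩ := exists_local_pow hLE (hC.meet i) (sys.ov i) (hC.val i) hm
          h0 hor hPW
        exact ptAt_crossR sys.ov hC.meet hC.val hq hm B hC.na hC.nb hC.res k L hgy hv hvM
    · have hS := hinf y₀ hy
      exact ptAt_single sys' hS.disj hS.loc hS.val hm h0 hor hPW' k.g_ne hg1 Λ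
  -- coprime exponents
  have hcop : Nat.Coprime (q ^ 2) m := hqm.pow_left 2
  have hbez : ((q ^ 2 : ℕ) : ℤ) * Nat.gcdA (q ^ 2) m + m * Nat.gcdB (q ^ 2) m = 1 := by
    rw [← Nat.gcd_eq_gcd_ab, hcop]
    rfl
  refine ⟨a ^ Nat.gcdA (q ^ 2) m * h ^ Nat.gcdB (q ^ 2) m, ?_⟩
  rw [map_mul, map_zpow₀, map_zpow₀, ← ha, ← hf, ← zpow_natCast f (q ^ 2), ← zpow_natCast f m,
    ← zpow_mul, ← zpow_mul, ← zpow_add₀ hf0, hbez, zpow_one]

end Main

end Fermat.Agent.CR
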