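import Mathlib
import Fermat.Agent.CA.Cusp

/-!
Curves with `r + 1` components: crossing points and local equations at the noncuspidal points.
-/

set_option autoImplicit false
set_option linter.unusedSectionVars false
set_option linter.style.haveILetI false
set_option linter.unusedVariables false

open IsLocalRing Polynomial

universe u

namespace Fermat.Agent.CR

open Fermat.Agent.Geo Fermat.Agent.LG Fermat.Agent.CA

/-- The modular units `V k`, `W k` (`1 ≤ k ≤ r`) on a curve with components `P a`, `0 ≤ a ≤ r`: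
`V k` vanishes on the `P a` with `a < k`, `W k` on the `P a` with `k ≤ a`. -/
structure MU {O F : Type u} [CommRing O] [Field F] [Algebra O F] (t : F) (π : O) (q r : ℕ)
    (P : Fin (r + 1) → ValuationSubring F) (V W : ℕ → F) : Prop where
  prod : ∀ k, 1 ≤ k → k ≤ r → ∃ u : O, IsUnit u ∧ V k * W k = algebraMap O F (u * π)
  chV : ∀ k, 1 ≤ k → k ≤ r → ∃ n : ℕ, t ^ n * V k ∈ chart O t
  chW : ∀ k, 1 ≤ k → k ≤ r → ∃ n : ℕ, t ^ n * W k ∈ chart O t
  V_mem : ∀ k, 1 ≤ k → k ≤ r → ∀ a, V k ∈ P a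
  W_mem : ∀ k, 1 ≤ k → k ≤ r → ∀ a, W k ∈ P a
  V_inv : ∀ k, 1 ≤ k → k ≤ r → ∀ a : Fin (r + 1), k ≤ (a : ℕ) → (V k)⁻¹ ∈ P a
  W_inv : ∀ k, 1 ≤ k → k ≤ r → ∀ a : Fin (r + 1), (a : ℕ) < k → (W k)⁻¹ ∈ P a
  congV : ∀ k, 1 ≤ k → ∀ a : Fin (r + 1), k + 1 ≤ (a : ℕ) → ∃ u : O, IsUnit u ∧
    V (k + 1) - algebraMap O F u * V k ^ q ∈ (P a).nonunits
  congW : ∀ k, k + 1 ≤ r → ∀ a : Fin (r + 1), (a : ℕ) < k → ∃ u : O, IsUnit u ∧
    W k - algebraMap O F u * W (k + 1) ^ q ∈ (P a).nonunits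

/-- The uniformisers of the middle components. -/
structure MD {O F : Type u} [CommRing O] [Field F] [Algebra O F] (t : F) (π : O) (r : ℕ)
    (P : Fin (r + 1) → ValuationSubring F) (dd : Fin (r + 1) → F) (e : Fin (r + 1) → ℕ) :
    Prop where
  pos : ∀ a : Fin (r + 1), 1 ≤ (a : ℕ) → (a : ℕ) < r → 1 ≤ e a
  ne : ∀ a : Fin (r + 1), 1 ≤ (a : ℕ) → (a : ℕ) < r → dd a ≠ 0
  ch : ∀ a : Fin (r + 1), 1 ≤ (a : ℕ) → (a : ℕ) < r → ∃ n : ℕ, t ^ n * dd a ∈ chart O t
  non : ∀ a : Fin (r + 1), 1 ≤ (a : ℕ) → (a : ℕ) < r → dd a ∈ (P a).nonunits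
  unif : ∀ a : Fin (r + 1), 1 ≤ (a : ℕ) → (a : ℕ) < r → ∀ x ∈ (P a).nonunits, x / dd a ∈ P a
  om : ∀ a : Fin (r + 1), 1 ≤ (a : ℕ) → (a : ℕ) < r → ∃ g : F, ∃ u : O, IsUnit u ∧
    (∃ n : ℕ, t ^ n * g ∈ chart O t) ∧ g ≠ 0 ∧ g⁻¹ ∈ P a ∧
    dd a ^ (e a) / algebraMap O F π * g - algebraMap O F u ∈ (P a).nonunits

section

variable {O K F : Type u} [CommRing O] [IsDomain O] [IsDiscreteValuationRing O]
  [Field K] [Field F] [Algebra O K] [Algebra O F] [Algebra K F] [IsScalarTower O K F]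
  {t : K} {π : O} [FiniteDimensional K F] [Algebra.IsSeparable K F]
  {ht : IsParam O t} {hπ : Prime π} {q r : ℕ} {P : Fin (r + 1) → ValuationSubring F}
  {V W : ℕ → F}

theorem unitO_inv {A : Type*} {F : Type*} [CommRing A] [Field F] [Algebra A F] {u : A}
    (hu : IsUnit u) :
    ∃ v : A, IsUnit v ∧ (algebraMap A F u)⁻¹ = algebraMap A F v ∧ algebraMap A F u ≠ 0 := by
  obtain ⟨v, rfl⟩ := hu
  have h : algebraMap A F (v : A) * algebraMap A F (↑v⁻¹ : A) = 1 := by
    rw [← map_mul, Units.mul_inv, map_one]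
  exact ⟨(↑v⁻¹ : A), ⟨v⁻¹, rfl⟩, inv_eq_of_mul_eq_one_right h, left_ne_zero_of_mul_eq_one h⟩

namespace MU

variable (S : CompSys ht hπ P) (D : MU (algebraMap K F t) π q r P V W)

include S D

theorem O_mem (i : Fin (r + 1)) (a : O) : algebraMap O F a ∈ P i :=
  mem_of_intOver (S.ov i).1 (intOver_of_mem_chart ht hπ
    ((chart O (algebraMap K F t)).algebraMap_mem a))

theorem pi_non (i : Fin (r + 1)) : algebraMap O F π ∈ (P i).nonunits := by
  have := (S.ov i).2
  rwa [← IsScalarTower.algebraMap_apply] at this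

theorem pi_ne : algebraMap O F π ≠ 0 := pi_ne_zero ht hπ

theorem tF_ne : algebraMap K F t ≠ 0 := by
  rw [Ne, map_eq_zero]; exact ht.ne_zero

theorem VW_ne {k : ℕ} (h1 : 1 ≤ k) (h2 : k ≤ r) : V k ≠ 0 ∧ W k ≠ 0 := by
  obtain ⟨u, hu, h⟩ := D.prod k h1 h2
  have h3 : V k * W k ≠ 0 := by
    rw [h, map_mul]
    exact mul_ne_zero (unitO_inv (F := F) hu).choose_spec.2.2 (pi_ne S D)
  exact ⟨left_ne_zero_of_mul h3, right_ne_zero_of_mul h3⟩

theorem V_non {k : ℕ} (h1 : 1 ≤ k) (h2 : k ≤ r) {a : Fin (r + 1)} (ha : (a : ℕ) < k) :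
    V k ∈ (P a).nonunits := by
  obtain ⟨u, hu, h⟩ := D.prod k h1 h2
  have e : V k = ((W k)⁻¹ * algebraMap O F u) * algebraMap O F π := by
    rw [mul_assoc, ← map_mul, ← h]
    have := (VW_ne S D h1 h2).2
    field_simp
  rw [e]
  exact mul_mem_nonunits (mul_mem (D.W_inv k h1 h2 a ha) (O_mem S D a u)) (pi_non S D a)

theorem W_non {k : ℕ} (h1 : 1 ≤ k) (h2 : k ≤ r) {a : Fin (r + 1)} (ha : k ≤ (a : ℕ)) :
    W k ∈ (P a).nonunits := by
  obtain ⟨u, hu, h⟩ := D.prod k h1 h2
  have e : W k = ((V k)⁻¹ * algebraMap O F u) * algebraMap O F π := by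
    rw [mul_assoc, ← map_mul, ← h]
    have := (VW_ne S D h1 h2).1
    field_simp
  rw [e]
  exact mul_mem_nonunits (mul_mem (D.V_inv k h1 h2 a ha) (O_mem S D a u)) (pi_non S D a)

section Pt

variable {y : Ideal (chart O (algebraMap K F t))} [hy : y.IsPrime]
  (hty : ¬ locM y (algebraMap K F t))

include hty

theorem loc_of {x : F} (h : ∃ n : ℕ, algebraMap K F t ^ n * x ∈ chart O (algebraMap K F t)) :
    x ∈ locS y := by
  obtain ⟨n, hn⟩ := h
  have h1 : algebraMap K F t ∈ locS y := mem_locS_of_mem (self_mem_chart _)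
  have h2 := Subring.mul_mem _ (Subring.pow_mem _ (inv_mem_of_not_locM h1 hty) n)
    (mem_locS_of_mem hn)
  rwa [inv_pow, ← mul_assoc, inv_mul_cancel₀ (pow_ne_zero n (tF_ne S D)), one_mul] at h2

theorem lV {k : ℕ} (h1 : 1 ≤ k) (h2 : k ≤ r) : V k ∈ locS y :=
  loc_of S D hty (D.chV k h1 h2)

theorem lW {k : ℕ} (h1 : 1 ≤ k) (h2 : k ≤ r) : W k ∈ locS y :=
  loc_of S D hty (D.chW k h1 h2)

theorem not_locM_of_inv {x : F} (hx : x⁻¹ ∈ locS y) (hx0 : x ≠ 0) : ¬ locM y x := by
  intro h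
  have := h.mul_right hx
  rw [mul_inv_cancel₀ hx0] at this
  exact not_locM_one this

/-- at a point meeting `P a`, `V k` vanishes if `a < k` -/
theorem locM_V {k : ℕ} (h1 : 1 ≤ k) (h2 : k ≤ r) {a : Fin (r + 1)} (hm : Meets y (P a))
    (ha : (a : ℕ) < k) : locM y (V k) :=
  locM_of_nonunits (S.ov a) hm (lV S D hty h1 h2) (V_non S D h1 h2 ha)

theorem locM_W {k : ℕ} (h1 : 1 ≤ k) (h2 : k ≤ r) {a : Fin (r + 1)} (hm : Meets y (P a))
    (ha : k ≤ (a : ℕ)) : locM y (W k) :=
  locM_of_nonunits (S.ov a) hm (lW S D hty h1 h2) (W_non S D h1 h2 ha)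

/-- `V k` and `V (k + 1)` vanish at the same time at the points of `P a`, `k + 1 ≤ a` -/
theorem locM_V_iff {k : ℕ} (h1 : 1 ≤ k) (hq : 1 ≤ q) {a : Fin (r + 1)} (hm : Meets y (P a))
    (ha : k + 1 ≤ (a : ℕ)) : locM y (V (k + 1)) ↔ locM y (V k) := by
  have har : (a : ℕ) ≤ r := Nat.lt_succ_iff.mp a.2
  have hk := lV S D hty h1 (by omega : k ≤ r)
  have hk1 := lV S D hty (by omega : 1 ≤ k + 1) (by omega : k + 1 ≤ r)
  obtain ⟨u, hu, hcong⟩ := D.congV k h1 a ha
  have hO : ∀ c : O, algebraMap O F c ∈ locS y := fun c =>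
    mem_locS_of_mem ((chart O (algebraMap K F t)).algebraMap_mem c)
  obtain ⟨v, hv, i1, n1⟩ := unitO_inv (F := F) hu
  have h3 := locM_of_nonunits (S.ov a) hm (Subring.sub_mem _ hk1
    (Subring.mul_mem _ (hO u) (Subring.pow_mem _ hk q))) hcong
  constructor
  · intro h4
    have h5 := h4.sub h3
    rw [sub_sub_cancel] at h5
    have h6 := h5.mul_left (hO v)
    rw [← i1, ← mul_assoc, inv_mul_cancel₀ n1, one_mul] at h6
    exact h6.of_pow hk
  · intro h4
    have h5 := h3.add ((h4.pow (n := q) (by omega)).mul_left (hO u))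
    rwa [sub_add_cancel] at h5

theorem locM_W_iff {k : ℕ} (h2 : k + 1 ≤ r) (hq : 1 ≤ q) {a : Fin (r + 1)}
    (hm : Meets y (P a)) (ha : (a : ℕ) < k) : locM y (W k) ↔ locM y (W (k + 1)) := by
  have hk := lW S D hty (by omega : 1 ≤ k) (by omega : k ≤ r)
  have hk1 := lW S D hty (by omega : 1 ≤ k + 1) h2
  obtain ⟨u, hu, hcong⟩ := D.congW k h2 a ha
  have hO : ∀ c : O, algebraMap O F c ∈ locS y := fun c =>
    mem_locS_of_mem ((chart O (algebraMap K F t)).algebraMap_mem c)
  obtain ⟨v, hv, i1, n1⟩ := unitO_inv (F := F) hu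
  have h3 := locM_of_nonunits (S.ov a) hm (Subring.sub_mem _ hk
    (Subring.mul_mem _ (hO u) (Subring.pow_mem _ hk1 q))) hcong
  constructor
  · intro h4
    have h5 := h4.sub h3
    rw [sub_sub_cancel] at h5
    have h6 := h5.mul_left (hO v)
    rw [← i1, ← mul_assoc, inv_mul_cancel₀ n1, one_mul] at h6
    exact h6.of_pow hk1
  · intro h4
    have h5 := h3.add ((h4.pow (n := q) (by omega)).mul_left (hO u))
    rwa [sub_add_cancel] at h5

/-- at a crossing point of `P a` and `P a'`, `a < a'`, all `V j` with `j ≤ a'` vanish -/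
theorem cross_V (hq : 1 ≤ q) {a a' : Fin (r + 1)} (haa : (a : ℕ) < a') (hm : Meets y (P a))
    (hm' : Meets y (P a')) {j : ℕ} (hj : 1 ≤ j) (hj' : j ≤ (a' : ℕ)) : locM y (V j) := by
  have har : (a' : ℕ) ≤ r := Nat.lt_succ_iff.mp a'.2
  have h1 : locM y (V (a' : ℕ)) := locM_V S D hty (by omega) har hm haa
  have h2 : ∀ n, ∀ k, 1 ≤ k → k + n = (a' : ℕ) → locM y (V k) := by
    intro n
    induction n with
    | zero => intro k hk1 hk2; rw [add_zero] at hk2; rw [hk2]; exact h1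
    | succ n ih =>
      intro k hk1 hk2
      have h3 := ih (k + 1) (by omega) (by omega)
      exact (locM_V_iff S D hty hk1 hq hm' (by omega)).mp h3
  exact h2 ((a' : ℕ) - j) j hj (by omega)

/-- at a crossing point of `P a` and `P a'`, `a < a'`, all `W j` with `a < j` vanish -/
theorem cross_W (hq : 1 ≤ q) {a a' : Fin (r + 1)} (haa : (a : ℕ) < a') (hm : Meets y (P a))
    (hm' : Meets y (P a')) {j : ℕ} (hj : (a : ℕ) < j) (hj' : j ≤ r) : locM y (W j) := by
  have har : (a' : ℕ) ≤ r := Nat.lt_succ_iff.mp a'.2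
  have h1 : locM y (W ((a : ℕ) + 1)) := locM_W S D hty (by omega) (by omega) hm' (by omega)
  have h2 : ∀ n, (a : ℕ) + 1 + n ≤ r → locM y (W ((a : ℕ) + 1 + n)) := by
    intro n
    induction n with
    | zero => intro _; exact h1
    | succ n ih =>
      intro hn
      have h3 := ih (by omega)
      exact (locM_W_iff S D hty (k := (a : ℕ) + 1 + n) (by omega) hq hm (by omega)).mp h3
  have h3 := h2 (j - ((a : ℕ) + 1)) (by omega)
  have e : (a : ℕ) + 1 + (j - ((a : ℕ) + 1)) = j := by omega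
  rwa [e] at h3

/-- the unit along the components `≠ P k`: `W k / W (k + 1)` -/
theorem C_unit {k : ℕ} (h1 : 1 ≤ k) (h2 : k + 1 ≤ r) (hk : ∀ b : Fin (r + 1), (b : ℕ) = k →
    ¬ Meets y (P b)) : W k / W (k + 1) ∈ locS y ∧ ¬ locM y (W k / W (k + 1)) := by
  obtain ⟨u1, hu1, e1⟩ := D.prod k h1 (by omega)
  obtain ⟨u2, hu2, e2⟩ := D.prod (k + 1) (by omega) h2
  obtain ⟨v1, hv1, i1, n1⟩ := unitO_inv (F := F) hu1
  obtain ⟨v2, hv2, i2, n2⟩ := unitO_inv (F := F) hu2
  obtain ⟨V1, W1⟩ := VW_ne S D h1 (by omega : k ≤ r)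
  obtain ⟨V2, W2⟩ := VW_ne S D (by omega : 1 ≤ k + 1) h2
  rw [map_mul] at e1 e2
  have hπ0 := pi_ne S D
  -- in terms of `V`
  have eC : W k / W (k + 1) = algebraMap O F u1 * (algebraMap O F u2)⁻¹ * (V (k + 1) / V k) := by
    have e3 : W k = algebraMap O F u1 * algebraMap O F π / V k := by
      rw [← e1]; field_simp
    have e4 : W (k + 1) = algebraMap O F u2 * algebraMap O F π / V (k + 1) := by
      rw [← e2]; field_simp
    rw [e3, e4]
    field_simp
  have eC' : W (k + 1) / W k = algebraMap O F u2 * (algebraMap O F u1)⁻¹ * (V k / V (k + 1)) := by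
    rw [← inv_div, eC, mul_inv, mul_inv, inv_inv, inv_div]
    ring
  have hO : ∀ c : O, algebraMap O F c ∈ locS y := fun c =>
    mem_locS_of_mem ((chart O (algebraMap K F t)).algebraMap_mem c)
  have m1 : ∀ b, Meets y (P b) → W k / W (k + 1) ∈ P b := by
    intro b hb
    rcases lt_or_ge (b : ℕ) (k + 1) with hlt | hge
    · rw [div_eq_mul_inv]
      exact (P b).mul_mem _ _ (D.W_mem k h1 (by omega) b) (D.W_inv (k + 1) (by omega) h2 b hlt)
    · rw [eC, i2]
      refine (P b).mul_mem _ _ ((P b).mul_mem _ _ (O_mem S D b _) (O_mem S D b _)) ?_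
      rw [div_eq_mul_inv]
      exact (P b).mul_mem _ _ (D.V_mem (k + 1) (by omega) h2 b)
        (D.V_inv k h1 (by omega) b (by omega))
  have m2 : ∀ b, Meets y (P b) → (W k / W (k + 1))⁻¹ ∈ P b := by
    intro b hb
    have hbk : (b : ℕ) ≠ k := fun h => hk b h hb
    rw [inv_div]
    rcases lt_or_ge (b : ℕ) k with hlt | hge
    · rw [div_eq_mul_inv]
      exact (P b).mul_mem _ _ (D.W_mem (k + 1) (by omega) h2 b)
        (D.W_inv k h1 (by omega) b hlt)
    · rw [eC', i1]
      refine (P b).mul_mem _ _ ((P b).mul_mem _ _ (O_mem S D b _) (O_mem S D b _)) ?_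
      rw [div_eq_mul_inv]
      exact (P b).mul_mem _ _ (D.V_mem k h1 (by omega) b)
        (D.V_inv (k + 1) (by omega) h2 b (by omega))
  have l1 : W k / W (k + 1) ∈ locS y := by
    refine S.mem_locS m1 (n := 1) ?_
    rw [pow_one]
    have e : algebraMap O F π * (W k / W (k + 1)) =
        (algebraMap O F u2)⁻¹ * (W k * V (k + 1)) := by
      have : algebraMap O F π = (algebraMap O F u2)⁻¹ * (V (k + 1) * W (k + 1)) := by
        rw [e2]; field_simp
      rw [this]
      field_simp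
    rw [e, i2]
    exact Subring.mul_mem _ (hO _) (Subring.mul_mem _ (lW S D hty h1 (by omega))
      (lV S D hty (by omega) h2))
  refine ⟨l1, not_locM_of_inv S D hty ?_ (div_ne_zero W1 W2)⟩
  refine S.mem_locS m2 (n := 1) ?_
  rw [pow_one, inv_div]
  have e : algebraMap O F π * (W (k + 1) / W k) =
      (algebraMap O F u1)⁻¹ * (W (k + 1) * V k) := by
    have : algebraMap O F π = (algebraMap O F u1)⁻¹ * (V k * W k) := by
      rw [e1]; field_simp
    rw [this]
    field_simp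
  rw [e, i1]
  exact Subring.mul_mem _ (hO _) (Subring.mul_mem _ (lW S D hty (by omega) h2)
    (lV S D hty h1 (by omega)))

theorem V1_unit (hr : 1 ≤ r) (h0 : ¬ Meets y (P 0)) : ¬ locM y (V 1) := by
  obtain ⟨u1, hu1, e1⟩ := D.prod 1 le_rfl hr
  obtain ⟨V1, W1⟩ := VW_ne S D le_rfl hr
  refine not_locM_of_inv S D hty (S.inv_mem (fun j hj => ?_) (n := 1) ?_) V1
  · refine D.V_inv 1 le_rfl hr j ?_
    by_contra hcon
    have : j = 0 := Fin.ext (by have := Nat.lt_one_iff.mp (not_le.mp hcon); simpa using this)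
    exact h0 (this ▸ hj)
  · obtain ⟨v1, hv1, i1, n1⟩ := unitO_inv (F := F) hu1
    rw [map_mul] at e1
    have e : algebraMap O F π ^ 1 / V 1 = algebraMap O F v1 * W 1 := by
      rw [pow_one, ← i1]
      have : algebraMap O F π = (algebraMap O F u1)⁻¹ * (V 1 * W 1) := by
        rw [e1]; field_simp
      rw [this]
      field_simp
    rw [e]
    exact Subring.mul_mem _ (mem_locS_of_mem ((chart O (algebraMap K F t)).algebraMap_mem _))
      (lW S D hty le_rfl hr)

theorem Wr_unit (hr : 1 ≤ r) (h0 : ¬ Meets y (P (Fin.last r))) : ¬ locM y (W r) := by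
  obtain ⟨u1, hu1, e1⟩ := D.prod r hr le_rfl
  obtain ⟨V1, W1⟩ := VW_ne S D hr le_rfl
  refine not_locM_of_inv S D hty (S.inv_mem (fun j hj => ?_) (n := 1) ?_) W1
  · refine D.W_inv r hr le_rfl j ?_
    by_contra hcon
    have : j = Fin.last r := Fin.ext (by
      have := j.2
      rw [Fin.val_last]
      omega)
    exact h0 (this ▸ hj)
  · obtain ⟨v1, hv1, i1, n1⟩ := unitO_inv (F := F) hu1
    rw [map_mul] at e1
    have e : algebraMap O F π ^ 1 / W r = algebraMap O F v1 * V r := by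
      rw [pow_one, ← i1]
      have : algebraMap O F π = (algebraMap O F u1)⁻¹ * (V r * W r) := by
        rw [e1]; field_simp
      rw [this]
      field_simp
    rw [e]
    exact Subring.mul_mem _ (mem_locS_of_mem ((chart O (algebraMap K F t)).algebraMap_mem _))
      (lV S D hty hr le_rfl)

/-- **If two components meet at `y`, then all of them do.** -/
theorem cross_lt (hq : 2 ≤ q) {a a' : Fin (r + 1)} (haa : (a : ℕ) < a') (hm : Meets y (P a))
    (hm' : Meets y (P a')) (k : Fin (r + 1)) : Meets y (P k) := by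
  have har : (a' : ℕ) ≤ r := Nat.lt_succ_iff.mp a'.2
  have hkr : (k : ℕ) ≤ r := Nat.lt_succ_iff.mp k.2
  by_contra hk
  have hV := fun {j : ℕ} => cross_V S D hty (by omega : 1 ≤ q) haa hm hm' (j := j)
  have hW := fun {j : ℕ} => cross_W S D hty (by omega : 1 ≤ q) haa hm hm' (j := j)
  by_cases hk0 : (k : ℕ) = 0
  · have : k = 0 := Fin.ext (by simpa using hk0)
    rw [this] at hk
    exact V1_unit S D hty (by omega) hk (hV le_rfl (by omega))
  by_cases hkr' : (k : ℕ) = r
  · have : k = Fin.last r := Fin.ext (by simpa using hkr')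
    rw [this] at hk
    exact Wr_unit S D hty (by omega) hk (hW (by omega) le_rfl)
  have hC := C_unit S D hty (k := (k : ℕ)) (by omega) (by omega) (fun b hb => by
    have : b = k := Fin.ext hb
    rw [this]; exact hk)
  have hka' : (k : ℕ) ≠ a' := by
    intro h
    have : k = a' := Fin.ext h
    exact hk (this ▸ hm')
  rcases lt_or_gt_of_ne hka' with hlt | hgt
  · -- `k < a'`
    obtain ⟨u1, hu1, e1⟩ := D.prod k (by omega) (by omega)
    obtain ⟨u2, hu2, e2⟩ := D.prod ((k : ℕ) + 1) (by omega) (by omega)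
    obtain ⟨v1, hv1, i1, n1⟩ := unitO_inv (F := F) hu1
    obtain ⟨v2, hv2, i2, n2⟩ := unitO_inv (F := F) hu2
    obtain ⟨V1, W1⟩ := VW_ne S D (by omega : 1 ≤ (k : ℕ)) (by omega : (k : ℕ) ≤ r)
    obtain ⟨V2, W2⟩ := VW_ne S D (by omega : 1 ≤ (k : ℕ) + 1) (by omega)
    rw [map_mul] at e1 e2
    have hπ0 := pi_ne S D
    have eC : W k / W ((k : ℕ) + 1) =
        algebraMap O F u1 * (algebraMap O F u2)⁻¹ * (V ((k : ℕ) + 1) / V k) := by
      have e3 : W (k : ℕ) = algebraMap O F u1 * algebraMap O F π / V k := by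
        rw [← e1]; field_simp
      have e4 : W ((k : ℕ) + 1) = algebraMap O F u2 * algebraMap O F π / V ((k : ℕ) + 1) := by
        rw [← e2]; field_simp
      rw [e3, e4]
      field_simp
    obtain ⟨u3, hu3, h3⟩ := D.congV k (by omega) a' (by omega)
    have h4 : W k / W ((k : ℕ) + 1) - algebraMap O F u1 * algebraMap O F v2 *
        (algebraMap O F u3 * V k ^ (q - 1)) ∈ (P a').nonunits := by
      have e5 : W k / W ((k : ℕ) + 1) - algebraMap O F u1 * algebraMap O F v2 *
          (algebraMap O F u3 * V k ^ (q - 1)) =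
          (algebraMap O F u1 * algebraMap O F v2 * (V k)⁻¹) *
            (V ((k : ℕ) + 1) - algebraMap O F u3 * V k ^ q) := by
        have h1 : V (k : ℕ) ^ q = V k * V k ^ (q - 1) := by
          rw [← pow_succ', Nat.sub_add_cancel (by omega)]
        rw [eC, i2, h1]
        field_simp
      rw [e5]
      refine mul_mem_nonunits (mul_mem (mul_mem (O_mem S D a' _) (O_mem S D a' _)) ?_) h3
      exact D.V_inv k (by omega) (by omega) a' (by omega)
    have hVk := lV S D hty (by omega : 1 ≤ (k : ℕ)) (by omega)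
    have hO : ∀ c : O, algebraMap O F c ∈ locS y := fun c =>
      mem_locS_of_mem ((chart O (algebraMap K F t)).algebraMap_mem c)
    have h5 := locM_of_nonunits (S.ov a') hm' (Subring.sub_mem _ hC.1 (Subring.mul_mem _
      (Subring.mul_mem _ (hO _) (hO _)) (Subring.mul_mem _ (hO _) (Subring.pow_mem _ hVk _)))) h4
    have h6 := h5.add (locM.mul_left (Subring.mul_mem _ (hO u1) (hO v2)) (locM.mul_left (hO u3)
      ((hV (j := k) (by omega) (by omega)).pow (n := q - 1) (by omega))))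
    rw [sub_add_cancel] at h6
    exact hC.2 h6
  · -- `a' < k`
    obtain ⟨u3, hu3, h3⟩ := D.congW k (by omega) a' (by omega)
    have hO : ∀ c : O, algebraMap O F c ∈ locS y := fun c =>
      mem_locS_of_mem ((chart O (algebraMap K F t)).algebraMap_mem c)
    obtain ⟨V1, W1⟩ := VW_ne S D (by omega : 1 ≤ (k : ℕ)) (by omega : (k : ℕ) ≤ r)
    obtain ⟨V2, W2⟩ := VW_ne S D (by omega : 1 ≤ (k : ℕ) + 1) (by omega)
    have h4 : W k / W ((k : ℕ) + 1) - algebraMap O F u3 * W ((k : ℕ) + 1) ^ (q - 1) ∈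
        (P a').nonunits := by
      have e5 : W k / W ((k : ℕ) + 1) - algebraMap O F u3 * W ((k : ℕ) + 1) ^ (q - 1) =
          (W ((k : ℕ) + 1))⁻¹ * (W k - algebraMap O F u3 * W ((k : ℕ) + 1) ^ q) := by
        have h1 : W ((k : ℕ) + 1) ^ q = W ((k : ℕ) + 1) * W ((k : ℕ) + 1) ^ (q - 1) := by
          rw [← pow_succ', Nat.sub_add_cancel (by omega)]
        rw [h1]
        field_simp
      rw [e5]
      exact mul_mem_nonunits (D.W_inv _ (by omega) (by omega) a' (by omega)) h3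
    have hWk := lW S D hty (by omega : 1 ≤ (k : ℕ) + 1) (by omega)
    have h5 := locM_of_nonunits (S.ov a') hm' (Subring.sub_mem _ hC.1
      (Subring.mul_mem _ (hO u3) (Subring.pow_mem _ hWk _))) h4
    have h6 := h5.add (locM.mul_left (hO u3)
      ((hW (j := (k : ℕ) + 1) (by omega) (by omega)).pow (n := q - 1) (by omega)))
    rw [sub_add_cancel] at h6
    exact hC.2 h6

theorem cross (hq : 2 ≤ q) {a a' : Fin (r + 1)} (haa : a ≠ a') (hm : Meets y (P a))
    (hm' : Meets y (P a')) (k : Fin (r + 1)) : Meets y (P k) := by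
  rcases lt_or_gt_of_ne (Fin.val_injective.ne haa) with h | h
  · exact cross_lt S D hty hq h hm hm' k
  · exact cross_lt S D hty hq h hm' hm k

/-- the local equation of `P 0` -/
theorem locEq_zero (hr : 1 ≤ r) (h0 : Meets y (P 0))
    (unif : ∀ x ∈ (P 0).nonunits, x / algebraMap O F π ∈ P 0) : LocEq y (P 0) (V 1) := by
  obtain ⟨u1, hu1, e1⟩ := D.prod 1 le_rfl hr
  obtain ⟨v1, hv1, i1, n1⟩ := unitO_inv (F := F) hu1
  obtain ⟨V1, W1⟩ := VW_ne S D le_rfl hr
  rw [map_mul] at e1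
  have hπe : algebraMap O F π = (algebraMap O F u1)⁻¹ * (V 1 * W 1) := by
    rw [e1]; field_simp
  refine S.locEq h0 V1 (lV S D hty le_rfl hr) (V_non S D le_rfl hr (by simp)) (fun x hx => ?_)
    (fun j hj hm => ?_) (n := 1) ?_
  · have e : x / V 1 = x / algebraMap O F π * (algebraMap O F v1 * W 1) := by
      rw [hπe, ← i1]
      field_simp
    rw [e]
    exact mul_mem (unif x hx) (mul_mem (O_mem S D 0 _) (D.W_mem 1 le_rfl hr 0))
  · refine D.V_inv 1 le_rfl hr j ?_
    by_contra hcon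
    exact hj (Fin.ext (by have := Nat.lt_one_iff.mp (not_le.mp hcon); simpa using this))
  · have e : algebraMap O F π ^ 1 / V 1 = algebraMap O F v1 * W 1 := by
      rw [pow_one, hπe, ← i1]
      field_simp
    rw [e]
    exact Subring.mul_mem _ (mem_locS_of_mem ((chart O (algebraMap K F t)).algebraMap_mem _))
      (lW S D hty le_rfl hr)

/-- the local equation of `P r` -/
theorem locEq_last (hr : 1 ≤ r) (h0 : Meets y (P (Fin.last r)))
    (unif : ∀ x ∈ (P (Fin.last r)).nonunits, x / algebraMap O F π ∈ P (Fin.last r)) :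
    LocEq y (P (Fin.last r)) (W r) := by
  obtain ⟨u1, hu1, e1⟩ := D.prod r hr le_rfl
  obtain ⟨v1, hv1, i1, n1⟩ := unitO_inv (F := F) hu1
  obtain ⟨V1, W1⟩ := VW_ne S D hr le_rfl
  rw [map_mul] at e1
  have hπe : algebraMap O F π = (algebraMap O F u1)⁻¹ * (V r * W r) := by
    rw [e1]; field_simp
  refine S.locEq h0 W1 (lW S D hty hr le_rfl) (W_non S D hr le_rfl (by simp)) (fun x hx => ?_)
    (fun j hj hm => ?_) (n := 1) ?_
  · have e : x / W r = x / algebraMap O F π * (algebraMap O F v1 * V r) := by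
      rw [hπe, ← i1]
      field_simp
    rw [e]
    exact mul_mem (unif x hx) (mul_mem (O_mem S D _ _) (D.V_mem r hr le_rfl _))
  · refine D.W_inv r hr le_rfl j ?_
    by_contra hcon
    exact hj (Fin.ext (by
      have := j.2
      rw [Fin.val_last]
      omega))
  · have e : algebraMap O F π ^ 1 / W r = algebraMap O F v1 * V r := by
      rw [pow_one, hπe, ← i1]
      field_simp
    rw [e]
    exact Subring.mul_mem _ (mem_locS_of_mem ((chart O (algebraMap K F t)).algebraMap_mem _))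
      (lV S D hty hr le_rfl)

/-- the local equation of `P a` at an ordinary point -/
theorem locEq_mid {dd : Fin (r + 1) → F} {e : Fin (r + 1) → ℕ}
    (E : MD (algebraMap K F t) π r P dd e) {a : Fin (r + 1)} (ha1 : 1 ≤ (a : ℕ))
    (har : (a : ℕ) < r) (hm : Meets y (P a)) (hne : ∀ b, b ≠ a → ¬ Meets y (P b)) :
    LocEq y (P a) (dd a) := by
  obtain ⟨g, u, hu, hg, hg0, hgi, hom⟩ := E.om a ha1 har
  have hπ0 := pi_ne S D
  have hd0 := E.ne a ha1 har
  have he := E.pos a ha1 har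
  have ld := loc_of S D hty (E.ch a ha1 har)
  have lg := loc_of S D hty hg
  have lu : algebraMap O F u ∈ locS y :=
    mem_locS_of_mem ((chart O (algebraMap K F t)).algebraMap_mem u)
  set ω := dd a ^ e a / algebraMap O F π with hω
  have hωP : ω ∈ P a := by
    have k1 : ω * g ∈ P a := by
      have := (P a).add_mem _ _ ((P a).nonunits_le hom) (O_mem S D a u)
      rwa [sub_add_cancel] at this
    have k2 := mul_mem k1 hgi
    rwa [mul_assoc, mul_inv_cancel₀ hg0, mul_one] at k2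
  have hωl : ω ∈ locS y := by
    refine S.mem_locS (fun j hj => ?_) (n := 1) ?_
    · by_cases hja : j = a
      · rw [hja]; exact hωP
      · exact (hne j hja hj).elim
    · rw [pow_one, hω, mul_div_cancel₀ _ hπ0]
      exact Subring.pow_mem _ ld _
  have k1 := locM_of_nonunits (S.ov a) hm (Subring.sub_mem _ (Subring.mul_mem _ hωl lg) lu) hom
  have hωM : ¬ locM y ω := by
    intro h
    have h4 := (h.mul_right lg).sub k1
    rw [sub_sub_cancel] at h4
    obtain ⟨v, rfl⟩ := hu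
    have h5 := h4.mul_right (b := algebraMap O F (↑v⁻¹ : O))
      (mem_locS_of_mem ((chart O (algebraMap K F t)).algebraMap_mem _))
    rw [← map_mul, Units.mul_inv, map_one] at h5
    exact not_locM_one h5
  refine S.locEq hm hd0 ld (E.non a ha1 har) (E.unif a ha1 har) (fun j hj hm' => ?_) (n := 1) ?_
  · exact (hne j hj hm').elim
  · rw [pow_one]
    have e1 : algebraMap O F π / dd a = ω⁻¹ * dd a ^ (e a - 1) := by
      obtain ⟨n, hn⟩ : ∃ n, e a = n + 1 := ⟨e a - 1, by omega⟩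
      rw [hω, hn, Nat.add_sub_cancel, inv_div, pow_succ]
      field_simp
    rw [e1]
    exact Subring.mul_mem _ (inv_mem_of_not_locM hωl hωM) (Subring.pow_mem _ ld _)

/-- **A local equation of a component at every noncuspidal point.** -/
theorem exists_locEq {dd : Fin (r + 1) → F} {e : Fin (r + 1) → ℕ}
    (E : MD (algebraMap K F t) π r P dd e) (hr : 1 ≤ r)
    (unif0 : ∀ x ∈ (P 0).nonunits, x / algebraMap O F π ∈ P 0)
    (unifr : ∀ x ∈ (P (Fin.last r)).nonunits, x / algebraMap O F π ∈ P (Fin.last r))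
    (hq : 2 ≤ q) {i : Fin (r + 1)} (hi : Meets y (P i)) :
    ∃ j a, Meets y (P j) ∧ LocEq y (P j) a := by
  by_cases h0 : Meets y (P 0)
  · exact ⟨0, V 1, h0, locEq_zero S D hty hr h0 unif0⟩
  by_cases h2 : Meets y (P (Fin.last r))
  · exact ⟨Fin.last r, W r, h2, locEq_last S D hty hr h2 unifr⟩
  have hi0 : 1 ≤ (i : ℕ) := by
    by_contra hcon
    have : i = 0 := Fin.ext (by have := Nat.lt_one_iff.mp (not_le.mp hcon); simpa using this)
    exact h0 (this ▸ hi)
  have hir : (i : ℕ) < r := by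
    by_contra hcon
    have : i = Fin.last r := Fin.ext (by have := i.2; rw [Fin.val_last]; omega)
    exact h2 (this ▸ hi)
  refine ⟨i, dd i, hi, locEq_mid S D hty E hi0 hir hi fun b hb hmb => ?_⟩
  exact h0 (cross S D hty hq hb hmb hi 0)

end Pt

end MU

/-! The same with the numbering of the components by the number of `V`-steps. -/

theorem sys_rev (S : CompSys ht hπ P) : CompSys ht hπ (fun a => P (Fin.rev a)) where
  ov i := S.ov _
  all W hW := by
    obtain ⟨i, hi⟩ := S.all W hW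
    exact ⟨Fin.rev i, by rw [Fin.rev_rev]; exact hi⟩
  rank i := S.rank _

/-- `P i`, `i` = the number of `V`-steps: if two components meet at `y` then all do. -/
theorem cross_rev (S : CompSys ht hπ P)
    (D : MU (algebraMap K F t) π q r (fun a => P (Fin.rev a)) V W)
    {y : Ideal (chart O (algebraMap K F t))} [hy : y.IsPrime]
    (hty : ¬ locM y (algebraMap K F t)) (hq : 2 ≤ q) {i j : Fin (r + 1)} (hij : i ≠ j)
    (hi : Meets y (P i)) (hj : Meets y (P j)) (k : Fin (r + 1)) : Meets y (P k) := by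
  have h := D.cross (sys_rev S) hty hq (a := Fin.rev i) (a' := Fin.rev j)
    (fun h => hij (Fin.rev_injective h)) (by rw [Fin.rev_rev]; exact hi)
    (by rw [Fin.rev_rev]; exact hj) (Fin.rev k)
  rwa [Fin.rev_rev] at h

/-- `P i`, `i` = the number of `V`-steps: local equations. -/
theorem exists_locEq_rev (S : CompSys ht hπ P)
    (D : MU (algebraMap K F t) π q r (fun a => P (Fin.rev a)) V W)
    {dd : Fin (r + 1) → F} {e : Fin (r + 1) → ℕ}
    (E : MD (algebraMap K F t) π r (fun a => P (Fin.rev a)) dd e) (hr : 1 ≤ r)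
    (unif0 : ∀ x ∈ (P 0).nonunits, x / algebraMap O F π ∈ P 0)
    (unifr : ∀ x ∈ (P (Fin.last r)).nonunits, x / algebraMap O F π ∈ P (Fin.last r))
    {y : Ideal (chart O (algebraMap K F t))} [hy : y.IsPrime]
    (hty : ¬ locM y (algebraMap K F t)) (hq : 2 ≤ q) {i : Fin (r + 1)}
    (hi : Meets y (P i)) : ∃ j a, Meets y (P j) ∧ LocEq y (P j) a := by
  obtain ⟨j, a, h1, h2⟩ := D.exists_locEq (sys_rev S) hty E hr
    (by rw [Fin.rev_zero]; exact unifr) (by rw [Fin.rev_last]; exact unif0) hq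
    (i := Fin.rev i) (by rw [Fin.rev_rev]; exact hi)
  exact ⟨Fin.rev j, a, h1, h2⟩

end

end Fermat.Agent.CR
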