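import Mathlib
import Fermat.Agent.CR.Ord
import Fermat.Agent.CR.Comp

/-!
The norms preserve the local rings at the crossing points.
-/

set_option autoImplicit false
set_option linter.unusedSectionVars false
set_option linter.style.haveILetI false
set_option linter.unusedVariables false

open IsLocalRing Polynomial

universe u

namespace Fermat.Agent.CR

open Fermat.Agent.Geo Fermat.Agent.LG Fermat.Agent.CA

section

variable {O K F : Type u} [CommRing O] [IsDomain O] [IsDiscreteValuationRing O]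
  [Field K] [Field F] [Algebra O K] [Algebra O F] [Algebra K F] [IsScalarTower O K F]
  {t : K} {π : O} [FiniteDimensional K F] [Algebra.IsSeparable K F]
  {S1 : Subfield F} {Nm : F →* F} {q : ℕ}

theorem exists_denomR (htS : algebraMap K F t ∈ S1) (hOS : ∀ a : O, algebraMap O F a ∈ S1)
    {y : Ideal (chart O (algebraMap K F t))} [hy : y.IsPrime]
    (huniq : ∀ (y' : Ideal (chart O (algebraMap K F t))) [y'.IsPrime],
      (∀ x : chart O (algebraMap K F t), (x : F) ∈ S1 → (x ∈ y ↔ x ∈ y')) → y' = y)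
    {v : F} (hv : v ∈ locS y) :
    ∃ d' : chart O (algebraMap K F t), d' ∉ y ∧ (d' : F) ∈ S1 ∧
      (d' : F) * v ∈ chart O (algebraMap K F t) := by
  classical
  let C1 : Subring (chart O (algebraMap K F t)) :=
    S1.toSubring.comap (chart O (algebraMap K F t)).subtype
  let I : Ideal (chart O (algebraMap K F t)) :=
    { carrier := {x | (x : F) * v ∈ chart O (algebraMap K F t)}
      add_mem' := fun {a b} ha hb => by
        change ((a + b : chart O (algebraMap K F t)) : F) * v ∈ chart O (algebraMap K F t)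
        rw [Subalgebra.coe_add, add_mul]; exact add_mem ha hb
      zero_mem' := by
        change ((0 : chart O (algebraMap K F t)) : F) * v ∈ chart O (algebraMap K F t)
        rw [Subalgebra.coe_zero, zero_mul]; exact zero_mem _
      smul_mem' := fun a b hb => by
        change ((a * b : chart O (algebraMap K F t)) : F) * v ∈ chart O (algebraMap K F t)
        rw [Subalgebra.coe_mul, mul_assoc]; exact mul_mem a.2 hb }
  by_contra hcon
  push Not at hcon
  have hint : Algebra.IsIntegral C1 (chart O (algebraMap K F t)) := by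
    constructor
    intro x
    obtain ⟨p, hp, hpx⟩ := x.2
    let φ : O[X] →+* C1 :=
      { toFun := fun r => ⟨⟨aeval (algebraMap K F t) r, by
          exact aeval_mem_chart _ _⟩, by
          change aeval (algebraMap K F t) r ∈ S1
          rw [aeval_eq_sum_range]
          refine sum_mem fun i _ => ?_
          rw [Algebra.smul_def]
          exact mul_mem (hOS _) (pow_mem htS i)⟩
        map_one' := by ext; simp
        map_mul' := fun a b => by ext; simp
        map_zero' := by ext; simp
        map_add' := fun a b => by ext; simp }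
    refine ⟨p.map φ, hp.map φ, ?_⟩
    rw [eval₂_map]
    apply Subtype.ext
    have h1 := hom_eval₂ p ((algebraMap C1 (chart O (algebraMap K F t))).comp φ)
      ((chart O (algebraMap K F t)).subtype : chart O (algebraMap K F t) →+* F) x
    exact h1.trans hpx
  have hle : I.comap (algebraMap C1 (chart O (algebraMap K F t))) ≤
      y.comap (algebraMap C1 (chart O (algebraMap K F t))) := by
    intro x hx
    by_contra hx'
    exact hcon (x : chart O (algebraMap K F t)) hx' x.2 hx
  obtain ⟨Q, hQI, hQ, hQc⟩ := Ideal.exists_ideal_over_prime_of_isIntegral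
    (y.comap (algebraMap C1 (chart O (algebraMap K F t)))) I hle
  have hQy : Q = y := by
    refine huniq Q fun x hx => ?_
    have h1 : (⟨x, hx⟩ : C1) ∈ Q.comap (algebraMap C1 (chart O (algebraMap K F t))) ↔
      (⟨x, hx⟩ : C1) ∈ y.comap (algebraMap C1 (chart O (algebraMap K F t))) := by rw [hQc]
    exact h1.symm
  obtain ⟨d', hd', hdv⟩ := hv
  exact hd' (hQy ▸ hQI hdv)

theorem nm_mem_of_unique (htS : algebraMap K F t ∈ S1) (hOS : ∀ a : O, algebraMap O F a ∈ S1)
    (hsq : ∀ x ∈ S1, Nm x = x ^ q)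
    (hch : ∀ x ∈ chart O (algebraMap K F t), Nm x ∈ chart O (algebraMap K F t))
    {y : Ideal (chart O (algebraMap K F t))} [hy : y.IsPrime]
    (huniq : ∀ (y' : Ideal (chart O (algebraMap K F t))) [y'.IsPrime],
      (∀ x : chart O (algebraMap K F t), (x : F) ∈ S1 → (x ∈ y ↔ x ∈ y')) → y' = y)
    {v : F} (hv : v ∈ locS y) : Nm v ∈ locS y := by
  obtain ⟨d', hd', hd1, hdv⟩ := exists_denomR htS hOS huniq hv
  have h1 := hch _ hdv
  rw [map_mul, hsq _ hd1] at h1
  exact ⟨d' ^ q, fun h => hd' (hy.mem_of_pow_mem q h), by simpa using h1⟩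

/-- uniqueness of the point over the subfield -/
theorem unique_pt (htS : algebraMap K F t ∈ S1) {V : ValuationSubring F}
    {v1 w1 : F} (hv1 : v1 ∈ S1) (hw1 : w1 ∈ S1)
    (cv : ∃ n : ℕ, algebraMap K F t ^ n * v1 ∈ chart O (algebraMap K F t))
    (cw : ∃ n : ℕ, algebraMap K F t ^ n * w1 ∈ chart O (algebraMap K F t))
    (ht0 : algebraMap K F t ≠ 0)
    (Hc : ∀ (y' : Ideal (chart O (algebraMap K F t))) [y'.IsPrime],
      ¬ locM y' (algebraMap K F t) → locM y' v1 → locM y' w1 → Meets y' V)
    (hnorm : ∀ x ∈ chart O (algebraMap K F t), ∃ b ∈ chart O (algebraMap K F t), b ∈ S1 ∧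
      x - b ∈ V.nonunits)
    {y : Ideal (chart O (algebraMap K F t))} [hy : y.IsPrime] (hty : ¬ locM y (algebraMap K F t))
    (lv : locM y v1) (lw : locM y w1) (hm : Meets y V)
    (y' : Ideal (chart O (algebraMap K F t))) [hy' : y'.IsPrime]
    (hsub : ∀ x : chart O (algebraMap K F t), (x : F) ∈ S1 → (x ∈ y ↔ x ∈ y')) : y' = y := by
  have hty' : ¬ locM y' (algebraMap K F t) := by
    intro h
    apply hty
    have h1 : locM y' (((⟨algebraMap K F t, self_mem_chart _⟩ : chart O (algebraMap K F t))) : F)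
      := h
    rw [locM_coe_iff] at h1
    exact locM_of_mem ((hsub _ htS).mpr h1)
  have key : ∀ a : F, a ∈ S1 → (∃ n : ℕ, algebraMap K F t ^ n * a ∈ chart O (algebraMap K F t)) →
      locM y a → locM y' a := by
    rintro a ha ⟨n, hn⟩ hM
    have h1 : algebraMap K F t ∈ locS y := mem_locS_of_mem (self_mem_chart _)
    have h1' : algebraMap K F t ∈ locS y' := mem_locS_of_mem (self_mem_chart _)
    have h2 : locM y (((⟨algebraMap K F t ^ n * a, hn⟩ : chart O (algebraMap K F t))) : F) :=
      hM.mul_left (Subring.pow_mem _ h1 n)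
    rw [locM_coe_iff, hsub _ (mul_mem (pow_mem htS n) ha)] at h2
    have h3 := (locM_of_mem h2).mul_left (Subring.pow_mem _ (inv_mem_of_not_locM h1' hty') n)
    change locM y' ((algebraMap K F t)⁻¹ ^ n * (algebraMap K F t ^ n * a)) at h3
    rwa [inv_pow, ← mul_assoc, inv_mul_cancel₀ (pow_ne_zero n ht0), one_mul] at h3
  have h4 : Meets y' V := Hc y' hty' (key v1 hv1 cv lv) (key w1 hw1 cw lw)
  ext x
  obtain ⟨b, hb, hbS, hxb⟩ := hnorm x x.2
  set b' : chart O (algebraMap K F t) := ⟨b, hb⟩ with hb'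
  have k1 : x - b' ∈ y := hm _ hxb
  have k2 : x - b' ∈ y' := h4 _ hxb
  have k3 := hsub b' hbS
  have k4 : x ∈ y ↔ b' ∈ y := by
    refine ⟨fun h => ?_, fun h => ?_⟩
    · have := y.sub_mem h k1; rwa [sub_sub_cancel] at this
    · have := y.add_mem k1 h; rwa [sub_add_cancel] at this
  have k5 : x ∈ y' ↔ b' ∈ y' := by
    refine ⟨fun h => ?_, fun h => ?_⟩
    · have := y'.sub_mem h k2; rwa [sub_sub_cancel] at this
    · have := y'.add_mem k2 h; rwa [sub_add_cancel] at this
  rw [k4, k5, k3]

end

section MUpart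

variable {O K F : Type u} [CommRing O] [IsDomain O] [IsDiscreteValuationRing O]
  [Field K] [Field F] [Algebra O K] [Algebra O F] [Algebra K F] [IsScalarTower O K F]
  {t : K} {π : O} [FiniteDimensional K F] [Algebra.IsSeparable K F]
  {ht : IsParam O t} {hπ : Prime π} {q r : ℕ} {P : Fin (r + 1) → ValuationSubring F}
  {V W : ℕ → F}

/-- a point at which `V 1` and `W 1` vanish meets all components -/
theorem MU.meets_of_locM (S : CompSys ht hπ P) (D : MU (algebraMap K F t) π q r P V W)
    (hr : 1 ≤ r) (hq : 2 ≤ q) {y : Ideal (chart O (algebraMap K F t))} [hy : y.IsPrime]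
    (hty : ¬ locM y (algebraMap K F t)) (lV : locM y (V 1)) (lW : locM y (W 1))
    (k : Fin (r + 1)) : Meets y (P k) := by
  have h0 : Meets y (P 0) := by
    by_contra h
    exact MU.V1_unit S D hty hr h lV
  obtain ⟨V1, W1⟩ := MU.VW_ne S D le_rfl hr
  obtain ⟨a, ha, hma⟩ : ∃ a : Fin (r + 1), 1 ≤ (a : ℕ) ∧ Meets y (P a) := by
    by_contra hcon
    push Not at hcon
    refine MU.not_locM_of_inv S D hty (S.inv_mem (fun j hj => ?_) (n := 1) ?_) W1 lW
    · refine D.W_inv 1 le_rfl hr j ?_
      by_contra hc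
      exact hcon j (not_lt.mp hc) hj
    · obtain ⟨u1, hu1, e1⟩ := D.prod 1 le_rfl hr
      obtain ⟨v1, hv1, i1, n1⟩ := unitO_inv (F := F) hu1
      rw [map_mul] at e1
      have e : algebraMap O F π ^ 1 / W 1 = algebraMap O F v1 * V 1 := by
        rw [pow_one, ← i1]
        have : algebraMap O F π = (algebraMap O F u1)⁻¹ * (V 1 * W 1) := by
          rw [e1]; field_simp
        rw [this]
        field_simp
      rw [e]
      exact Subring.mul_mem _ (mem_locS_of_mem ((chart O (algebraMap K F t)).algebraMap_mem _))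
        (MU.lV S D hty le_rfl hr)
  exact MU.cross S D hty hq (a := 0) (a' := a) (by
    intro h
    rw [← h] at ha
    simp at ha) h0 hma k

/-- **The norm preserves the local ring at a crossing point.** Numbering: `P a`, `a` = number of
Frobenius steps; `P (Fin.last r) = P_∞`. -/
theorem MU.nm_mem (S : CompSys ht hπ P) (D : MU (algebraMap K F t) π q r P V W)
    (hr : 1 ≤ r) (hq : 2 ≤ q) {S1 : Subfield F} {Nm : F →* F}
    (htS : algebraMap K F t ∈ S1) (hOS : ∀ a : O, algebraMap O F a ∈ S1)
    (hsq : ∀ x ∈ S1, Nm x = x ^ q)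
    (hch : ∀ x ∈ chart O (algebraMap K F t), Nm x ∈ chart O (algebraMap K F t))
    (hV : V 1 ∈ S1) (hW : W 1 ∈ S1)
    (hnorm : ∀ x ∈ chart O (algebraMap K F t), ∃ b ∈ chart O (algebraMap K F t), b ∈ S1 ∧
      x - b ∈ (P (Fin.last r)).nonunits)
    {y : Ideal (chart O (algebraMap K F t))} [hy : y.IsPrime] (hty : ¬ locM y (algebraMap K F t))
    (hm : ∀ k, Meets y (P k)) : ∀ v ∈ locS y, Nm v ∈ locS y := by
  intro v hv
  refine nm_mem_of_unique htS hOS hsq hch (fun y' _ hsub => ?_) hv
  refine unique_pt htS hV hW (D.chV 1 le_rfl hr) (D.chW 1 le_rfl hr) (MU.tF_ne S D)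
    (fun y' _ a b c => MU.meets_of_locM S D hr hq a b c _) hnorm hty ?_ ?_ (hm _) y' hsub
  · exact MU.locM_V S D hty le_rfl hr (hm 0) (by simp)
  · exact MU.locM_W S D hty le_rfl hr (hm (Fin.last r)) (by simpa using hr)

end MUpart

section Inv

variable {O K F : Type u} [CommRing O] [Field K] [Field F] [Algebra O K] [Algebra O F]
  [Algebra K F] [IsScalarTower O K F] {t : K} {w : F ≃+* F} {Nm : F →* F}

/-- the involution of the chart -/
def wCh (hwc : ∀ x ∈ chart O (algebraMap K F t), w x ∈ chart O (algebraMap K F t)) :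
    chart O (algebraMap K F t) →+* chart O (algebraMap K F t) where
  toFun x := ⟨w x, hwc _ x.2⟩
  map_one' := by ext; simp
  map_mul' a b := by ext; simp
  map_zero' := by ext; simp
  map_add' a b := by ext; simp

variable (hwc : ∀ x ∈ chart O (algebraMap K F t), w x ∈ chart O (algebraMap K F t))
  (ww : ∀ x, w (w x) = x)

theorem coe_wCh (x : chart O (algebraMap K F t)) :
    ((wCh hwc x : chart O (algebraMap K F t)) : F) = w x := rfl

include ww in
theorem wCh_wCh (x : chart O (algebraMap K F t)) : wCh hwc (wCh hwc x) = x := by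
  apply Subtype.ext
  rw [coe_wCh, coe_wCh, ww]

include ww in
theorem mem_locS_wCh {y : Ideal (chart O (algebraMap K F t))} [hy : y.IsPrime] {x : F} :
    x ∈ locS (y.comap (wCh hwc)) ↔ w x ∈ locS y := by
  constructor
  · rintro ⟨d, hd, hdx⟩
    refine ⟨wCh hwc d, hd, ?_⟩
    rw [coe_wCh, ← map_mul]
    exact hwc _ hdx
  · rintro ⟨d, hd, hdx⟩
    refine ⟨wCh hwc d, ?_, ?_⟩
    · rw [Ideal.mem_comap, wCh_wCh hwc ww]; exact hd
    · have := hwc _ hdx
      rwa [map_mul, ww] at this

include ww in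
theorem locM_wCh {y : Ideal (chart O (algebraMap K F t))} [hy : y.IsPrime] {x : F} :
    locM (y.comap (wCh hwc)) x ↔ locM y (w x) := by
  constructor
  · rintro ⟨d, hd, e, he, hdx⟩
    refine ⟨wCh hwc d, hd, wCh hwc e, he, ?_⟩
    rw [coe_wCh, coe_wCh, ← map_mul, hdx]
  · rintro ⟨d, hd, e, he, hdx⟩
    refine ⟨wCh hwc d, ?_, wCh hwc e, ?_, ?_⟩
    · rw [Ideal.mem_comap, wCh_wCh hwc ww]; exact hd
    · rw [Ideal.mem_comap, wCh_wCh hwc ww]; exact he
    · have := congrArg w hdx
      rwa [map_mul, ww] at this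

/-- the second norm -/
theorem nmW_mem {y : Ideal (chart O (algebraMap K F t))} [hy : y.IsPrime]
    (h : ∀ v ∈ locS (y.comap (wCh hwc)), Nm v ∈ locS (y.comap (wCh hwc)))
    (ww : ∀ x, w (w x) = x) : ∀ v ∈ locS y, w (Nm (w v)) ∈ locS y := by
  intro v hv
  have h1 := h (w v) ((mem_locS_wCh hwc ww).mpr (by rwa [ww]))
  exact (mem_locS_wCh hwc ww).mp h1

theorem meets_wCh {y : Ideal (chart O (algebraMap K F t))} [hy : y.IsPrime]
    {V V' : ValuationSubring F} (hV : ∀ x, w x ∈ V' ↔ x ∈ V) (hm : Meets y V') :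
    Meets (y.comap (wCh hwc)) V := by
  intro x hx
  rw [Ideal.mem_comap]
  refine hm _ ?_
  have e : V = V'.comap (w : F →+* F) := by
    ext z; exact (hV z).symm
  rw [e] at hx
  exact (comap_mem_nonunits V' (w : F →+* F) _).mp hx

end Inv

end Fermat.Agent.CR
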