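import Mathlib
import Fermat.Agent.CR.MainR
import Fermat.Agent.CR.NLoc
import Fermat.Agent.CR.DvdV
import Fermat.Agent.CR.Cusp2

/-!
The final abstract theorem for `X₀(q ^ r M)`, `r ≥ 3`, with all points.
-/

set_option autoImplicit false
set_option linter.unusedSectionVars false
set_option linter.style.haveILetI false
set_option linter.unusedVariables false

open IsLocalRing Polynomial ModularCurve

noncomputable section

universe u

namespace Fermat.Agent.CR

open Fermat.Agent.Geo Fermat.Agent.LG Fermat.Agent.CA Fermat.Agent.ModFun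

/-- The geometric data: everything about the components `P i` (`i` = number of Verschiebung
steps) which is needed for the main theorem. -/
structure GeoR {O K M F : Type u} [CommRing O] [IsDomain O] [IsDiscreteValuationRing O]
    [Field K] [Field M] [Field F] [Algebra O K] [Algebra O F] [Algebra K F] [Algebra M F]
    [IsScalarTower O K F] {t : K} {π : O} (ht : IsParam O t) (hπ : Prime π) (q r : ℕ)
    (c : ℕ → ℤ[X]) (C₀ : ℤ) (P : Fin (r + 1) → ValuationSubring F) (w : F ≃+* F) (x V W : ℕ → F)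
    (dd : Fin (r + 1) → F) (ed : Fin (r + 1) → ℕ) (ϖ : Fin (r + 1) → F) (e : Fin (r + 1) → ℤ) :
    Prop where
  two : 2 ≤ r
  prime : q.Prime
  shape : KShape q c
  qπ : ((q : ℕ) : F) = algebraMap O F π
  C0 : IsUnit ((C₀ : ℤ) : O)
  sys : CompSys ht hπ P
  inj : Function.Injective P
  ww : ∀ z, w (w z) = z
  wP : ∀ i z, w z ∈ P i ↔ z ∈ P (Fin.rev i)
  wch : ∀ z ∈ chart O (algebraMap K F t), w z ∈ chart O (algebraMap K F t)
  x0 : x 0 = algebraMap K F t
  wx0 : w (algebraMap K F t) = x r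
  mu : MU (algebraMap K F t) π q r (fun a => P (Fin.rev a)) V W
  md : MD (algebraMap K F t) π r (fun a => P (Fin.rev a)) dd ed
  unif0 : ∀ z ∈ (P 0).nonunits, z / algebraMap O F π ∈ P 0
  val : ∀ (y : Ideal (chart O (algebraMap K F t))) [y.IsPrime] (i : Fin (r + 1)),
    Meets y (P i) → ValAt y (P i)
  val' : ∀ (y : Ideal (chart O (algebraMap K F t⁻¹))) [y.IsPrime] (i : Fin (r + 1)),
    locM y (algebraMap K F t⁻¹) → Meets y (P i) → ValAt y (P i)
  row : CRow q r c P x
  row' : CRow q r c P (fun k => (C₀ : F) / x k)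
  norm : ∀ i : Fin (r + 1), (i : ℕ) ≤ 1 → ∀ z ∈ chart O (algebraMap K F t),
    ∃ b : M, algebraMap M F b ∈ chart O (algebraMap K F t) ∧
      z - algebraMap M F b ∈ (P i).nonunits
  uni : ∀ i, Uni (P i) (ϖ i)
  ϖ0 : ϖ 0 = algebraMap O F π
  πe : ∀ i, Vl (P i) (ϖ i) (algebraMap O F π) (e i)
  e_ne : ∀ i, e i ≠ 0

/-- the data of the norm to the subfield `S1` (of level `q ^ (r - 1) M`) -/
structure SubR {O K M F : Type u} [CommRing O] [Field K] [Field M] [Field F] [Algebra O F]
    [Algebra K F] [Algebra M F] (t : K) (q : ℕ) (V W : ℕ → F) (S1 : Subfield F)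
    (Na : F →* F) : Prop where
  htS : algebraMap K F t ∈ S1
  hOS : ∀ a : O, algebraMap O F a ∈ S1
  hM : ∀ f : M, algebraMap M F f ∈ S1
  hsq : ∀ x ∈ S1, Na x = x ^ q
  hch : ∀ x ∈ chart O (algebraMap K F t), Na x ∈ chart O (algebraMap K F t)
  hV : V 1 ∈ S1
  hW : W 1 ∈ S1

section

variable {O K M F : Type u} [CommRing O] [IsDomain O] [IsDiscreteValuationRing O] [CharZero O]
  [Field K] [Field M] [Field F] [Algebra O K] [Algebra O F] [Algebra K F] [Algebra M F]
  [IsScalarTower O K F] {t : K} {π : O} [FiniteDimensional K F] [Algebra.IsSeparable K F]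
  {ht : IsParam O t} {hπ : Prime π} {q r m : ℕ} {c : ℕ → ℤ[X]} {C₀ : ℤ}
  {P : Fin (r + 1) → ValuationSubring F} {w : F ≃+* F} {x V W : ℕ → F}
  {dd : Fin (r + 1) → F} {ed : Fin (r + 1) → ℕ} {ϖ : Fin (r + 1) → F} {e : Fin (r + 1) → ℤ}
  {S1 : Subfield F} {Na Nb : F →* F}

namespace GeoR

variable (G : GeoR (M := M) ht hπ q r c C₀ P w x V W dd ed ϖ e)

include G

theorem unifr : ∀ z ∈ (P (Fin.last r)).nonunits, z / algebraMap O F π ∈ P (Fin.last r) := by
  intro z hz
  have hw : ∀ a, w a ∈ P 0 ↔ a ∈ P (Fin.last r) := fun a => by rw [G.wP, Fin.rev_zero]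
  have hwn : w z ∈ (P 0).nonunits := by
    have e : P (Fin.last r) = (P 0).comap (w : F →+* F) := by
      ext a; exact (hw a).symm
    rw [e] at hz
    exact (comap_mem_nonunits (P 0) (w : F →+* F) z).mp hz
  have h1 := G.unif0 _ hwn
  have h2 : w (z / algebraMap O F π) = w z / algebraMap O F π := by
    rw [map_div₀, ← G.qπ, map_natCast]
  rw [← hw, h2]
  exact h1

theorem qM {s : K} {hs : IsParam O s} (hS : CompSys hs hπ P)
    {y : Ideal (chart O (algebraMap K F s))} [hy : y.IsPrime] {i : Fin (r + 1)}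
    (hi : Meets y (P i)) : locM y ((q : ℕ) : F) := by
  have h1 : algebraMap O F π ∈ (P i).nonunits := by
    have := (hS.ov i).2
    rwa [← IsScalarTower.algebraMap_apply] at this
  rw [G.qπ]
  exact locM_of_nonunits (hS.ov i) hi (mem_locS_of_mem ((chart O _).algebraMap_mem π)) h1

theorem single_inf (y : Ideal (chart O (algebraMap K F t⁻¹))) [hy : y.IsPrime]
    (hyt : locM y (algebraMap K F t⁻¹)) : SingleAt y P := by
  have hS := sys_inv G.sys
  have hx : (x 0)⁻¹ = algebraMap K F t⁻¹ := by rw [G.x0, map_inv₀]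
  have hM : locM y (x 0)⁻¹ := by rw [hx]; exact hyt
  refine ⟨fun i j hi hj => ?_, fun i hi => ?_, fun i hi => G.val' y i hyt hi⟩
  · exact G.row.disj G.shape hS (G.qM hS hi) hM i j hi hj
  · exact G.row.exists_locEq G.shape hS G.prime G.qπ (G.qM hS hi) hM G.unif0 G.unifr i hi

theorem single_cusp (y : Ideal (chart O (algebraMap K F t))) [hy : y.IsPrime]
    (hyt : locM y (algebraMap K F t)) : SingleAt y P := by
  have hS := G.sys
  have hC : locS y ≤ ⊤ := le_top
  have hCi : ((C₀ : ℤ) : F)⁻¹ ∈ locS y := by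
    obtain ⟨v, hv⟩ := G.C0
    have h1 : ((C₀ : ℤ) : F)⁻¹ = algebraMap O F (↑v⁻¹ : O) := by
      have h2 : ((C₀ : ℤ) : F) = algebraMap O F (v : O) := by rw [hv, map_intCast]
      rw [h2]
      apply inv_eq_of_mul_eq_one_right
      rw [← map_mul, Units.mul_inv, map_one]
    rw [h1]
    exact mem_locS_of_mem ((chart O _).algebraMap_mem _)
  have hM : locM y ((fun k => (C₀ : F) / x k) 0)⁻¹ := by
    change locM y ((C₀ : F) / x 0)⁻¹
    rw [inv_div, G.x0, div_eq_mul_inv]
    exact hyt.mul_right hCi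
  refine ⟨fun i j hi hj => ?_, fun i hi => ?_, fun i hi => G.val y i hi⟩
  · exact G.row'.disj G.shape hS (G.qM hS hi) hM i j hi hj
  · exact G.row'.exists_locEq G.shape hS G.prime G.qπ (G.qM hS hi) hM G.unif0 G.unifr i hi

theorem not_locM_wt {y : Ideal (chart O (algebraMap K F t))} [hy : y.IsPrime]
    (hty : ¬ locM y (algebraMap K F t)) : ¬ locM y (w (algebraMap K F t)) := by
  have htl : algebraMap K F t ∈ locS y := mem_locS_of_mem (self_mem_chart _)
  have hCF : ((C₀ : ℤ) : F) = algebraMap O F (C₀ : O) := (map_intCast _ _).symm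
  have h1 : (C₀ : F) / x 0 ∈ locS y := by
    rw [G.x0, div_eq_mul_inv]
    refine Subring.mul_mem _ ?_ (inv_mem_of_not_locM htl hty)
    rw [hCF]
    exact mem_locS_of_mem ((chart O _).algebraMap_mem _)
  have h2 : ∀ k, k ≤ r → (C₀ : F) / x k ∈ locS y := by
    intro k
    induction k with
    | zero => intro _; exact h1
    | succ k ih =>
      intro hk
      exact MRel.mem_locS G.shape (G.row'.rel' k (by omega)) (ih (by omega))
  have h3 := h2 r le_rfl
  rw [G.wx0]
  intro h4
  have h5 := h4.mul_right h3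
  rw [mul_div_cancel₀ _ (G.row.n r le_rfl)] at h5
  obtain ⟨v, hv⟩ := G.C0
  have h6 : ((C₀ : ℤ) : F) * algebraMap O F (↑v⁻¹ : O) = 1 := by
    rw [hCF, ← hv, ← map_mul, Units.mul_inv, map_one]
  have h7 := h5.mul_right (mem_locS_of_mem ((chart O _).algebraMap_mem (↑v⁻¹ : O)))
  rw [h6] at h7
  exact not_locM_one h7

theorem exists_res {y : Ideal (chart O (algebraMap K F t))} [hy : y.IsPrime]
    {i : Fin (r + 1)} (hi1 : (i : ℕ) ≤ 1) (hm : Meets y (P i)) {z : F} (hz : z ∈ locS y)
    (hzM : ¬ locM y z) : ∃ f : M, algebraMap M F f ∈ locS y ∧ UC (P i) z (algebraMap M F f) := by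
  obtain ⟨d, hd, hdr⟩ := hz
  set e' : chart O (algebraMap K F t) := ⟨(d : F) * z, hdr⟩ with he
  have hd0 := ne_zero_of_notMem hd
  have hey : e' ∉ y := by
    intro h
    apply hzM
    have := (locM_of_mem h).mul_left (inv_mem_locS hd)
    rwa [he, ← mul_assoc, inv_mul_cancel₀ hd0, one_mul] at this
  have key : ∀ a : chart O (algebraMap K F t), a ∉ y → ∃ b : M,
      ∃ hb : algebraMap M F b ∈ chart O (algebraMap K F t),
      (⟨_, hb⟩ : chart O (algebraMap K F t)) ∉ y ∧ UC (P i) (a : F) (algebraMap M F b) := by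
    intro a ha
    obtain ⟨b, hb, hab⟩ := G.norm i hi1 a a.2
    have ha1 : (a : F) ∈ P i := chart_mem_over (G.sys.ov i) a.2
    have han : (a : F) ∉ (P i).nonunits := fun h => ha (hm _ h)
    refine ⟨b, hb, ?_, ?_⟩
    · intro h
      have h2 : a - ⟨_, hb⟩ ∈ y := hm _ hab
      have h3 := y.add_mem h2 h
      rw [sub_add_cancel] at h3
      exact ha h3
    · refine ⟨?_, ha1, inv_mem_of_notMem_nonunits han, hab⟩
      intro h0
      rw [h0] at han
      exact han (zero_mem_nonunits _)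
  obtain ⟨b, hb, hby, ub⟩ := key e' hey
  obtain ⟨b', hb', hby', ub'⟩ := key d hd
  refine ⟨b / b', ?_, ?_⟩
  · rw [map_div₀, div_eq_mul_inv]
    exact Subring.mul_mem _ (mem_locS_of_mem hb) (inv_mem_locS hby')
  · have := ub.div ub'
    rw [map_div₀]
    have e1 : (e' : F) / (d : F) = z := by
      rw [he]; field_simp
    rwa [e1] at this

theorem sub_mem_na (N : SubR (O := O) (M := M) t q V W S1 Na)
    {y : Ideal (chart O (algebraMap K F t))} [hy : y.IsPrime]
    (hty : ¬ locM y (algebraMap K F t)) (hm : ∀ k, Meets y (P k)) :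
    ∀ v ∈ locS y, Na v ∈ locS y := by
  have hr := G.two
  refine MU.nm_mem (sys_rev G.sys) G.mu (by omega) G.prime.two_le N.htS N.hOS N.hsq N.hch N.hV
    N.hW (fun z hz => ?_) hty (fun k => hm _)
  obtain ⟨b, hb, hzb⟩ := G.norm 0 (by simp) z hz
  refine ⟨_, hb, N.hM b, ?_⟩
  simp only [Fin.rev_last]
  exact hzb

theorem cross_at (hr1 : 1 < r + 1) (N : SubR (O := O) (M := M) t q V W S1 Na)
    (hNb : ∀ z, Nb z = w (Na (w z)))
    {y : Ideal (chart O (algebraMap K F t))} [hy : y.IsPrime]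
    (hty : ¬ locM y (algebraMap K F t)) (hm : ∀ k, Meets y (P k)) :
    CrossAt M y P 0 ⟨1, hr1⟩ Na Nb where
  meet := hm
  val i := G.val y i (hm i)
  loc := by
    obtain ⟨j, a, -, h⟩ := exists_locEq_rev G.sys G.mu G.md (by have := G.two; omega) G.unif0
      G.unifr hty G.prime.two_le (hm 0)
    exact ⟨j, a, h⟩
  na := G.sub_mem_na N hty hm
  nb := by
    intro v hv
    rw [hNb]
    refine nmW_mem (t := t) G.wch (G.sub_mem_na N ?_ fun k => ?_) G.ww v hv
    · rw [locM_wCh G.wch G.ww]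
      exact G.not_locM_wt hty
    · exact meets_wCh G.wch (V := P k) (V' := P (Fin.rev k)) (fun z => by
        rw [G.wP, Fin.rev_rev]) (hm _)
  res i hi z hz hzM := by
    refine G.exists_res ?_ (hm i) hz hzM
    rcases hi with rfl | rfl
    · simp
    · exact le_refl 1

theorem points (hr1 : 1 < r + 1) (N : SubR (O := O) (M := M) t q V W S1 Na)
    (hNb : ∀ z, Nb z = w (Na (w z))) (y : Ideal (chart O (algebraMap K F t))) [hy : y.IsPrime] :
    SingleAt y P ∨ CrossAt M y P 0 ⟨1, hr1⟩ Na Nb := by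
  by_cases hty : locM y (algebraMap K F t)
  · exact Or.inl (G.single_cusp y hty)
  by_cases hall : ∃ i j, i ≠ j ∧ Meets y (P i) ∧ Meets y (P j)
  · obtain ⟨i, j, hij, hi, hj⟩ := hall
    exact Or.inr (G.cross_at hr1 N hNb hty (cross_rev G.sys G.mu hty G.prime.two_le hij hi hj))
  · push Not at hall
    have hd : ∀ i j, Meets y (P i) → Meets y (P j) → i = j := by
      intro i j hi hj
      by_contra hij
      exact hall i j hij hi hj
    refine Or.inl ⟨hd, fun i hi => ?_, fun i hi => G.val y i hi⟩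
    obtain ⟨j, a, hj, h⟩ := exists_locEq_rev G.sys G.mu G.md (by have := G.two; omega) G.unif0
      G.unifr hty G.prime.two_le hi
    obtain rfl := hd i j hi hj
    exact ⟨a, h⟩

end GeoR

/-- **Main theorem**, abstract form. -/
theorem main_R {L : Type u} [Field L] [Algebra O L] [IsFractionRing O L]
    {θ : F →+* LaurentSeries L}
    (G : GeoR (M := M) ht hπ q r c C₀ P w x V W dd ed ϖ e) (hr1 : 1 < r + 1)
    (N : SubR (O := O) (M := M) t q V W S1 Na) (hNb : ∀ z, Nb z = w (Na (w z)))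
    (B : NormR (O := O) (M := M) q P 0 ⟨1, hr1⟩ Na Nb)
    (θC : ∀ a : O, θ (algebraMap O F a) = HahnSeries.C (algebraMap O L a))
    {Z : PowerSeries L} (hs : θ (algebraMap K F t⁻¹) = HahnSeries.ofPowerSeries ℤ L Z)
    (hZ : PowerSeries.constantCoeff Z = 0) (uF : Un O (θ (x r / x (r - 1) ^ q)))
    {E : Type u} [Field E] [Algebra O E] [Algebra K E] [Algebra F E]
    [IsScalarTower O K E] [IsScalarTower K F E] [IsScalarTower O F E]
    [FiniteDimensional K E] [Algebra.IsSeparable K E] [FiniteDimensional F E] [IsGalois F E]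
    (hinj : Function.Injective (algebraMap O E))
    (hO : ∀ x : E, IsIntegral O x → ∃ o : O, algebraMap O E o = x)
    (hmu : IsUnit (m : O)) (hm : 0 < m) (hqm : Nat.Coprime q m) {ζ : O}
    (hζ : IsPrimitiveRoot ζ m) (hroot : ∀ u : O, IsUnit u → ∃ v : O, v ^ m = u)
    {f : E} {h : F} (hf : f ^ m = algebraMap F E h) (h0 : h ≠ 0)
    (hNa : NmP π Na m h) (hNbP : NmP π Nb m h) (hor : Hor π m h)
    {y' : LaurentSeries L} (hy' : y' ^ m = θ h) : ∃ a : F, f = algebraMap F E a := by
  have hr := G.two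
  have hU0 : Uni (P 0) (algebraMap O F π) := by
    have := G.uni 0
    rwa [G.ϖ0] at this
  obtain ⟨n, hn⟩ := hU0.exists_vl h0
  obtain ⟨n', rfl⟩ := G.row.dvd_val G.shape (sys_inv G.sys) (by omega)
    (by rw [G.x0, map_inv₀, inv_inv]) G.qπ G.unif0 θC hs hZ uF
    (fun y _ h1 h2 => G.val' y 0 h1 h2) hm hor hn hy'
  have he0 : e 0 = 1 := by
    have h1 := G.πe 0
    rw [G.ϖ0] at h1
    exact h1.unique (vl_self_one hU0.ne) hU0
  refine main_absR (i0 := 0) (i1 := ⟨1, hr1⟩) G.sys G.inj (by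
    intro h
    have := congrArg Fin.val h
    simp at this) G.uni G.πe G.e_ne he0 B G.prime.one_lt.le
    (fun y _ _ => G.points hr1 N hNb y) (fun y _ _ hy => G.single_inf y ?_) hinj hO hmu hm hqm hζ
    hroot hf (n := n') (by rw [G.ϖ0]; exact hn) hNa hNbP hor
  exact locM_of_mem hy

end

end Fermat.Agent.CR
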