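import Mathlib
import Fermat.Agent.CA.LC
import Fermat.Agent.CR.Tow

/-!
The unit `x (k + 1) / x k ^ q` at the cusp `∞`.
-/

set_option autoImplicit false
set_option linter.unusedSectionVars false

open IsLocalRing ModularCurve IntermediateField

noncomputable section

universe u

namespace Fermat.Agent.CR

open Fermat.Agent.Geo Fermat.Agent.LG Fermat.Agent.ModFun Fermat.Agent.CA

variable {O L : Type u} [CommRing O] [IsDomain O] [IsDiscreteValuationRing O]
    [Field L] [Algebra O L] [IsFractionRing O L] {q p : ℕ} [NeZero q] [Fact p.Prime] {κ : ℤ}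

theorem un_quot_gen (a b : ℕ) [NeZero a] [NeZero b] (hab : a = b * q) :
    Un O (qExpand L a (tS L p κ) / (qExpand L b (tS L p κ)) ^ q) := by
  have ht := tS_ne_zero (L := L) (p := p) (κ := κ)
  have h1 : qExpand L b (tS L p κ) ≠ 0 := by
    rw [Ne, _root_.map_eq_zero]; exact ht
  have h2 : qExpand L a (tS L p κ) ≠ 0 := by
    rw [Ne, _root_.map_eq_zero]; exact ht
  have h3 := pow_ne_zero q h1
  have e := div_mul_cancel₀ (qExpand L a (tS L p κ)) h3
  have h4 : qExpand L a (tS L p κ) / (qExpand L b (tS L p κ)) ^ q ≠ 0 := div_ne_zero h2 h3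
  refine ⟨?_, 1, ?_⟩
  · have := congrArg HahnSeries.order e
    rw [HahnSeries.order_mul h4 h3, order_pow' _ h1, order_qExpand' _ ht, order_qExpand' _ ht,
      order_tS] at this
    have hab' : (a : ℤ) = b * q := by exact_mod_cast hab
    rw [hab'] at this
    linarith
  · have := congrArg HahnSeries.leadingCoeff e
    rw [HahnSeries.leadingCoeff_mul, CA.leadingCoeff_pow', leadingCoeff_qExpand,
      leadingCoeff_qExpand, lc_tS, one_pow, mul_one] at this
    rw [this, Units.val_one, map_one]

/-- the quotient `x (k + 1) / x k ^ q` -/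
theorem un_step (k : ℕ) :
    Un O (qExpand L (q ^ (k + 1)) (tS L p κ) / (qExpand L (q ^ k) (tS L p κ)) ^ q) :=
  un_quot_gen _ _ (pow_succ q k)

end Fermat.Agent.CR
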