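import Mathlib
import Fermat.Agent.CR.MainR2
import Fermat.Agent.CR.UnQ
import Fermat.Agent.CA.CarG

/-!
The vanishing theorem at the level `q ^ r M`, over a field `L` with a discrete valuation:
geometric part.
-/

set_option autoImplicit false
set_option linter.unusedSectionVars false
set_option linter.unusedVariables false

open IsLocalRing Polynomial ModularCurve IntermediateField

noncomputable section

universe u

namespace Fermat.Agent.CR

open Fermat.Agent.Geo Fermat.Agent.LG Fermat.Agent.ModFun Fermat.Agent.CA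

variable {O L : Type u} [CommRing O] [IsDomain O] [IsDiscreteValuationRing O]
    [Field L] [Algebra O L] [IsFractionRing O L]
    {q M N p : ℕ} [NeZero q] [NeZero M] [NeZero N] [Fact p.Prime] {κ : ℤ} {π : O}
    [Algebra O (Kt L p κ)] [Algebra O (F0 L M)] [Algebra O (F0 L N)]
    [Algebra (Kt L p κ) (F0 L M)] [Algebra (Kt L p κ) (F0 L N)] [Algebra (F0 L M) (F0 L N)]
    [IsScalarTower O (Kt L p κ) (F0 L M)] [IsScalarTower O (Kt L p κ) (F0 L N)]
    [IsScalarTower O (F0 L M) (F0 L N)] [IsScalarTower (Kt L p κ) (F0 L M) (F0 L N)]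

theorem car_genR [CharZero O]
    (C : Cpt O (Kt L p κ) (F0 L M) (F0 L N)) {hπ : Prime π} {ht : IsParam O (tK L p κ)}
    [FiniteDimensional (Kt L p κ) (F0 L N)] [Algebra.IsSeparable (Kt L p κ) (F0 L N)]
    {r m : ℕ} {c : ℕ → ℤ[X]} {C₀ : ℤ} {P : Fin (r + 1) → ValuationSubring (F0 L N)}
    {w : F0 L N ≃+* F0 L N} {x V W : ℕ → F0 L N} {dd : Fin (r + 1) → F0 L N}
    {ed : Fin (r + 1) → ℕ} {ϖ : Fin (r + 1) → F0 L N} {e : Fin (r + 1) → ℤ}
    {S1 : Subfield (F0 L N)} {Na Nb : F0 L N →* F0 L N}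
    (G : GeoR (M := F0 L M) ht hπ q r c C₀ P w x V W dd ed ϖ e) (hr1 : 1 < r + 1)
    (hx : ∀ k ≤ r, (x k : LaurentSeries L) = qExpand L (q ^ k) (tS L p κ))
    (S : SubR (O := O) (M := F0 L M) (tK L p κ) q V W S1 Na) (hNb : ∀ z, Nb z = w (Na (w z)))
    (B : NormR (O := O) (M := F0 L M) q P 0 ⟨1, hr1⟩ Na Nb)
    {E : Type u} [Field E] [Algebra O E] [Algebra (Kt L p κ) E] [Algebra (F0 L N) E]
    [IsScalarTower O (Kt L p κ) E] [IsScalarTower (Kt L p κ) (F0 L N) E]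
    [IsScalarTower O (F0 L N) E]
    [FiniteDimensional (Kt L p κ) E] [Algebra.IsSeparable (Kt L p κ) E]
    [FiniteDimensional (F0 L N) E] [IsGalois (F0 L N) E]
    (hinj : Function.Injective (algebraMap O E))
    (hO : ∀ x : E, IsIntegral O x → ∃ o : O, algebraMap O E o = x)
    (hmu : IsUnit (m : O)) (hm : 0 < m) (hqm : Nat.Coprime q m)
    {ζm : O} (hζ : IsPrimitiveRoot ζm m) (hroot : ∀ u : O, IsUnit u → ∃ v : O, v ^ m = u)
    {y : E} {h₀ : F0 L N} (hy : y ^ m = algebraMap (F0 L N) E h₀) (h₀ne : h₀ ≠ 0)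
    (hNa : NmP π Na m h₀) (hNbP : NmP π Nb m h₀) (hor : Hor π m h₀)
    {y' : LaurentSeries L} (hy' : y' ^ m = (h₀ : LaurentSeries L)) :
    ∃ a : F0 L N, y = algebraMap (F0 L N) E a := by
  obtain ⟨Z, hZ, hs⟩ := exists_ps_inv (L := L) (p := p) (κ := κ)
  have cEt : ((algebraMap (Kt L p κ) (F0 L N) (tK L p κ) : F0 L N) : LaurentSeries L) =
      tS L p κ := C.KF (tK L p κ)
  have hr := G.two
  refine main_R (θ := algebraMap (F0 L N) (LaurentSeries L)) G hr1 S hNb B C.OF (Z := Z) ?_ hZ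
    ?_ hinj hO hmu hm hqm hζ hroot hy h₀ne hNa hNbP hor (y' := y') hy'
  · rw [map_inv₀, map_inv₀]
    change ((algebraMap (Kt L p κ) (F0 L N) (tK L p κ) : F0 L N) : LaurentSeries L)⁻¹ = _
    rw [cEt, hs]
  · rw [map_div₀, map_pow]
    change Un O ((x r : LaurentSeries L) / (x (r - 1) : LaurentSeries L) ^ q)
    rw [hx r le_rfl, hx (r - 1) (by omega)]
    obtain ⟨k, rfl⟩ : ∃ k, r = k + 1 := ⟨r - 1, by omega⟩
    rw [Nat.add_sub_cancel]
    exact un_step k

end Fermat.Agent.CR
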