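import Mathlib
import Fermat.Agent.CA.Cross

/-!
Curves with `r + 1` components: the abstract structure of the reduction of `X₀(q^r M)`, over the
curve with three components `X₀(q²M)`.
-/

set_option autoImplicit false
set_option linter.unusedSectionVars false
set_option linter.style.haveILetI false
set_option linter.unusedVariables false

open IsLocalRing Polynomial

universe u

namespace Fermat.Agent.CR

open Fermat.Agent.Geo Fermat.Agent.LG Fermat.Agent.CA

/-- The data of a curve `F` with `r + 1` components `P i` (`i` = the number of Verschiebung steps,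
`P 0 = P_∞`): `x k = t(q^k τ)` (`k ≤ r`), `φ a` (`1 ≤ a < r`) the embedding of the function
field `F₂` of level `q²M` at the curves `a - 1, a, a + 1`. -/
structure Mul {O K M F F₂ : Type u} [CommRing O] [IsDomain O] [IsDiscreteValuationRing O]
    [Field K] [Field M] [Field F] [Field F₂] [Algebra O K] [Algebra O M] [Algebra O F]
    [Algebra O F₂] [Algebra K M] [Algebra K F] [Algebra K F₂] [Algebra M F]
    [IsScalarTower O K M] [IsScalarTower O K F]
    {t : K} {π : O} (ht : IsParam O t) (hπ : Prime π) (q : ℕ)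
    (P₂ : Fin 3 → ValuationSubring F₂) (w₂ : F₂ ≃+* F₂) (X₁ a1 cc : F₂)
    (r : ℕ) (P : Fin (r + 1) → ValuationSubring F) (w : F ≃+* F) (φ : ℕ → F₂ →+* F)
    (x : ℕ → F) : Prop where
  two : 2 ≤ r
  sys : CompSys ht hπ P
  inj : Function.Injective P
  wO : ∀ a, w (algebraMap O F a) = algebraMap O F a
  ww : ∀ z, w (w z) = z
  wP : ∀ i z, w z ∈ P i ↔ z ∈ P (Fin.rev i)
  φO : ∀ a, 1 ≤ a → a < r → ∀ b : O, φ a (algebraMap O F₂ b) = algebraMap O F b
  φw : ∀ a, 1 ≤ a → a < r → ∀ z, w (φ a z) = φ (r - a) (w₂ z)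
  x0 : x 0 = algebraMap K F t
  φx0 : ∀ a, 1 ≤ a → a < r → φ a (algebraMap K F₂ t) = x (a - 1)
  φx1 : ∀ a, 1 ≤ a → a < r → φ a X₁ = x a
  φx2 : ∀ a, 1 ≤ a → a < r → φ a (w₂ (algebraMap K F₂ t)) = x (a + 1)
  cm0 : ∀ a (i : Fin (r + 1)), 1 ≤ a → a < r → (i : ℕ) + a < r → (P i).comap (φ a) = P₂ 0
  cm1 : ∀ a (i : Fin (r + 1)), 1 ≤ a → a < r → (i : ℕ) + a = r → (P i).comap (φ a) = P₂ 1
  cm2 : ∀ a (i : Fin (r + 1)), 1 ≤ a → a < r → r < (i : ℕ) + a → (P i).comap (φ a) = P₂ 2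
  φV : ∀ a, 1 ≤ a → a + 1 < r → ∃ ε : O, IsUnit ε ∧
    φ (a + 1) a1 = algebraMap O F ε * φ a (a1 * cc)
  unif0 : ∀ z ∈ (P 0).nonunits, z / algebraMap O F π ∈ P 0
  res : ∀ i : Fin (r + 1), 2 * (i : ℕ) ≤ r → ∀ z ∈ P i, ∃ f : M, algebraMap M F f ∈ P 0 ∧
    z - algebraMap M F f ∈ (P i).nonunits
  gm : GModel ht hπ ((P 0).comap (algebraMap M F))

end Fermat.Agent.CR
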