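import Mathlib
import Fermat.Agent.CR.Mul

/-!
Curves with `r + 1` components: congruences, charts, residues.
-/

set_option autoImplicit false
set_option linter.unusedSectionVars false
set_option linter.style.haveILetI false
set_option linter.unusedVariables false

open IsLocalRing Polynomial

universe u

namespace Fermat.Agent.CR

open Fermat.Agent.Geo Fermat.Agent.LG Fermat.Agent.CA

/-- pushing a relation by a ring hom -/
theorem mulMRel_map {E E' : Type*} [CommRing E] [CommRing E'] {q : ℕ} {c : ℕ → ℤ[X]} (f : E →+* E')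
    {a b : E} (h : MRel q c a b) : MRel q c (f a) (f b) := by
  have h1 := congrArg f h
  simp only [map_sum, map_mul, map_pow, map_zero] at h1
  change ∑ i ∈ Finset.range (q + 2), _ = 0
  rw [← h1]
  refine Finset.sum_congr rfl fun i _ => ?_
  congr 1
  rw [aeval_def, aeval_def, hom_eval₂]
  congr 1
  exact RingHom.ext_int _ _

section

variable {O K M F F₂ : Type u} [CommRing O] [IsDomain O] [IsDiscreteValuationRing O] [CharZero O]
  [Field K] [Field M] [Field F] [Field F₂] [Algebra O K] [Algebra O M] [Algebra O F]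
  [Algebra O F₂] [Algebra K M] [Algebra K F] [Algebra K F₂] [Algebra M F] [Algebra M F₂]
  [IsScalarTower O K M] [IsScalarTower O K F] [IsScalarTower K M F] [IsScalarTower O M F]
  [IsScalarTower O K F₂] [IsScalarTower K M F₂] [IsScalarTower O M F₂]
  {t : K} {π : O} [FiniteDimensional K M] [Algebra.IsSeparable K M]
  [FiniteDimensional K F] [Algebra.IsSeparable K F]
  [FiniteDimensional K F₂] [Algebra.IsSeparable K F₂]
  {ht : IsParam O t} {hπ : Prime π} {q : ℕ} {c : ℕ → ℤ[X]} {C₀ : ℤ}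
  {P₂ : Fin 3 → ValuationSubring F₂} {w₂ : F₂ ≃+* F₂} {X₁ a1 a2 cc d : F₂}
  {r : ℕ} {P : Fin (r + 1) → ValuationSubring F} {w : F ≃+* F} {φ : ℕ → F₂ →+* F} {x : ℕ → F}

namespace Mul

variable (T : Tri (M := M) ht hπ q c C₀ P₂ w₂ X₁)
  (H : Mul (M := M) ht hπ q P₂ w₂ X₁ a1 cc r P w φ x)

include H

theorem tF_ne : algebraMap K F t ≠ 0 := by
  rw [Ne, map_eq_zero]; exact ht.ne_zero

theorem sys' : CompSys ht.inv hπ P where
  ov i := by rw [gaussVal_inv ht ht.inv hπ]; exact H.sys.ov i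
  all W hW := H.sys.all W (by rwa [gaussVal_inv ht ht.inv hπ] at hW)
  rank := H.sys.rank

theorem O_mem (i : Fin (r + 1)) (a : O) : algebraMap O F a ∈ P i :=
  mem_of_intOver (H.sys.ov i).1 (intOver_of_mem_chart ht hπ
    ((chart O (algebraMap K F t)).algebraMap_mem a))

theorem π_nonunit (i : Fin (r + 1)) : algebraMap O F π ∈ (P i).nonunits := by
  have := (H.sys.ov i).2
  rwa [← IsScalarTower.algebraMap_apply] at this

theorem π_ne : algebraMap O F π ≠ 0 :=
  pi_ne_zero ht hπ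

theorem t_mem (i : Fin (r + 1)) : algebraMap K F t ∈ P i :=
  chart_mem_over (H.sys.ov i) (self_mem_chart _)

theorem t_inv_mem (i : Fin (r + 1)) : (algebraMap K F t)⁻¹ ∈ P i := by
  have := chart_mem_over (H.sys'.ov i) (self_mem_chart (O := O) (algebraMap K F t⁻¹))
  rwa [map_inv₀] at this

/-! ### the embeddings -/

theorem comap_eq {a : ℕ} (h1 : 1 ≤ a) (h2 : a < r) (i : Fin (r + 1)) :
    ∃ k : Fin 3, (P i).comap (φ a) = P₂ k ∧ (k = 0 ↔ (i : ℕ) + a < r) ∧
      (k = 2 ↔ r < (i : ℕ) + a) := by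
  rcases lt_trichotomy ((i : ℕ) + a) r with h | h | h
  · exact ⟨0, H.cm0 a i h1 h2 h, by simp [h], by simp; omega⟩
  · exact ⟨1, H.cm1 a i h1 h2 h, by simp; omega, by simp; omega⟩
  · exact ⟨2, H.cm2 a i h1 h2 h, by simp; omega, by simp [h]⟩

theorem φ_mem {a : ℕ} {i : Fin (r + 1)} {k : Fin 3} (h : (P i).comap (φ a) = P₂ k) {z : F₂} :
    φ a z ∈ P i ↔ z ∈ P₂ k := by
  rw [← h]; exact Iff.rfl

theorem φ_non {a : ℕ} {i : Fin (r + 1)} {k : Fin 3} (h : (P i).comap (φ a) = P₂ k) {z : F₂} :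
    φ a z ∈ (P i).nonunits ↔ z ∈ (P₂ k).nonunits := by
  rw [← h]; exact (comap_mem_nonunits _ _ _).symm

/-- a property of all the valuation rings of `F₂` passes to `F` -/
theorem φ_mem_all {a : ℕ} (h1 : 1 ≤ a) (h2 : a < r) (i : Fin (r + 1)) {z : F₂}
    (hz : ∀ k, z ∈ P₂ k) : φ a z ∈ P i := by
  obtain ⟨k, hk, -⟩ := H.comap_eq h1 h2 i
  exact (H.φ_mem hk).mpr (hz k)

/-- the three curves -/
theorem x_cases (k : ℕ) (hk : k ≤ r) : ∃ a, 1 ≤ a ∧ a < r ∧
    (x k = φ a (algebraMap K F₂ t) ∧ k + 1 = a ∨ x k = φ a (w₂ (algebraMap K F₂ t)) ∧ k = a + 1 ∨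
      x k = φ a X₁ ∧ k = a) := by
  have h2 := H.two
  by_cases h : k + 1 < r
  · exact ⟨k + 1, by omega, h, Or.inl ⟨(H.φx0 (k + 1) (by omega) h).symm, rfl⟩⟩
  by_cases h' : k + 1 = r
  · exact ⟨k, by omega, by omega, Or.inr (Or.inr ⟨(H.φx1 k (by omega) (by omega)).symm, rfl⟩)⟩
  · refine ⟨k - 1, by omega, by omega, Or.inr (Or.inl ⟨?_, by omega⟩)⟩
    rw [H.φx2 (k - 1) (by omega) (by omega)]
    congr 1; omega

theorem x_ne (T : Tri (M := M) ht hπ q c C₀ P₂ w₂ X₁) (k : ℕ) (hk : k ≤ r) : x k ≠ 0 := by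
  obtain ⟨a, -, -, h⟩ := H.x_cases k hk
  rcases h with ⟨h, -⟩ | ⟨h, -⟩ | ⟨h, -⟩ <;> rw [h, Ne, map_eq_zero]
  exacts [T.tF_ne, T.X2_ne, T.X1_ne]

include T in
theorem x_mem (i : Fin (r + 1)) (k : ℕ) (hk : k ≤ r) : x k ∈ P i := by
  obtain ⟨a, h1, h2, h⟩ := H.x_cases k hk
  rcases h with ⟨h, -⟩ | ⟨h, -⟩ | ⟨h, -⟩ <;> rw [h]
  exacts [H.φ_mem_all h1 h2 i T.t_mem, H.φ_mem_all h1 h2 i T.X2_mem, H.φ_mem_all h1 h2 i T.X1_mem]

include T in
theorem x_inv_mem (i : Fin (r + 1)) (k : ℕ) (hk : k ≤ r) : (x k)⁻¹ ∈ P i := by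
  obtain ⟨a, h1, h2, h⟩ := H.x_cases k hk
  rcases h with ⟨h, -⟩ | ⟨h, -⟩ | ⟨h, -⟩ <;> rw [h, ← map_inv₀]
  exacts [H.φ_mem_all h1 h2 i T.t_inv_mem, H.φ_mem_all h1 h2 i T.X2_inv_mem,
    H.φ_mem_all h1 h2 i T.X1_inv_mem]

/-- Frobenius steps -/
theorem stepF (T : Tri (M := M) ht hπ q c C₀ P₂ w₂ X₁) (i : Fin (r + 1)) (k : ℕ)
    (hk : k + (i : ℕ) < r) : x (k + 1) - x k ^ q ∈ (P i).nonunits := by
  have h2 := H.two
  by_cases h : k + 1 < r
  · obtain ⟨j, hj, hj0, hj2⟩ := H.comap_eq (a := k + 1) (by omega) h i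
    have e0 := H.φx0 (k + 1) (by omega) h
    have e1 := H.φx1 (k + 1) (by omega) h
    rw [Nat.add_sub_cancel] at e0
    rw [← e0, ← e1, ← map_pow, ← map_sub, H.φ_non hj]
    match j with
    | 0 => exact T.X1_0
    | 1 => exact T.X1_1
    | 2 => exact absurd (hj2.mp rfl) (by omega)
  · have hkr : k + 1 = r := by omega
    have hi : (i : ℕ) = 0 := by omega
    have h3 := H.cm0 k i (by omega) (by omega) (by omega)
    rw [← H.φx2 k (by omega) (by omega), ← H.φx1 k (by omega) (by omega), ← map_pow, ← map_sub,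
      H.φ_non h3]
    exact T.d0

/-- Verschiebung steps -/
theorem stepV (T : Tri (M := M) ht hπ q c C₀ P₂ w₂ X₁) (i : Fin (r + 1)) (k : ℕ) (hkr : k < r)
    (hk : r ≤ k + (i : ℕ)) : x k - x (k + 1) ^ q ∈ (P i).nonunits := by
  have h2 := H.two
  by_cases h : 1 ≤ k
  · obtain ⟨j, hj, hj0, hj2⟩ := H.comap_eq (a := k) h hkr i
    rw [← H.φx2 k h hkr, ← H.φx1 k h hkr, ← map_pow, ← map_sub, H.φ_non hj]
    match j with
    | 0 => exact absurd (hj0.mp rfl) (by omega)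
    | 1 => exact T.ctrip.c21
    | 2 => exact T.ctrip.c22
  · have hk0 : k = 0 := by omega
    subst hk0
    have h3 := H.cm2 1 i le_rfl (by omega) (by omega)
    have e0 := H.φx0 1 le_rfl (by omega)
    have e1 := H.φx1 1 le_rfl (by omega)
    rw [Nat.sub_self] at e0
    rw [zero_add, ← e0, ← e1, ← map_pow, ← map_sub, H.φ_non h3]
    exact T.ctrip.d2

include T in
theorem q_nonunit (i : Fin (r + 1)) : ((q : ℕ) : F) ∈ (P i).nonunits := by
  have h := H.π_nonunit i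
  rwa [← T.hq, map_natCast] at h

/-! ### relations -/

include T in
theorem rel (k : ℕ) (hk : k < r) : MRel q c (x (k + 1)) (x k) := by
  have h2 := H.two
  by_cases h : k + 1 < r
  · have e0 := H.φx0 (k + 1) (by omega) h
    have e1 := H.φx1 (k + 1) (by omega) h
    rw [Nat.add_sub_cancel] at e0
    rw [← e0, ← e1]
    exact mulMRel_map _ T.rel
  · rw [← H.φx2 k (by omega) (by omega), ← H.φx1 k (by omega) (by omega)]
    exact mulMRel_map _ T.rel2'

include T in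
theorem rel' (k : ℕ) (hk : k < r) : MRel q c (x k) (x (k + 1)) := by
  have h2 := H.two
  by_cases h : k + 1 < r
  · have e0 := H.φx0 (k + 1) (by omega) h
    have e1 := H.φx1 (k + 1) (by omega) h
    rw [Nat.add_sub_cancel] at e0
    rw [← e0, ← e1]
    exact mulMRel_map _ T.rel'
  · rw [← H.φx2 k (by omega) (by omega), ← H.φx1 k (by omega) (by omega)]
    exact mulMRel_map _ T.rel2

include T in
theorem relu (k : ℕ) (hk : k < r) : MRel q c ((C₀ : F) / x (k + 1)) ((C₀ : F) / x k) := by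
  have h2 := H.two
  by_cases h : k + 1 < r
  · have e0 := H.φx0 (k + 1) (by omega) h
    have e1 := H.φx1 (k + 1) (by omega) h
    rw [Nat.add_sub_cancel] at e0
    have h3 := mulMRel_map (φ (k + 1)) T.relu
    simp only [map_div₀, map_intCast] at h3
    rwa [e0, e1] at h3
  · have h3 := mulMRel_map (φ k) T.relu2'
    simp only [map_div₀, map_intCast] at h3
    rwa [H.φx2 k (by omega) (by omega), H.φx1 k (by omega) (by omega)] at h3

include T in
theorem relu' (k : ℕ) (hk : k < r) : MRel q c ((C₀ : F) / x k) ((C₀ : F) / x (k + 1)) := by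
  have h2 := H.two
  by_cases h : k + 1 < r
  · have e0 := H.φx0 (k + 1) (by omega) h
    have e1 := H.φx1 (k + 1) (by omega) h
    rw [Nat.add_sub_cancel] at e0
    have h3 := mulMRel_map (φ (k + 1)) T.relu'
    simp only [map_div₀, map_intCast] at h3
    rwa [e0, e1] at h3
  · have h3 := mulMRel_map (φ k) T.relu2
    simp only [map_div₀, map_intCast] at h3
    rwa [H.φx2 k (by omega) (by omega), H.φx1 k (by omega) (by omega)] at h3

/-! ### charts -/

include T in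
theorem x_chart (k : ℕ) (hk : k ≤ r) : x k ∈ chart O (algebraMap K F t) := by
  induction k with
  | zero => rw [H.x0]; exact self_mem_chart _
  | succ k ih => exact MRel.mem_chart T.shape (H.rel T k (by omega)) (ih (by omega))

theorem C0F (T : Tri (M := M) ht hπ q c C₀ P₂ w₂ X₁) : ((C₀ : ℤ) : F) = algebraMap O F (C₀ : O) :=
  (map_intCast _ _).symm

include T in
theorem C0_ne : ((C₀ : ℤ) : F) ≠ 0 := by
  rw [H.C0F T]
  intro h
  have h1 := coe_notMem_nonunits_of_unit (H.O_mem 0) T.C0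
  rw [h] at h1
  exact h1 (zero_mem_nonunits _)

include T in
theorem C0_mem_chart (u : F) : ((C₀ : ℤ) : F) ∈ chart O u := by
  rw [H.C0F T]; exact (chart O u).algebraMap_mem _

include T in
theorem C0_inv_mem_chart (u : F) : ((C₀ : ℤ) : F)⁻¹ ∈ chart O u := by
  obtain ⟨v, hv⟩ := T.C0
  have : ((C₀ : ℤ) : F)⁻¹ = algebraMap O F (↑v⁻¹ : O) := by
    rw [H.C0F T, ← hv]
    apply inv_eq_of_mul_eq_one_right
    rw [← map_mul, Units.mul_inv, map_one]
  rw [this]; exact (chart O u).algebraMap_mem _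

include T in
theorem x_inv_chart (k : ℕ) (hk : k ≤ r) : (x k)⁻¹ ∈ chart O (algebraMap K F t⁻¹) := by
  induction k with
  | zero => rw [H.x0, ← map_inv₀]; exact self_mem_chart _
  | succ k ih =>
    have h1 : (C₀ : F) / x k ∈ chart O (algebraMap K F t⁻¹) := by
      rw [div_eq_mul_inv]
      exact mul_mem (H.C0_mem_chart T _) (ih (by omega))
    have h2 := MRel.mem_chart T.shape (H.relu T k (by omega)) h1
    have h3 := mul_mem (H.C0_inv_mem_chart T _) h2
    rwa [div_eq_mul_inv, ← mul_assoc, inv_mul_cancel₀ (H.C0_ne T), one_mul] at h3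

theorem w_x0 (T : Tri (M := M) ht hπ q c C₀ P₂ w₂ X₁) : w (algebraMap K F t) = x r := by
  have h2 := H.two
  have e0 := H.φx0 1 le_rfl (by omega)
  rw [Nat.sub_self, H.x0] at e0
  rw [← e0, H.φw 1 le_rfl (by omega), H.φx2 (r - 1) (by omega) (by omega)]
  congr 1; omega

theorem w_aeval (u : F) (s : O[X]) : w (aeval u s) = aeval (w u) s := by
  have h1 : (w : F →+* F).comp ((aeval u : O[X] →ₐ[O] F) : O[X] →+* F) =
      ((aeval (w u) : O[X] →ₐ[O] F) : O[X] →+* F) := by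
    apply Polynomial.ringHom_ext
    · intro a; simp [H.wO]
    · simp
  exact congrArg (fun f : O[X] →+* F => f s) h1

theorem w_eval₂ (u z : F) (p : O[X][X]) :
    w (p.eval₂ ((aeval u : O[X] →ₐ[O] F) : O[X] →+* F) z) =
      p.eval₂ ((aeval (w u) : O[X] →ₐ[O] F) : O[X] →+* F) (w z) := by
  have h1 : (w : F →+* F).comp ((aeval u : O[X] →ₐ[O] F) : O[X] →+* F) =
      ((aeval (w u) : O[X] →ₐ[O] F) : O[X] →+* F) := by
    apply Polynomial.ringHom_ext
    · intro a; simp [H.wO]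
    · simp
  rw [← RingEquiv.coe_toRingHom, hom_eval₂, h1]
  rfl

theorem w_chart_of {s : K} (hs : w (algebraMap K F s) ∈ chart O (algebraMap K F s)) {z : F}
    (hz : z ∈ chart O (algebraMap K F s)) : w z ∈ chart O (algebraMap K F s) := by
  obtain ⟨p, hp, hpx⟩ := hz
  refine chart_trans hs ⟨p, hp, ?_⟩
  rw [← H.w_eval₂, hpx, map_zero]

include T in
theorem w_chart {z : F} (hz : z ∈ chart O (algebraMap K F t)) :
    w z ∈ chart O (algebraMap K F t) :=
  H.w_chart_of (by rw [H.w_x0 T]; exact H.x_chart T r le_rfl) hz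

include T in
theorem w_chart' {z : F} (hz : z ∈ chart O (algebraMap K F t⁻¹)) :
    w z ∈ chart O (algebraMap K F t⁻¹) := by
  refine H.w_chart_of ?_ hz
  rw [map_inv₀, map_inv₀, H.w_x0 T, ← map_inv₀ (algebraMap K F)]
  exact H.x_inv_chart T r le_rfl

theorem φ_eval₂ {a : ℕ} (h1 : 1 ≤ a) (h2 : a < r) (u z : F₂) (p : O[X][X]) :
    φ a (p.eval₂ ((aeval u : O[X] →ₐ[O] F₂) : O[X] →+* F₂) z) =
      p.eval₂ ((aeval (φ a u) : O[X] →ₐ[O] F) : O[X] →+* F) (φ a z) := by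
  have h3 : (φ a).comp ((aeval u : O[X] →ₐ[O] F₂) : O[X] →+* F₂) =
      ((aeval (φ a u) : O[X] →ₐ[O] F) : O[X] →+* F) := by
    apply Polynomial.ringHom_ext
    · intro b; simp [H.φO a h1 h2]
    · simp
  rw [hom_eval₂, h3]

include T in
theorem φ_chart {a : ℕ} (h1 : 1 ≤ a) (h2 : a < r) {z : F₂}
    (hz : z ∈ chart O (algebraMap K F₂ t)) : φ a z ∈ chart O (algebraMap K F t) := by
  obtain ⟨p, hp, hpx⟩ := hz
  refine chart_trans (H.x_chart T (a - 1) (by omega)) ⟨p, hp, ?_⟩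
  rw [← H.φx0 a h1 h2, ← H.φ_eval₂ h1 h2, hpx, map_zero]

include T in
theorem φ_chart' {a : ℕ} (h1 : 1 ≤ a) (h2 : a < r) {z : F₂}
    (hz : z ∈ chart O (algebraMap K F₂ t⁻¹)) : φ a z ∈ chart O (algebraMap K F t⁻¹) := by
  obtain ⟨p, hp, hpx⟩ := hz
  refine chart_trans (H.x_inv_chart T (a - 1) (by omega)) ⟨p, hp, ?_⟩
  rw [← H.φx0 a h1 h2, ← map_inv₀, ← map_inv₀ (algebraMap K F₂), ← H.φ_eval₂ h1 h2, hpx, map_zero]

end Mul

end

end Fermat.Agent.CR
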