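import Mathlib
import Fermat.Agent.CR.Mul1
import Fermat.Agent.CA.UC

/-!
Curves with `r + 1` components: valuation rings at the points, crossing points.
-/

set_option autoImplicit false
set_option linter.unusedSectionVars false
set_option linter.style.haveILetI false
set_option linter.unusedVariables false

open IsLocalRing Polynomial

universe u

namespace Fermat.Agent.CR

open Fermat.Agent.Geo Fermat.Agent.LG Fermat.Agent.CA

theorem frob_inj_nonunits {F : Type*} [Field F] {V : ValuationSubring F} {q : ℕ} (hq : q.Prime)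
    (hqV : ((q : ℕ) : F) ∈ V.nonunits) {a b : F} (ha : a ∈ V) (hb : b ∈ V)
    (h : a ^ q - b ^ q ∈ V.nonunits) : a - b ∈ V.nonunits := by
  haveI := Fact.mk hq
  have h0 : ((q : ℕ) : ResidueField V) = 0 := by
    have h1 : residue V ((q : ℕ) : V) = 0 := by
      rw [coe_nonunits_iff]
      simpa using hqV
    rwa [map_natCast] at h1
  haveI : CharP (ResidueField V) q := by
    obtain ⟨p, hp⟩ := CharP.exists (ResidueField V)
    have h2 : p ∣ q := (CharP.cast_eq_zero_iff (ResidueField V) p q).mp h0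
    rcases (Nat.dvd_prime hq).mp h2 with h3 | h3
    · subst h3
      exact absurd (CharP.cast_eq_zero_iff (ResidueField V) 1 1 |>.mpr (dvd_refl 1))
        (by rw [Nat.cast_one]; exact one_ne_zero)
    · subst h3; exact hp
  have h1 : residue V (⟨a, ha⟩ ^ q - ⟨b, hb⟩ ^ q) = 0 := by
    rw [coe_nonunits_iff]
    exact h
  rw [map_sub, map_pow, map_pow, ← sub_pow_char] at h1
  have h2 := eq_zero_of_pow_eq_zero h1
  rw [← map_sub, coe_nonunits_iff] at h2
  exact h2

section

variable {O K M F F₂ : Type u} [CommRing O] [IsDomain O] [IsDiscreteValuationRing O] [CharZero O]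
  [Field K] [Field M] [Field F] [Field F₂] [Algebra O K] [Algebra O M] [Algebra O F]
  [Algebra O F₂] [Algebra K M] [Algebra K F] [Algebra K F₂] [Algebra M F] [Algebra M F₂]
  [IsScalarTower O K M] [IsScalarTower O K F] [IsScalarTower K M F] [IsScalarTower O M F]
  [IsScalarTower O K F₂] [IsScalarTower K M F₂] [IsScalarTower O M F₂]
  {t : K} {π : O} [FiniteDimensional K M] [Algebra.IsSeparable K M]
  [FiniteDimensional K F] [Algebra.IsSeparable K F]
  [FiniteDimensional K F₂] [Algebra.IsSeparable K F₂]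
  {ht : IsParam O t} {hπ : Prime π} {q : ℕ} {c : ℕ → ℤ[X]} {C₀ : ℤ}
  {P₂ : Fin 3 → ValuationSubring F₂} {w₂ : F₂ ≃+* F₂} {X₁ a1 a2 cc d : F₂}
  {r : ℕ} {P : Fin (r + 1) → ValuationSubring F} {w : F ≃+* F} {φ : ℕ → F₂ →+* F} {x : ℕ → F}

namespace Mul

variable (T : Tri (M := M) ht hπ q c C₀ P₂ w₂ X₁)
  (H : Mul (M := M) ht hπ q P₂ w₂ X₁ a1 cc r P w φ x)

include H

/-! ### the involution -/

theorem w_nonunits (i : Fin (r + 1)) (z : F) :
    w z ∈ (P i).nonunits ↔ z ∈ (P (Fin.rev i)).nonunits := by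
  have : P (Fin.rev i) = (P i).comap (w : F →+* F) := by
    ext z; exact (H.wP i z).symm
  rw [this]
  exact (comap_mem_nonunits (P i) (w : F →+* F) z).symm

theorem unifr (z : F) (hz : z ∈ (P (Fin.last r)).nonunits) :
    z / algebraMap O F π ∈ P (Fin.last r) := by
  have h1 : Fin.rev (0 : Fin (r + 1)) = Fin.last r := Fin.rev_zero r
  rw [← h1, ← H.wP, map_div₀, H.wO]
  refine H.unif0 _ ?_
  rw [H.w_nonunits, h1]
  exact hz

/-! ### the elements of `M` -/

theorem memM (i : Fin (r + 1)) (f : M) : algebraMap M F f ∈ P i ↔ algebraMap M F f ∈ P 0 := by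
  have h1 : (P i).comap (algebraMap M F) = (P 0).comap (algebraMap M F) := by
    refine H.gm.uniq _ ⟨fun z hz => ?_, ?_⟩
    · change algebraMap M F (algebraMap K M z) ∈ P i
      rw [← IsScalarTower.algebraMap_apply]
      exact (H.sys.ov i).1 z hz
    · rw [comap_mem_nonunits, ← IsScalarTower.algebraMap_apply]
      exact (H.sys.ov i).2
  exact Iff.of_eq (congrArg (fun V : ValuationSubring M => f ∈ V) h1)

theorem nonM (i : Fin (r + 1)) (f : M) :
    algebraMap M F f ∈ (P i).nonunits ↔ f ∈ ((P 0).comap (algebraMap M F)).nonunits := by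
  have h1 : (P i).comap (algebraMap M F) = (P 0).comap (algebraMap M F) := by
    ext f; exact H.memM i f
  rw [← h1, comap_mem_nonunits]

theorem aevalM (s : O[X]) {u : K} : algebraMap M F (aeval (algebraMap K M u) s) =
    aeval (algebraMap K F u) s := by
  rw [← aeval_algebraMap_apply, ← IsScalarTower.algebraMap_apply]

theorem eval₂M (p : O[X][X]) (s : K) (f : M) :
    algebraMap M F (p.eval₂ ((aeval (algebraMap K M s) : O[X] →ₐ[O] M) : O[X] →+* M) f) =
      p.eval₂ ((aeval (algebraMap K F s) : O[X] →ₐ[O] F) : O[X] →+* F) (algebraMap M F f) := by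
  rw [hom_eval₂]
  congr 1
  apply Polynomial.ringHom_ext
  · intro a; simp [← IsScalarTower.algebraMap_apply]
  · simp [← IsScalarTower.algebraMap_apply]

/-- normality along the components `P i`, `2 i ≤ r` -/
theorem normal (i : Fin (r + 1)) (hi : 2 * (i : ℕ) ≤ r) {z : F} (hz : z ∈ P i) (p : O[X][X])
    (hp : p.Monic) (hpz : p.eval₂ ((aeval (algebraMap K F t) : O[X] →ₐ[O] F) : O[X] →+* F) z ∈
      (P i).nonunits) :
    ∃ b ∈ chart O (algebraMap K M t), z - algebraMap M F b ∈ (P i).nonunits := by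
  obtain ⟨f, hf, hzf⟩ := H.res i hi z hz
  have h1 := eval₂_congr_mod (H.O_mem i) (H.t_mem i) hz (u' := algebraMap K F t)
    (by rw [sub_self]; exact zero_mem_nonunits _) hzf p hpz
  rw [← H.eval₂M, H.nonM] at h1
  obtain ⟨b, hb, hfb⟩ := H.gm.normal p hp h1
  refine ⟨b, hb, ?_⟩
  rw [← H.nonM i, map_sub] at hfb
  have := nonunits_add hzf hfb
  rwa [sub_add_sub_cancel] at this

theorem normal' (i : Fin (r + 1)) (hi : 2 * (i : ℕ) ≤ r) {z : F} (hz : z ∈ P i) (p : O[X][X])
    (hp : p.Monic) (hpz : p.eval₂ ((aeval (algebraMap K F t⁻¹) : O[X] →ₐ[O] F) : O[X] →+* F) z ∈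
      (P i).nonunits) :
    ∃ s : O[X], IsUnit (s.coeff 0) ∧ ∃ b ∈ chart O (algebraMap K M t⁻¹),
      aeval (algebraMap K F t⁻¹) s * z - algebraMap M F b ∈ (P i).nonunits := by
  obtain ⟨f, hf, hzf⟩ := H.res i hi z hz
  have hti : algebraMap K F t⁻¹ ∈ P i := by rw [map_inv₀]; exact H.t_inv_mem i
  have h1 := eval₂_congr_mod (H.O_mem i) hti hz (u' := algebraMap K F t⁻¹)
    (by rw [sub_self]; exact zero_mem_nonunits _) hzf p hpz
  rw [← H.eval₂M, H.nonM] at h1
  obtain ⟨s, hs, b, hb, hfb⟩ := H.gm.normal_inv ht.inv p hp h1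
  refine ⟨s, hs, b, hb, ?_⟩
  rw [← H.nonM i, map_sub, map_mul, H.aevalM] at hfb
  have hsP : aeval (algebraMap K F t⁻¹) s ∈ P i := by
    rw [aeval_eq_sum_range]
    refine sum_mem fun j _ => ?_
    rw [Algebra.smul_def]
    exact (P i).mul_mem _ _ (H.O_mem i _) (pow_mem hti _)
  have := nonunits_add (mul_mem_nonunits hsP hzf) hfb
  rwa [mul_sub, sub_add_sub_cancel] at this

/-! ### powers -/

/-- Frobenius is injective modulo a component -/
theorem sub_pow_nonunits (T : Tri (M := M) ht hπ q c C₀ P₂ w₂ X₁) (i : Fin (r + 1)) {a b : F}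
    (ha : a ∈ P i) (hb : b ∈ P i) (h : a ^ q - b ^ q ∈ (P i).nonunits) :
    a - b ∈ (P i).nonunits :=
  frob_inj_nonunits T.prime (H.q_nonunit T i) ha hb h

include T in
theorem x_up (i : Fin (r + 1)) (k : ℕ) (hk : k + (i : ℕ) ≤ r) :
    x k - algebraMap K F t ^ (q ^ k) ∈ (P i).nonunits := by
  induction k with
  | zero => rw [H.x0, pow_zero, pow_one, sub_self]; exact zero_mem_nonunits _
  | succ k ih =>
    have h1 := ih (by omega)
    have h2 := nonunits_pow_sub q (H.x_mem T i k (by omega)) (pow_mem (H.t_mem i) _) h1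
    have h3 := nonunits_add (H.stepF T i k (by omega)) h2
    rwa [sub_add_sub_cancel, ← pow_mul, ← pow_succ] at h3

include T in
theorem x_down (i : Fin (r + 1)) (j k : ℕ) (hj : r ≤ j + (i : ℕ)) (hk : j + k ≤ r) :
    x j - x (j + k) ^ (q ^ k) ∈ (P i).nonunits := by
  induction k with
  | zero => rw [add_zero, pow_zero, pow_one, sub_self]; exact zero_mem_nonunits _
  | succ k ih =>
    have h1 := ih (by omega)
    have h2 := H.stepV T i (j + k) (by omega) (by omega)
    have h3 := nonunits_pow_sub (q ^ k) (H.x_mem T i (j + k) (by omega))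
      (pow_mem (H.x_mem T i (j + k + 1) (by omega)) q) h2
    have h4 := nonunits_add h1 h3
    rwa [sub_add_sub_cancel, ← pow_mul, ← pow_succ'] at h4

include T in
theorem sub_pow_nonunits' (i : Fin (r + 1)) (n : ℕ) {a b : F}
    (ha : a ∈ P i) (hb : b ∈ P i) (h : a ^ (q ^ n) - b ^ (q ^ n) ∈ (P i).nonunits) :
    a - b ∈ (P i).nonunits := by
  induction n with
  | zero => simpa using h
  | succ n ih =>
    apply ih
    apply H.sub_pow_nonunits T i (pow_mem ha _) (pow_mem hb _)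
    rwa [← pow_mul, ← pow_mul, ← pow_succ]

include T in
theorem x_r (i : Fin (r + 1)) (hi : 2 * (i : ℕ) ≤ r) :
    x r - algebraMap K F t ^ (q ^ (r - 2 * (i : ℕ))) ∈ (P i).nonunits := by
  apply H.sub_pow_nonunits' T i (i : ℕ) (H.x_mem T i r le_rfl) (pow_mem (H.t_mem i) _)
  have h1 := H.x_up T i (r - (i : ℕ)) (by omega)
  have h2 := H.x_down T i (r - (i : ℕ)) (i : ℕ) (by omega) (by omega)
  rw [show r - (i : ℕ) + (i : ℕ) = r by omega] at h2
  have h3 := nonunits_sub h1 h2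
  rw [sub_sub_sub_cancel_left] at h3
  rw [← pow_mul, ← pow_add, show r - 2 * (i : ℕ) + (i : ℕ) = r - (i : ℕ) by omega]
  exact h3

omit H in
theorem eval₂_expand (n : ℕ) (u z : F) (p : O[X][X]) :
    (p.map ((expand O n : O[X] →ₐ[O] O[X]) : O[X] →+* O[X])).eval₂
      ((aeval u : O[X] →ₐ[O] F) : O[X] →+* F) z =
      p.eval₂ ((aeval (u ^ n) : O[X] →ₐ[O] F) : O[X] →+* F) z := by
  rw [eval₂_map]
  congr 1
  apply Polynomial.ringHom_ext
  · intro a; simp
  · simp

/-- normality along the components `P i`, `r ≤ 2 i` -/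
theorem normalr (T : Tri (M := M) ht hπ q c C₀ P₂ w₂ X₁) (i : Fin (r + 1))
    (hi : r ≤ 2 * (i : ℕ)) {z : F} (hz : z ∈ P i) (p : O[X][X])
    (hp : p.Monic) (hpz : p.eval₂ ((aeval (algebraMap K F t) : O[X] →ₐ[O] F) : O[X] →+* F) z ∈
      (P i).nonunits) :
    ∃ b ∈ chart O (algebraMap K M t), z - w (algebraMap M F b) ∈ (P i).nonunits := by
  have hrev : ((Fin.rev i : Fin (r + 1)) : ℕ) = r - i := by rw [Fin.val_rev]; omega
  have hi' : 2 * ((Fin.rev i : Fin (r + 1)) : ℕ) ≤ r := by rw [hrev]; omega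
  have hwz : w z ∈ P (Fin.rev i) := by rw [H.wP, Fin.rev_rev]; exact hz
  have hnon : ∀ u : F, w u ∈ (P (Fin.rev i)).nonunits ↔ u ∈ (P i).nonunits := fun u => by
    rw [H.w_nonunits, Fin.rev_rev]
  rw [← hnon, H.w_eval₂, H.w_x0 T] at hpz
  have h1 := eval₂_congr_mod (H.O_mem (Fin.rev i)) (H.x_mem T (Fin.rev i) r le_rfl) hwz
    (u' := algebraMap K F t ^ (q ^ (r - 2 * ((Fin.rev i : Fin (r + 1)) : ℕ))))
    (H.x_r T (Fin.rev i) hi') (x' := w z)
    (by rw [sub_self]; exact zero_mem_nonunits _) p hpz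
  rw [← eval₂_expand] at h1
  obtain ⟨b, hb, hzb⟩ := H.normal (Fin.rev i) hi' hwz _ (hp.map _) h1
  refine ⟨b, hb, ?_⟩
  rw [← hnon, map_sub, H.ww]
  exact hzb

/-! ### valuation rings at the points -/

include T in
theorem valAt {y : Ideal (chart O (algebraMap K F t))} [hy : y.IsPrime] (i : Fin (r + 1))
    (hm : Meets y (P i)) : ValAt y (P i) := by
  refine valAt_of_normal (H.sys.ov i) hm fun z hz p hp hpz => ?_
  rcases le_total (2 * (i : ℕ)) r with hi | hi
  · obtain ⟨b, hb, hxb⟩ := H.normal i hi hz p hp hpz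
    exact ⟨_, mem_locS_of_mem (chart_up hb), hxb⟩
  · obtain ⟨b, hb, hxb⟩ := H.normalr T i hi hz p hp hpz
    exact ⟨_, mem_locS_of_mem (H.w_chart T (chart_up hb)), hxb⟩

/-! ### the chart at infinity -/

include T in
theorem x_r_inv (i : Fin (r + 1)) (hi : 2 * (i : ℕ) ≤ r) :
    (x r)⁻¹ - algebraMap K F t⁻¹ ^ (q ^ (r - 2 * (i : ℕ))) ∈ (P i).nonunits := by
  have h1 := H.x_r T i hi
  set n := q ^ (r - 2 * (i : ℕ)) with hn
  have h3 := mul_mem_nonunits (mul_mem (H.x_inv_mem T i r le_rfl) (pow_mem (H.t_inv_mem i) n))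
    (nonunits_neg h1)
  have h4 := H.x_ne T r le_rfl
  have h5 := H.tF_ne
  have e : (x r)⁻¹ * (algebraMap K F t)⁻¹ ^ n * -(x r - algebraMap K F t ^ n) =
      (x r)⁻¹ - algebraMap K F t⁻¹ ^ n := by
    rw [map_inv₀, inv_pow]
    field_simp
    ring
  rwa [e] at h3

theorem normalr' (T : Tri (M := M) ht hπ q c C₀ P₂ w₂ X₁) (i : Fin (r + 1))
    (hi : r ≤ 2 * (i : ℕ)) {z : F} (hz : z ∈ P i) (p : O[X][X])
    (hp : p.Monic) (hpz : p.eval₂ ((aeval (algebraMap K F t⁻¹) : O[X] →ₐ[O] F) : O[X] →+* F) z ∈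
      (P i).nonunits) :
    ∃ s : O[X], IsUnit (s.coeff 0) ∧ ∃ b ∈ chart O (algebraMap K M t⁻¹),
      w (aeval (algebraMap K F t⁻¹) s) * z - w (algebraMap M F b) ∈ (P i).nonunits := by
  have hrev : ((Fin.rev i : Fin (r + 1)) : ℕ) = r - i := by rw [Fin.val_rev]; omega
  have hi' : 2 * ((Fin.rev i : Fin (r + 1)) : ℕ) ≤ r := by rw [hrev]; omega
  have hwz : w z ∈ P (Fin.rev i) := by rw [H.wP, Fin.rev_rev]; exact hz
  have hnon : ∀ u : F, w u ∈ (P (Fin.rev i)).nonunits ↔ u ∈ (P i).nonunits := fun u => by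
    rw [H.w_nonunits, Fin.rev_rev]
  have hwt : w (algebraMap K F t⁻¹) = (x r)⁻¹ := by rw [map_inv₀, map_inv₀, H.w_x0 T]
  rw [← hnon, H.w_eval₂, hwt] at hpz
  have h1 := eval₂_congr_mod (H.O_mem (Fin.rev i)) (H.x_inv_mem T (Fin.rev i) r le_rfl) hwz
    (u' := algebraMap K F t⁻¹ ^ (q ^ (r - 2 * ((Fin.rev i : Fin (r + 1)) : ℕ))))
    (H.x_r_inv T (Fin.rev i) hi') (x' := w z)
    (by rw [sub_self]; exact zero_mem_nonunits _) p hpz
  rw [← eval₂_expand] at h1
  obtain ⟨s, hs, b, hb, hzb⟩ := H.normal' (Fin.rev i) hi' hwz _ (hp.map _) h1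
  refine ⟨s, hs, b, hb, ?_⟩
  rw [← hnon, map_sub, map_mul, H.ww, H.ww]
  exact hzb

omit H in
theorem aeval_unit' {C : Subalgebra O F} {y : Ideal C} [hy : y.IsPrime] {u : F}
    (hu : locM y u) {s : O[X]} (hs : IsUnit (s.coeff 0)) :
    aeval u s ∈ locS y ∧ ¬ locM y (aeval u s) := by
  have hO : ∀ a : O, algebraMap O F a ∈ locS y := fun a =>
    mem_locS_of_mem (C.algebraMap_mem a)
  have h1 : aeval u s = algebraMap O F (s.coeff 0) + u * aeval u s.divX := by
    conv_lhs => rw [← divX_mul_X_add s]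
    rw [map_add, map_mul, aeval_X, aeval_C]
    ring
  have h2 : aeval u s.divX ∈ locS y := by
    rw [aeval_eq_sum_range]
    refine Subring.sum_mem _ fun i _ => ?_
    rw [Algebra.smul_def]
    exact Subring.mul_mem _ (hO _) (Subring.pow_mem _ hu.mem _)
  have h3 : locM y (u * aeval u s.divX) := hu.mul_right h2
  rw [h1]
  refine ⟨Subring.add_mem _ (hO _) h3.mem, fun h => ?_⟩
  have h4 := h.sub h3
  rw [add_sub_cancel_right] at h4
  obtain ⟨v, hv⟩ := hs
  have h5 := h4.mul_right (hO (↑v⁻¹ : O))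
  rw [← map_mul, ← hv, Units.mul_inv, map_one] at h5
  exact not_locM_one h5

include T in
theorem x_inv_locM {y : Ideal (chart O (algebraMap K F t⁻¹))} [hy : y.IsPrime]
    (hty : locM y (algebraMap K F t)⁻¹) (hqM : locM y ((q : ℕ) : F)) (k : ℕ) (hk : k ≤ r) :
    locM y (x k)⁻¹ := by
  induction k with
  | zero => rw [H.x0]; exact hty
  | succ k ih =>
    exact T.shape.inv_locM hqM (H.x_ne T _ hk) (H.x_ne T k (by omega)) (H.rel T k (by omega))
      (ih (by omega))

include T in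
theorem valAt' {y : Ideal (chart O (algebraMap K F t⁻¹))} [hy : y.IsPrime]
    (hty : locM y (algebraMap K F t)⁻¹) (i : Fin (r + 1))
    (hm : Meets y (P i)) : ValAt y (P i) := by
  have hqM : locM y ((q : ℕ) : F) := locM_of_nonunits (H.sys'.ov i) hm
    (natCast_mem _ _) (H.q_nonunit T i)
  have h2 := H.x_inv_locM T hty hqM r le_rfl
  refine valAt_of_normal (H.sys'.ov i) hm fun z hz p hp hpz => ?_
  have hti : algebraMap K F t⁻¹ = (algebraMap K F t)⁻¹ := map_inv₀ _ _
  rcases le_total (2 * (i : ℕ)) r with hi | hi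
  · obtain ⟨s, hs, b, hb, hxb⟩ := H.normal' i hi hz p hp hpz
    obtain ⟨u1, u2⟩ := aeval_unit' hty hs
    rw [← hti] at u1 u2
    refine ⟨(aeval (algebraMap K F t⁻¹) s)⁻¹ * algebraMap M F b, Subring.mul_mem _
      (inv_mem_of_not_locM u1 u2) (mem_locS_of_mem (chart_up hb)), ?_⟩
    obtain ⟨v1, v2, v3⟩ := meets_notMem (H.sys'.ov i) hm u1 u2
    have hs0 : aeval (algebraMap K F t⁻¹) s ≠ 0 := fun h => by
      rw [h] at v3; exact v3 (zero_mem_nonunits _)
    rw [inv_sub_eq hs0 _ _]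
    exact mul_mem_nonunits v2 hxb
  · obtain ⟨s, hs, b, hb, hxb⟩ := H.normalr' T i hi hz p hp hpz
    have h3 : locM y (w (algebraMap K F t⁻¹)) := by
      have e : w (algebraMap K F t⁻¹) = (x r)⁻¹ := by rw [map_inv₀, map_inv₀, H.w_x0 T]
      rw [e]; exact h2
    obtain ⟨u1, u2⟩ := aeval_unit' h3 hs
    rw [← H.w_aeval] at u1 u2
    refine ⟨(w (aeval (algebraMap K F t⁻¹) s))⁻¹ * w (algebraMap M F b), Subring.mul_mem _
      (inv_mem_of_not_locM u1 u2) (mem_locS_of_mem (H.w_chart' T (chart_up hb))), ?_⟩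
    obtain ⟨v1, v2, v3⟩ := meets_notMem (H.sys'.ov i) hm u1 u2
    have hs0 : w (aeval (algebraMap K F t⁻¹) s) ≠ 0 := fun h => by
      rw [h] at v3; exact v3 (zero_mem_nonunits _)
    rw [inv_sub_eq hs0 _ _]
    exact mul_mem_nonunits v2 hxb

/-! ### residues at `P 0` and `P 1` of units at a point -/

theorem chart_normal (i : Fin (r + 1)) (hi : 2 * (i : ℕ) ≤ r) {z : F}
    (hz : z ∈ chart O (algebraMap K F t)) :
    ∃ b ∈ chart O (algebraMap K M t), z - algebraMap M F b ∈ (P i).nonunits := by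
  obtain ⟨p, hp, hpx⟩ := id hz
  exact H.normal i hi (chart_mem_over (H.sys.ov i) hz) p hp
    (by rw [hpx]; exact zero_mem_nonunits _)

/-- residues are represented by functions of level `M` in the local ring -/
theorem res_loc {y : Ideal (chart O (algebraMap K F t))} [hy : y.IsPrime] (i : Fin (r + 1))
    (hi : 2 * (i : ℕ) ≤ r) (hm : Meets y (P i)) {z : F} (hz : z ∈ locS y) (hzM : ¬ locM y z) :
    ∃ f : M, algebraMap M F f ∈ locS y ∧ UC (P i) z (algebraMap M F f) := by
  obtain ⟨e, he, hez⟩ := id hz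
  obtain ⟨b, hb, hcb⟩ := H.chart_normal i hi hez
  obtain ⟨b', hb', hcb'⟩ := H.chart_normal i hi e.2
  have hbl : algebraMap M F b ∈ locS y := mem_locS_of_mem (chart_up hb)
  have hbl' : algebraMap M F b' ∈ locS y := mem_locS_of_mem (chart_up hb')
  have hel : (e : F) ∈ locS y := mem_locS_of_mem e.2
  have heM : ¬ locM y (e : F) := fun h => he (locM_coe_iff.mp h)
  have h1 := locM_of_nonunits (H.sys.ov i) hm (Subring.sub_mem _ hel hbl') hcb'
  have hb'M : ¬ locM y (algebraMap M F b') := not_locM_of_sub h1 heM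
  have hb'i := inv_mem_of_not_locM hbl' hb'M
  obtain ⟨z1, z2, z3⟩ := meets_notMem (H.sys.ov i) hm hz hzM
  obtain ⟨e1, e2, e3⟩ := meets_notMem (H.sys.ov i) hm hel heM
  obtain ⟨c1, c2, c3⟩ := meets_notMem (H.sys.ov i) hm hbl' hb'M
  have hb'0 : algebraMap M F b' ≠ 0 := fun h => by rw [h] at c3; exact c3 (zero_mem_nonunits _)
  have hz0 : z ≠ 0 := fun h => by rw [h] at z3; exact z3 (zero_mem_nonunits _)
  refine ⟨b / b', ?_, hz0, z1, z2, ?_⟩
  · rw [map_div₀, div_eq_mul_inv]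
    exact Subring.mul_mem _ hbl hb'i
  · rw [map_div₀]
    have e4 : z - algebraMap M F b / algebraMap M F b' =
        (algebraMap M F b')⁻¹ * (((e : F) * z - algebraMap M F b) -
          z * ((e : F) - algebraMap M F b')) := by
      field_simp
      ring
    rw [e4]
    exact mul_mem_nonunits c2 (nonunits_sub hcb (mul_mem_nonunits z1 hcb'))

end Mul

end

end Fermat.Agent.CR
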