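import Mathlib
import Fermat.Agent.CR.MainR2
import Fermat.Agent.CR.Mul2
import Fermat.Agent.CR.Lev

/-!
The geometric data from the structure `Mul`.
-/

set_option autoImplicit false
set_option linter.unusedSectionVars false
set_option linter.style.haveILetI false
set_option linter.unusedVariables false

open IsLocalRing Polynomial ModularCurve

noncomputable section

universe u

namespace Fermat.Agent.CR

open Fermat.Agent.Geo Fermat.Agent.LG Fermat.Agent.CA

variable {O K M F F₂ : Type u} [CommRing O] [IsDomain O] [IsDiscreteValuationRing O] [CharZero O]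
  [Field K] [Field M] [Field F] [Field F₂] [Algebra O K] [Algebra O M] [Algebra O F]
  [Algebra O F₂] [Algebra K M] [Algebra K F] [Algebra K F₂] [Algebra M F] [Algebra M F₂]
  [IsScalarTower O K M] [IsScalarTower O K F] [IsScalarTower K M F] [IsScalarTower O M F]
  [IsScalarTower O K F₂] [IsScalarTower K M F₂] [IsScalarTower O M F₂]
  {t : K} {π : O} [FiniteDimensional K M] [Algebra.IsSeparable K M]
  [FiniteDimensional K F] [Algebra.IsSeparable K F]
  [FiniteDimensional K F₂] [Algebra.IsSeparable K F₂]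
  {ht : IsParam O t} {hπ : Prime π} {q : ℕ} {c : ℕ → ℤ[X]} {C₀ : ℤ}
  {P₂ : Fin 3 → ValuationSubring F₂} {w₂ : F₂ ≃+* F₂} {X₁ a1 a2 cc d : F₂}
  {r : ℕ} {P : Fin (r + 1) → ValuationSubring F} {w : F ≃+* F} {φ : ℕ → F₂ →+* F} {x : ℕ → F}
  {V W : ℕ → F} {dd : Fin (r + 1) → F} {ed : Fin (r + 1) → ℕ}

/-- the ramification indices -/
def eR (q r : ℕ) (i : Fin (r + 1)) : ℤ :=
  if min (r - (i : ℕ)) i = 0 then 1 else (Nat.totient (q ^ min (r - (i : ℕ)) i) : ℕ)

theorem Mul.crow (T : Tri (M := M) ht hπ q c C₀ P₂ w₂ X₁)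
    (H : Mul (M := M) ht hπ q P₂ w₂ X₁ a1 cc r P w φ x)
    (hun : ∀ i : Fin (r + 1), Uni (P i) (dlt (algebraMap O F π) r x i)) : CRow q r c P x := by
  have hd : ∀ i : Fin (r + 1), 0 < (i : ℕ) → (i : ℕ) < r →
      dlt (algebraMap O F π) r x i =
        x (r - i + min (i : ℕ) (r - i)) - x (r - i - min (i : ℕ) (r - i)) := by
    intro i h1 h2
    have h3 : ¬ min (r - (i : ℕ)) (i : ℕ) = 0 := by omega
    rw [dlt, if_neg h3, min_comm]
  refine CRow.of (H.rel' T) (H.rel T) (H.x_ne T) (fun k hk i => H.x_mem T i k hk)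
    (fun k hk i => H.x_inv_mem T i k hk) (fun i k hk => H.stepF T i k hk)
    (fun i k hk hk' => H.stepV T i k hk hk') (fun k hk => ?_) (fun i h1 h2 => ?_)
    (fun i h1 h2 z hz => ?_)
  · have h1 := H.φx0 (k + 1) (by omega) (by omega)
    have h2 := H.φx2 (k + 1) (by omega) (by omega)
    rw [Nat.add_sub_cancel] at h1
    intro h3
    apply T.del_ne
    apply (φ (k + 1)).injective
    rw [h2, h1, ← h3]
  · rw [← hd i h1 h2]
    exact (hun i).non
  · rw [← hd i h1 h2]
    exact (hun i).dvd z hz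

/-- **The geometric data.** -/
theorem Mul.geoR (T : Tri (M := M) ht hπ q c C₀ P₂ w₂ X₁)
    (H : Mul (M := M) ht hπ q P₂ w₂ X₁ a1 cc r P w φ x)
    (mu : MU (algebraMap K F t) π q r (fun a => P (Fin.rev a)) V W)
    (md : MD (algebraMap K F t) π r (fun a => P (Fin.rev a)) dd ed)
    (hun : ∀ i : Fin (r + 1), Uni (P i) (dlt (algebraMap O F π) r x i))
    (hpw : ∀ i : Fin (r + 1), 1 ≤ (i : ℕ) → (i : ℕ) < r →
      UC (P i) (dlt (algebraMap O F π) r x i ^ (Nat.totient (q ^ min (r - (i : ℕ)) i)) / (q : F))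
        (dlt (algebraMap O F π) r x i ^ (Nat.totient (q ^ min (r - (i : ℕ)) i)) / (q : F))) :
    GeoR (M := M) ht hπ q r c C₀ P w x V W dd ed
      (fun i => dlt (algebraMap O F π) r x i) (eR q r) := by
  have hqF : ((q : ℕ) : F) = algebraMap O F π := by rw [← T.hq, map_natCast]
  have crow := H.crow T hun
  refine
    { two := H.two
      prime := T.prime
      shape := T.shape
      qπ := hqF
      C0 := T.C0
      sys := H.sys
      inj := H.inj
      ww := H.ww
      wP := H.wP
      wch := fun z hz => H.w_chart T hz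
      x0 := H.x0
      wx0 := H.w_x0 T
      mu := mu
      md := md
      unif0 := H.unif0
      val := fun y _ i hi => H.valAt T i hi
      val' := fun y _ i hy hi => ?_
      row := crow
      row' := ?_
      norm := fun i hi z hz => ?_
      uni := hun
      ϖ0 := ?_
      πe := fun i => ?_
      e_ne := fun i => ?_ }
  · have e : (algebraMap K F t)⁻¹ = algebraMap K F t⁻¹ := (map_inv₀ (algebraMap K F) t).symm
    refine H.valAt' T (y := y) ?_ i hi
    exact (congrArg (fun z => locM y z) e).mpr hy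
  · refine crow.inv T.prime (H.C0_ne T) (fun i => ?_) (fun i => H.q_nonunit T i)
      (fun k hk i => H.x_mem T i k hk) (H.relu' T) (H.relu T)
    exact chart_mem_over (H.sys.ov i) (H.C0_inv_mem_chart T _)
  · obtain ⟨p, hp, hpz⟩ := hz
    have hr := H.two
    obtain ⟨b, hb, hzb⟩ := H.normal i (by omega) (chart_mem_over (H.sys.ov i) ⟨p, hp, hpz⟩) p hp
      (by rw [hpz]; exact zero_mem_nonunits _)
    exact ⟨b, chart_up (E := F) hb, hzb⟩
  · simp [dlt]
  · by_cases hi : min (r - (i : ℕ)) (i : ℕ) = 0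
    · have e1 : dlt (algebraMap O F π) r x i = algebraMap O F π := by rw [dlt, if_pos hi]
      have e2 : eR q r i = 1 := by rw [eR, if_pos hi]
      have h0 := (hun i).ne
      rw [e1] at h0 ⊢
      rw [e2]
      exact vl_self_one h0
    · have h1 : 1 ≤ (i : ℕ) := by omega
      have h2 : (i : ℕ) < r := by omega
      have e2 : eR q r i = ((Nat.totient (q ^ min (r - (i : ℕ)) i) : ℕ) : ℤ) := by
        rw [eR, if_neg hi]
      have h3 := (hpw i h1 h2).invs
      rw [inv_div, hqF] at h3
      rw [Vl, e2, zpow_natCast]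
      exact h3
  · rw [eR]
    split_ifs with h
    · exact one_ne_zero
    · have h3 : 0 < Nat.totient (q ^ min (r - (i : ℕ)) i) :=
        Nat.totient_pos.mpr (pow_pos T.prime.pos _)
      exact_mod_cast h3.ne'

end Fermat.Agent.CR
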