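import Mathlib
import Fermat.Agent.CR.Mul1
import Fermat.Agent.CR.Cusp2

/-!
Curves with `r + 1` components: the components are determined by the congruences between the
functions `x k`.
-/

set_option autoImplicit false
set_option linter.unusedSectionVars false
set_option linter.style.haveILetI false
set_option linter.unusedVariables false

open IsLocalRing Polynomial

universe u

namespace Fermat.Agent.CR

open Fermat.Agent.Geo Fermat.Agent.LG Fermat.Agent.CA

/-- the congruences: `P i` has `r - i` Frobenius steps followed by `i` Verschiebung steps. -/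
structure Stp {F : Type*} [Field F] (q r : ℕ) (x : ℕ → F)
    (P : Fin (r + 1) → ValuationSubring F) : Prop where
  fs : ∀ (i : Fin (r + 1)) (k : ℕ), k + 1 + i ≤ r → x (k + 1) - x k ^ q ∈ (P i).nonunits
  vs : ∀ (i : Fin (r + 1)) (k : ℕ), r ≤ k + i → k < r → x k - x (k + 1) ^ q ∈ (P i).nonunits
  mem : ∀ (i : Fin (r + 1)) (k : ℕ), k ≤ r → x k ∈ P i
  tr : ∀ (i : Fin (r + 1)) (k : ℕ), k ≤ r → x k - x k ^ (q ^ 2) ∉ (P i).nonunits

/-- Frobenius and Verschiebung at the same place. -/
theorem fv_absurd {F : Type*} [Field F] {q : ℕ} {W : ValuationSubring F} {a b : F} (ha : a ∈ W)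
    (hb : b ∈ W) (h1 : b - a ^ q ∈ W.nonunits) (h2 : a - b ^ q ∈ W.nonunits) :
    a - a ^ (q ^ 2) ∈ W.nonunits := by
  have h3 := nonunits_pow_sub q hb (pow_mem ha q) h1
  rw [← pow_mul, ← pow_two] at h3
  have h4 := nonunits_add h2 h3
  rwa [sub_add_sub_cancel] at h4

theorem Stp.eq_of {F : Type*} [Field F] {q r : ℕ} {x : ℕ → F}
    {P : Fin (r + 1) → ValuationSubring F} (h : Stp q r x P) {j i : Fin (r + 1)}
    (hf : ∀ k : ℕ, k + 1 + i ≤ r → x (k + 1) - x k ^ q ∈ (P j).nonunits)
    (hv : ∀ k : ℕ, r ≤ k + i → k < r → x k - x (k + 1) ^ q ∈ (P j).nonunits) : j = i := by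
  rcases lt_trichotomy (j : ℕ) (i : ℕ) with hlt | heq | hgt
  · exfalso
    have hi := i.2
    exact h.tr j (r - i) (by omega) (fv_absurd (h.mem j _ (by omega)) (h.mem j _ (by omega))
      (h.fs j (r - i) (by omega)) (hv (r - i) (by omega) (by omega)))
  · exact Fin.ext heq
  · exfalso
    have hj := j.2
    exact h.tr j (r - i - 1) (by omega) (fv_absurd (h.mem j _ (by omega)) (h.mem j _ (by omega))
      (hf (r - i - 1) (by omega)) (h.vs j (r - i - 1) (by omega) (by omega)))

theorem Stp.ne {F : Type*} [Field F] {q r : ℕ} {x : ℕ → F}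
    {P : Fin (r + 1) → ValuationSubring F} (h : Stp q r x P) {k : ℕ} (hk : k + 2 ≤ r) :
    x (k + 2) ≠ x k := by
  intro he
  have h1 := h.fs 0 k (by simp; omega)
  have h2 := h.fs 0 (k + 1) (by simp; omega)
  have h3 := nonunits_pow_sub q (h.mem 0 (k + 1) (by omega)) (pow_mem (h.mem 0 k (by omega)) q) h1
  rw [← pow_mul, ← pow_two] at h3
  have h4 := nonunits_add h2 h3
  rw [sub_add_sub_cancel, show k + 1 + 1 = k + 2 from rfl, he] at h4
  exact h.tr 0 k (by omega) h4

end Fermat.Agent.CR
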