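import Mathlib
import Fermat.Agent.CR.Lev
import Fermat.Agent.CR.Stp
import Fermat.Agent.CA.Cusp2

/-!
Consequences of `Lev`: the structures used at the points.
-/

set_option autoImplicit false
set_option linter.unusedSectionVars false
set_option linter.style.haveILetI false
set_option linter.unusedVariables false

open IsLocalRing Polynomial

universe u

namespace Fermat.Agent.CR

open Fermat.Agent.Geo Fermat.Agent.LG Fermat.Agent.CA

namespace Lev

section A

variable {O K M F : Type u} [CommRing O] [IsDomain O] [IsDiscreteValuationRing O]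
  [Field K] [Field M] [Field F] [Algebra O K] [Algebra O F] [Algebra K M] [Algebra K F]
  [IsScalarTower O K F]
  {t : K} {π : O} {ht : IsParam O t} {hπ : Prime π} {q : ℕ} {G : ValuationSubring M}
  {r : ℕ} {m : ℕ → M →+* F} {P : ℕ → ValuationSubring F}

variable (H : Lev ht hπ q G r m P)

include H

theorem mem_iff {i k : ℕ} (hi : i ≤ r) (hk : k ≤ r) {f : M} : m k f ∈ P i ↔ f ∈ G := by
  conv_rhs => rw [← H.comap i k hi hk]
  exact Iff.rfl

theorem non_iff {i k : ℕ} (hi : i ≤ r) (hk : k ≤ r) {f : M} :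
    m k f ∈ (P i).nonunits ↔ f ∈ G.nonunits := by
  conv_rhs => rw [← H.comap i k hi hk]
  exact (comap_mem_nonunits _ _ _).symm

theorem ovG : Over (gaussVal ht hπ) (algebraMap O K π) G := by
  refine ⟨fun x hx => ?_, ?_⟩
  · rw [← H.mem_iff (Nat.zero_le _) (Nat.zero_le _), H.m0]
    exact (H.ov 0 (Nat.zero_le _)).1 x hx
  · rw [← H.non_iff (Nat.zero_le _) (Nat.zero_le _), H.m0]
    exact (H.ov 0 (Nat.zero_le _)).2

theorem t_memG : algebraMap K M t ∈ G := H.ovG.1 _ (self_mem_gaussVal ht hπ)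

theorem t_invG : (algebraMap K M t)⁻¹ ∈ G := by
  rw [← map_inv₀]
  exact H.ovG.1 _ (by
    have := aeval_inv_mem_gauss ht hπ (B := X) (by
      intro h
      have h1 := (C_dvd_iff_dvd_coeff _ _).mp h 1
      rw [coeff_X_one] at h1
      exact hπ.not_isUnit (isUnit_of_dvd_one h1))
    rwa [aeval_X] at this)

theorem t_trG (hq : 2 ≤ q) : algebraMap K M t - algebraMap K M t ^ (q ^ 2) ∉ G.nonunits := by
  intro h
  have e : algebraMap K M t - algebraMap K M t ^ (q ^ 2) =
      algebraMap K M (aeval t ((X : O[X]) - X ^ (q ^ 2))) := by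
    simp only [map_sub, map_pow, aeval_X]
  have hs : ¬ C π ∣ ((X : O[X]) - X ^ (q ^ 2)) := by
    intro h3
    have h4 := (C_dvd_iff_dvd_coeff _ _).mp h3 1
    have h5 : (1 : ℕ) ≠ q ^ 2 := by
      have : 2 ^ 2 ≤ q ^ 2 := Nat.pow_le_pow_left hq 2
      omega
    rw [coeff_sub, coeff_X_pow, if_neg h5, coeff_X_one, sub_zero] at h4
    exact hπ.not_isUnit (isUnit_of_dvd_one h4)
  rw [e] at h
  have h0 : aeval t ((X : O[X]) - X ^ (q ^ 2)) ≠ 0 := by
    intro h
    have : ((X : O[X]) - X ^ (q ^ 2)) = 0 := ht.inj (by rw [h, map_zero])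
    exact hs (this ▸ dvd_zero _)
  refine notMem_nonunits_of_inv ?_ ?_ h
  · rw [← map_inv₀]
    exact H.ovG.1 _ (aeval_inv_mem_gauss ht hπ hs)
  · rwa [Ne, map_eq_zero]

theorem x_mem {i k : ℕ} (hi : i ≤ r) (hk : k ≤ r) : m k (algebraMap K M t) ∈ P i :=
  (H.mem_iff hi hk).mpr H.t_memG

theorem x_inv_mem {i k : ℕ} (hi : i ≤ r) (hk : k ≤ r) : (m k (algebraMap K M t))⁻¹ ∈ P i := by
  rw [← map_inv₀]
  exact (H.mem_iff hi hk).mpr H.t_invG

theorem x_ne (k : ℕ) : m k (algebraMap K M t) ≠ 0 := by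
  rw [Ne, map_eq_zero, map_eq_zero]
  exact ht.ne_zero

theorem stp (hq : 2 ≤ q) : Stp q r (fun k => m k (algebraMap K M t))
    (fun i : Fin (r + 1) => P i) where
  fs i k h := H.Ft i k h
  vs i k h h' := H.Vt i k (by omega) h h'
  mem i k h := H.x_mem (by omega) h
  tr i k h := by
    change m k (algebraMap K M t) - m k (algebraMap K M t) ^ (q ^ 2) ∉ (P i).nonunits
    rw [← map_pow, ← map_sub, H.non_iff (by omega) h]
    exact H.t_trG hq

theorem x_ne_add_two (hq : 2 ≤ q) {k : ℕ} (hk : k + 2 ≤ r) :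
    m (k + 2) (algebraMap K M t) ≠ m k (algebraMap K M t) := (H.stp hq).ne hk

theorem x0 : m 0 (algebraMap K M t) = algebraMap K F t := H.m0 t

theorem sys : CompSys ht hπ (fun i : Fin (r + 1) => P i) where
  ov i := H.ov i (by omega)
  all W hW := by
    obtain ⟨i, hi, h⟩ := H.all W hW
    exact ⟨⟨i, by omega⟩, h⟩
  rank i c hc := by
    have hu := H.unif i (by omega)
    obtain ⟨n, hn⟩ := hu.arch (algebraMap O F π)⁻¹
    refine ⟨n, ?_⟩
    have h1 := hu.dvd c hc
    have h2 := mul_mem (pow_mem h1 n) hn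
    have h3 := hu.ne
    rw [div_pow, div_mul_eq_mul_div, mul_comm (_ ^ n) (algebraMap O F π)⁻¹,
      ← mul_assoc, mul_div_cancel_right₀ _ (pow_ne_zero n h3), ← div_eq_mul_inv] at h2
    exact h2

theorem inj' : Function.Injective (fun i : Fin (r + 1) => P i) := by
  intro i j h
  exact Fin.ext (H.inj i j (by omega) (by omega) h)

theorem dl0 : dlt (algebraMap O F π) r (fun k => m k (algebraMap K M t)) 0 =
    algebraMap O F π := by
  rw [dlt, if_pos (by omega)]

theorem unif0 : ∀ z ∈ (P 0).nonunits, z / algebraMap O F π ∈ P 0 := by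
  have h := (H.unif 0 (Nat.zero_le _)).dvd
  rwa [H.dl0] at h

theorem m0O [Algebra O M] [IsScalarTower O K M] (a : O) : m 0 (algebraMap O M a) =
    algebraMap O F a := by
  rw [IsScalarTower.algebraMap_apply O K M, H.m0, ← IsScalarTower.algebraMap_apply]

/-- the components are permuted by an involution `w` with `w x_k = x_(r-k)` -/
theorem wP (hq : 2 ≤ q) {w : F ≃+* F} (hw : ∀ k, k ≤ r → ∀ f, w (m k f) = m (r - k) f)
    (i : Fin (r + 1)) (z : F) : w z ∈ P i ↔ z ∈ P (Fin.rev i : Fin (r + 1)) := by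
  have hi := i.2
  have hov : Over (gaussVal ht hπ) (algebraMap O K π) ((P i).comap (w : F →+* F)) := by
    have h0 : ∀ a : K, w (algebraMap K F a) = m r (algebraMap K M a) := by
      intro a
      rw [← H.m0, hw 0 (Nat.zero_le _), Nat.sub_zero]
    refine ⟨fun x hx => ?_, ?_⟩
    · rw [ValuationSubring.mem_comap]
      change w (algebraMap K F x) ∈ P i
      rw [h0, H.mem_iff (by omega) le_rfl]
      exact H.ovG.1 x hx
    · rw [comap_mem_nonunits]
      change w (algebraMap K F _) ∈ (P i).nonunits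
      rw [h0, H.non_iff (by omega) le_rfl]
      exact H.ovG.2
  obtain ⟨j, hj⟩ := H.sys.all _ hov
  have hnon : ∀ z : F, z ∈ (P j).nonunits ↔ w z ∈ (P i).nonunits := by
    intro z
    have h1 := comap_mem_nonunits (P i) (w : F →+* F) z
    rw [hj] at h1
    exact h1
  have hji : j = Fin.rev i := by
    refine (H.stp hq).eq_of ?_ ?_
    · intro k hk
      rw [Fin.val_rev] at hk
      change m (k + 1) (algebraMap K M t) - m k (algebraMap K M t) ^ q ∈ (P j).nonunits
      rw [hnon, map_sub, map_pow, hw _ (by omega), hw _ (by omega)]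
      have := H.Vt i (r - (k + 1)) (by omega) (by omega) (by omega)
      rwa [show r - (k + 1) + 1 = r - k by omega] at this
    · intro k hk hk'
      rw [Fin.val_rev] at hk
      change m k (algebraMap K M t) - m (k + 1) (algebraMap K M t) ^ q ∈ (P j).nonunits
      rw [hnon, map_sub, map_pow, hw _ (by omega), hw _ (by omega)]
      have := H.Ft i (r - (k + 1)) (by omega)
      rwa [show r - (k + 1) + 1 = r - k by omega] at this
  rw [← hji]
  have h2 := ValuationSubring.ext_iff.mp hj z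
  rw [ValuationSubring.mem_comap] at h2
  exact h2

end A

section B

variable {O K M F F₂ : Type u} [CommRing O] [IsDomain O] [IsDiscreteValuationRing O] [CharZero O]
  [Field K] [Field M] [Field F] [Field F₂] [Algebra O K] [Algebra O M] [Algebra O F]
  [Algebra O F₂] [Algebra K M] [Algebra K F] [Algebra K F₂] [Algebra M F] [Algebra M F₂]
  [IsScalarTower O K M] [IsScalarTower O K F] [IsScalarTower K M F] [IsScalarTower O M F]
  [IsScalarTower O K F₂] [IsScalarTower K M F₂] [IsScalarTower O M F₂]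
  {t : K} {π : O} [FiniteDimensional K M] [Algebra.IsSeparable K M]
  [FiniteDimensional K F] [Algebra.IsSeparable K F]
  [FiniteDimensional K F₂] [Algebra.IsSeparable K F₂]
  {ht : IsParam O t} {hπ : Prime π} {q : ℕ} {c : ℕ → ℤ[X]} {C₀ : ℤ}
  {P₂ : Fin 3 → ValuationSubring F₂} {w₂ : F₂ ≃+* F₂} {X₁ a1 a2 cc d : F₂}
  {G : ValuationSubring M} {r : ℕ} {m : ℕ → M →+* F} {P : ℕ → ValuationSubring F}

variable (H : Lev ht hπ q G r m P)

include H

theorem fs_lt (hq : 2 ≤ q) {i k : ℕ} (hi : i ≤ r) (hk : k < r)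
    (h : m (k + 1) (algebraMap K M t) - m k (algebraMap K M t) ^ q ∈ (P i).nonunits) :
    k + i < r := by
  by_contra hc
  exact (H.stp hq).tr ⟨i, by omega⟩ k hk.le (fv_absurd (H.x_mem hi hk.le) (H.x_mem hi hk) h
    (H.Vt i k hi (by omega) hk))

theorem vs_le (hq : 2 ≤ q) {i k : ℕ} (hi : i ≤ r) (hk : k < r)
    (h : m k (algebraMap K M t) - m (k + 1) (algebraMap K M t) ^ q ∈ (P i).nonunits) :
    r ≤ k + i := by
  by_contra hc
  exact (H.stp hq).tr ⟨i, by omega⟩ k hk.le (fv_absurd (H.x_mem hi hk.le) (H.x_mem hi hk)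
    (H.Ft i k (by omega)) h)

/-- The components, restricted to the function field of level `q²M`. -/
theorem comap_phi (T : Tri (M := M) ht hπ q c C₀ P₂ w₂ X₁) {a i : ℕ} (ha : 1 ≤ a) (har : a < r)
    (hi : i ≤ r) {φ : F₂ →+* F} (h0 : ∀ f : M, φ (algebraMap M F₂ f) = m (a - 1) f)
    (h1 : φ X₁ = m a (algebraMap K M t))
    (h2 : φ (w₂ (algebraMap K F₂ t)) = m (a + 1) (algebraMap K M t)) :
    ∃ j, (P i).comap φ = P₂ j ∧ (j = 0 ↔ i + a < r) ∧ (j = 1 ↔ i + a = r) ∧
      (j = 2 ↔ r < i + a) := by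
  have hq := T.q2
  have h0t : φ (algebraMap K F₂ t) = m (a - 1) (algebraMap K M t) := by
    rw [IsScalarTower.algebraMap_apply K M F₂, h0]
  obtain ⟨j, hj⟩ := T.sys.all ((P i).comap φ) ⟨fun x hx => by
      rw [ValuationSubring.mem_comap, IsScalarTower.algebraMap_apply K M F₂, h0,
        H.mem_iff hi (by omega)]
      exact H.ovG.1 x hx, by
      rw [comap_mem_nonunits, IsScalarTower.algebraMap_apply K M F₂, h0,
        H.non_iff hi (by omega)]
      exact H.ovG.2⟩
  have hnon : ∀ z : F₂, z ∈ (P₂ j).nonunits → φ z ∈ (P i).nonunits := by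
    intro z hz
    rw [← hj] at hz
    exact (comap_mem_nonunits _ _ _).mp hz
  have ea : a - 1 + 1 = a := by omega
  refine ⟨j, hj, ?_⟩
  match j, hj, hnon with
  | 0, hj, hnon =>
    have k1 := hnon _ T.d0
    rw [map_sub, map_pow, h1, h2] at k1
    have := H.fs_lt hq hi har k1
    simp; omega
  | 1, hj, hnon =>
    have k1 := hnon _ T.X1_1
    rw [map_sub, map_pow, h1, h0t] at k1
    have l1 := (T.w1_nonunits _).mpr T.X1_1
    rw [map_sub, map_pow, T.X1w] at l1
    have k2 := hnon _ l1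
    rw [map_sub, map_pow, h1, h2] at k2
    have := H.fs_lt (k := a - 1) hq hi (by omega) (by rwa [ea])
    have := H.vs_le hq hi har k2
    simp; omega
  | 2, hj, hnon =>
    have l1 := (T.w2_nonunits _).mpr T.d0
    rw [map_sub, map_pow, T.X1w, T.ww] at l1
    have k1 := hnon _ l1
    rw [map_sub, map_pow, h1, h0t] at k1
    have := H.vs_le (k := a - 1) hq hi (by omega) (by rwa [ea])
    simp; omega

/-- **`Lev` gives `Mul`.** -/
theorem mul (T : Tri (M := M) ht hπ q c C₀ P₂ w₂ X₁) (hr : 2 ≤ r)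
    (hm0 : ∀ f : M, m 0 f = algebraMap M F f) {w : F ≃+* F}
    (wO : ∀ a, w (algebraMap O F a) = algebraMap O F a) (ww : ∀ z, w (w z) = z)
    (wm : ∀ k, k ≤ r → ∀ f, w (m k f) = m (r - k) f) {φ : ℕ → F₂ →+* F}
    (φO : ∀ a, 1 ≤ a → a < r → ∀ b : O, φ a (algebraMap O F₂ b) = algebraMap O F b)
    (φw : ∀ a, 1 ≤ a → a < r → ∀ z, w (φ a z) = φ (r - a) (w₂ z))
    (φ0 : ∀ a, 1 ≤ a → a < r → ∀ f : M, φ a (algebraMap M F₂ f) = m (a - 1) f)
    (φx1 : ∀ a, 1 ≤ a → a < r → φ a X₁ = m a (algebraMap K M t))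
    (φx2 : ∀ a, 1 ≤ a → a < r → φ a (w₂ (algebraMap K F₂ t)) = m (a + 1) (algebraMap K M t))
    (φV : ∀ a, 1 ≤ a → a + 1 < r → ∃ ε : O, IsUnit ε ∧
      φ (a + 1) a1 = algebraMap O F ε * φ a (a1 * cc)) :
    Mul (M := M) ht hπ q P₂ w₂ X₁ a1 cc r (fun i : Fin (r + 1) => P i) w φ
      (fun k => m k (algebraMap K M t)) where
  two := hr
  sys := H.sys
  inj := H.inj'
  wO := wO
  ww := ww
  wP := H.wP T.q2 wm
  φO := φO
  φw := φw
  x0 := H.x0
  φx0 a h1 h2 := by
    rw [IsScalarTower.algebraMap_apply K M F₂, φ0 a h1 h2]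
  φx1 := φx1
  φx2 := φx2
  cm0 a i h1 h2 h := by
    obtain ⟨j, hj, k0, -, -⟩ := H.comap_phi T h1 h2 (Nat.lt_succ_iff.mp i.2) (φ0 a h1 h2)
      (φx1 a h1 h2) (φx2 a h1 h2)
    rw [← k0.mpr h]; exact hj
  cm1 a i h1 h2 h := by
    obtain ⟨j, hj, -, k0, -⟩ := H.comap_phi T h1 h2 (Nat.lt_succ_iff.mp i.2) (φ0 a h1 h2)
      (φx1 a h1 h2) (φx2 a h1 h2)
    rw [← k0.mpr h]; exact hj
  cm2 a i h1 h2 h := by
    obtain ⟨j, hj, -, -, k0⟩ := H.comap_phi T h1 h2 (Nat.lt_succ_iff.mp i.2) (φ0 a h1 h2)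
      (φx1 a h1 h2) (φx2 a h1 h2)
    rw [← k0.mpr h]; exact hj
  φV := φV
  unif0 := H.unif0
  res i hi z hz := by
    obtain ⟨f, hf, h⟩ := H.res0 i hi z hz
    refine ⟨f, ?_, ?_⟩
    · rw [← hm0]
      exact (H.mem_iff (Nat.zero_le _) (Nat.zero_le _)).mpr hf
    · rw [← hm0]
      exact h
  gm := by
    have e : (P 0).comap (algebraMap M F) = G := by
      have h := H.comap 0 0 (Nat.zero_le _) (Nat.zero_le _)
      rwa [show m 0 = algebraMap M F from RingHom.ext hm0] at h
    have e₂ : (P₂ 0).comap (algebraMap M F₂) = G := by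
      have h1 : 1 < r := by omega
      obtain ⟨j, hj, k0, -, -⟩ := H.comap_phi T le_rfl h1 (Nat.zero_le r) (φ0 1 le_rfl h1)
        (φx1 1 le_rfl h1) (φx2 1 le_rfl h1)
      rw [k0.mpr (by omega)] at hj
      rw [← hj]
      ext f
      rw [ValuationSubring.mem_comap, ValuationSubring.mem_comap, φ0 1 le_rfl h1]
      exact H.mem_iff (Nat.zero_le _) (by omega)
    change GModel ht hπ ((P 0).comap (algebraMap M F))
    rw [e, ← e₂]
    exact T.gm

/-- the functions `x k` near the cusps -/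
theorem crow (hqπ : (q : O) = π) (hq : q.Prime)
    (rel : ∀ k < r, MRel q c (m k (algebraMap K M t)) (m (k + 1) (algebraMap K M t)))
    (rel' : ∀ k < r, MRel q c (m (k + 1) (algebraMap K M t)) (m k (algebraMap K M t))) :
    CRow q r c (fun i : Fin (r + 1) => P i) (fun k => m k (algebraMap K M t)) := by
  have hd : ∀ i : Fin (r + 1), 0 < (i : ℕ) → (i : ℕ) < r →
      dlt (algebraMap O F π) r (fun k => m k (algebraMap K M t)) i =
      m (r - i + min (i : ℕ) (r - i)) (algebraMap K M t) -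
        m (r - i - min (i : ℕ) (r - i)) (algebraMap K M t) := by
    intro i h0 hr
    rw [dlt, if_neg (by omega), min_comm]
  refine CRow.of rel rel' (fun k _ => H.x_ne k) (fun k hk i => H.x_mem (by omega) hk)
    (fun k hk i => H.x_inv_mem (by omega) hk) (fun i k h => H.Ft i k (by omega))
    (fun i k h h' => H.Vt i k (by omega) h' h) (fun k hk => H.x_ne_add_two hq.two_le hk) ?_ ?_
  · intro i h0 hr
    rw [← hd i h0 hr]
    exact (H.unif i hr.le).non
  · intro i h0 hr z hz
    rw [← hd i h0 hr]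
    exact (H.unif i hr.le).dvd z hz

theorem crow_inv (hqπ : (q : O) = π) (hq : q.Prime) (hC : IsUnit ((C₀ : ℤ) : O))
    (rel : ∀ k < r, MRel q c (m k (algebraMap K M t)) (m (k + 1) (algebraMap K M t)))
    (rel' : ∀ k < r, MRel q c (m (k + 1) (algebraMap K M t)) (m k (algebraMap K M t)))
    (relu : ∀ k < r, MRel q c ((C₀ : F) / m k (algebraMap K M t))
      ((C₀ : F) / m (k + 1) (algebraMap K M t)))
    (relu' : ∀ k < r, MRel q c ((C₀ : F) / m (k + 1) (algebraMap K M t))
      ((C₀ : F) / m k (algebraMap K M t))) :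
    CRow q r c (fun i : Fin (r + 1) => P i) (fun k => (C₀ : F) / m k (algebraMap K M t)) := by
  have hOm : ∀ (i : Fin (r + 1)) (a : O), algebraMap O F a ∈ P i := fun i a =>
    mem_of_intOver (H.ov i (by omega)).1 (intOver_of_mem_chart ht hπ
      ((chart O (algebraMap K F t)).algebraMap_mem a))
  have hCn : ∀ i : Fin (r + 1), ((C₀ : ℤ) : F) ∉ (P i).nonunits := by
    intro i
    rw [← map_intCast (algebraMap O F)]
    exact coe_notMem_nonunits_of_unit (hOm i) hC
  refine (H.crow hqπ hq rel rel').inv hq ?_ ?_ ?_ (fun k hk i => H.x_mem (by omega) hk) relu relu'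
  · intro h
    exact hCn 0 (by rw [h]; exact zero_mem_nonunits _)
  · exact fun i => inv_mem_of_notMem_nonunits (hCn i)
  · intro i
    have h1 : ((q : ℕ) : F) = algebraMap K F (algebraMap O K π) := by
      rw [← hqπ, map_natCast, map_natCast]
    rw [h1]
    exact (H.ov i (by omega)).2

end B

end Lev

end Fermat.Agent.CR
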