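import Mathlib
import Fermat.Agent.CR.GeoC
import Fermat.Agent.CR.LevC

/-!
The geometric data from the structures `Lev` and `Mul`.
-/

set_option autoImplicit false
set_option linter.unusedSectionVars false
set_option linter.style.haveILetI false
set_option linter.unusedVariables false

open IsLocalRing Polynomial ModularCurve

noncomputable section

universe u

namespace Fermat.Agent.CR

open Fermat.Agent.Geo Fermat.Agent.LG Fermat.Agent.CA

variable {O K M F F₂ : Type u} [CommRing O] [IsDomain O] [IsDiscreteValuationRing O] [CharZero O]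
  [Field K] [Field M] [Field F] [Field F₂] [Algebra O K] [Algebra O M] [Algebra O F]
  [Algebra O F₂] [Algebra K M] [Algebra K F] [Algebra K F₂] [Algebra M F] [Algebra M F₂]
  [IsScalarTower O K M] [IsScalarTower O K F] [IsScalarTower K M F] [IsScalarTower O M F]
  [IsScalarTower O K F₂] [IsScalarTower K M F₂] [IsScalarTower O M F₂]
  {t : K} {π : O} [FiniteDimensional K M] [Algebra.IsSeparable K M]
  [FiniteDimensional K F] [Algebra.IsSeparable K F]
  [FiniteDimensional K F₂] [Algebra.IsSeparable K F₂]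
  {ht : IsParam O t} {hπ : Prime π} {q : ℕ} {c : ℕ → ℤ[X]} {C₀ : ℤ}
  {P₂ : Fin 3 → ValuationSubring F₂} {w₂ : F₂ ≃+* F₂} {X₁ a1 a2 cc d : F₂}
  {G : ValuationSubring M} {r : ℕ} {m : ℕ → M →+* F} {P : ℕ → ValuationSubring F}
  {w : F ≃+* F} {φ : ℕ → F₂ →+* F}
  {V W : ℕ → F} {dd : Fin (r + 1) → F} {ed : Fin (r + 1) → ℕ}

/-- **The geometric data**, from `Lev` and `Mul`. -/
theorem Lev.geoR (H : Lev ht hπ q G r m P) (T : Tri (M := M) ht hπ q c C₀ P₂ w₂ X₁)
    (hM : Mul (M := M) ht hπ q P₂ w₂ X₁ a1 cc r (fun i : Fin (r + 1) => P i) w φ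
      (fun k => m k (algebraMap K M t)))
    (mu : MU (algebraMap K F t) π q r (fun a : Fin (r + 1) => P (Fin.rev a : Fin (r + 1))) V W)
    (md : MD (algebraMap K F t) π r (fun a : Fin (r + 1) => P (Fin.rev a : Fin (r + 1))) dd ed) :
    GeoR (M := M) ht hπ q r c C₀ (fun i : Fin (r + 1) => P i) w
      (fun k => m k (algebraMap K M t)) V W dd ed
      (fun i => dlt (algebraMap O F π) r (fun k => m k (algebraMap K M t)) i) (eR q r) :=
  hM.geoR T mu md (fun i => H.unif i (Nat.lt_succ_iff.mp i.2)) (fun i h1 h2 => H.pw i h1 h2)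

end Fermat.Agent.CR
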