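import Mathlib
import Fermat.Agent.CR.Mul2
import Fermat.Agent.CR.Ord
import Fermat.Agent.CA.NC3

/-!
The modular units of curves with `r + 1` components from those of the curve with three components.
-/

set_option autoImplicit false
set_option linter.unusedSectionVars false
set_option linter.style.haveILetI false
set_option linter.unusedVariables false

open IsLocalRing Polynomial

universe u

namespace Fermat.Agent.CR

open Fermat.Agent.Geo Fermat.Agent.LG Fermat.Agent.CA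

section

variable {O K M F F₂ : Type u} [CommRing O] [IsDomain O] [IsDiscreteValuationRing O] [CharZero O]
  [Field K] [Field M] [Field F] [Field F₂] [Algebra O K] [Algebra O M] [Algebra O F]
  [Algebra O F₂] [Algebra K M] [Algebra K F] [Algebra K F₂] [Algebra M F] [Algebra M F₂]
  [IsScalarTower O K M] [IsScalarTower O K F] [IsScalarTower K M F] [IsScalarTower O M F]
  [IsScalarTower O K F₂] [IsScalarTower K M F₂] [IsScalarTower O M F₂]
  {t : K} {π : O} [FiniteDimensional K M] [Algebra.IsSeparable K M]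
  [FiniteDimensional K F] [Algebra.IsSeparable K F]
  [FiniteDimensional K F₂] [Algebra.IsSeparable K F₂]
  {ht : IsParam O t} {hπ : Prime π} {q : ℕ} {c : ℕ → ℤ[X]} {C₀ : ℤ}
  {P₂ : Fin 3 → ValuationSubring F₂} {w₂ : F₂ ≃+* F₂} {X₁ a1 a2 cc d : F₂}
  {r : ℕ} {P : Fin (r + 1) → ValuationSubring F} {w : F ≃+* F} {φ : ℕ → F₂ →+* F} {x : ℕ → F}

/-- the units `V k` -/
def mulV (r : ℕ) (φ : ℕ → F₂ →+* F) (a1 cc : F₂) (k : ℕ) : F :=
  if k < r then φ k a1 else φ (r - 1) (a1 * cc)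

/-- the units `W k` -/
def mulW (r : ℕ) (w : F ≃+* F) (φ : ℕ → F₂ →+* F) (a1 cc : F₂) (k : ℕ) : F :=
  w (mulV r φ a1 cc (r + 1 - k))

theorem mulV1 {k : ℕ} (hk : k < r) : mulV r φ a1 cc k = φ k a1 := if_pos hk

namespace Mul

variable (T : Tri (M := M) ht hπ q c C₀ P₂ w₂ X₁)
  (H : Mul (M := M) ht hπ q P₂ w₂ X₁ a1 cc r P w φ x)
  (D : NC (algebraMap K F₂ t) π q P₂ w₂ a1 a2 cc d)

include H

include T in
theorem ch_x {z : F} {k : ℕ} (hk : k ≤ r) {n : ℕ}
    (h : x k ^ n * z ∈ chart O (algebraMap K F t)) :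
    ∃ n : ℕ, algebraMap K F t ^ n * z ∈ chart O (algebraMap K F t) := by
  have h1 := H.x_inv_chart T k hk
  rw [map_inv₀] at h1
  obtain ⟨m, hm⟩ := chart_inv_le_overlap H.tF_ne h1
  refine ⟨m * n, ?_⟩
  have h2 := mul_mem (pow_mem hm n) h
  have h3 := H.x_ne T k hk
  have e : (algebraMap K F t ^ m * (x k)⁻¹) ^ n * (x k ^ n * z) =
      algebraMap K F t ^ (m * n) * z := by
    rw [mul_pow, ← pow_mul, inv_pow]
    field_simp
  rwa [e] at h2

include T in
theorem ch_φ {a : ℕ} (h1 : 1 ≤ a) (h2 : a < r) {z : F₂}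
    (hz : ∃ n : ℕ, algebraMap K F₂ t ^ n * z ∈ chart O (algebraMap K F₂ t)) :
    ∃ n : ℕ, algebraMap K F t ^ n * φ a z ∈ chart O (algebraMap K F t) := by
  obtain ⟨n, hn⟩ := hz
  have h3 := H.φ_chart T h1 h2 hn
  rw [map_mul, map_pow, H.φx0 a h1 h2] at h3
  exact H.ch_x T (by omega) h3

include T in
theorem ch_w {z : F}
    (hz : ∃ n : ℕ, algebraMap K F t ^ n * z ∈ chart O (algebraMap K F t)) :
    ∃ n : ℕ, algebraMap K F t ^ n * w z ∈ chart O (algebraMap K F t) := by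
  obtain ⟨n, hn⟩ := hz
  have h3 := H.w_chart T hn
  rw [map_mul, map_pow, H.w_x0 T] at h3
  exact H.ch_x T le_rfl h3

theorem mulV2 {k : ℕ} (h1 : 1 ≤ k)
    (hk : k + 1 ≤ r) : ∃ ε : O, IsUnit ε ∧
      mulV r φ a1 cc (k + 1) = algebraMap O F ε * φ k (a1 * cc) := by
  rcases Nat.lt_or_ge (k + 1) r with h | h
  · rw [mulV1 h]
    exact H.φV k h1 h
  · refine ⟨1, isUnit_one, ?_⟩
    rw [mulV, if_neg (by omega), map_one, one_mul]
    congr 2
    omega

include T D in
theorem V_mem (k : ℕ) (h1 : 1 ≤ k) (i : Fin (r + 1)) : mulV r φ a1 cc k ∈ P i := by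
  have h2 := H.two
  rw [mulV]
  split_ifs with h
  · exact H.φ_mem_all h1 h i D.a1_m
  · refine H.φ_mem_all (by omega) (by omega) i fun j => mul_mem (D.a1_m j) ?_
    match j with
    | 0 => exact D.cc_m
    | 1 => exact (P₂ 1).nonunits_le (NC.cc_non T D)
    | 2 => exact NC.cc_m2 T D

include T D in
theorem V_inv (k : ℕ) (h1 : 1 ≤ k) (hk : k ≤ r) (i : Fin (r + 1)) (hi : (i : ℕ) + k ≤ r) :
    (mulV r φ a1 cc k)⁻¹ ∈ P i := by
  have h2 := H.two
  rw [mulV]
  split_ifs with h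
  · obtain ⟨j, hj, hj0, hj2⟩ := H.comap_eq h1 h i
    rw [← map_inv₀, H.φ_mem hj]
    match j with
    | 0 => exact D.a1_0
    | 1 => exact D.a1_1
    | 2 => exact absurd (hj2.mp rfl) (by omega)
  · have h3 := H.cm0 (r - 1) i (by omega) (by omega) (by omega)
    rw [← map_inv₀, H.φ_mem h3, mul_inv]
    exact mul_mem D.a1_0 D.cc_0

include T D in
theorem V_cong (k : ℕ)
    (h1 : 1 ≤ k) (i : Fin (r + 1)) (hi : (i : ℕ) + k < r) :
    ∃ u : O, IsUnit u ∧
      mulV r φ a1 cc (k + 1) - algebraMap O F u * mulV r φ a1 cc k ^ q ∈ (P i).nonunits := by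
  have h3 := H.cm0 k i h1 (by omega) hi
  obtain ⟨ε, hε, hεV⟩ := H.mulV2 h1 (k := k) (by omega)
  refine ⟨ε, hε, ?_⟩
  rw [hεV, mulV1 (by omega), ← mul_sub, ← map_pow, ← map_sub]
  refine mul_mem_nonunits (H.O_mem i ε) ?_
  rw [H.φ_non h3]
  have hq := T.q2
  have e : a1 * cc - a1 ^ q = a1 * (cc - a1 ^ (q - 1)) := by
    obtain ⟨n, rfl⟩ : ∃ n, q = n + 1 := ⟨q - 1, by omega⟩
    rw [Nat.add_sub_cancel]
    ring
  rw [e]
  exact mul_mem_nonunits (D.a1_m 0) D.cong

include T D in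
theorem VW_prod (k : ℕ)
    (h1 : 1 ≤ k) (hk : k ≤ r) :
    ∃ u : O, IsUnit u ∧ mulV r φ a1 cc k * mulW r w φ a1 cc k = algebraMap O F (u * π) := by
  have h2 := H.two
  obtain ⟨ε, hε, hw⟩ := D.wa
  have hp := D.prod
  rcases Nat.lt_or_ge 1 k with h | h
  · obtain ⟨k, rfl⟩ : ∃ j, k = j + 1 := ⟨k - 1, by omega⟩
    obtain ⟨ε', hε', hεV⟩ := H.mulV2 (k := k) (by omega) hk
    refine ⟨ε' * ε, hε'.mul hε, ?_⟩
    rw [hεV, mulW, mulV1 (by omega), H.φw _ (by omega) (by omega),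
      show r - (r + 1 - (k + 1)) = k by omega, hw, mul_assoc, ← map_mul,
      show a1 * cc * (algebraMap O F₂ ε * a2) = algebraMap O F₂ ε * (a1 * a2 * cc) by ring, hp,
      ← map_mul, H.φO k (by omega) (by omega), ← map_mul, mul_assoc]
  · obtain rfl : k = 1 := by omega
    refine ⟨ε, hε, ?_⟩
    rw [mulV1 (by omega), mulW, show r + 1 - 1 = r by omega, mulV, if_neg (lt_irrefl _),
      H.φw _ (by omega) (by omega), show r - (r - 1) = 1 by omega, map_mul, hw, NC.wcc T D,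
      ← map_mul,
      show a1 * (algebraMap O F₂ ε * a2 * cc) = algebraMap O F₂ ε * (a1 * a2 * cc) by ring, hp,
      ← map_mul, H.φO 1 (by omega) (by omega)]

include T D in
/-- the modular units on `F` -/
theorem mu :
    MU (algebraMap K F t) π q r (fun a => P (Fin.rev a)) (mulV r φ a1 cc)
      (mulW r w φ a1 cc) := by
  have h2 := H.two
  have chV : ∀ k, 1 ≤ k → k ≤ r → ∃ n : ℕ, algebraMap K F t ^ n * mulV r φ a1 cc k ∈
      chart O (algebraMap K F t) := by
    intro k h1 hk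
    rw [mulV]
    split_ifs with h
    · exact H.ch_φ T h1 h D.ch1
    · refine H.ch_φ T (by omega) (by omega) ?_
      obtain ⟨n, hn⟩ := D.ch1
      obtain ⟨m, hm⟩ := D.chc
      refine ⟨n + m, ?_⟩
      have := mul_mem hn hm
      rwa [mul_mul_mul_comm, ← pow_add] at this
  have hrev : ∀ a : Fin (r + 1), ((Fin.rev a : Fin (r + 1)) : ℕ) = r - a := fun a => by
    rw [Fin.val_rev]; omega
  have hlt : ∀ a : Fin (r + 1), (a : ℕ) ≤ r := fun a => by have := a.2; omega
  exact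
  { prod := H.VW_prod T D
    chV := chV
    chW := fun k h1 hk => H.ch_w T (chV (r + 1 - k) (by omega) (by omega))
    V_mem := fun k h1 hk a => H.V_mem T D k h1 _
    W_mem := fun k h1 hk a => by
      rw [mulW, H.wP]
      exact H.V_mem T D _ (by omega) _
    V_inv := fun k h1 hk a ha => H.V_inv T D k h1 hk _ (by rw [hrev]; have := hlt a; omega)
    W_inv := fun k h1 hk a ha => by
      rw [mulW, ← map_inv₀, H.wP, Fin.rev_rev]
      exact H.V_inv T D _ (by omega) (by omega) _ (by omega)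
    congV := fun k h1 a ha => H.V_cong T D k h1 _ (by rw [hrev]; have := hlt a; omega)
    congW := fun k hk a ha => by
      obtain ⟨u, hu, h⟩ := H.V_cong T D (r + 1 - (k + 1)) (by omega) a (by omega)
      refine ⟨u, hu, ?_⟩
      rw [mulW, mulW, ← map_pow, ← H.wO u, ← map_mul, ← map_sub, H.w_nonunits, Fin.rev_rev,
        show r + 1 - k = (r + 1 - (k + 1)) + 1 by omega]
      exact h }

end Mul

end

end Fermat.Agent.CR
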