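import Mathlib
import Fermat.Agent.CR.GeoL
import Fermat.Agent.CR.CarGR
import Fermat.Agent.CR.MulU

/-!
The vanishing theorem at the level `q ^ r M`, over a field `L` with a discrete valuation:
assembly.
-/

set_option autoImplicit false
set_option linter.unusedSectionVars false
set_option linter.unusedVariables false

open IsLocalRing Polynomial ModularCurve IntermediateField

noncomputable section

universe u

namespace Fermat.Agent.CR

open Fermat.Agent.Geo Fermat.Agent.LG Fermat.Agent.ModFun Fermat.Agent.CA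

variable {O L F₂ : Type u} [CommRing O] [IsDomain O] [IsDiscreteValuationRing O]
    [Field L] [Algebra O L] [IsFractionRing O L]
    {q M N p : ℕ} [NeZero q] [NeZero M] [NeZero N] [Fact p.Prime] {κ : ℤ} {π : O}
    [Algebra O (Kt L p κ)] [Algebra O (F0 L M)] [Algebra O (F0 L N)]
    [Algebra (Kt L p κ) (F0 L M)] [Algebra (Kt L p κ) (F0 L N)] [Algebra (F0 L M) (F0 L N)]
    [IsScalarTower O (Kt L p κ) (F0 L M)] [IsScalarTower O (Kt L p κ) (F0 L N)]
    [IsScalarTower O (F0 L M) (F0 L N)] [IsScalarTower (Kt L p κ) (F0 L M) (F0 L N)]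
    [Field F₂] [Algebra O F₂] [Algebra (Kt L p κ) F₂] [Algebra (F0 L M) F₂]
    [IsScalarTower O (Kt L p κ) F₂] [IsScalarTower (Kt L p κ) (F0 L M) F₂]
    [IsScalarTower O (F0 L M) F₂]

/-- **Assembly.** -/
theorem car_asm [CharZero O]
    (C : Cpt O (Kt L p κ) (F0 L M) (F0 L N)) {hπ : Prime π} {ht : IsParam O (tK L p κ)}
    [FiniteDimensional (Kt L p κ) (F0 L M)] [Algebra.IsSeparable (Kt L p κ) (F0 L M)]
    [FiniteDimensional (Kt L p κ) (F0 L N)] [Algebra.IsSeparable (Kt L p κ) (F0 L N)]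
    [FiniteDimensional (Kt L p κ) F₂] [Algebra.IsSeparable (Kt L p κ) F₂]
    {r m : ℕ} {c : ℕ → ℤ[X]} {C₀ : ℤ}
    {P₂ : Fin 3 → ValuationSubring F₂} {w₂ : F₂ ≃+* F₂} {X₁ a1 a2 cc d : F₂}
    (T : Tri (M := F0 L M) ht hπ q c C₀ P₂ w₂ X₁)
    (D : NC (algebraMap (Kt L p κ) F₂ (tK L p κ)) π q P₂ w₂ a1 a2 cc d)
    {GM : ValuationSubring (F0 L M)} {mm : ℕ → F0 L M →+* F0 L N}
    {P : ℕ → ValuationSubring (F0 L N)} (H : Lev ht hπ q GM r mm P)
    (hmm : ∀ k ≤ r, ∀ f : F0 L M, (mm k f : LaurentSeries L) =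
      qExpand L (q ^ k) (f : LaurentSeries L))
    {w : F0 L N ≃+* F0 L N} {φ : ℕ → F₂ →+* F0 L N}
    (hM : Mul (M := F0 L M) ht hπ q P₂ w₂ X₁ a1 cc r (fun i : Fin (r + 1) => P i) w φ
      (fun k => mm k (algebraMap (Kt L p κ) (F0 L M) (tK L p κ))))
    (md : ∃ (dd : Fin (r + 1) → F0 L N) (ed : Fin (r + 1) → ℕ),
      MD (algebraMap (Kt L p κ) (F0 L N) (tK L p κ)) π r
        (fun a : Fin (r + 1) => P (Fin.rev a : Fin (r + 1))) dd ed)
    {S1 : Subfield (F0 L N)} {Na Nb : F0 L N →* F0 L N}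
    (S : SubR (O := O) (M := F0 L M) (tK L p κ) q (mulV r φ a1 cc) (mulW r w φ a1 cc) S1 Na)
    (hNb : ∀ z, Nb z = w (Na (w z))) (hr1 : 1 < r + 1)
    (B : NormR (O := O) (M := F0 L M) q (fun i : Fin (r + 1) => P i) 0 ⟨1, hr1⟩ Na Nb)
    {E : Type u} [Field E] [Algebra O E] [Algebra (Kt L p κ) E] [Algebra (F0 L N) E]
    [IsScalarTower O (Kt L p κ) E] [IsScalarTower (Kt L p κ) (F0 L N) E]
    [IsScalarTower O (F0 L N) E]
    [FiniteDimensional (Kt L p κ) E] [Algebra.IsSeparable (Kt L p κ) E]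
    [FiniteDimensional (F0 L N) E] [IsGalois (F0 L N) E]
    (hinj : Function.Injective (algebraMap O E))
    (hO : ∀ x : E, IsIntegral O x → ∃ o : O, algebraMap O E o = x)
    (hmu : IsUnit (m : O)) (hm : 0 < m) (hqm : Nat.Coprime q m)
    {ζm : O} (hζ : IsPrimitiveRoot ζm m) (hroot : ∀ u : O, IsUnit u → ∃ v : O, v ^ m = u)
    {y : E} {h₀ : F0 L N} (hy : y ^ m = algebraMap (F0 L N) E h₀) (h₀ne : h₀ ≠ 0)
    (hNa : NmP π Na m h₀) (hNbP : NmP π Na m (w h₀)) (hor : Hor π m h₀)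
    {y' : LaurentSeries L} (hy' : y' ^ m = (h₀ : LaurentSeries L)) :
    ∃ a : F0 L N, y = algebraMap (F0 L N) E a := by
  obtain ⟨dd, ed, md⟩ := md
  have G := H.geoR T hM (Mul.mu T hM D) md
  refine car_genR C G hr1 (fun k hk => ?_) S hNb B hinj hO hmu hm hqm hζ hroot hy h₀ne hNa ?_ hor
    hy'
  · rw [hmm k hk]
    congr 1
    exact C.KM (tK L p κ)
  · obtain ⟨k, u, H', hu, h⟩ := hNbP
    refine ⟨k, u, w H', hu, ?_⟩
    rw [hNb, h, map_mul, map_mul, map_zpow₀, map_pow, hM.wO, hM.wO]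

end Fermat.Agent.CR
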