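import Mathlib
import Fermat.Agent.CR.Ext

/-!
Unique extensions of discrete valuation rings: the inseparable case, norms.
-/

set_option autoImplicit false
set_option linter.unusedSectionVars false
set_option linter.style.haveILetI false
set_option linter.unusedVariables false

open IsLocalRing Polynomial

universe u

namespace Fermat.Agent.CR

open Fermat.Agent.Geo Fermat.Agent.LG Fermat.Agent.CA

section CaseF

variable {A B : Type u} [Field A] [Field B] [Algebra A B] {V : ValuationSubring A}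
  {W : ValuationSubring B}

/-- evaluation of a polynomial over `V` -/
def evV (V : ValuationSubring A) (z : B) : V[X] →+* B :=
  eval₂RingHom ((algebraMap A B).comp V.subtype) z

theorem evV_eq (z : B) (P : V[X]) :
    evV V z P = ∑ i ∈ Finset.range (P.natDegree + 1), algebraMap A B (P.coeff i) * z ^ i := by
  change eval₂ _ z P = _
  rw [eval₂_eq_sum_range]
  rfl

theorem evV_mem (hVW : W.comap (algebraMap A B) = V) {z : B} (hz : z ∈ W) (P : V[X]) :
    evV V z P ∈ W := by
  rw [evV_eq]
  exact sum_mem fun i _ => W.mul_mem _ _ ((comap_mem hVW _).mpr (P.coeff i).2) (pow_mem hz i)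

theorem evV_nu (hVW : W.comap (algebraMap A B) = V) {z : B} (hz : z ∈ W) {P : V[X]}
    (hP : P.map (residue V) = 0) : evV V z P ∈ W.nonunits := by
  rw [evV_eq]
  refine sum_mem fun i _ => ?_
  have h1 : residue V (P.coeff i) = 0 := by
    rw [← coeff_map, hP, coeff_zero]
  rw [residue_eq_zero_iff, ← ValuationSubring.coe_mem_nonunits_iff] at h1
  rw [mul_comm]
  exact mul_mem_nonunits (pow_mem hz i) ((comap_nu hVW _).mpr h1)

/-- A nonzero polynomial over the residue field of degree `< q` does not vanish at `z`. -/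
theorem evV_unit (hVW : W.comap (algebraMap A B) = V) {q : ℕ} (hq : q.Prime) {z : B}
    (hzW : z ∈ W) {c₀ : A} (hc₀ : c₀ ∈ V) (hz : z ^ q - algebraMap A B c₀ ∈ W.nonunits)
    (hirr : ∀ b ∈ V, b ^ q - c₀ ∉ V.nonunits) {P : V[X]} (hP : P.map (residue V) ≠ 0)
    (hdeg : P.natDegree < q) : evV V z P ∉ W.nonunits := by
  intro hcon
  have hI : Irreducible (X ^ q - C (residue V ⟨c₀, hc₀⟩)) := by
    refine X_pow_sub_C_irreducible_of_prime hq fun b hb => ?_
    obtain ⟨b', rfl⟩ := residue_surjective b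
    apply hirr b' b'.2
    have h1 : residue V (b' ^ q - ⟨c₀, hc₀⟩) = 0 := by
      rw [map_sub, map_pow, hb, sub_self]
    rw [residue_eq_zero_iff, ← ValuationSubring.coe_mem_nonunits_iff] at h1
    exact h1
  have hcop : IsCoprime (X ^ q - C (residue V ⟨c₀, hc₀⟩)) (P.map (residue V)) := by
    rw [hI.coprime_iff_not_dvd]
    intro hdvd
    have h1 := natDegree_le_of_dvd hdvd hP
    rw [natDegree_X_pow_sub_C] at h1
    have h2 := natDegree_map_le (f := residue V) (p := P)
    omega
  obtain ⟨a, b, hab⟩ := hcop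
  obtain ⟨a', rfl⟩ := Polynomial.map_surjective _ residue_surjective a
  obtain ⟨b', rfl⟩ := Polynomial.map_surjective _ residue_surjective b
  let R : V[X] := a' * (X ^ q - C ⟨c₀, hc₀⟩) + b' * P - 1
  have hR : R.map (residue V) = 0 := by
    simp only [R, Polynomial.map_sub, Polynomial.map_add, Polynomial.map_mul, Polynomial.map_pow,
      Polynomial.map_X, Polynomial.map_C, Polynomial.map_one]
    rw [hab, sub_self]
  have h1 := evV_nu hVW hzW hR
  have h2 : evV V z (X ^ q - C ⟨c₀, hc₀⟩) = z ^ q - algebraMap A B c₀ := by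
    rw [map_sub, map_pow]
    change (eval₂ _ z X) ^ q - eval₂ _ z (C _) = _
    rw [eval₂_X, eval₂_C]
    rfl
  have h3 : (1 : B) ∈ W.nonunits := by
    have e : (1 : B) = evV V z a' * (z ^ q - algebraMap A B c₀) + evV V z b' * evV V z P -
        evV V z R := by
      simp only [R, map_sub, map_add, map_mul, map_one, ← h2]
      ring
    rw [e]
    exact CA.nonunits_sub (CA.nonunits_add (mul_mem_nonunits (evV_mem hVW hzW a') hz)
      (mul_mem_nonunits (evV_mem hVW hzW b') hcon)) h1
  exact notMem_nonunits_of_inv (by rw [inv_one]; exact one_mem _) one_ne_zero h3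

variable [FiniteDimensional A B]

/-- **Inseparable case.** -/
theorem ext_f (hVW : W.comap (algebraMap A B) = V) {δ : A} (hδ : Uni V δ) {q : ℕ} (hq : q.Prime)
    (hqV : (q : A) ∈ V.nonunits) (hn : Module.finrank A B ≤ q) {z : B} {c₀ : A} (hc₀ : c₀ ∈ V)
    (hz : z ^ q - algebraMap A B c₀ ∈ W.nonunits) (hirr : ∀ b ∈ V, b ^ q - c₀ ∉ V.nonunits) :
    Uni W (algebraMap A B δ) ∧
    (∀ y ∈ W, ∃ c : Fin q → A, (∀ j, c j ∈ V) ∧ y = ∑ j, c j • z ^ (j : ℕ)) ∧
    (∀ y ∈ W, ∃ c ∈ V, y ^ q - algebraMap A B c ∈ W.nonunits) ∧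
    ∀ W' : ValuationSubring B, W'.comap (algebraMap A B) = V → W' = W := by
  classical
  have hδ0 : algebraMap A B δ ≠ 0 := (_root_.map_ne_zero _).mpr hδ.ne
  have hδn : algebraMap A B δ ∈ W.nonunits := (comap_nu hVW δ).mpr hδ.non
  have hqW : (q : B) ∈ W.nonunits := by
    have := (comap_nu hVW (q : A)).mpr hqV
    rwa [map_natCast] at this
  have hzW : z ∈ W := by
    refine mem_of_pow hq.ne_zero ?_
    have := W.add_mem _ _ (mem_nu hz) ((comap_mem hVW c₀).mpr hc₀)
    rwa [sub_add_cancel] at this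
  have key : ∀ c : Fin q → A, c ≠ 0 → ∃ k : ℤ,
      Vl W (algebraMap A B δ) (∑ j, c j • z ^ (j : ℕ)) k ∧ (0 ≤ k → ∀ j, c j ∈ V) := by
    intro c hc
    have hex : ∀ j : Fin q, ∃ k : ℤ, c j ≠ 0 → Vl V δ (c j) k := by
      intro j
      by_cases h : c j = 0
      · exact ⟨0, fun h' => absurd h h'⟩
      · obtain ⟨k, hk⟩ := hδ.exists_vl h
        exact ⟨k, fun _ => hk⟩
    choose k hk using hex
    obtain ⟨i₁, hi₁⟩ : ∃ i, c i ≠ 0 := by
      by_contra hcon
      push Not at hcon
      exact hc (funext hcon)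
    obtain ⟨i₀, hi₀, hmin⟩ := Finset.exists_min_image (Finset.univ.filter fun i => c i ≠ 0)
      k ⟨i₁, Finset.mem_filter.mpr ⟨Finset.mem_univ _, hi₁⟩⟩
    have hci₀ : c i₀ ≠ 0 := (Finset.mem_filter.mp hi₀).2
    have hδk : δ ^ k i₀ ≠ 0 := zpow_ne_zero _ hδ.ne
    have hmem : ∀ i, c i / δ ^ k i₀ ∈ V := by
      intro i
      by_cases hi : c i = 0
      · rw [hi, zero_div]; exact zero_mem _
      have h1 := hmin i (Finset.mem_filter.mpr ⟨Finset.mem_univ _, hi⟩)
      have h2 : Vl V δ (c i / δ ^ k i₀) (k i - k i₀) :=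
        (hk i hi).div (vl_self hδ.ne (k i₀)) hδ.ne
      exact mem_of_vl h2 (mem_nu hδ.non) hδ.ne (by omega)
    let P : V[X] := ∑ i : Fin q, C (⟨c i / δ ^ k i₀, hmem i⟩ : V) * X ^ (i : ℕ)
    have hPc : P.coeff i₀ = ⟨c i₀ / δ ^ k i₀, hmem i₀⟩ := by
      simp only [P, finset_sum_coeff, coeff_C_mul, coeff_X_pow]
      rw [Finset.sum_eq_single i₀]
      · rw [if_pos rfl, mul_one]
      · intro i _ hi
        rw [if_neg (fun h => hi (Fin.ext h.symm)), mul_zero]
      · intro h
        exact absurd (Finset.mem_univ _) h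
    have hP0 : P.map (residue V) ≠ 0 := by
      intro h
      have h1 : residue V (P.coeff i₀) = 0 := by rw [← coeff_map, h, coeff_zero]
      rw [residue_eq_zero_iff, ← ValuationSubring.coe_mem_nonunits_iff, hPc] at h1
      exact UC.notMem (hk i₀ hci₀) h1
    have hPd : P.natDegree < q := by
      refine lt_of_le_of_lt (natDegree_sum_le_of_forall_le (n := q - 1) _ _ fun i _ => ?_)
        (Nat.sub_lt hq.pos one_pos)
      refine (natDegree_C_mul_X_pow_le _ _).trans ?_
      have := i.2
      omega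
    have hev : evV V z P = (∑ j, c j • z ^ (j : ℕ)) / algebraMap A B δ ^ k i₀ := by
      simp only [P, map_sum, map_mul, map_pow]
      rw [Finset.sum_div]
      refine Finset.sum_congr rfl fun i _ => ?_
      have e1 : evV V z (X : V[X]) = z := eval₂_X _ _
      have e2 : evV V z (C (⟨c i / δ ^ k i₀, hmem i⟩ : V)) =
          algebraMap A B (c i / δ ^ k i₀) := eval₂_C _ _
      rw [e1, e2, map_div₀, map_zpow₀, Algebra.smul_def]
      ring
    refine ⟨k i₀, ?_, fun h0 j => ?_⟩
    · rw [Vl, ← hev]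
      exact uc_self_of (evV_mem hVW hzW P) (evV_unit hVW hq hzW hc₀ hz hirr hP0 hPd)
    · by_cases hj : c j = 0
      · rw [hj]; exact zero_mem _
      have h1 := hmin j (Finset.mem_filter.mpr ⟨Finset.mem_univ _, hj⟩)
      exact mem_of_vl (hk j hj) (mem_nu hδ.non) hδ.ne (h0.trans h1)
  obtain ⟨hU, hrep⟩ := core_uni hn hδn hδ0 key
  refine ⟨hU, hrep, fun y hy => ?_, fun W' hW' => ?_⟩
  · obtain ⟨c, hc, rfl⟩ := hrep y hy
    refine ⟨∑ j : Fin q, c j ^ q * c₀ ^ (j : ℕ), sum_mem fun j _ =>
      V.mul_mem _ _ (pow_mem (hc j) _) (pow_mem hc₀ _), ?_⟩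
    have h1 := frob_sum hq hqW (Finset.univ : Finset (Fin q)) (t := fun j => c j • z ^ (j : ℕ))
      fun j _ => by
        rw [Algebra.smul_def]
        exact W.mul_mem _ _ ((comap_mem hVW _).mpr (hc j)) (pow_mem hzW _)
    have h2 : ∑ j : Fin q, (c j • z ^ (j : ℕ)) ^ q -
        algebraMap A B (∑ j : Fin q, c j ^ q * c₀ ^ (j : ℕ)) ∈ W.nonunits := by
      rw [map_sum, ← Finset.sum_sub_distrib]
      refine sum_mem fun j _ => ?_
      have e : (c j • z ^ (j : ℕ)) ^ q - algebraMap A B (c j ^ q * c₀ ^ (j : ℕ)) =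
          algebraMap A B (c j) ^ q * ((z ^ q) ^ (j : ℕ) - algebraMap A B c₀ ^ (j : ℕ)) := by
        rw [Algebra.smul_def, map_mul, map_pow, map_pow, mul_pow, ← pow_mul, ← pow_mul,
          mul_comm (j : ℕ) q]
        ring
      rw [e]
      refine mul_mem_nonunits (pow_mem ((comap_mem hVW _).mpr (hc j)) _) ?_
      exact nonunits_pow_sub _ (pow_mem hzW _) ((comap_mem hVW _).mpr hc₀) hz
    have h3 := CA.nonunits_add h1 h2
    rwa [sub_add_sub_cancel] at h3
  · -- `z` is integral over `V`
    obtain ⟨c, hc, hc'⟩ := hrep _ (hU.dvd _ hz)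
    have hzq : z ^ q = algebraMap A B c₀ + algebraMap A B δ * ∑ j, c j • z ^ (j : ℕ) := by
      rw [← hc', mul_div_cancel₀ _ hδ0]
      ring
    have hint : z ∈ W' := by
      by_contra hd
      have hdi : z⁻¹ ∈ W'.nonunits := by
        rw [ValuationSubring.mem_nonunits_iff]
        rw [← ValuationSubring.valuation_le_one_iff, not_le] at hd
        rw [map_inv₀]
        exact inv_lt_one_of_one_lt₀ hd
      have hz0 : z ≠ 0 := by
        rintro rfl
        exact hd (zero_mem _)
      have h1 : (1 : B) ∈ W'.nonunits := by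
        have e : (1 : B) = algebraMap A B c₀ * (z⁻¹) ^ (q - 1) * z⁻¹ +
            ∑ j : Fin q, algebraMap A B (c j) * (z⁻¹) ^ (q - 1 - (j : ℕ)) *
            (algebraMap A B δ * z⁻¹) := by
          have h2 : (z⁻¹) ^ q * z ^ q = 1 := by
            rw [← mul_pow, inv_mul_cancel₀ hz0, one_pow]
          rw [hzq, mul_add] at h2
          rw [← h2]
          have h5 : (z⁻¹) ^ q = (z⁻¹) ^ (q - 1) * z⁻¹ := by
            rw [← pow_succ]
            congr 1
            have := hq.pos
            omega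
          congr 1
          · rw [h5]; ring
          · rw [Finset.mul_sum, Finset.mul_sum]
            refine Finset.sum_congr rfl fun j _ => ?_
            rw [Algebra.smul_def]
            have h3 : (z⁻¹) ^ q * z ^ (j : ℕ) = (z⁻¹) ^ (q - 1 - (j : ℕ)) * z⁻¹ := by
              have h4 : (z⁻¹) ^ q = (z⁻¹) ^ (q - 1 - (j : ℕ)) * z⁻¹ * (z⁻¹) ^ (j : ℕ) := by
                rw [← pow_succ, ← pow_add]
                congr 1
                have := j.2
                omega
              rw [h4, mul_assoc, ← mul_pow, inv_mul_cancel₀ hz0, one_pow, mul_one]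
            linear_combination (algebraMap A B (c j) * algebraMap A B δ) * h3
        rw [e]
        refine CA.nonunits_add (mul_mem_nonunits (W'.mul_mem _ _ ((comap_mem hW' _).mpr hc₀)
          (pow_mem (mem_nu hdi) _)) hdi) (sum_mem fun j _ => ?_)
        refine mul_mem_nonunits (W'.mul_mem _ _ ((comap_mem hW' _).mpr (hc j))
          (pow_mem (mem_nu hdi) _)) ?_
        exact mul_mem_nonunits ((comap_mem hW' _).mpr (mem_nu hδ.non)) hdi
      exact notMem_nonunits_of_inv (by rw [inv_one]; exact one_mem _) one_ne_zero h1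
    have hle : W ≤ W' := by
      intro y hy
      obtain ⟨c', hc1, rfl⟩ := hrep y hy
      refine sum_mem fun j _ => ?_
      rw [Algebra.smul_def]
      exact W'.mul_mem _ _ ((comap_mem hW' _).mpr (hc1 j)) (pow_mem hint _)
    exact core_eq_of_le hU hle ((comap_nu hW' δ).mpr hδ.non)

end CaseF

end Fermat.Agent.CR
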