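import Mathlib
import Fermat.Agent.CR.Ext2

/-!
Norms of units along unique extensions.
-/

set_option autoImplicit false
set_option linter.unusedSectionVars false
set_option linter.style.haveILetI false
set_option linter.unusedVariables false

open IsLocalRing Polynomial

universe u

namespace Fermat.Agent.CR

open Fermat.Agent.Geo Fermat.Agent.LG Fermat.Agent.CA

section Dom

variable {B Ω : Type u} [Field B] [Field Ω] [Algebra B Ω]

/-- Extension of a valuation ring to a bigger field. -/
theorem exists_over_comap (W : ValuationSubring B) :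
    ∃ Ŵ : ValuationSubring Ω, Ŵ.comap (algebraMap B Ω) = W := by
  let j : W →+* Ω := (algebraMap B Ω).comp W.subtype
  obtain ⟨T, hT, hloc⟩ := (LocalSubring.range j).exists_le_valuationSubring
  have h1 : ∀ x, j x ∈ T := fun x => hT ⟨x, rfl⟩
  refine ⟨T, le_antisymm (fun x hx => ?_) fun x hx => h1 ⟨x, hx⟩⟩
  rw [ValuationSubring.mem_comap] at hx
  by_contra hxW
  have hx0 : x ≠ 0 := by
    rintro rfl
    exact hxW (zero_mem _)
  have hxi : x⁻¹ ∈ W := (W.mem_or_inv_mem x).resolve_left hxW
  have h2 : IsUnit (⟨j ⟨x⁻¹, hxi⟩, h1 _⟩ : T) := by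
    refine IsUnit.of_mul_eq_one ⟨algebraMap B Ω x, hx⟩ (Subtype.ext ?_)
    change algebraMap B Ω x⁻¹ * algebraMap B Ω x = 1
    rw [← map_mul, inv_mul_cancel₀ hx0, map_one]
  have h3 : IsUnit (⟨j ⟨x⁻¹, hxi⟩, ⟨_, rfl⟩⟩ : (LocalSubring.range j).toSubring) :=
    hloc.map_nonunit _ h2
  obtain ⟨v, hv⟩ := h3.exists_right_inv
  obtain ⟨y, hy⟩ := v.2
  have h4 : j ⟨x⁻¹, hxi⟩ * j y = 1 := by
    rw [hy]
    exact congrArg Subtype.val hv
  have h5 : (x⁻¹ : B) * (y : B) = 1 := by
    apply (algebraMap B Ω).injective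
    rw [map_mul, map_one]
    exact h4
  have h6 : x = (y : B) := by
    field_simp at h5
    exact h5.symm
  exact hxW (h6 ▸ y.2)

end Dom

section Prod

variable {Ω : Type u} [Field Ω] {T : ValuationSubring Ω}

theorem prod_sub_nu {ι : Type*} (S : Finset ι) {f g : ι → Ω} (hf : ∀ i ∈ S, f i ∈ T)
    (hg : ∀ i ∈ S, g i ∈ T) (h : ∀ i ∈ S, f i - g i ∈ T.nonunits) :
    ∏ i ∈ S, f i - ∏ i ∈ S, g i ∈ T.nonunits := by
  classical
  induction S using Finset.induction_on with
  | empty =>
    rw [Finset.prod_empty, Finset.prod_empty, sub_self]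
    exact zero_mem_nonunits _
  | insert i S hi ih =>
    rw [Finset.prod_insert hi, Finset.prod_insert hi]
    have h1 := ih (fun j hj => hf j (Finset.mem_insert_of_mem hj))
      (fun j hj => hg j (Finset.mem_insert_of_mem hj))
      (fun j hj => h j (Finset.mem_insert_of_mem hj))
    have h2 := h i (Finset.mem_insert_self _ _)
    have e : f i * ∏ j ∈ S, f j - g i * ∏ j ∈ S, g j =
        f i * (∏ j ∈ S, f j - ∏ j ∈ S, g j) + (∏ j ∈ S, g j) * (f i - g i) := by ring
    rw [e]
    refine CA.nonunits_add (mul_mem_nonunits (hf i (Finset.mem_insert_self _ _)) h1)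
      (mul_mem_nonunits (prod_mem fun j hj => hg j (Finset.mem_insert_of_mem hj)) h2)

end Prod

section Norm

variable {A B : Type u} [Field A] [Field B] [Algebra A B] {V : ValuationSubring A}
  {W : ValuationSubring B} [FiniteDimensional A B] [Algebra.IsSeparable A B]

/-- **The norm along a unique, residually purely inseparable extension.** -/
theorem norm_cong (hVW : W.comap (algebraMap A B) = V) {q : ℕ} (hq : q.Prime)
    (hqW : (q : B) ∈ W.nonunits)
    (huniq : ∀ W' : ValuationSubring B, W'.comap (algebraMap A B) = V → W' = W)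
    (hins : ∀ y ∈ W, ∃ c ∈ V, y ^ q - algebraMap A B c ∈ W.nonunits) {y : B} (hy : y ∈ W) :
    algebraMap A B (Algebra.norm A y) - y ^ (Module.finrank A B) ∈ W.nonunits := by
  classical
  obtain ⟨T, hT⟩ := exists_over_comap (Ω := AlgebraicClosure B) W
  have hTm : ∀ x : B, algebraMap B (AlgebraicClosure B) x ∈ T ↔ x ∈ W := fun x => by
    rw [← hT]; exact Iff.rfl
  have hTn : ∀ x : B, algebraMap B (AlgebraicClosure B) x ∈ T.nonunits ↔ x ∈ W.nonunits :=
    fun x => by
      rw [← hT]; exact (comap_mem_nonunits T _ x).symm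
  have hσ : ∀ σ : B →ₐ[A] AlgebraicClosure B, T.comap (σ : B →+* AlgebraicClosure B) = W := by
    intro σ
    apply huniq
    ext x
    rw [ValuationSubring.mem_comap, ValuationSubring.mem_comap]
    have e : (σ : B →+* AlgebraicClosure B) (algebraMap A B x) =
        algebraMap B (AlgebraicClosure B) (algebraMap A B x) := by
      change σ (algebraMap A B x) = _
      rw [AlgHom.commutes, IsScalarTower.algebraMap_apply A B (AlgebraicClosure B)]
    rw [e, hTm, ← hVW]
    exact Iff.rfl
  obtain ⟨c, hc, hyc⟩ := hins y hy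
  have hσy : ∀ σ : B →ₐ[A] AlgebraicClosure B,
      σ y - algebraMap B (AlgebraicClosure B) y ∈ T.nonunits := by
    intro σ
    have h1 : σ y ∈ T := by
      have : y ∈ T.comap (σ : B →+* AlgebraicClosure B) := by rw [hσ]; exact hy
      exact this
    have h2 : (q : AlgebraicClosure B) ∈ T.nonunits := by
      have := (hTn (q : B)).mpr hqW
      rwa [map_natCast] at this
    rw [← frob_sub hq h2 h1 ((hTm y).mpr hy)]
    have h3 : σ (y ^ q - algebraMap A B c) ∈ T.nonunits := by
      have : y ^ q - algebraMap A B c ∈ (T.comap (σ : B →+* AlgebraicClosure B)).nonunits := by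
        rw [hσ]; exact hyc
      exact (comap_mem_nonunits T _ _).mp this
    have h4 := (hTn _).mpr hyc
    have h5 := CA.nonunits_sub h3 h4
    rw [map_sub, map_sub, map_pow, map_pow, AlgHom.commutes,
      ← IsScalarTower.algebraMap_apply A B (AlgebraicClosure B), sub_sub_sub_cancel_right] at h5
    exact h5
  rw [← hTn, map_sub, map_pow, ← IsScalarTower.algebraMap_apply A B (AlgebraicClosure B),
    Algebra.norm_eq_prod_embeddings, ← AlgHom.card A B (AlgebraicClosure B)]
  have h6 : algebraMap B (AlgebraicClosure B) y ^ Fintype.card (B →ₐ[A] AlgebraicClosure B) =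
      ∏ σ : B →ₐ[A] AlgebraicClosure B, algebraMap B (AlgebraicClosure B) y := by
    rw [Finset.prod_const, Finset.card_univ]
  rw [h6]
  refine prod_sub_nu _ (fun σ _ => ?_) (fun σ _ => (hTm y).mpr hy) fun σ _ => hσy σ
  have : y ∈ T.comap (σ : B →+* AlgebraicClosure B) := by rw [hσ]; exact hy
  exact this

theorem norm_uc (hVW : W.comap (algebraMap A B) = V) {q : ℕ} (hq : q.Prime)
    (hqW : (q : B) ∈ W.nonunits)
    (huniq : ∀ W' : ValuationSubring B, W'.comap (algebraMap A B) = V → W' = W)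
    (hins : ∀ y ∈ W, ∃ c ∈ V, y ^ q - algebraMap A B c ∈ W.nonunits)
    {n : ℕ} (hn : Module.finrank A B = n) {y : B} (hy : UC W y y) :
    UC W (algebraMap A B (Algebra.norm A y)) (y ^ n) := by
  have h1 := norm_cong hVW hq hqW huniq hins hy.mem
  rw [hn] at h1
  have h2 : UC W (y ^ n) (y ^ n) := hy.pow n
  exact (UC.symm ⟨h2.ne, h2.mem, h2.inv, by
    have := CA.nonunits_neg h1
    rwa [neg_sub] at this⟩)

/-- from the totally ramified case -/
theorem ins_of_e {q : ℕ} (hVW : W.comap (algebraMap A B) = V)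
    (h : ∀ y ∈ W, ∃ c ∈ V, y - algebraMap A B c ∈ W.nonunits) :
    ∀ y ∈ W, ∃ c ∈ V, y ^ q - algebraMap A B c ∈ W.nonunits := by
  intro y hy
  obtain ⟨c, hc, hyc⟩ := h y hy
  refine ⟨c ^ q, pow_mem hc q, ?_⟩
  rw [map_pow]
  exact nonunits_pow_sub q hy ((comap_mem hVW c).mpr hc) hyc

end Norm

end Fermat.Agent.CR
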