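import Mathlib
import Fermat.Agent.CR.Ext3

/-!
The norm at a valuation ring with two extensions, one of them unramified of degree one.
-/

set_option autoImplicit false
set_option linter.unusedSectionVars false
set_option linter.style.haveILetI false
set_option linter.unusedVariables false

open IsLocalRing Polynomial

universe u

namespace Fermat.Agent.CR

open Fermat.Agent.Geo Fermat.Agent.LG Fermat.Agent.CA

variable {A B : Type u} [Field A] [Field B] [Algebra A B] {V : ValuationSubring A}
  {W0 W1 : ValuationSubring B} [FiniteDimensional A B] [Algebra.IsSeparable A B]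

/-- Two congruent roots of a polynomial at which the derivative is a unit are equal. -/
theorem root_unique {Ω : Type u} [Field Ω] {T : ValuationSubring Ω} {G : T[X]} {y z : Ω}
    (hy : y ∈ T) (hz : z ∈ T) (h1 : G.eval ⟨y, hy⟩ = 0) (h2 : G.eval ⟨z, hz⟩ = 0)
    (h3 : ((G.derivative.eval ⟨y, hy⟩ : T) : Ω) ∉ T.nonunits) (hyz : z - y ∈ T.nonunits) :
    z = y := by
  by_contra hne
  set y' : T := ⟨y, hy⟩
  set z' : T := ⟨z, hz⟩
  have hne' : z' - y' ≠ 0 := by
    intro h
    rw [sub_eq_zero] at h
    exact hne (congrArg Subtype.val h)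
  obtain ⟨k, hk⟩ := G.binomExpansion y' (z' - y')
  rw [add_sub_cancel, h1, h2, zero_add] at hk
  have h4 : G.derivative.eval y' = -(k * (z' - y')) := by
    refine mul_right_cancel₀ hne' ?_
    linear_combination -hk
  apply h3
  rw [h4]
  have e : ((-(k * (z' - y')) : T) : Ω) = -((k : Ω) * (z - y)) := by
    simp [z', y']
  rw [e]
  exact CA.nonunits_neg (mul_mem_nonunits k.2 hyz)

/-- **The norm with two extensions.** -/
theorem norm_two (h0 : W0.comap (algebraMap A B) = V)
    (hcov : ∀ W' : ValuationSubring B, W'.comap (algebraMap A B) = V → W' = W0 ∨ W' = W1)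
    {y : B} (hgen : Algebra.adjoin A {y} = ⊤) {c0 : A} (hc0 : c0 ∈ V)
    (hy0 : y - algebraMap A B c0 ∈ W0.nonunits) {G : A[X]} (hG : ∀ i, G.coeff i ∈ V)
    (hGy : aeval y G = 0) (hG' : aeval y (derivative G) ∉ W0.nonunits)
    {x : B} {f0 f1 : A} (hx0 : UC W0 x (algebraMap A B f0)) (hx1 : UC W1 x (algebraMap A B f1)) :
    UC W0 (algebraMap A B (Algebra.norm A x))
      (algebraMap A B f0 * algebraMap A B f1 ^ (Module.finrank A B - 1)) := by
  classical
  obtain ⟨T, hT⟩ := exists_over_comap (Ω := AlgebraicClosure B) W0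
  have hTm : ∀ x : B, algebraMap B (AlgebraicClosure B) x ∈ T ↔ x ∈ W0 := fun x => by
    rw [← hT]; exact Iff.rfl
  have hTn : ∀ x : B, algebraMap B (AlgebraicClosure B) x ∈ T.nonunits ↔ x ∈ W0.nonunits :=
    fun x => by
      rw [← hT]; exact (comap_mem_nonunits T _ x).symm
  have hVm : ∀ x : A, algebraMap A (AlgebraicClosure B) x ∈ T ↔ x ∈ V := fun x => by
    rw [IsScalarTower.algebraMap_apply A B (AlgebraicClosure B), hTm, ← h0]
    exact Iff.rfl
  have hVn : ∀ x : A, algebraMap A (AlgebraicClosure B) x ∈ T.nonunits ↔ x ∈ V.nonunits :=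
    fun x => by
      rw [IsScalarTower.algebraMap_apply A B (AlgebraicClosure B), hTn, comap_nu h0]
  have hσV : ∀ σ : B →ₐ[A] AlgebraicClosure B,
      (T.comap (σ : B →+* AlgebraicClosure B)).comap (algebraMap A B) = V := by
    intro σ
    ext x
    rw [ValuationSubring.mem_comap, ValuationSubring.mem_comap]
    have e : (σ : B →+* AlgebraicClosure B) (algebraMap A B x) =
        algebraMap A (AlgebraicClosure B) x := σ.commutes x
    rw [e, hVm]
  have hcase : ∀ σ : B →ₐ[A] AlgebraicClosure B, T.comap (σ : B →+* AlgebraicClosure B) = W0 ∨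
      T.comap (σ : B →+* AlgebraicClosure B) = W1 := fun σ => hcov _ (hσV σ)
  -- the canonical embedding
  let σ₀ : B →ₐ[A] AlgebraicClosure B := IsScalarTower.toAlgHom A B (AlgebraicClosure B)
  have hσ₀ : ∀ x, σ₀ x = algebraMap B (AlgebraicClosure B) x := fun x => rfl
  -- the polynomial over `T`
  have hyT : y ∈ W0 := by
    have := W0.add_mem _ _ (mem_nu hy0) ((comap_mem h0 c0).mpr hc0)
    rwa [sub_add_cancel] at this
  obtain ⟨GT, hGT⟩ : ∃ GT : T[X], GT.map T.subtype = G.map (algebraMap A (AlgebraicClosure B)) := by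
    rw [← Polynomial.mem_lifts, Polynomial.lifts_iff_coeff_lifts]
    intro i
    rw [coeff_map]
    exact ⟨⟨_, (hVm _).mpr (hG i)⟩, rfl⟩
  have hev : ∀ (z : AlgebraicClosure B) (hz : z ∈ T), ((GT.eval ⟨z, hz⟩ : T) : AlgebraicClosure B) =
      aeval z G := by
    intro z hz
    have h1 : ((GT.eval ⟨z, hz⟩ : T) : AlgebraicClosure B) = (GT.map T.subtype).eval z := by
      rw [eval_map]
      exact (eval₂_at_apply (p := GT) T.subtype (⟨z, hz⟩ : T)).symm
    rw [h1, hGT, eval_map, aeval_def]
  have hev' : ∀ (z : AlgebraicClosure B) (hz : z ∈ T),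
      ((GT.derivative.eval ⟨z, hz⟩ : T) : AlgebraicClosure B) = aeval z (derivative G) := by
    intro z hz
    have h1 : ((GT.derivative.eval ⟨z, hz⟩ : T) : AlgebraicClosure B) =
        (GT.derivative.map T.subtype).eval z := by
      rw [eval_map]
      exact (eval₂_at_apply (p := GT.derivative) T.subtype (⟨z, hz⟩ : T)).symm
    rw [h1, ← derivative_map, hGT, derivative_map, eval_map, aeval_def]
  -- an embedding with `T.comap σ = W0` is the canonical one
  have huni : ∀ σ : B →ₐ[A] AlgebraicClosure B, T.comap (σ : B →+* AlgebraicClosure B) = W0 →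
      σ = σ₀ := by
    intro σ hσ
    refine AlgHom.ext_of_adjoin_eq_top hgen fun z hz => ?_
    rw [Set.mem_singleton_iff] at hz
    rw [hz, hσ₀]
    have h1 : σ y ∈ T := by
      have : y ∈ T.comap (σ : B →+* AlgebraicClosure B) := by rw [hσ]; exact hyT
      exact this
    have h2 : σ y - algebraMap B (AlgebraicClosure B) y ∈ T.nonunits := by
      have h3 : σ (y - algebraMap A B c0) ∈ T.nonunits := by
        have : y - algebraMap A B c0 ∈ (T.comap (σ : B →+* AlgebraicClosure B)).nonunits := by
          rw [hσ]; exact hy0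
        exact (comap_mem_nonunits T _ _).mp this
      have h4 := (hTn _).mpr hy0
      have h5 := CA.nonunits_sub h3 h4
      rw [map_sub, map_sub, AlgHom.commutes,
        ← IsScalarTower.algebraMap_apply A B (AlgebraicClosure B), sub_sub_sub_cancel_right] at h5
      exact h5
    refine root_unique (G := GT) ((hTm y).mpr hyT) h1 ?_ ?_ ?_ h2
    · apply Subtype.ext
      rw [hev]
      have : aeval (algebraMap B (AlgebraicClosure B) y) G =
          algebraMap B (AlgebraicClosure B) (aeval y G) := by
        rw [aeval_algebraMap_apply]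
      rw [this, hGy, map_zero]
      rfl
    · apply Subtype.ext
      rw [hev, aeval_algHom_apply, hGy, map_zero]
      rfl
    · rw [hev', aeval_algebraMap_apply, hTn]
      exact hG'
  -- the product
  have hxW : ∀ σ : B →ₐ[A] AlgebraicClosure B, σ ≠ σ₀ →
      σ x - algebraMap A (AlgebraicClosure B) f1 ∈ T.nonunits := by
    intro σ hσ
    have h1 := (hcase σ).resolve_left fun h => hσ (huni σ h)
    have h2 : σ (x - algebraMap A B f1) ∈ T.nonunits := by
      have : x - algebraMap A B f1 ∈ (T.comap (σ : B →+* AlgebraicClosure B)).nonunits := by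
        rw [h1]; exact hx1.sub
      exact (comap_mem_nonunits T _ _).mp this
    rwa [map_sub, AlgHom.commutes] at h2
  have hx0' : σ₀ x - algebraMap A (AlgebraicClosure B) f0 ∈ T.nonunits := by
    have h1 := (hTn _).mpr hx0.sub
    rwa [map_sub, ← IsScalarTower.algebraMap_apply A B (AlgebraicClosure B)] at h1
  by_cases hex : ∃ σ : B →ₐ[A] AlgebraicClosure B, σ ≠ σ₀
  · obtain ⟨σ₁, hσ₁⟩ := hex
    have hf0 : algebraMap A (AlgebraicClosure B) f0 ∈ T := by
      rw [IsScalarTower.algebraMap_apply A B (AlgebraicClosure B), hTm]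
      exact hx0.mem'
    have h1 := (hcase σ₁).resolve_left fun h => hσ₁ (huni σ₁ h)
    have hf1V : UC V f1 f1 := by
      have h2 : algebraMap A B f1 ∈ T.comap (σ₁ : B →+* AlgebraicClosure B) := by
        rw [h1]; exact hx1.mem'
      have h3 : (algebraMap A B f1)⁻¹ ∈ T.comap (σ₁ : B →+* AlgebraicClosure B) := by
        rw [h1]; exact hx1.inv'
      have h4 : f1 ∈ V := by
        rw [← hVm]
        have : σ₁ (algebraMap A B f1) ∈ T := h2
        rwa [AlgHom.commutes] at this
      have h5 : f1⁻¹ ∈ V := by
        rw [← hVm]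
        have : σ₁ ((algebraMap A B f1)⁻¹) ∈ T := h3
        rwa [← map_inv₀, AlgHom.commutes] at this
      exact UC.refl (fun h => hx1.ne' (by rw [h, map_zero])) h4 h5
    have hf1 : algebraMap A (AlgebraicClosure B) f1 ∈ T := (hVm _).mpr hf1V.mem
    have hmain : algebraMap A (AlgebraicClosure B) (Algebra.norm A x) -
        algebraMap A (AlgebraicClosure B) f0 *
          algebraMap A (AlgebraicClosure B) f1 ^ (Module.finrank A B - 1) ∈ T.nonunits := by
      rw [Algebra.norm_eq_prod_embeddings, ← AlgHom.card A B (AlgebraicClosure B),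
        ← Finset.card_univ, ← Finset.mul_prod_erase Finset.univ _ (Finset.mem_univ σ₀),
        ← Finset.card_erase_of_mem (Finset.mem_univ σ₀), ← Finset.prod_const]
      have h2 := prod_sub_nu (T := T) (Finset.univ.erase σ₀) (f := fun σ => σ x)
        (g := fun _ => algebraMap A (AlgebraicClosure B) f1) (fun σ hσ => by
          have := T.add_mem _ _ (mem_nu (hxW σ (Finset.ne_of_mem_erase hσ))) hf1
          rwa [sub_add_cancel] at this) (fun _ _ => hf1)
        (fun σ hσ => hxW σ (Finset.ne_of_mem_erase hσ))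
      have hσ₀x : σ₀ x ∈ T := by
        have := T.add_mem _ _ (mem_nu hx0') hf0
        rwa [sub_add_cancel] at this
      have e : ∀ a b c d : AlgebraicClosure B, a * b - c * d = a * (b - d) + d * (a - c) := by
        intros; ring
      rw [e]
      exact CA.nonunits_add (mul_mem_nonunits hσ₀x h2)
        (mul_mem_nonunits (prod_mem fun _ _ => hf1) hx0')
    have hr : UC W0 (algebraMap A B f0 * algebraMap A B f1 ^ (Module.finrank A B - 1))
        (algebraMap A B f0 * algebraMap A B f1 ^ (Module.finrank A B - 1)) := by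
      have h3 : UC W0 (algebraMap A B f0) (algebraMap A B f0) := hx0.symm.rfl_left
      exact h3.mul ((comap_uc h0 hf1V).pow _)
    refine UC.symm ⟨hr.ne, hr.mem, hr.inv, ?_⟩
    have h4 : algebraMap A B (Algebra.norm A x) -
        algebraMap A B f0 * algebraMap A B f1 ^ (Module.finrank A B - 1) ∈ W0.nonunits := by
      rw [← hTn, map_sub, map_mul, map_pow, ← IsScalarTower.algebraMap_apply A B,
        ← IsScalarTower.algebraMap_apply A B, ← IsScalarTower.algebraMap_apply A B]
      exact hmain
    have := CA.nonunits_neg h4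
    rwa [neg_sub] at this
  · -- only one embedding
    push Not at hex
    have hcard : Module.finrank A B = 1 := by
      rw [← AlgHom.card A B (AlgebraicClosure B), Fintype.card_eq_one_iff]
      exact ⟨σ₀, hex⟩
    rw [hcard, Nat.sub_self, pow_zero, mul_one]
    have h2 : algebraMap A (AlgebraicClosure B) (Algebra.norm A x) =
        algebraMap B (AlgebraicClosure B) x := by
      rw [Algebra.norm_eq_prod_embeddings]
      rw [Finset.prod_eq_single σ₀ (fun σ _ hσ => absurd (hex σ) hσ)
        (fun h => absurd (Finset.mem_univ _) h)]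
      rfl
    have h3 : algebraMap A B (Algebra.norm A x) = x := by
      apply (algebraMap B (AlgebraicClosure B)).injective
      rw [← IsScalarTower.algebraMap_apply A B, h2]
    rw [h3]
    exact hx0

/-- **The norm with two extensions**, in terms of the reduction of the minimal polynomial. -/
theorem norm_two' (h0 : W0.comap (algebraMap A B) = V)
    (hcov : ∀ W' : ValuationSubring B, W'.comap (algebraMap A B) = V → W' = W0 ∨ W' = W1)
    {q : ℕ} {y : B} (hgen : Algebra.adjoin A {y} = ⊤) {u c : A} (hu : u ∈ V) (hc : c ∈ V)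
    (huc : u - c ∉ V.nonunits) (hy0 : y - algebraMap A B c ∈ W0.nonunits) {G : V[X]}
    (hGy : aeval y (G.map V.subtype) = 0)
    (hGr : G.map (residue V) = (X - C (residue V ⟨u, hu⟩)) ^ (q - 1) *
      (X - C (residue V ⟨c, hc⟩)))
    {x : B} {f0 f1 : A} (hx0 : UC W0 x (algebraMap A B f0)) (hx1 : UC W1 x (algebraMap A B f1)) :
    UC W0 (algebraMap A B (Algebra.norm A x))
      (algebraMap A B f0 * algebraMap A B f1 ^ (Module.finrank A B - 1)) := by
  have hyT : y ∈ W0 := by
    have := W0.add_mem _ _ (mem_nu hy0) ((comap_mem h0 c).mpr hc)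
    rwa [sub_add_cancel] at this
  let φ : V →+* W0 := ((algebraMap A B).comp V.subtype).codRestrict W0.toSubring
    (fun v => (comap_mem h0 (v : A)).mpr v.2)
  have hφ : ∀ v : V, ((φ v : W0) : B) = algebraMap A B (v : A) := fun v => rfl
  have hval : ∀ (P : V[X]) (z : B) (hz : z ∈ W0),
      (((P.map φ).eval ⟨z, hz⟩ : W0) : B) = aeval z (P.map V.subtype) := by
    intro P z hz
    have h1 := (eval₂_at_apply (p := P.map φ) W0.subtype (⟨z, hz⟩ : W0)).symm
    refine h1.trans ?_
    rw [eval₂_map, aeval_def, eval₂_map]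
    rfl
  refine norm_two h0 hcov hgen hc hy0 (G := G.map V.subtype) (fun i => ?_) hGy ?_ hx0 hx1
  · rw [coeff_map]
    exact (G.coeff i).2
  · -- the derivative
    rw [derivative_map, ← hval _ _ hyT]
    have h1 : residue V (G.derivative.eval ⟨c, hc⟩) ≠ 0 := by
      have h2 : residue V (G.derivative.eval ⟨c, hc⟩) =
          ((G.map (residue V)).derivative).eval (residue V ⟨c, hc⟩) := by
        rw [derivative_map, eval_map]
        exact (eval₂_at_apply (p := G.derivative) (residue V) (⟨c, hc⟩ : V)).symm
      rw [h2, hGr, derivative_mul, eval_add, eval_mul, eval_mul, eval_sub, eval_X, eval_C, sub_self,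
        mul_zero, zero_add, derivative_sub, derivative_X, derivative_C, sub_zero, eval_one, mul_one,
        eval_pow, eval_sub, eval_X, eval_C]
      refine pow_ne_zero _ ?_
      rw [← map_sub]
      intro h3
      rw [residue_eq_zero_iff] at h3
      apply huc
      have h4 : ((⟨c, hc⟩ - ⟨u, hu⟩ : V) : A) ∈ V.nonunits :=
        ValuationSubring.mem_nonunits_iff_exists_mem_maximalIdeal.mpr ⟨_, h3⟩
      have h5 := CA.nonunits_neg h4
      have e : -((⟨c, hc⟩ - ⟨u, hu⟩ : V) : A) = u - c := by
        push_cast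
        ring
      rwa [e] at h5
    intro h2
    obtain ⟨k, hk⟩ := sub_dvd_eval_sub (⟨y, hyT⟩ : W0) (φ ⟨c, hc⟩) (G.derivative.map φ)
    have h3 : (((G.derivative.map φ).eval (φ ⟨c, hc⟩) : W0) : B) =
        algebraMap A B ((G.derivative.eval ⟨c, hc⟩ : V) : A) := by
      rw [← hφ, eval_map]
      exact congrArg Subtype.val (eval₂_at_apply (p := G.derivative) φ (⟨c, hc⟩ : V))
    have h4 : algebraMap A B ((G.derivative.eval ⟨c, hc⟩ : V) : A) ∈ W0.nonunits := by
      rw [← h3]
      have h5 : (((G.derivative.map φ).eval (φ ⟨c, hc⟩) : W0) : B) =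
          (((G.derivative.map φ).eval ⟨y, hyT⟩ : W0) : B) -
            (y - algebraMap A B c) * (k : B) := by
        have h6 := congrArg (Subtype.val : W0 → B) hk
        have h7 : ((((⟨y, hyT⟩ : W0) - φ ⟨c, hc⟩) * k : W0) : B) =
            (y - algebraMap A B c) * (k : B) := rfl
        rw [h7] at h6
        rw [← h6]
        push_cast
        ring
      rw [h5]
      refine CA.nonunits_sub h2 ?_
      rw [mul_comm]
      exact mul_mem_nonunits k.2 hy0
    rw [comap_nu h0] at h4
    apply h1
    rw [residue_eq_zero_iff]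
    obtain ⟨h8, h9⟩ := ValuationSubring.mem_nonunits_iff_exists_mem_maximalIdeal.mp h4
    exact h9

/-- the same, with the algebraic element generating the field -/
theorem adjoin_top {y : B} (h : IntermediateField.adjoin A {y} = ⊤) : Algebra.adjoin A {y} = ⊤ := by
  rw [← IntermediateField.adjoin_simple_toSubalgebra_of_isAlgebraic
    (Algebra.IsAlgebraic.isAlgebraic y), h]
  rfl

end Fermat.Agent.CR
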