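import Mathlib
import Fermat.Agent.CR.Kron

/-!
The minimal polynomial of `x_R` over the level `R - 1`, at the component of `∞`.
-/

set_option autoImplicit false
set_option linter.unusedSectionVars false
set_option linter.unusedVariables false
set_option linter.style.haveILetI false

open Polynomial IsLocalRing

noncomputable section

universe u v

namespace Fermat.Agent.CR

open Fermat.Agent.Geo Fermat.Agent.LG Fermat.Agent.CA

section PhiP

variable {R : Type u} [CommRing R] {q : ℕ} {c : ℕ → ℤ[X]}

/-- the modular polynomial, as a polynomial in the first variable -/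
def PhiP (q : ℕ) (c : ℕ → ℤ[X]) (x : R) : R[X] := Phi q c (X : R[X]) (C x)

theorem PhiP_eq (x : R) : PhiP q c x =
    ∑ i ∈ Finset.range (q + 2), C (aeval x (c i)) * (X : R[X]) ^ i := by
  rw [PhiP, Phi]
  refine Finset.sum_congr rfl fun i _ => ?_
  congr 1
  rw [aeval_def, aeval_def, hom_eval₂]
  congr 1

theorem PhiP_eval {S : Type v} [CommRing S] (φ : R →+* S) (x : R) (y : S) :
    (PhiP q c x).eval₂ φ y = Phi q c y (φ x) := by
  rw [PhiP_eq, Phi, eval₂_finsetSum]
  refine Finset.sum_congr rfl fun i _ => ?_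
  rw [eval₂_mul, eval₂_C, eval₂_pow, eval₂_X, aeval_def, aeval_def, hom_eval₂]
  congr 2
  exact RingHom.ext_int _ _

theorem PhiP_map {S : Type v} [CommRing S] (φ : R →+* S) (x : R) :
    (PhiP q c x).map φ = PhiP q c (φ x) := by
  rw [PhiP_eq, PhiP_eq, Polynomial.map_sum]
  refine Finset.sum_congr rfl fun i _ => ?_
  rw [Polynomial.map_mul, map_C, Polynomial.map_pow, map_X, aeval_def, aeval_def, hom_eval₂]
  congr 3
  exact RingHom.ext_int _ _

theorem PhiP_monic [Nontrivial R] (hc : KShape q c) (x : R) :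
    (PhiP q c x).Monic ∧ (PhiP q c x).natDegree = q + 1 := by
  have h1 : PhiP q c x = X ^ (q + 1) +
      ∑ i ∈ Finset.range (q + 1), C (aeval x (c i)) * (X : R[X]) ^ i := by
    rw [PhiP_eq, Finset.sum_range_succ, hc.top, map_one, map_one, one_mul, add_comm]
  have h2 : (∑ i ∈ Finset.range (q + 1), C (aeval x (c i)) * (X : R[X]) ^ i).degree <
      ((q + 1 : ℕ) : WithBot ℕ) := by
    refine (degree_sum_le _ _).trans_lt ?_
    rw [Finset.sup_lt_iff (by exact WithBot.bot_lt_coe _)]
    intro i hi
    refine (degree_C_mul_X_pow_le i _).trans_lt ?_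
    exact_mod_cast Finset.mem_range.mp hi
  rw [h1]
  refine ⟨monic_X_pow_add h2, ?_⟩
  have h3 : (X ^ (q + 1) + ∑ i ∈ Finset.range (q + 1), C (aeval x (c i)) * (X : R[X]) ^ i).degree =
      ((q + 1 : ℕ) : WithBot ℕ) := by
    rw [degree_add_eq_left_of_degree_lt, degree_X_pow]
    rwa [degree_X_pow]
  exact natDegree_eq_of_degree_eq_some h3

/-- the Kronecker congruence in characteristic `q` -/
theorem PhiP_char (hq : q.Prime) (hc : KShape q c) (h0 : (q : R) = 0) {x u : R} (hxu : x = u ^ q) :
    PhiP q c x = (X - C u) ^ q * (X - C (x ^ q)) := by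
  obtain ⟨e, he⟩ := exists_err hc
  rw [PhiP, he]
  have h1 : (q : R[X]) = 0 := by
    rw [← C_eq_natCast, h0, C_0]
  have h2 : (X - C u : R[X]) ^ q = X ^ q - C x := by
    haveI : Fact q.Prime := ⟨hq⟩
    by_cases hn : Nontrivial R
    · haveI : CharP R q := by
        have h3 := CharP.exists R
        obtain ⟨p, hp⟩ := h3
        have h4 : p ∣ q := (CharP.cast_eq_zero_iff R p q).mp h0
        rcases (Nat.dvd_prime hq).mp h4 with h5 | h5
        · exact absurd h5 (CharP.char_ne_one R p)
        · rwa [h5] at hp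
      haveI : CharP R[X] q := inferInstance
      rw [sub_pow_expChar_of_commute q (Commute.all _ _), ← C_pow, ← hxu]
    · rw [not_nontrivial_iff_subsingleton] at hn
      exact Subsingleton.elim _ _
  rw [h1, zero_mul, add_zero, h2, C_pow]

end PhiP

/-- the minimal polynomial of `x_R`, and its reduction -/
theorem exists_G {A : Type u} {B : Type v} [Field A] [Field B] [Algebra A B]
    {V : ValuationSubring A} {q : ℕ} {c : ℕ → ℤ[X]} (hq : q.Prime) (hc : KShape q c)
    (hqV : (q : A) ∈ V.nonunits) {x u : A} (hx : x ∈ V) (hu : u ∈ V)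
    (hux : x - u ^ q ∈ V.nonunits) (hru : MRel q c u x) {y : B}
    (hy : MRel q c y (algebraMap A B x)) (hyu : y ≠ algebraMap A B u) :
    ∃ G : V[X], G.Monic ∧ G.natDegree = q ∧ aeval y (G.map V.subtype) = 0 ∧
      G.map (residue V) = (X - C (residue V ⟨u, hu⟩)) ^ (q - 1) *
        (X - C (residue V ⟨x, hx⟩ ^ q)) := by
  set x' : V := ⟨x, hx⟩ with hx'
  set u' : V := ⟨u, hu⟩ with hu'
  obtain ⟨hm, hd⟩ := PhiP_monic (R := V) hc x'
  have hroot : (PhiP q c x').IsRoot u' := by
    rw [IsRoot.def]
    have h1 := PhiP_eval (q := q) (c := c) (RingHom.id V) x' u'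
    rw [eval₂_id] at h1
    rw [h1]
    apply Subtype.ext
    exact (phi_coe _ _).trans hru
  have hdiv := mul_divByMonic_eq_iff_isRoot.mpr hroot
  set G : V[X] := PhiP q c x' /ₘ (X - C u') with hG
  have hGm : G.Monic := (monic_X_sub_C u').of_mul_monic_left (by rw [hdiv]; exact hm)
  have hGd : G.natDegree = q := by
    have h1 := (monic_X_sub_C u').natDegree_mul hGm
    rw [hdiv, hd, natDegree_X_sub_C] at h1
    omega
  refine ⟨G, hGm, hGd, ?_, ?_⟩
  · have h1 : aeval y ((PhiP q c x').map V.subtype) = 0 := by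
      rw [aeval_def, eval₂_map, PhiP_eval]
      exact hy
    rw [← hdiv, Polynomial.map_mul, map_mul, Polynomial.map_sub, map_X, map_C] at h1
    rcases mul_eq_zero.mp h1 with h2 | h2
    · exfalso
      apply hyu
      rw [map_sub, aeval_X, aeval_C] at h2
      exact sub_eq_zero.mp h2
    · exact h2
  · have hq0 : ((q : ℕ) : ResidueField V) = 0 := by
      have h1 : ((q : ℕ) : V) ∈ maximalIdeal V := by
        rw [ValuationSubring.mem_nonunits_iff_exists_mem_maximalIdeal] at hqV
        obtain ⟨h2, h3⟩ := hqV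
        exact h3
      rw [← map_natCast (residue V), residue_eq_zero_iff]
      exact h1
    have hxu : residue V x' = residue V u' ^ q := by
      rw [← map_pow, ← sub_eq_zero, ← map_sub, residue_eq_zero_iff]
      rw [ValuationSubring.mem_nonunits_iff_exists_mem_maximalIdeal] at hux
      obtain ⟨h2, h3⟩ := hux
      exact h3
    have h1 := congrArg (Polynomial.map (residue V)) hdiv
    rw [PhiP_map, PhiP_char hq hc hq0 hxu, Polynomial.map_mul, Polynomial.map_sub, map_X, map_C]
      at h1
    have h2 : (X - C (residue V u')) ^ q = (X - C (residue V u')) * (X - C (residue V u')) ^ (q - 1) := by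
      rw [← pow_succ', Nat.sub_add_cancel hq.one_lt.le]
    rw [h2, mul_assoc] at h1
    exact mul_left_cancel₀ (X_sub_C_ne_zero _) h1

end Fermat.Agent.CR
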