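import Mathlib
import Fermat.Agent.CA.NormC
import Fermat.Agent.SF.PowR

/-!
The norm from the level `q ^ (r + 2) M` to the level `q ^ (r + 1) M`.
-/

set_option autoImplicit false
set_option linter.unusedSectionVars false
set_option linter.unusedVariables false
set_option linter.style.haveILetI false

open IsLocalRing Polynomial ModularCurve IntermediateField

noncomputable section

universe u

namespace Fermat.Agent.CR

open Fermat.Agent.Geo Fermat.Agent.LG Fermat.Agent.ModFun Fermat.Agent.CA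

section

variable {L : Type u} [Field L] {q r M N : ℕ} [NeZero q] [NeZero M] [NeZero N]

theorem nrm_sub (ι : L →+* ℂ) (hq : q.Prime) (hqM : ¬ q ∣ M) (hN : N = q ^ 2 * (q ^ r * M))
    (x : F0 L (q * (q ^ r * M))) : nrm hN (inc1 L hN x) = x ^ q := by
  letI : Algebra (F0 L (q * (q ^ r * M))) (F0 L N) :=
    algI (F0_le_sq (K := L) (q := q) (M := q ^ r * M) hN)
  obtain ⟨hfd, hfr⟩ := SF.finrank_sqR (K := L) ι hq hqM hN
  haveI : Module.Free (F0 L (q * (q ^ r * M))) (F0 L N) := Module.Free.of_divisionRing _ _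
  have h : Algebra.norm (F0 L (q * (q ^ r * M))) (algebraMap (F0 L (q * (q ^ r * M))) (F0 L N) x) =
      x ^ q := by
    rw [Algebra.norm_algebraMap, hfr]
  exact h

/-- (s1) -/
theorem nmF_mem (hN : N = q ^ 2 * (q ^ r * M)) (x : F0 L N) : nmF L hN x ∈ sub1 L hN :=
  ⟨nrm hN x, rfl⟩

/-- (sq) -/
theorem nmF_sub (ι : L →+* ℂ) (hq : q.Prime) (hqM : ¬ q ∣ M) (hN : N = q ^ 2 * (q ^ r * M))
    {x : F0 L N} (hx : x ∈ sub1 L hN) : nmF L hN x = x ^ q := by
  obtain ⟨x, rfl⟩ := hx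
  change inc1 L hN (nrm hN (inc1 L hN x)) = _
  rw [nrm_sub ι hq hqM hN, map_pow]

/-- membership in the subfield of level `q ^ (r + 1) M` -/
theorem mem_sub1 (hN : N = q ^ 2 * (q ^ r * M)) {x : F0 L N}
    (hx : (x : LaurentSeries L) ∈ F0 L (q * (q ^ r * M))) : x ∈ sub1 L hN := by
  refine ⟨⟨(x : LaurentSeries L), hx⟩, ?_⟩
  apply Subtype.ext
  rw [coe_inc1]

theorem coe_mem_of_mem_sub1 (hN : N = q ^ 2 * (q ^ r * M)) {x : F0 L N}
    (hx : x ∈ sub1 L hN) : (x : LaurentSeries L) ∈ F0 L (q * (q ^ r * M)) := by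
  obtain ⟨x, rfl⟩ := hx
  rw [coe_inc1]
  exact x.2

/-- functions of a level dividing `q ^ (r + 1) M` -/
theorem mem_sub1_of_dvd (hN : N = q ^ 2 * (q ^ r * M)) {M' : ℕ} [NeZero M']
    (h : M' ∣ q * (q ^ r * M)) {x : F0 L N}
    (hx : (x : LaurentSeries L) ∈ F0 L M') : x ∈ sub1 L hN :=
  mem_sub1 hN (F0_mono h hx)

theorem ne_zero_nmF (ι : L →+* ℂ) (hq : q.Prime) (hqM : ¬ q ∣ M) (hN : N = q ^ 2 * (q ^ r * M))
    {x : F0 L N} (hx : x ≠ 0) : nmF L hN x ≠ 0 := by
  change inc1 L hN (nrm hN x) ≠ 0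
  rw [_root_.map_ne_zero]
  exact SF.nrm_ne_zeroR ι hq hqM hN hx

/-- the second norm, `w ∘ Nm ∘ w` -/
def nmW {F : Type u} [Field F] (w : F ≃+* F) (Nm : F →* F) : F →* F :=
  (w : F →* F).comp (Nm.comp (w : F →* F))

theorem nmW_apply {F : Type u} [Field F] (w : F ≃+* F) (Nm : F →* F) (x : F) :
    nmW w Nm x = w (Nm (w x)) := rfl

end

section

variable {O L : Type u} [CommRing O] [IsDomain O] [IsDiscreteValuationRing O]
  [Field L] [Algebra O L] [IsFractionRing O L] {q r M N : ℕ} [NeZero q] [NeZero M] [NeZero N]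
  [Algebra O (F0 L N)]

/-- (ch) the norm preserves the charts -/
theorem nmF_chartR (hOF : ∀ a : O, ((algebraMap O (F0 L N) a : F0 L N) : LaurentSeries L) =
      HahnSeries.C (algebraMap O L a)) (hN : N = q ^ 2 * (q ^ r * M)) {t : F0 L N}
    (ht : t ∈ sub1 L hN) {x : F0 L N} (hx : x ∈ chart O t) : nmF L hN x ∈ chart O t := by
  obtain ⟨t₁, rfl⟩ := ht
  exact nmF_chart hOF hN (t₁ := t₁) rfl hx

theorem algebraMap_mem_sub1 (hOF : ∀ a : O, ((algebraMap O (F0 L N) a : F0 L N) : LaurentSeries L) =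
      HahnSeries.C (algebraMap O L a)) (hN : N = q ^ 2 * (q ^ r * M)) (a : O) :
    algebraMap O (F0 L N) a ∈ sub1 L hN := by
  apply mem_sub1
  rw [hOF]
  rw [← coe_algebraMap_L (F0 L (q * (q ^ r * M))) (algebraMap O L a)]
  exact SetLike.coe_mem _

/-- (c) the norm of the constants -/
theorem nmF_algebraMap (ι : L →+* ℂ) (hq : q.Prime) (hqM : ¬ q ∣ M)
    (hOF : ∀ a : O, ((algebraMap O (F0 L N) a : F0 L N) : LaurentSeries L) =
      HahnSeries.C (algebraMap O L a)) (hN : N = q ^ 2 * (q ^ r * M)) (a : O) :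
    nmF L hN (algebraMap O (F0 L N) a) = algebraMap O (F0 L N) a ^ q :=
  nmF_sub ι hq hqM hN (algebraMap_mem_sub1 hOF hN a)

end

end Fermat.Agent.CR
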