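import Mathlib
import Fermat.Agent.CR.Lev
import Fermat.Agent.CR.Ext4
import Fermat.Agent.CR.NormG
import Fermat.Agent.CR.Comp
import Fermat.Agent.CR.TowN

/-!
The norms of the function field of `X₀(q^(r+1) M)` to the level `q^r M`, along the components.
-/

set_option autoImplicit false
set_option linter.unusedSectionVars false
set_option linter.unusedVariables false
set_option linter.style.haveILetI false

open Polynomial IsLocalRing

noncomputable section

universe u

namespace Fermat.Agent.CR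

open Fermat.Agent.Geo Fermat.Agent.LG Fermat.Agent.CA

section One

variable {O K M F : Type u} [CommRing O] [IsDomain O] [IsDiscreteValuationRing O]
  [Field K] [Field M] [Field F] [Algebra O K] [Algebra O F] [Algebra K M] [Algebra K F]
  {t : K} {π : O} {ht : IsParam O t} {hπ : Prime π} {q : ℕ} {G : ValuationSubring M}
  {r : ℕ} {m : ℕ → M →+* F} {P : ℕ → ValuationSubring F}

theorem Lev.mem (h : Lev ht hπ q G r m P) {i k : ℕ} (hi : i ≤ r) (hk : k ≤ r) (f : M) :
    m k f ∈ P i ↔ f ∈ G := by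
  rw [← h.comap i k hi hk]
  exact Iff.rfl

theorem Lev.non (h : Lev ht hπ q G r m P) {i k : ℕ} (hi : i ≤ r) (hk : k ≤ r) (f : M) :
    m k f ∈ (P i).nonunits ↔ f ∈ G.nonunits := by
  rw [← h.comap i k hi hk]
  exact (comap_mem_nonunits (P i) (m k) f).symm

theorem Lev.tG (h : Lev ht hπ q G r m P) : algebraMap K M t ∈ G := by
  rw [← h.mem (Nat.zero_le r) (Nat.zero_le r), h.m0]
  exact (h.ov 0 (Nat.zero_le r)).1 _ (self_mem_gaussVal ht hπ)

theorem Lev.t_sub (h : Lev ht hπ q G r m P) {i k n : ℕ} (hi : i ≤ r) (hk : k ≤ r)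
    (hn : 2 ≤ n) : m k (algebraMap K M t) - m k (algebraMap K M t) ^ n ∉ (P i).nonunits := by
  have hC : ¬ C π ∣ (X - X ^ n : O[X]) := by
    rintro ⟨p, hp⟩
    have h1 := congrArg (fun s : O[X] => s.coeff 1) hp
    simp only [coeff_sub, coeff_X_one, coeff_X_pow, coeff_C_mul] at h1
    rw [if_neg (by omega), sub_zero] at h1
    exact hπ.not_isUnit (IsUnit.of_mul_eq_one _ h1.symm)
  have h0 := aeval_notMem_nonunits ht hπ hC
  rw [map_sub, map_pow, aeval_X] at h0
  have h1 : (t - t ^ n)⁻¹ ∈ gaussVal ht hπ := inv_mem_of_notMem_nonunits h0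
  have h2 : t - t ^ n ≠ 0 := by
    intro h3
    rw [h3] at h0
    exact h0 (zero_mem_nonunits _)
  rw [← map_pow, ← map_sub, h.non hi hk, ← h.non (Nat.zero_le r) (Nat.zero_le r), ← map_pow,
    ← map_sub, h.m0]
  refine notMem_nonunits_of_inv ?_ (fun h3 => h2 ((map_eq_zero _).mp h3))
  rw [← map_inv₀]
  exact (h.ov 0 (Nat.zero_le r)).1 _ h1

theorem Lev.OP [IsScalarTower O K F] (h : Lev ht hπ q G r m P) {i : ℕ} (hi : i ≤ r) (a : O) :
    algebraMap O F a ∈ P i := by
  rw [IsScalarTower.algebraMap_apply O K F]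
  exact (h.ov i hi).1 _ (algebraMap_mem_gaussVal ht hπ a)

theorem Lev.q_non [IsScalarTower O K F] (h : Lev ht hπ q G r m P) (hqπ : π ∣ (q : O)) {i : ℕ}
    (hi : i ≤ r) : (q : F) ∈ (P i).nonunits := by
  obtain ⟨c, hc⟩ := hqπ
  have e : (q : F) = algebraMap O F c * algebraMap O F π := by
    rw [← map_mul, mul_comm, ← hc, map_natCast]
  rw [e]
  refine mul_mem_nonunits (h.OP hi c) ?_
  rw [IsScalarTower.algebraMap_apply O K F]
  exact (h.ov i hi).2

end One

section Two

variable {O K M A B : Type u} [CommRing O] [IsDomain O] [IsDiscreteValuationRing O]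
  [Field K] [Field M] [Field A] [Field B] [Algebra O K] [Algebra O A] [Algebra O B]
  [Algebra K M] [Algebra K A] [Algebra K B] [Algebra A B] [IsScalarTower O K A]
  [IsScalarTower O K B]
  {t : K} {π : O} {ht : IsParam O t} {hπ : Prime π} {q : ℕ} {G : ValuationSubring M} {R : ℕ}
  {mA : ℕ → M →+* A} {mB : ℕ → M →+* B} {PA : ℕ → ValuationSubring A}
  {PB : ℕ → ValuationSubring B}

theorem over_cases (hA : Lev ht hπ q G R mA PA) (hB : Lev ht hπ q G (R + 1) mB PB)
    (hK : ∀ a : K, algebraMap A B (algebraMap K A a) = algebraMap K B a)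
    (hα : ∀ I, I ≤ R + 1 → (PB I).comap (algebraMap A B) = PA (I - 1))
    {J : ℕ} (hJ : J ≤ R) {W : ValuationSubring B} (hW : W.comap (algebraMap A B) = PA J) :
    ∃ I, I ≤ R + 1 ∧ I - 1 = J ∧ W = PB I := by
  have h1 : Over (gaussVal ht hπ) (algebraMap O K π) W := by
    refine ⟨fun x hx => ?_, ?_⟩
    · rw [← hK, comap_mem hW]
      exact (hA.ov J hJ).1 x hx
    · rw [← hK, comap_nu hW]
      exact (hA.ov J hJ).2
  obtain ⟨I, hI, rfl⟩ := hB.all W h1
  exact ⟨I, hI, hA.inj _ _ (by omega) hJ (by rw [← hα I hI, hW]), rfl⟩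

variable [FiniteDimensional A B] [Algebra.IsSeparable A B]

/-- the norm along the components which are alone over their image -/
theorem norm_ge_two (hA : Lev ht hπ q G R mA PA) (hB : Lev ht hπ q G (R + 1) mB PB)
    (hq : q.Prime) (hqπ : π ∣ (q : O))
    (hK : ∀ a : K, algebraMap A B (algebraMap K A a) = algebraMap K B a)
    (hα : ∀ I, I ≤ R + 1 → (PB I).comap (algebraMap A B) = PA (I - 1))
    (hm0 : ∀ f : M, mB 0 f = algebraMap A B (mA 0 f))
    (hn : Module.finrank A B = q)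
    (hins : ∀ I, I ≤ R + 1 → R + 1 < 2 * I → ∀ y ∈ PB I, ∃ c ∈ PA (I - 1),
      y ^ q - algebraMap A B c ∈ (PB I).nonunits)
    {I : ℕ} (h2 : 2 ≤ I) (hI : I ≤ R + 1) {x : B} (hx : UC (PB I) x x) :
    UC (PB I) (algebraMap A B (Algebra.norm A x)) (x ^ q) := by
  refine norm_uc (hα I hI) hq (hB.q_non hqπ hI) (fun W' hW' => ?_) ?_ hn hx
  · obtain ⟨J, hJ, hJI, rfl⟩ := over_cases hA hB hK hα (by omega) hW'
    have : J = I := by omega
    rw [this]
  · by_cases h3 : R + 1 < 2 * I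
    · exact hins I hI h3
    · refine ins_of_e (hα I hI) fun y hy => ?_
      obtain ⟨f, hf, hyf⟩ := hB.res0 I (by omega) y hy
      exact ⟨mA 0 f, (hA.mem (by omega) (Nat.zero_le R) f).mpr hf, by rwa [← hm0]⟩

/-- the norm at the component of `∞` -/
theorem norm_zero (hA : Lev ht hπ q G R mA PA) (hB : Lev ht hπ q G (R + 1) mB PB)
    (hq : q.Prime) (hqπ : π ∣ (q : O)) (hR : 1 ≤ R) {c : ℕ → ℤ[X]} (hc : KShape q c)
    (hK : ∀ a : K, algebraMap A B (algebraMap K A a) = algebraMap K B a)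
    (hα : ∀ I, I ≤ R + 1 → (PB I).comap (algebraMap A B) = PA (I - 1))
    (hm : ∀ k, k ≤ R → ∀ f : M, mB k f = algebraMap A B (mA k f))
    (hr1 : MRel q c (mA (R - 1) (algebraMap K M t)) (mA R (algebraMap K M t)))
    (hr2 : MRel q c (mB (R + 1) (algebraMap K M t)) (mB R (algebraMap K M t)))
    (hn : Module.finrank A B = q) {x : B} {f0 f1 : M} (h0 : UC (PB 0) x (mB 0 f0))
    (h1 : UC (PB 1) x (mB 0 f1)) :
    UC (PB 0) (algebraMap A B (Algebra.norm A x)) (mB 0 f0 * mB 0 f1 ^ (q - 1)) := by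
  set s : M := algebraMap K M t with hs
  have hxV : mA R s ∈ PA 0 := (hA.mem (Nat.zero_le R) le_rfl s).mpr hA.tG
  have huV : mA (R - 1) s ∈ PA 0 := (hA.mem (Nat.zero_le R) (by omega) s).mpr hA.tG
  have hux : mA R s - mA (R - 1) s ^ q ∈ (PA 0).nonunits := by
    have := hA.Ft 0 (R - 1) (by omega)
    rwa [Nat.sub_add_cancel hR] at this
  have huc : mA (R - 1) s - mA R s ^ q ∉ (PA 0).nonunits := by
    intro h
    have h2 := nonunits_pow_sub q hxV (pow_mem huV q) hux
    rw [← pow_mul] at h2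
    have h3 := nonunits_add h h2
    rw [sub_add_sub_cancel] at h3
    exact hA.t_sub (Nat.zero_le R) (by omega)
      (by have := hq.two_le; nlinarith) h3
  have hy0 : mB (R + 1) s - algebraMap A B (mA R s ^ q) ∈ (PB 0).nonunits := by
    rw [map_pow, ← hm R le_rfl]
    exact hB.Ft 0 R (by omega)
  have hyB : mB (R + 1) s ∈ PB 1 := (hB.mem (by omega) le_rfl s).mpr hB.tG
  have hy1 : mB (R + 1) s - algebraMap A B (mA (R - 1) s) ∈ (PB 1).nonunits := by
    have h2 := hB.Vt 1 R (by omega) (by omega) (by omega)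
    have h3 := hB.Ft 1 (R - 1) (by omega)
    rw [Nat.sub_add_cancel hR] at h3
    have h4 := nonunits_add (nonunits_neg h2) h3
    rw [neg_sub, sub_add_sub_cancel] at h4
    rw [← hm (R - 1) (by omega)]
    exact (frob_sub hq (hB.q_non hqπ (by omega)) hyB
      ((hB.mem (by omega) (by omega) s).mpr hB.tG)).mp h4
  have e0 : (PB 0).comap (algebraMap A B) = PA 0 := hα 0 (Nat.zero_le _)
  have e1 : (PB 1).comap (algebraMap A B) = PA 0 := hα 1 (by omega)
  have hne : ∀ a : A, algebraMap A B a ≠ mB (R + 1) s := by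
    intro a ha
    rw [← ha, ← map_sub, comap_nu e0] at hy0
    rw [← ha, ← map_sub, comap_nu e1] at hy1
    have h2 := nonunits_add (nonunits_neg hy1) hy0
    rw [neg_sub, sub_add_sub_cancel] at h2
    exact huc h2
  have hgen : Algebra.adjoin A {mB (R + 1) s} = ⊤ := by
    apply adjoin_top
    haveI : IsSimpleOrder (IntermediateField A B) :=
      IntermediateField.isSimpleOrder_of_finrank_prime A B (by rw [hn]; exact hq)
    rcases eq_bot_or_eq_top (IntermediateField.adjoin A {mB (R + 1) s}) with h | h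
    · exfalso
      rw [IntermediateField.adjoin_simple_eq_bot_iff, IntermediateField.mem_bot] at h
      obtain ⟨a, ha⟩ := h
      exact hne a ha
    · exact h
  have hqV : (q : A) ∈ (PA 0).nonunits := hA.q_non hqπ (Nat.zero_le R)
  obtain ⟨H, hHm, hHd, hHy, hHr⟩ := exists_G hq hc hqV hxV huV hux hr1
    (by rw [← hm R le_rfl]; exact hr2) (fun h => hne _ h.symm)
  have key := norm_two' (W0 := PB 0) (W1 := PB 1) e0 (fun W' hW' => by
    obtain ⟨I, hI, hI0, rfl⟩ := over_cases hA hB hK hα (Nat.zero_le R) hW'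
    rcases Nat.lt_or_ge I 1 with h | h
    · left
      have : I = 0 := by omega
      rw [this]
    · right
      have : I = 1 := by omega
      rw [this]) hgen huV (pow_mem hxV q) huc hy0 hHy
      (by rw [hHr]; congr 3) (x := x) (f0 := mA 0 f0) (f1 := mA 0 f1)
      (by rw [← hm 0 (Nat.zero_le R)]; exact h0) (by rw [← hm 0 (Nat.zero_le R)]; exact h1)
  rw [hn, ← hm 0 (Nat.zero_le R), ← hm 0 (Nat.zero_le R)] at key
  exact key

/-- **The norms.** -/
theorem normR_of [Algebra M B] (hA : Lev ht hπ q G R mA PA) (hB : Lev ht hπ q G (R + 1) mB PB)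
    (hq : q.Prime) (hqπ : π ∣ (q : O)) (hR : 2 ≤ R) {c : ℕ → ℤ[X]} (hc : KShape q c)
    (hK : ∀ a : K, algebraMap A B (algebraMap K A a) = algebraMap K B a)
    (hα : ∀ I, I ≤ R + 1 → (PB I).comap (algebraMap A B) = PA (I - 1))
    (hm : ∀ k, k ≤ R → ∀ f : M, mB k f = algebraMap A B (mA k f))
    (hM : ∀ f : M, algebraMap M B f = mB 0 f)
    (hr1 : MRel q c (mA (R - 1) (algebraMap K M t)) (mA R (algebraMap K M t)))
    (hr2 : MRel q c (mB (R + 1) (algebraMap K M t)) (mB R (algebraMap K M t)))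
    (hn : Module.finrank A B = q)
    (hins : ∀ I, I ≤ R + 1 → R + 1 < 2 * I → ∀ y ∈ PB I, ∃ c ∈ PA (I - 1),
      y ^ q - algebraMap A B c ∈ (PB I).nonunits)
    {w : B ≃+* B} (ww : ∀ z, w (w z) = z)
    (hw : ∀ i, i ≤ R + 1 → ∀ z, w z ∈ PB i ↔ z ∈ PB (R + 1 - i))
    (wO : ∀ a : O, w (algebraMap O B a) = algebraMap O B a)
    {Na Nb : B →* B} (hNa : ∀ x, Na x = algebraMap A B (Algebra.norm A x))
    (hNaO : ∀ a : O, Na (algebraMap O B a) = algebraMap O B a ^ q)
    (hNb : ∀ z, Nb z = w (Na (w z))) :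
    NormR (O := O) (M := M) q (fun i : Fin (R + 1 + 1) => PB i) 0 ⟨1, by omega⟩ Na Nb := by
  have key : ∀ {I : ℕ}, 2 ≤ I → I ≤ R + 1 → ∀ {x : B}, UC (PB I) x x →
      UC (PB I) (Na x) (x ^ q) := by
    intro I h2 hI x hx
    rw [hNa]
    exact norm_ge_two hA hB hq hqπ hK hα (hm 0 (Nat.zero_le R)) hn hins h2 hI hx
  have keyb : ∀ {I : ℕ}, I + 1 ≤ R → ∀ {x : B}, UC (PB I) x x →
      UC (PB I) (Nb x) (x ^ q) := by
    intro I hI x hx
    have h1 : ∀ z, w z ∈ PB (R + 1 - I) ↔ z ∈ PB I := fun z => by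
      rw [hw _ (by omega)]
      congr! 2
      omega
    have h2 : ∀ z, w z ∈ PB I ↔ z ∈ PB (R + 1 - I) := hw I (by omega)
    have h3 := key (I := R + 1 - I) (by omega) (by omega) (UC.map h1 hx)
    have h4 := UC.map h2 h3
    rw [map_pow, ww, ← hNb] at h4
    exact h4
  refine ⟨hNaO, fun a => by rw [hNb, wO, hNaO, map_pow, wO], ?_, ?_, ?_, ?_⟩
  · intro i h0 h1 x hx
    have e0 : (i : ℕ) ≠ 0 := fun h => h0 (Fin.ext h)
    have e1 : (i : ℕ) ≠ 1 := fun h => h1 (Fin.ext h)
    exact key (by omega) (by omega) hx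
  · intro x hx
    exact keyb (I := 0) (by omega) hx
  · intro x hx
    exact keyb (I := 1) (by omega) hx
  · intro x f0 f1 h0 h1
    rw [hM] at h0 h1 ⊢
    rw [hM, hNa]
    exact norm_zero hA hB hq hqπ (by omega) hc hK hα hm hr1 hr2 hn h0 h1

end Two

end Fermat.Agent.CR
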