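import Mathlib
import Fermat.Agent.CR.NormA
import Fermat.Agent.CR.MainR2
import Fermat.Agent.CR.Base
import Fermat.Agent.CA.CarH

/-!
The norm from the level `q ^ (r + 2) M` to the level `q ^ (r + 1) M`: the data for the abstract
theorem.
-/

set_option autoImplicit false
set_option linter.unusedSectionVars false
set_option linter.unusedVariables false
set_option linter.style.haveILetI false

open IsLocalRing Polynomial ModularCurve IntermediateField

noncomputable section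

universe u

namespace Fermat.Agent.CR

open Fermat.Agent.Geo Fermat.Agent.LG Fermat.Agent.ModFun Fermat.Agent.CA

/-- the norm of `w h` is a power, up to a constant -/
theorem nmP_nmW {O F : Type u} [CommRing O] [Field F] [Algebra O F] {π : O} {w : F ≃+* F}
    (wO : ∀ a : O, w (algebraMap O F a) = algebraMap O F a) {Nm : F →* F} {m : ℕ} {h : F}
    (hP : NmP π Nm m (w h)) : NmP π (nmW w Nm) m h := by
  obtain ⟨k, u, H, hu, e⟩ := hP
  refine ⟨k, u, w H, hu, ?_⟩
  rw [nmW_apply, e, map_mul, map_mul, map_zpow₀, wO, wO, map_pow]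

section

variable {L : Type u} [Field L] {q r M N : ℕ} [NeZero q] [NeZero M] [NeZero N]

theorem inc1_eq (hN : N = q ^ 2 * (q ^ r * M)) (x : F0 L (q * (q ^ r * M))) :
    inc1 L hN x =
      @algebraMap _ _ _ _ (algI (F0_le_sq (K := L) (q := q) (M := q ^ r * M) hN)) x := by
  apply Subtype.ext
  rw [coe_inc1]
  exact (coe_inclusion (F0_le_sq (K := L) (q := q) (M := q ^ r * M) hN) x).symm

/-- the norm is the norm -/
theorem nmF_eq (hN : N = q ^ 2 * (q ^ r * M)) (x : F0 L N) :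
    nmF L hN x =
      @algebraMap _ _ _ _ (algI (F0_le_sq (K := L) (q := q) (M := q ^ r * M) hN))
        (@Algebra.norm (F0 L (q * (q ^ r * M))) (F0 L N) _ _
          (algI (F0_le_sq (K := L) (q := q) (M := q ^ r * M) hN)) x) := by
  have e : nmF L hN x = inc1 L hN (nrm hN x) := rfl
  rw [e, inc1_eq]
  rfl

variable {O : Type u} [CommRing O] [IsDomain O] [IsDiscreteValuationRing O] [Algebra O L]
  [IsFractionRing O L] [Algebra O (F0 L N)] {K : Type u} [Field K] [Algebra K (F0 L M)]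
  [Algebra K (F0 L N)] [Algebra (F0 L M) (F0 L N)] [IsScalarTower K (F0 L M) (F0 L N)]

theorem mem_sub1_M (hN : N = q ^ 2 * (q ^ r * M))
    (MF : ∀ x : F0 L M, ((algebraMap (F0 L M) (F0 L N) x : F0 L N) : LaurentSeries L) = x)
    (f : F0 L M) : algebraMap (F0 L M) (F0 L N) f ∈ sub1 L hN := by
  refine mem_sub1_of_dvd hN (M' := M) ?_ ?_
  · rw [← mul_assoc]
    exact dvd_mul_left M _
  · rw [MF]
    exact f.2

/-- the data of the norm -/
theorem subR_of {t : K} {π : O} (ι : L →+* ℂ) (hq : q.Prime) (hqM : ¬ q ∣ M)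
    (hN : N = q ^ 2 * (q ^ r * M)) (hr : 1 ≤ r)
    (OF : ∀ a : O, ((algebraMap O (F0 L N) a : F0 L N) : LaurentSeries L) =
      HahnSeries.C (algebraMap O L a))
    (MF : ∀ x : F0 L M, ((algebraMap (F0 L M) (F0 L N) x : F0 L N) : LaurentSeries L) = x)
    {V W : ℕ → F0 L N} (hV : (V 1 : LaurentSeries L) ∈ F0 L (q ^ 2 * M))
    (hW : W 1 = algebraMap O (F0 L N) π / V 1) :
    SubR (O := O) (M := F0 L M) t q V W (sub1 L hN) (nmF L hN) := by
  have hV1 : V 1 ∈ sub1 L hN := by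
    refine mem_sub1_of_dvd hN (M' := q ^ 2 * M) ?_ hV
    rw [← mul_assoc, ← pow_succ']
    exact mul_dvd_mul (pow_dvd_pow q (by omega)) dvd_rfl
  have ht : algebraMap K (F0 L N) t ∈ sub1 L hN := by
    rw [IsScalarTower.algebraMap_apply K (F0 L M) (F0 L N)]
    exact mem_sub1_M hN MF _
  have hO : ∀ a : O, algebraMap O (F0 L N) a ∈ sub1 L hN := algebraMap_mem_sub1 OF hN
  refine ⟨ht, hO, mem_sub1_M hN MF, fun x hx => nmF_sub ι hq hqM hN hx,
    fun x hx => nmF_chartR OF hN ht hx, hV1, ?_⟩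
  rw [hW]
  exact div_mem (hO π) hV1

/-- the data of the norm, with `V 1 * W 1 = u π` -/
theorem subR_of' {t : K} {π : O} (ι : L →+* ℂ) (hq : q.Prime) (hqM : ¬ q ∣ M)
    (hN : N = q ^ 2 * (q ^ r * M)) (hr : 1 ≤ r) (hπ : Prime π)
    (OF : ∀ a : O, ((algebraMap O (F0 L N) a : F0 L N) : LaurentSeries L) =
      HahnSeries.C (algebraMap O L a))
    (MF : ∀ x : F0 L M, ((algebraMap (F0 L M) (F0 L N) x : F0 L N) : LaurentSeries L) = x)
    {V W : ℕ → F0 L N} (hV : (V 1 : LaurentSeries L) ∈ F0 L (q ^ 2 * M))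
    (hW : ∃ u : O, IsUnit u ∧ V 1 * W 1 = algebraMap O (F0 L N) (u * π)) :
    SubR (O := O) (M := F0 L M) t q V W (sub1 L hN) (nmF L hN) := by
  obtain ⟨u, hu, hW⟩ := hW
  have hV1 : V 1 ∈ sub1 L hN := by
    refine mem_sub1_of_dvd hN (M' := q ^ 2 * M) ?_ hV
    rw [← mul_assoc, ← pow_succ']
    exact mul_dvd_mul (pow_dvd_pow q (by omega)) dvd_rfl
  have ht : algebraMap K (F0 L N) t ∈ sub1 L hN := by
    rw [IsScalarTower.algebraMap_apply K (F0 L M) (F0 L N)]
    exact mem_sub1_M hN MF _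
  have hO : ∀ a : O, algebraMap O (F0 L N) a ∈ sub1 L hN := algebraMap_mem_sub1 OF hN
  have h0 : V 1 ≠ 0 := by
    intro h
    rw [h, zero_mul] at hW
    have h1 := OF (u * π)
    rw [← hW] at h1
    have h2 : HahnSeries.C (algebraMap O L (u * π)) = (0 : LaurentSeries L) := h1.symm
    rw [map_eq_zero_iff _ HahnSeries.C_injective,
      map_eq_zero_iff _ (IsFractionRing.injective O L)] at h2
    exact mul_ne_zero hu.ne_zero hπ.ne_zero h2
  refine ⟨ht, hO, mem_sub1_M hN MF, fun x hx => nmF_sub ι hq hqM hN hx,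
    fun x hx => nmF_chartR OF hN ht hx, hV1, ?_⟩
  rw [← mul_div_cancel_left₀ (W 1) h0, hW]
  exact div_mem (hO _) hV1

/-- the two norms are powers, up to constants -/
theorem nmP_both {π : O} (hN : N = q ^ 2 * (q ^ r * M))
    (OF : ∀ a : O, ((algebraMap O (F0 L N) a : F0 L N) : LaurentSeries L) =
      HahnSeries.C (algebraMap O L a)) {w : F0 L N ≃+* F0 L N}
    (wO : ∀ a : O, w (algebraMap O (F0 L N) a) = algebraMap O (F0 L N) a) (hπ : Prime π) {m : ℕ}
    {h : F0 L N} (h1 : PowC hN m h) (h2 : PowC hN m (w h)) :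
    NmP π (nmF L hN) m h ∧ NmP π (nmW w (nmF L hN)) m h :=
  ⟨nmP_of_powC hN OF hπ h1, nmP_nmW wO (nmP_of_powC hN OF hπ h2)⟩

end

section Conc

variable {L : Type u} [Field L] {q r M N N₁ : ℕ} [NeZero q] [NeZero M] [NeZero N] [NeZero N₁]
  {O : Type u} [CommRing O] [IsDomain O] [IsDiscreteValuationRing O] [Algebra O L]
  [IsFractionRing O L] {K : Type u} [Field K] [Algebra O K]
  [Algebra O (F0 L N₁)] [Algebra O (F0 L N)] [Algebra K (F0 L M)]
  [Algebra K (F0 L N₁)] [Algebra K (F0 L N)] [Algebra (F0 L M) (F0 L N)]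
  [IsScalarTower O K (F0 L N₁)] [IsScalarTower O K (F0 L N)]
  {t : K} {π : O} {ht : IsParam O t} {hπ : Prime π} {G : ValuationSubring (F0 L M)}
  {PA : ℕ → ValuationSubring (F0 L N₁)} {PB : ℕ → ValuationSubring (F0 L N)}

/-- **The norms from the level `q ^ (r + 2) M` to the level `q ^ (r + 1) M`.** -/
theorem normR_conc (ι : L →+* ℂ) (hq : q.Prime) (hqM : ¬ q ∣ M) (hN₁ : N₁ = q ^ (r + 1) * M)
    (hN : N = q ^ (r + 2) * M) (hNs : N = q ^ 2 * (q ^ r * M)) (hr : 1 ≤ r)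
    (OF : ∀ a : O, ((algebraMap O (F0 L N) a : F0 L N) : LaurentSeries L) =
      HahnSeries.C (algebraMap O L a))
    (MF : ∀ x : F0 L M, ((algebraMap (F0 L M) (F0 L N) x : F0 L N) : LaurentSeries L) = x)
    (hK : ∀ a : K, ((algebraMap K (F0 L N₁) a : F0 L N₁) : LaurentSeries L) =
      ((algebraMap K (F0 L N) a : F0 L N) : LaurentSeries L))
    (hA : Lev ht hπ q G (r + 1) (ev L hN₁) PA) (hB : Lev ht hπ q G (r + 1 + 1) (ev L hN) PB)
    (hqπ : π ∣ (q : O)) {c : ℕ → ℤ[X]} (hc : KShape q c)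
    {α : F0 L N₁ →+* F0 L N} (hαc : ∀ x, ((α x : F0 L N) : LaurentSeries L) = x)
    (hα : ∀ I, I ≤ r + 1 + 1 → (PB I).comap α = PA (I - 1))
    (hr1 : MRel q c (ev L hN₁ r (algebraMap K (F0 L M) t))
      (ev L hN₁ (r + 1) (algebraMap K (F0 L M) t)))
    (hr2 : MRel q c (ev L hN (r + 1 + 1) (algebraMap K (F0 L M) t))
      (ev L hN (r + 1) (algebraMap K (F0 L M) t)))
    (hins : ∀ I, I ≤ r + 1 + 1 → r + 1 + 1 < 2 * I → ∀ y ∈ PB I, ∃ c ∈ PA (I - 1),
      y ^ q - α c ∈ (PB I).nonunits)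
    {w : F0 L N ≃+* F0 L N} (ww : ∀ z, w (w z) = z)
    (hw : ∀ i, i ≤ r + 1 + 1 → ∀ z, w z ∈ PB i ↔ z ∈ PB (r + 1 + 1 - i))
    (wO : ∀ a : O, w (algebraMap O (F0 L N) a) = algebraMap O (F0 L N) a) :
    NormR (O := O) (M := F0 L M) q (fun i : Fin (r + 1 + 1 + 1) => PB i) 0 ⟨1, by omega⟩
      (nmF L hNs) (nmW w (nmF L hNs)) := by
  obtain rfl : N₁ = q * (q ^ r * M) := by rw [hN₁, pow_succ']; ring
  letI algAB : Algebra (F0 L (q * (q ^ r * M))) (F0 L N) :=
    algI (F0_le_sq (K := L) (q := q) (M := q ^ r * M) hNs)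
  obtain ⟨hfd, hfr⟩ := SF.finrank_sqR (K := L) ι hq hqM hNs
  haveI : CharZero L := ι.charZero
  haveI : CharZero (F0 L (q * (q ^ r * M))) :=
    charZero_of_injective_ringHom (algebraMap L (F0 L (q * (q ^ r * M)))).injective
  haveI : FiniteDimensional (F0 L (q * (q ^ r * M))) (F0 L N) := hfd
  haveI : Algebra.IsSeparable (F0 L (q * (q ^ r * M))) (F0 L N) := inferInstance
  have eα : ∀ x : F0 L (q * (q ^ r * M)), algebraMap (F0 L (q * (q ^ r * M))) (F0 L N) x = α x := by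
    intro x
    rw [← inc1_eq hNs]
    apply Subtype.ext
    rw [coe_inc1, hαc]
  have eα' : algebraMap (F0 L (q * (q ^ r * M))) (F0 L N) = α := RingHom.ext eα
  refine normR_of (A := F0 L (q * (q ^ r * M))) hA hB hq hqπ (by omega) hc ?_ ?_ ?_ ?_ ?_ hr2
    hfr ?_ ww hw wO (nmF_eq hNs) (fun a => nmF_algebraMap ι hq hqM OF hNs a) (nmW_apply w _)
  · intro a
    rw [eα]
    apply Subtype.ext
    rw [hαc, hK]
  · rw [eα']
    exact hα
  · intro k hk f
    rw [eα]
    apply Subtype.ext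
    rw [hαc, ev_coe hN (by omega), ev_coe hN₁ hk]
  · intro f
    apply Subtype.ext
    rw [MF, ev_zero_coe]
  · exact hr1
  · rw [eα']
    exact hins

end Conc

end Fermat.Agent.CR
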