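import Mathlib
import Fermat.Agent.CR.CoreA
import Fermat.Agent.CR.NmC
import Fermat.Agent.SF.WR

/-!
The vanishing theorem at the level `q ^ (r + 2) M`, over a field `L` with a discrete valuation:
the middle part.
-/

set_option autoImplicit false
set_option linter.unusedSectionVars false
set_option linter.unusedVariables false

open IsLocalRing Polynomial ModularCurve IntermediateField

noncomputable section

universe u

namespace Fermat.Agent.CR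

open Fermat.Agent.Geo Fermat.Agent.LG Fermat.Agent.ModFun Fermat.Agent.CA
open CongruenceSubgroup (Gamma0)

variable {O L : Type u} [CommRing O] [IsDomain O] [IsDiscreteValuationRing O]
    [Field L] [Algebra O L] [IsFractionRing O L]
    {q M N N₁ N₂ p r : ℕ} [NeZero q] [NeZero M] [NeZero N] [NeZero N₁] [NeZero N₂]
    [Fact p.Prime] {κ : ℤ} {π : O}
    [Algebra O (Kt L p κ)] [Algebra O (F0 L M)] [Algebra O (F0 L N)]
    [Algebra (Kt L p κ) (F0 L M)] [Algebra (Kt L p κ) (F0 L N)] [Algebra (F0 L M) (F0 L N)]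
    [IsScalarTower O (Kt L p κ) (F0 L M)] [IsScalarTower O (Kt L p κ) (F0 L N)]
    [IsScalarTower O (F0 L M) (F0 L N)] [IsScalarTower (Kt L p κ) (F0 L M) (F0 L N)]
    [Algebra O (F0 L N₂)] [Algebra (Kt L p κ) (F0 L N₂)] [Algebra (F0 L M) (F0 L N₂)]
    [IsScalarTower O (Kt L p κ) (F0 L N₂)] [IsScalarTower (Kt L p κ) (F0 L M) (F0 L N₂)]
    [IsScalarTower O (F0 L M) (F0 L N₂)]
    [Algebra O (F0 L N₁)] [Algebra (Kt L p κ) (F0 L N₁)] [IsScalarTower O (Kt L p κ) (F0 L N₁)]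

set_option maxHeartbeats 2000000 in
/-- **The middle theorem.** -/
theorem core_of_lev [CharZero O]
    (C : Cpt O (Kt L p κ) (F0 L M) (F0 L N)) {hπ : Prime π} {ht : IsParam O (tK L p κ)}
    [FiniteDimensional (Kt L p κ) (F0 L M)] [Algebra.IsSeparable (Kt L p κ) (F0 L M)]
    [FiniteDimensional (Kt L p κ) (F0 L N)] [Algebra.IsSeparable (Kt L p κ) (F0 L N)]
    [FiniteDimensional (Kt L p κ) (F0 L N₂)] [Algebra.IsSeparable (Kt L p κ) (F0 L N₂)]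
    (C₁ : ∀ x : Kt L p κ, ((algebraMap (Kt L p κ) (F0 L N₁) x : F0 L N₁) : LaurentSeries L) = x)
    {ι : L →+* ℂ} (hq : q.Prime) (hqM : ¬ q ∣ M) (hr : 1 ≤ r)
    (hN₂ : N₂ = q ^ 2 * M) (hN₁ : N₁ = q ^ (r + 1) * M) (hN : N = q ^ (r + 2) * M)
    (B : Bez (q ^ (r + 2)) M) {m : ℕ} {c : ℕ → ℤ[X]} {C₀ : ℤ}
    {P₂ : Fin 3 → ValuationSubring (F0 L N₂)} {w₂ : F0 L N₂ ≃+* F0 L N₂}
    {X₁ a1 a2 cc d : F0 L N₂}
    (T : Tri (M := F0 L M) ht hπ q c C₀ P₂ w₂ X₁)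
    (D : NC (algebraMap (Kt L p κ) (F0 L N₂) (tK L p κ)) π q P₂ w₂ a1 a2 cc d)
    {GM : ValuationSubring (F0 L M)}
    {PA : ℕ → ValuationSubring (F0 L N₁)} {PB : ℕ → ValuationSubring (F0 L N)}
    (HA : Lev ht hπ q GM (r + 1) (ev L hN₁) PA) (HB : Lev ht hπ q GM (r + 2) (ev L hN) PB)
    {α : F0 L N₁ →+* F0 L N} (hαc : ∀ x, ((α x : F0 L N) : LaurentSeries L) = x)
    (hα : ∀ I, I ≤ r + 2 → (PB I).comap α = PA (I - 1))
    (hins : ∀ I, I ≤ r + 2 → r + 2 < 2 * I → ∀ y ∈ PB I, ∃ c ∈ PA (I - 1),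
      y ^ q - α c ∈ (PB I).nonunits)
    {φ : ℕ → F0 L N₂ →+* F0 L N} (hφ1 : ∀ z, ((φ 1 z : F0 L N) : LaurentSeries L) = z)
    (hM : Mul (M := F0 L M) ht hπ q P₂ w₂ X₁ a1 cc (r + 2) (fun i : Fin (r + 2 + 1) => PB i)
      (SF.wFR B ι hq hN) φ
      (fun k => ev L hN k (algebraMap (Kt L p κ) (F0 L M) (tK L p κ))))
    (md : ∃ (dd : Fin (r + 2 + 1) → F0 L N) (ed : Fin (r + 2 + 1) → ℕ),
      MD (algebraMap (Kt L p κ) (F0 L N) (tK L p κ)) π (r + 2)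
        (fun a : Fin (r + 2 + 1) => PB (Fin.rev a : Fin (r + 2 + 1))) dd ed)
    {E : Type u} [Field E] [Algebra O E] [Algebra (Kt L p κ) E] [Algebra (F0 L N) E]
    [IsScalarTower O (Kt L p κ) E] [IsScalarTower (Kt L p κ) (F0 L N) E]
    [IsScalarTower O (F0 L N) E]
    [FiniteDimensional (Kt L p κ) E] [Algebra.IsSeparable (Kt L p κ) E]
    [FiniteDimensional (F0 L N) E] [IsGalois (F0 L N) E]
    (hinj : Function.Injective (algebraMap O E))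
    (hO : ∀ x : E, IsIntegral O x → ∃ o : O, algebraMap O E o = x)
    (hNE : NoEll N) (hm : 0 < m) (hqm : ¬ q ∣ m) (hmu : IsUnit (m : O))
    {ζm : O} (hζm : IsPrimitiveRoot ζm m) (hroot : ∀ u : O, IsUnit u → ∃ v : O, v ^ m = u)
    {χ : Gamma0 N →* ℂˣ} (hχ : IsPar χ) (hχm : χ ^ m = 1) {y : LaurentSeries L}
    (hy : XSer ι N χ y) (hy0 : y ≠ 0)
    (hP1 : PowC (SF.hN2 hN) m ⟨y ^ m, hy.pow_mem_F0 hχm⟩)
    (hP2 : PowC (SF.hN2 hN) m (SF.wFR B ι hq hN ⟨y ^ m, hy.pow_mem_F0 hχm⟩)) {yE : E}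
    (hyE : yE ^ m = algebraMap (F0 L N) E ⟨y ^ m, hy.pow_mem_F0 hχm⟩) :
    ∃ a : F0 L N, yE = algebraMap (F0 L N) E a := by
  have hNs : N = q ^ 2 * (q ^ r * M) := SF.hN2 hN
  have hqO : (q : O) = π := T.hq
  have hqπ : π ∣ (q : O) := by rw [hqO]
  have ww : ∀ z, SF.wFR B ι hq hN (SF.wFR B ι hq hN z) = z := hM.ww
  have hw : ∀ i, i ≤ r + 1 + 1 → ∀ z, SF.wFR B ι hq hN z ∈ PB i ↔ z ∈ PB (r + 1 + 1 - i) := by
    intro i hi z
    have h1 := hM.wP ⟨i, by omega⟩ z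
    have h2 : ((Fin.rev (⟨i, by omega⟩ : Fin (r + 2 + 1)) : Fin (r + 2 + 1)) : ℕ) =
        r + 1 + 1 - i := by
      rw [Fin.val_rev]
      change r + 2 + 1 - (i + 1) = _
      omega
    change SF.wFR B ι hq hN z ∈ PB i ↔ z ∈ PB _ at h1
    rwa [h2] at h1
  have rel := hM.rel T
  have rel' := hM.rel' T
  have hcα : ∀ k, k ≤ r + 1 → α (ev L hN₁ k (algebraMap (Kt L p κ) (F0 L M) (tK L p κ))) =
      ev L hN k (algebraMap (Kt L p κ) (F0 L M) (tK L p κ)) := by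
    intro k hk
    apply Subtype.ext
    rw [hαc, ev_coe hN₁ hk, ev_coe hN (by omega)]
  have hr1 : MRel q c (ev L hN₁ r (algebraMap (Kt L p κ) (F0 L M) (tK L p κ)))
      (ev L hN₁ (r + 1) (algebraMap (Kt L p κ) (F0 L M) (tK L p κ))) := by
    refine MRel_of_inj α α.injective ?_
    rw [hcα r (by omega), hcα (r + 1) le_rfl]
    exact rel' r (by omega)
  have hr2 : MRel q c (ev L hN (r + 1 + 1) (algebraMap (Kt L p κ) (F0 L M) (tK L p κ)))
      (ev L hN (r + 1) (algebraMap (Kt L p κ) (F0 L M) (tK L p κ))) := rel (r + 1) (by omega)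
  have NR := normR_conc ι hq hqM hN₁ hN hNs hr C.OF C.MF (fun a => (C₁ a).trans (C.KF a).symm)
    HA HB hqπ T.shape hαc hα hr1 hr2 hins ww hw hM.wO
  have SR : SubR (O := O) (M := F0 L M) (tK L p κ) q (mulV (r + 2) φ a1 cc)
      (mulW (r + 2) (SF.wFR B ι hq hN) φ a1 cc) (sub1 L hNs) (nmF L hNs) := by
    refine subR_of' ι hq hqM hNs hr hπ C.OF C.MF ?_ ?_
    · rw [mulV1 (by omega), hφ1]
      subst hN₂
      exact a1.2
    · exact Mul.VW_prod T hM D 1 le_rfl (by omega)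
  exact car_asm C T D HB (fun k hk f => ev_coe hN hk f) hM md SR (nmW_apply _ _) (by omega) NR
    hinj hO hmu hm ((Nat.Prime.coprime_iff_not_dvd hq).mpr hqm) hζm hroot hyE
    (fun h0 => pow_ne_zero m hy0 (congrArg Subtype.val h0))
    (nmP_of_powC hNs C.OF hπ hP1) (nmP_of_powC hNs C.OF hπ hP2)
    (hor_of_isPar C.OF hπ hNE hχ hm hχm hy hy0) rfl

end Fermat.Agent.CR
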