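import Mathlib
import Fermat.Agent.CA.L2
import Fermat.Agent.CA.Loc

/-!
The reduction of the parameter is not a `q`-th power.
-/

set_option autoImplicit false
set_option linter.unusedSectionVars false
set_option linter.unusedVariables false

open IsLocalRing Polynomial ModularCurve

noncomputable section

universe u

namespace Fermat.Agent.CR

open Fermat.Agent.Geo Fermat.Agent.LG Fermat.Agent.CA Fermat.Agent.ModFun

theorem laurent_pow_ne {k : Type*} [Field k] {T Y : LaurentSeries k} (h1 : T.coeff (-1) ≠ 0)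
    (h2 : ∀ n < -1, T.coeff n = 0) {q : ℕ} (hq : 2 ≤ q) : Y ^ q ≠ T := by
  intro h
  have hT : T ≠ 0 := by rintro rfl; simp at h1
  have h3 : T.order = -1 := by
    apply le_antisymm (HahnSeries.order_le_of_coeff_ne_zero h1)
    by_contra hlt
    push Not at hlt
    have h4 := h2 _ hlt
    exact HahnSeries.coeff_order_eq_zero.not.mpr hT h4
  have h5 : (Y ^ q).order = q • Y.order := HahnSeries.order_pow Y q
  rw [h, h3] at h5
  have h6 : (q : ℤ) ∣ -1 := ⟨Y.order, by rw [h5]; simp⟩
  have h7 := Int.natAbs_dvd_natAbs.mpr h6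
  simp at h7
  omega

/-- `g2`: over the Gauss valuation -/
theorem gauss_g2 {O K M : Type u} [CommRing O] [IsDomain O] [IsDiscreteValuationRing O]
    [Field K] [Field M] [Algebra O K] [Algebra O M] [Algebra K M] [IsScalarTower O K M]
    [FiniteDimensional K M] [Algebra.IsSeparable K M] {t : K} {π : O} {ht : IsParam O t} {hπ : Prime π} {G : ValuationSubring M}
    (hG : Over (gaussVal ht hπ) (algebraMap O K π) G) {n : ℕ} (hn : 2 ≤ n) :
    algebraMap K M t ^ n - algebraMap K M t ∉ G.nonunits := by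
  intro h
  refine CA.aeval_notMem_nonunits (B := (X : O[X]) ^ n - X) hG ?_ ?_
  · intro h3
    have h4 := (C_dvd_iff_dvd_coeff _ _).mp h3 1
    rw [coeff_sub, coeff_X_pow, if_neg (by omega), coeff_X_one, zero_sub, dvd_neg] at h4
    exact hπ.not_unit (isUnit_of_dvd_one h4)
  · simpa using h

section

variable {O L E : Type u} [CommRing O] [IsDomain O] [IsDiscreteValuationRing O] [Field L]
  [Algebra O L] [IsFractionRing O L] [Field E] {θ : E →+* LaurentSeries L}
  {hθ : ∀ x, θ x ∈ gK O L}

/-- `g1`, on the field with the embedding -/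
theorem gW_g1 {x : E} {T : LaurentSeries O} (hx : θ x = toL O L T)
    (lead : (toK O T).coeff (-1) ≠ 0) (lead' : ∀ n < -1, T.coeff n = 0) {q : ℕ} (hq : 2 ≤ q)
    {f : E} (hf : f ∈ gW θ hθ) : x - f ^ q ∉ (gW θ hθ).nonunits := by
  intro h
  have hfV : θ f ∈ gV O L := hf
  have hxV : θ x ∈ gV O L := by rw [hx]; exact toL_mem_gV T
  have hsub : θ (x - f ^ q) ∈ gV O L := by
    rw [map_sub, map_pow]
    exact sub_mem hxV (pow_mem hfV _)
  have h1 := (mem_nonunits_iff_gR (hθ := hθ) hsub).mp h
  have e : (⟨θ (x - f ^ q), hsub⟩ : gV O L) = ⟨toL O L T, toL_mem_gV T⟩ - ⟨θ f, hfV⟩ ^ q := by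
    apply Subtype.ext
    change θ (x - f ^ q) = toL O L T - θ f ^ q
    rw [map_sub, map_pow, hx]
  rw [e, map_sub, map_pow, gR_toL, sub_eq_zero] at h1
  refine laurent_pow_ne lead (fun n hn => ?_) hq h1.symm
  have : (toK O T).coeff n = residue O (T.coeff n) := rfl
  rw [this, lead' n hn, map_zero]

end

section L2

variable {O L O' L' K M F : Type u} [CommRing O] [IsDomain O] [IsDiscreteValuationRing O]
    [Field L] [Algebra O L] [IsFractionRing O L] [CommRing O'] [IsDomain O']
    [IsDiscreteValuationRing O'] [Field L'] [Algebra O' L'] [IsFractionRing O' L']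
    [Field K] [Field M] [Field F] [Algebra O K] [Algebra O M] [Algebra O F] [Algebra K M]
    [Algebra K F] [Algebra M F] [IsScalarTower O K M] [IsScalarTower O K F]
    [IsScalarTower K M F] [IsScalarTower O M F] {q : ℕ} [NeZero q] {t : K} {T : LaurentSeries O}
    {θ : F →+* LaurentSeries L} {θ₁ : F →+* LaurentSeries L'} {i : L →+* L'} {i' : O →+* O'}
    {ζ : O'ˣ} {w : F ≃+* F} {π : O} {ht : IsParam O t} {hπ : Prime π}
    [FiniteDimensional K M] [Algebra.IsSeparable K M] [FiniteDimensional K F]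
    [Algebra.IsSeparable K F]

/-- the valuation ring of `M` is over the Gauss valuation -/
theorem l2_ovG (D : L2 M q t T θ θ₁ i i' ζ w) :
    Over (gaussVal ht hπ) (algebraMap O K π) ((D.PP 0).comap (algebraMap M F)) := by
  have h := D.over0 ht hπ
  refine ⟨fun z hz => ?_, ?_⟩
  · change algebraMap M F (algebraMap K M z) ∈ D.P0
    rw [← IsScalarTower.algebraMap_apply]
    exact h.1 z hz
  · rw [comap_mem_nonunits, ← IsScalarTower.algebraMap_apply]
    exact h.2

theorem l2_tG (D : L2 M q t T θ θ₁ i i' ζ w) (ht : IsParam O t) (hπ : Prime π) :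
    algebraMap K M t ∈ (D.PP 0).comap (algebraMap M F) := by
  change algebraMap M F (algebraMap K M t) ∈ D.P0
  rw [← IsScalarTower.algebraMap_apply]
  exact chart_mem_over (D.over0 ht hπ) (self_mem_chart _)

theorem l2_g1 (D : L2 M q t T θ θ₁ i i' ζ w) :
    ∀ f ∈ (D.PP 0).comap (algebraMap M F),
      algebraMap K M t - f ^ q ∉ ((D.PP 0).comap (algebraMap M F)).nonunits := by
  intro f hf h
  rw [comap_mem_nonunits, map_sub, map_pow, ← IsScalarTower.algebraMap_apply] at h
  refine gW_g1 (hθ := D.hgK) D.θt ?_ D.lead' D.prime.two_le hf h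
  rw [D.lead]
  exact one_ne_zero

theorem l2_g2 (D : L2 M q t T θ θ₁ i i' ζ w) (ht : IsParam O t) (hπ : Prime π) :
    algebraMap K M t ^ (q ^ 2) - algebraMap K M t ∉
      ((D.PP 0).comap (algebraMap M F)).nonunits := by
  refine gauss_g2 (l2_ovG (ht := ht) (hπ := hπ) D) ?_
  have : 2 ^ 2 ≤ q ^ 2 := Nat.pow_le_pow_left D.prime.two_le 2
  omega

end L2

end Fermat.Agent.CR
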