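import Mathlib
import Fermat.Agent.CR.Lev
import Fermat.Agent.CR.Ext3

/-!
The valuations of the function field of `X₀(q^(r+1) M)`: the induction step.
-/

set_option autoImplicit false
set_option linter.unusedSectionVars false
set_option linter.unusedVariables false
set_option linter.style.haveILetI false

open Polynomial

noncomputable section

universe u

namespace Fermat.Agent.CR

open Fermat.Agent.Geo Fermat.Agent.LG Fermat.Agent.CA

section Wrap

variable {A B : Type u} [Field A] [Field B]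

/-- `B` is finite over `A` of degree `≤ q`. -/
def DegLe (j : A →+* B) (q : ℕ) : Prop :=
  letI := j.toAlgebra
  FiniteDimensional A B ∧ Module.finrank A B ≤ q

theorem ext_e' (j : A →+* B) {q : ℕ} (hdeg : DegLe j q) (hq : 0 < q) {V : ValuationSubring A}
    {W : ValuationSubring B} (hVW : W.comap j = V) {δ : A} (hδ : Uni V δ) {d : B}
    (hu : UC W (d ^ q / j δ) (d ^ q / j δ)) :
    Uni W d ∧ (∀ y ∈ W, ∃ c ∈ V, y - j c ∈ W.nonunits) ∧
      ∀ W' : ValuationSubring B, W'.comap j = V → W' = W := by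
  letI := j.toAlgebra
  haveI : FiniteDimensional A B := hdeg.1
  have h := ext_e (A := A) (B := B) hVW hδ hq hdeg.2 hu
  exact ⟨h.1, h.2.2.1, h.2.2.2⟩

theorem ext_f' (j : A →+* B) {q : ℕ} (hdeg : DegLe j q) (hq : q.Prime) {V : ValuationSubring A}
    {W : ValuationSubring B} (hVW : W.comap j = V) {δ : A} (hδ : Uni V δ)
    (hqV : (q : A) ∈ V.nonunits) {z : B} {c₀ : A} (hc₀ : c₀ ∈ V)
    (hz : z ^ q - j c₀ ∈ W.nonunits) (hirr : ∀ b ∈ V, b ^ q - c₀ ∉ V.nonunits) :
    Uni W (j δ) ∧ (∀ y ∈ W, ∃ c ∈ V, y ^ q - j c ∈ W.nonunits) ∧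
      ∀ W' : ValuationSubring B, W'.comap j = V → W' = W := by
  letI := j.toAlgebra
  haveI : FiniteDimensional A B := hdeg.1
  have h := ext_f (A := A) (B := B) hVW hδ hq hqV hdeg.2 hc₀ hz hirr
  exact ⟨h.1, h.2.2.1, h.2.2.2⟩

theorem exists_comap' (j : A →+* B) (V : ValuationSubring A) :
    ∃ W : ValuationSubring B, W.comap j = V := by
  letI := j.toAlgebra
  exact exists_over_comap (B := A) (Ω := B) V

variable {V : ValuationSubring A} {W : ValuationSubring B} {j : A →+* B}

theorem mem_j (h : W.comap j = V) {x : A} : j x ∈ W ↔ x ∈ V := by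
  subst h; exact Iff.rfl

theorem nu_j (h : W.comap j = V) {x : A} : j x ∈ W.nonunits ↔ x ∈ V.nonunits := by
  subst h; exact (comap_mem_nonunits W j x).symm

theorem uc_j (h : W.comap j = V) {x y : A} (h' : UC V x y) : UC W (j x) (j y) :=
  ⟨(_root_.map_ne_zero _).mpr h'.ne, (mem_j h).mpr h'.mem, by
    rw [← map_inv₀]; exact (mem_j h).mpr h'.inv, by
    rw [← map_sub]; exact (nu_j h).mpr h'.sub⟩

end Wrap

section Step

variable {O K M A B : Type u} [CommRing O] [IsDomain O] [IsDiscreteValuationRing O]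
  [Field K] [Field M] [Field A] [Field B] [Algebra O K] [Algebra O A] [Algebra O B] [Algebra K M]
  [Algebra K A] [Algebra K B] [IsScalarTower O K A] [IsScalarTower O K B]

/-- The data of the induction step from `X₀(q^r M)` (field `A`) to `X₀(q^(r+1) M)` (field `B`). -/
structure Step {t : K} {π : O} (ht : IsParam O t) (hπ : Prime π) (q : ℕ) (c : ℕ → ℤ[X])
    (G : ValuationSubring M) (r : ℕ) (m : ℕ → M →+* A) (P : ℕ → ValuationSubring A)
    (α β : A →+* B) (mB : ℕ → M →+* B) : Prop where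
  lev : Lev ht hπ q G r m P
  two : 2 ≤ r
  prime : q.Prime
  shape : KShape q c
  hq : (q : O) = π
  tG : algebraMap K M t ∈ G
  g1 : ∀ f ∈ G, algebraMap K M t - f ^ q ∉ G.nonunits
  g2 : algebraMap K M t ^ (q ^ 2) - algebraMap K M t ∉ G.nonunits
  ovG : Over (gaussVal ht hπ) (algebraMap O K π) G
  dα : DegLe α q
  dβ : DegLe β q
  αK : ∀ a : K, α (algebraMap K A a) = algebraMap K B a
  mα : ∀ k, k ≤ r → ∀ f, mB k f = α (m k f)
  mβ : ∀ k, k ≤ r → ∀ f, mB (k + 1) f = β (m k f)
  rel : ∀ k, k ≤ r → MRel q c (mB (k + 1) (algebraMap K M t)) (mB k (algebraMap K M t))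
  rel' : ∀ k, k ≤ r → MRel q c (mB k (algebraMap K M t)) (mB (k + 1) (algebraMap K M t))

variable {t : K} {π : O} {ht : IsParam O t} {hπ : Prime π} {q : ℕ} {c : ℕ → ℤ[X]}
  {G : ValuationSubring M} {r : ℕ} {m : ℕ → M →+* A} {P : ℕ → ValuationSubring A}
  {α β : A →+* B} {mB : ℕ → M →+* B}

namespace Step

variable (S : Step ht hπ q c G r m P α β mB)

include S

theorem over_alpha {W : ValuationSubring B}
    (hW : Over (gaussVal ht hπ) (algebraMap O K π) W) :
    Over (gaussVal ht hπ) (algebraMap O K π) (W.comap α) := by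
  refine ⟨fun x hx => ?_, ?_⟩
  · rw [ValuationSubring.mem_comap, S.αK]; exact hW.1 x hx
  · rw [comap_mem_nonunits, S.αK]; exact hW.2

theorem over_of_alpha {W : ValuationSubring B}
    (h : Over (gaussVal ht hπ) (algebraMap O K π) (W.comap α)) :
    Over (gaussVal ht hπ) (algebraMap O K π) W := by
  refine ⟨fun x hx => ?_, ?_⟩
  · have := h.1 x hx
    rw [ValuationSubring.mem_comap, S.αK] at this
    exact this
  · have := h.2
    rw [comap_mem_nonunits, S.αK] at this
    exact this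

theorem over_of_m0 {V : ValuationSubring A} (h : V.comap (m 0) = G) :
    Over (gaussVal ht hπ) (algebraMap O K π) V := by
  refine ⟨fun x hx => ?_, ?_⟩
  · have h1 := S.ovG.1 x hx
    rw [← h, ValuationSubring.mem_comap, S.lev.m0] at h1
    exact h1
  · have h1 := S.ovG.2
    rw [← h, comap_mem_nonunits, S.lev.m0] at h1
    exact h1

theorem comap_mB_alpha (W : ValuationSubring B) {k : ℕ} (hk : k ≤ r) :
    W.comap (mB k) = (W.comap α).comap (m k) := by
  ext f
  rw [ValuationSubring.mem_comap, ValuationSubring.mem_comap, ValuationSubring.mem_comap,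
    S.mα k hk]

theorem comap_mB_beta (W : ValuationSubring B) {k : ℕ} (hk : k ≤ r) :
    W.comap (mB (k + 1)) = (W.comap β).comap (m k) := by
  ext f
  rw [ValuationSubring.mem_comap, ValuationSubring.mem_comap, ValuationSubring.mem_comap,
    S.mβ k hk]

section W

variable {W : ValuationSubring B} (hW : Over (gaussVal ht hπ) (algebraMap O K π) W)

include hW

theorem exists_alpha : ∃ i, i ≤ r ∧ W.comap α = P i := S.lev.all _ (S.over_alpha hW)

theorem exists_beta : ∃ j, j ≤ r ∧ W.comap β = P j := by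
  have h2 := S.two
  obtain ⟨i, hi, h⟩ := S.exists_alpha hW
  apply S.lev.all
  apply S.over_of_m0
  rw [← S.comap_mB_beta W (k := 0) (Nat.zero_le _), zero_add,
    S.comap_mB_alpha W (k := 1) (by omega), h]
  exact S.lev.comap i 1 hi (by omega)

theorem comapB {k : ℕ} (hk : k ≤ r + 1) : W.comap (mB k) = G := by
  rcases Nat.lt_or_ge r k with h | h
  · obtain rfl : k = r + 1 := by omega
    obtain ⟨j, hj, h'⟩ := S.exists_beta hW
    rw [S.comap_mB_beta W le_rfl, h']
    exact S.lev.comap j r hj le_rfl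
  · obtain ⟨i, hi, h'⟩ := S.exists_alpha hW
    rw [S.comap_mB_alpha W h, h']
    exact S.lev.comap i k hi h

theorem qW : (q : B) ∈ W.nonunits := by
  have h := hW.2
  rw [← S.hq, map_natCast, map_natCast] at h
  exact h

theorem xW {k : ℕ} (hk : k ≤ r + 1) : mB k (algebraMap K M t) ∈ W :=
  (mem_j (S.comapB hW hk)).mpr S.tG

theorem excl {k : ℕ} (hk : k ≤ r)
    (h1 : mB (k + 1) (algebraMap K M t) - (mB k (algebraMap K M t)) ^ q ∈ W.nonunits)
    (h2 : mB k (algebraMap K M t) - (mB (k + 1) (algebraMap K M t)) ^ q ∈ W.nonunits) : False := by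
  have h3 := nonunits_pow_sub q (S.xW hW (k := k + 1) (by omega))
    (pow_mem (S.xW hW (k := k) (by omega)) q) h1
  have h4 := CA.nonunits_add h2 h3
  apply S.g2
  rw [← nu_j (S.comapB hW (k := k) (by omega)), map_sub, map_pow]
  have h5 := CA.nonunits_neg h4
  rwa [sub_add_sub_cancel, neg_sub, ← pow_mul, ← pow_two] at h5

theorem exists_I : ∃ I, I ≤ r + 1 ∧ W.comap α = P (I - 1) ∧ W.comap β = P (min I r) := by
  obtain ⟨i, hi, hα⟩ := S.exists_alpha hW
  obtain ⟨j, hj, hβ⟩ := S.exists_beta hW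
  have h2 := S.two
  have key : ∀ k, 1 ≤ k → k < r → (k + 1 + i ≤ r ↔ k + j ≤ r) := by
    intro k hk1 hkr
    obtain ⟨l, rfl⟩ : ∃ l, k = l + 1 := ⟨k - 1, by omega⟩
    constructor
    · intro h
      by_contra hcon
      have h1 := (nu_j hα).mpr (S.lev.Ft i (l + 1) h)
      have h3 := (nu_j hβ).mpr (S.lev.Vt j l hj (by omega) (by omega))
      rw [map_sub, map_pow, ← S.mα _ (by omega), ← S.mα _ (by omega)] at h1
      rw [map_sub, map_pow, ← S.mβ _ (by omega), ← S.mβ _ (by omega)] at h3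
      exact S.excl hW (k := l + 1) (by omega) h1 h3
    · intro h
      by_contra hcon
      have h1 := (nu_j hα).mpr (S.lev.Vt i (l + 1) hi (by omega) (by omega))
      have h3 := (nu_j hβ).mpr (S.lev.Ft j l (by omega))
      rw [map_sub, map_pow, ← S.mα _ (by omega), ← S.mα _ (by omega)] at h1
      rw [map_sub, map_pow, ← S.mβ _ (by omega), ← S.mβ _ (by omega)] at h3
      exact S.excl hW (k := l + 1) (by omega) h3 h1
  have k1 := key 1 le_rfl (by omega)
  have k2 := key (r - 1) (by omega) (by omega)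
  have k3 : 1 ≤ j → j ≤ r - 1 → ((r - j) + 1 + i ≤ r ↔ (r - j) + j ≤ r) := fun h h' =>
    key (r - j) (by omega) (by omega)
  have k4 : 2 ≤ j → ((r - j + 1) + 1 + i ≤ r ↔ (r - j + 1) + j ≤ r) := fun h =>
    key (r - j + 1) (by omega) (by omega)
  rcases Nat.eq_zero_or_pos j with h0 | h0
  · refine ⟨0, by omega, ?_, ?_⟩
    · rw [hα]; congr 1; omega
    · rw [hβ, h0, Nat.zero_min]
  · refine ⟨i + 1, by omega, ?_, ?_⟩
    · rw [hα, Nat.add_sub_cancel]
    · rw [hβ]; congr 1
      rcases Nat.lt_or_ge j 2 with h5 | h5 <;> rcases Nat.lt_or_ge (r - 1) j with h6 | h6 <;> omega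

end W

/-- existence -/
theorem exists_at {I : ℕ} (hI : I ≤ r + 1) : ∃ W : ValuationSubring B,
    Over (gaussVal ht hπ) (algebraMap O K π) W ∧ W.comap α = P (I - 1) ∧
      W.comap β = P (min I r) := by
  have h2 := S.two
  rcases Nat.lt_or_ge I 2 with h | h
  · obtain ⟨W, hW⟩ := exists_comap' β (P I)
    have h1 : (W.comap α).comap (m 1) = G := by
      rw [← S.comap_mB_alpha W (k := 1) (by omega)]
      have h3 := S.comap_mB_beta W (k := 0) (by omega)
      rw [zero_add] at h3
      rw [h3, hW]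
      exact S.lev.comap I 0 (by omega) (by omega)
    have hov := S.over_of_alpha (S.over_of_m0 (S.lev.tr _ h1))
    obtain ⟨J, hJ, hα, hβ⟩ := S.exists_I hov
    have h3 := S.lev.inj I (min J r) (by omega) (by omega) (hW.symm.trans hβ)
    obtain rfl : J = I := by omega
    exact ⟨W, hov, hα, hβ⟩
  · obtain ⟨W, hW⟩ := exists_comap' α (P (I - 1))
    have hov := S.over_of_alpha (W := W) (by rw [hW]; exact S.lev.ov _ (by omega))
    obtain ⟨J, hJ, hα, hβ⟩ := S.exists_I hov
    have h3 := S.lev.inj (I - 1) (J - 1) (by omega) (by omega) (hW.symm.trans hα)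
    obtain rfl : J = I := by omega
    exact ⟨W, hov, hα, hβ⟩

/-- The conclusion for one valuation. -/
structure Out {O K M A B : Type u} [CommRing O] [IsDomain O] [IsDiscreteValuationRing O]
    [Field K] [Field M] [Field A] [Field B] [Algebra O B] [Algebra K M]
    (t : K) (π : O) (q : ℕ) (G : ValuationSubring M) (r : ℕ) (P : ℕ → ValuationSubring A)
    (α β : A →+* B) (mB : ℕ → M →+* B) (I : ℕ) (W : ValuationSubring B) : Prop where
  uniq : ∀ W' : ValuationSubring B, W'.comap α = P (I - 1) → W'.comap β = P (min I r) → W' = W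
  unif : Uni W (dlt (algebraMap O B π) (r + 1) (fun k => mB k (algebraMap K M t)) I)
  pw : 1 ≤ I → I < r + 1 →
    UC W (dlt (algebraMap O B π) (r + 1) (fun k => mB k (algebraMap K M t)) I ^
        (Nat.totient (q ^ min (r + 1 - I) I)) / (q : B))
      (dlt (algebraMap O B π) (r + 1) (fun k => mB k (algebraMap K M t)) I ^
        (Nat.totient (q ^ min (r + 1 - I) I)) / (q : B))
  res0 : 2 * I ≤ r + 1 → ∀ z ∈ W, ∃ f ∈ G, z - mB 0 f ∈ W.nonunits
  resr : r + 1 ≤ 2 * I → ∀ z ∈ W, ∃ f ∈ G, z - mB (r + 1) f ∈ W.nonunits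
  ins : r + 1 < 2 * I → ∀ y ∈ W, ∃ c ∈ P (I - 1), y ^ q - α c ∈ W.nonunits

section Cases

variable {W : ValuationSubring B} (hW : Over (gaussVal ht hπ) (algebraMap O K π) W) {I : ℕ}
  (hI : I ≤ r + 1) (hα : W.comap α = P (I - 1)) (hβ : W.comap β = P (min I r))

include hW hI hα hβ

theorem xV (hI1 : 1 ≤ I) : mB r (algebraMap K M t) - (mB (r + 1) (algebraMap K M t)) ^ q ∈
    W.nonunits := by
  have h2 := S.two
  obtain ⟨l, rfl⟩ : ∃ l, r = l + 1 := ⟨r - 1, by omega⟩
  have h3 := (nu_j hβ).mpr (S.lev.Vt (min I (l + 1)) l (by omega) (by omega) (by omega))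
  rwa [map_sub, map_pow, ← S.mβ _ (by omega), ← S.mβ _ (by omega)] at h3

theorem xF (hI1 : I ≤ r) : mB 1 (algebraMap K M t) - (mB 0 (algebraMap K M t)) ^ q ∈
    W.nonunits := by
  have h2 := S.two
  have h3 := (nu_j hα).mpr (S.lev.Ft (I - 1) 0 (by omega))
  rwa [zero_add, map_sub, map_pow, ← S.mα _ (by omega), ← S.mα _ (by omega)] at h3

theorem fV (hI1 : 1 ≤ I) {f : M} (hf : f ∈ G) : ∃ g ∈ G, mB r f - (mB (r + 1) g) ^ q ∈
    W.nonunits := by
  have h2 := S.two
  obtain ⟨l, rfl⟩ : ∃ l, r = l + 1 := ⟨r - 1, by omega⟩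
  obtain ⟨g, hg, hg'⟩ := S.lev.Vf (min I (l + 1)) l (by omega) (by omega) (by omega) f hf
  have h3 := (nu_j hβ).mpr hg'
  rw [map_sub, map_pow, ← S.mβ _ (by omega), ← S.mβ _ (by omega)] at h3
  exact ⟨g, hg, h3⟩

theorem fF (hI1 : I ≤ r) {f : M} (hf : f ∈ G) : ∃ g ∈ G, mB 1 f - (mB 0 g) ^ q ∈
    W.nonunits := by
  have h2 := S.two
  obtain ⟨g, hg, hg'⟩ := S.lev.Ff (I - 1) 0 (by omega) f hf
  have h3 := (nu_j hα).mpr hg'
  rw [zero_add, map_sub, map_pow, ← S.mα _ (by omega), ← S.mα _ (by omega)] at h3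
  exact ⟨g, hg, h3⟩

/-- many Verschiebung steps -/
theorem out_A (h : r + 2 ≤ 2 * I) : Out t π q G r P α β mB I W := by
  have h2 := S.two
  have hi : I - 1 ≤ r := by omega
  have hqA : (q : A) ∈ (P (I - 1)).nonunits := by
    rw [← nu_j hα, map_natCast]
    exact S.qW hW
  have hz : (mB (r + 1) (algebraMap K M t)) ^ q - α (m r (algebraMap K M t)) ∈ W.nonunits := by
    have h3 := CA.nonunits_neg (S.xV hW hI hα hβ (by omega))
    rwa [neg_sub, S.mα r le_rfl] at h3
  have hc₀ : m r (algebraMap K M t) ∈ P (I - 1) := (mem_j (S.lev.comap _ r hi le_rfl)).mpr S.tG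
  have hirr : ∀ b ∈ P (I - 1), b ^ q - m r (algebraMap K M t) ∉ (P (I - 1)).nonunits := by
    intro b hb hcon
    obtain ⟨f, hf, hbf⟩ := S.lev.resr (I - 1) hi (by omega) b hb
    have h3 := nonunits_pow_sub q hb ((mem_j (S.lev.comap _ r hi le_rfl)).mpr hf) hbf
    have h4 := CA.nonunits_sub h3 hcon
    rw [sub_sub_sub_cancel_left, ← map_pow, ← map_sub, nu_j (S.lev.comap _ r hi le_rfl)] at h4
    exact S.g1 f hf h4
  obtain ⟨hU, hres, huniq⟩ := ext_f' α S.dα S.prime hα (S.lev.unif (I - 1) hi) hqA hc₀ hz hirr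
  have e1 : min (r - (I - 1)) (I - 1) = min (r + 1 - I) I := by omega
  have e : α (dlt (algebraMap O A π) r (fun k => m k (algebraMap K M t)) (I - 1)) =
      dlt (algebraMap O B π) (r + 1) (fun k => mB k (algebraMap K M t)) I := by
    rw [dlt, dlt, e1]
    split_ifs with h0
    · rw [← S.hq, map_natCast, map_natCast, map_natCast]
    · rw [map_sub, ← S.mα _ (by omega), ← S.mα _ (by omega)]
      congr 4 <;> omega
  refine ⟨fun W' h' _ => huniq W' h', e ▸ hU, fun hI1 hI2 => ?_, fun h' => by omega,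
    fun h' y hy => ?_, fun _ => hres⟩
  · have h3 := uc_j hα (S.lev.pw (I - 1) (by omega) (by omega))
    rw [map_div₀, map_pow, e, map_natCast, e1] at h3
    exact h3
  · obtain ⟨v, hv, hyv⟩ := hres y hy
    obtain ⟨f, hf, hvf⟩ := S.lev.resr (I - 1) hi (by omega) v hv
    obtain ⟨g, hg, hfg⟩ := S.fV hW hI hα hβ (by omega) hf
    refine ⟨g, hg, ?_⟩
    rw [← frob_sub S.prime (S.qW hW) hy ((mem_j (S.comapB hW le_rfl)).mpr hg)]
    have h3 := (nu_j hα).mpr hvf
    rw [map_sub, ← S.mα r le_rfl] at h3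
    have h4 := CA.nonunits_add (CA.nonunits_add hyv h3) hfg
    rwa [sub_add_sub_cancel, sub_add_sub_cancel] at h4

/-- many Frobenius steps -/
theorem out_B (h : 2 * I ≤ r) : Out t π q G r P α β mB I W := by
  have h2 := S.two
  have eI : min I r = I := by omega
  rw [eI] at hβ
  have hi : I ≤ r := by omega
  have hqA : (q : A) ∈ (P I).nonunits := by
    rw [← nu_j hβ, map_natCast]
    exact S.qW hW
  have hz : (mB 0 (algebraMap K M t)) ^ q - β (m 0 (algebraMap K M t)) ∈ W.nonunits := by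
    have h3 := CA.nonunits_neg (S.xF hW hI hα (by rw [eI]; exact hβ) hi)
    have h4 := S.mβ 0 (by omega) (algebraMap K M t)
    rw [zero_add] at h4
    rwa [neg_sub, h4] at h3
  have hc₀ : m 0 (algebraMap K M t) ∈ P I := (mem_j (S.lev.comap _ 0 hi (by omega))).mpr S.tG
  have hirr : ∀ b ∈ P I, b ^ q - m 0 (algebraMap K M t) ∉ (P I).nonunits := by
    intro b hb hcon
    obtain ⟨f, hf, hbf⟩ := S.lev.res0 I h b hb
    have h3 := nonunits_pow_sub q hb ((mem_j (S.lev.comap _ 0 hi (by omega))).mpr hf) hbf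
    have h4 := CA.nonunits_sub h3 hcon
    rw [sub_sub_sub_cancel_left, ← map_pow, ← map_sub, nu_j (S.lev.comap _ 0 hi (by omega))] at h4
    exact S.g1 f hf h4
  obtain ⟨hU, hres, huniq⟩ := ext_f' β S.dβ S.prime hβ (S.lev.unif I hi) hqA hc₀ hz hirr
  have e1 : min (r - I) I = min (r + 1 - I) I := by omega
  have e : β (dlt (algebraMap O A π) r (fun k => m k (algebraMap K M t)) I) =
      dlt (algebraMap O B π) (r + 1) (fun k => mB k (algebraMap K M t)) I := by
    rw [dlt, dlt, e1]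
    split_ifs with h0
    · rw [← S.hq, map_natCast, map_natCast, map_natCast]
    · rw [map_sub, ← S.mβ _ (by omega), ← S.mβ _ (by omega)]
      have e2 : r - I + min (r + 1 - I) I + 1 = r + 1 - I + min (r + 1 - I) I := by omega
      have e3 : r - I - min (r + 1 - I) I + 1 = r + 1 - I - min (r + 1 - I) I := by omega
      rw [e2, e3]
  refine ⟨fun W' _ h' => huniq W' (by rw [h', eI]), e ▸ hU, fun hI1 hI2 => ?_, fun h' y hy => ?_,
    fun h' => by omega, fun h' => by omega⟩
  · have h3 := uc_j hβ (S.lev.pw I (by omega) (by omega))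
    rw [map_div₀, map_pow, e, map_natCast, e1] at h3
    exact h3
  · obtain ⟨v, hv, hyv⟩ := hres y hy
    obtain ⟨f, hf, hvf⟩ := S.lev.res0 I h v hv
    obtain ⟨g, hg, hfg⟩ := S.fF hW hI hα (by rw [eI]; exact hβ) hi hf
    refine ⟨g, hg, ?_⟩
    rw [← frob_sub S.prime (S.qW hW) hy ((mem_j (S.comapB hW (Nat.zero_le _))).mpr hg)]
    have h3 := (nu_j hβ).mpr hvf
    have h5 := S.mβ 0 (by omega) f
    rw [zero_add] at h5
    rw [map_sub, ← h5] at h3
    have h4 := CA.nonunits_add (CA.nonunits_add hyv h3) hfg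
    rwa [sub_add_sub_cancel, sub_add_sub_cancel] at h4

/-- the balanced case -/
theorem out_C {s : ℕ} (hs : r = 2 * s + 1) (h : I = s + 1) : Out t π q G r P α β mB I W := by
  have h2 := S.two
  have hF := S.xF hW hI hα hβ (by omega)
  have hV := S.xV hW hI hα hβ (by omega)
  have hqW := S.qW hW
  have eI : min I r = I := by omega
  rw [eI] at hβ
  have eI' : I - 1 = s := by omega
  rw [eI'] at hα
  have e1 : min (r - I) I = s := by omega
  have e2 : min (r - s) s = s := by omega
  have e3 : min (r + 1 - I) I = s + 1 := by omega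
  have hs1 : 1 ≤ s := by omega
  -- the uniformiser below
  have eβ : β (dlt (algebraMap O A π) r (fun k => m k (algebraMap K M t)) I) =
      mB r (algebraMap K M t) - mB 1 (algebraMap K M t) := by
    rw [dlt, e1, if_neg (by omega), map_sub, ← S.mβ _ (by omega), ← S.mβ _ (by omega)]
    have e4 : r - I + s + 1 = r := by omega
    have e5 : r - I - s + 1 = 1 := by omega
    rw [e4, e5]
  have eα : α (dlt (algebraMap O A π) r (fun k => m k (algebraMap K M t)) s) =
      mB r (algebraMap K M t) - mB 1 (algebraMap K M t) := by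
    rw [dlt, e2, if_neg (by omega), map_sub, ← S.mα _ (by omega), ← S.mα _ (by omega)]
    have e4 : r - s + s = r := by omega
    have e5 : r - s - s = 1 := by omega
    rw [e4, e5]
  have eB : dlt (algebraMap O B π) (r + 1) (fun k => mB k (algebraMap K M t)) I =
      mB (r + 1) (algebraMap K M t) - mB 0 (algebraMap K M t) := by
    rw [dlt, e3, if_neg (by omega)]
    have e4 : r + 1 - I + (s + 1) = r + 1 := by omega
    have e5 : r + 1 - I - (s + 1) = 0 := by omega
    rw [e4, e5]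
  have m0 := S.xW hW (k := 0) (by omega)
  have m1 := S.xW hW (k := 1) (by omega)
  have mr := S.xW hW (k := r) (by omega)
  have mr1 := S.xW hW (k := r + 1) (by omega)
  -- the old difference is a nonunit
  have hδ1 : mB r (algebraMap K M t) - mB 1 (algebraMap K M t) ∈ W.nonunits := by
    rw [← eβ, nu_j hβ]
    exact (S.lev.unif I (by omega)).non
  have hδ : mB (r + 1) (algebraMap K M t) - mB 0 (algebraMap K M t) ∈ W.nonunits := by
    rw [← frob_sub S.prime hqW mr1 m0]
    have h3 := CA.nonunits_add (CA.nonunits_sub hδ1 hV) hF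
    have e4 : (mB (r + 1) (algebraMap K M t)) ^ q - (mB 0 (algebraMap K M t)) ^ q =
        mB r (algebraMap K M t) - mB 1 (algebraMap K M t) -
          (mB r (algebraMap K M t) - (mB (r + 1) (algebraMap K M t)) ^ q) +
          (mB 1 (algebraMap K M t) - (mB 0 (algebraMap K M t)) ^ q) := by ring
    rw [e4]
    exact h3
  have hn1 : 1 ≤ Nat.totient (q ^ s) := Nat.totient_pos.mpr (pow_pos S.prime.pos _)
  have hpw : UC W ((mB r (algebraMap K M t) - mB 1 (algebraMap K M t)) ^
      (Nat.totient (q ^ s)) / (q : B)) ((mB r (algebraMap K M t) - mB 1 (algebraMap K M t)) ^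
      (Nat.totient (q ^ s)) / (q : B)) := by
    have h3 := uc_j hβ (S.lev.pw I (by omega) (by omega))
    rw [map_div₀, map_pow, eβ, map_natCast, e1] at h3
    exact h3
  have hAu : (mB 1 (algebraMap K M t)) ^ q - mB 0 (algebraMap K M t) ∉ W.nonunits := by
    intro hcon
    refine S.excl hW (k := 0) (by omega) hF ?_
    have := CA.nonunits_neg hcon
    rwa [neg_sub] at this
  have hAv : (mB r (algebraMap K M t)) ^ q - mB (r + 1) (algebraMap K M t) ∉ W.nonunits := by
    intro hcon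
    refine S.excl hW (k := r) le_rfl ?_ hV
    have := CA.nonunits_neg hcon
    rwa [neg_sub] at this
  obtain ⟨hd1, hd2⟩ := delta_val S.prime S.shape hqW m0 m1 mr1 mr (S.rel 0 (by omega))
    (S.rel' r le_rfl) hAu hAv hδ hn1 hpw
  have huα : UC W ((mB (r + 1) (algebraMap K M t) - mB 0 (algebraMap K M t)) ^ q /
      α (dlt (algebraMap O A π) r (fun k => m k (algebraMap K M t)) s))
      ((mB (r + 1) (algebraMap K M t) - mB 0 (algebraMap K M t)) ^ q /
      α (dlt (algebraMap O A π) r (fun k => m k (algebraMap K M t)) s)) := by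
    rw [eα]
    exact hd1.rfl_left
  have huβ : UC W ((mB (r + 1) (algebraMap K M t) - mB 0 (algebraMap K M t)) ^ q /
      β (dlt (algebraMap O A π) r (fun k => m k (algebraMap K M t)) I))
      ((mB (r + 1) (algebraMap K M t) - mB 0 (algebraMap K M t)) ^ q /
      β (dlt (algebraMap O A π) r (fun k => m k (algebraMap K M t)) I)) := by
    rw [eβ]
    exact hd1.rfl_left
  obtain ⟨hU, hresα, huniq⟩ := ext_e' α S.dα S.prime.pos hα (S.lev.unif s (by omega)) huα
  obtain ⟨-, hresβ, -⟩ := ext_e' β S.dβ S.prime.pos hβ (S.lev.unif I (by omega)) huβ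
  refine ⟨fun W' h' _ => huniq W' (by rw [h', eI']), eB ▸ hU, fun hI1 hI2 => ?_,
    fun h' y hy => ?_, fun h' y hy => ?_, fun h' => by omega⟩
  · rw [eB, e3]
    have e4 : Nat.totient (q ^ (s + 1)) = q * Nat.totient (q ^ s) := by
      obtain ⟨s', rfl⟩ : ∃ s', s = s' + 1 := ⟨s - 1, by omega⟩
      rw [Nat.totient_prime_pow_succ S.prime, Nat.totient_prime_pow_succ S.prime]
      ring
    rw [e4]
    exact hd2.rfl_left
  · obtain ⟨v, hv, hyv⟩ := hresα y hy
    obtain ⟨f, hf, hvf⟩ := S.lev.res0 s (by omega) v hv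
    refine ⟨f, hf, ?_⟩
    have h3 := (nu_j hα).mpr hvf
    rw [map_sub, ← S.mα 0 (by omega)] at h3
    have h4 := CA.nonunits_add hyv h3
    rwa [sub_add_sub_cancel] at h4
  · obtain ⟨v, hv, hyv⟩ := hresβ y hy
    obtain ⟨f, hf, hvf⟩ := S.lev.resr I (by omega) (by omega) v hv
    refine ⟨f, hf, ?_⟩
    have h3 := (nu_j hβ).mpr hvf
    rw [map_sub, ← S.mβ r le_rfl] at h3
    have h4 := CA.nonunits_add hyv h3
    rwa [sub_add_sub_cancel] at h4

theorem out : Out t π q G r P α β mB I W := by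
  rcases Nat.lt_or_ge (r + 1) (2 * I) with h | h
  · exact S.out_A hW hI hα hβ (by omega)
  rcases Nat.lt_or_ge (2 * I) (r + 1) with h' | h'
  · exact S.out_B hW hI hα hβ (by omega)
  · exact S.out_C hW hI hα hβ (s := I - 1) (by omega) (by have := S.two; omega)

end Cases

/-- **The induction step.** -/
theorem exists_lev : ∃ PB : ℕ → ValuationSubring B, Lev ht hπ q G (r + 1) mB PB ∧
    (∀ I, I ≤ r + 1 → (PB I).comap α = P (I - 1)) ∧
    (∀ I, I ≤ r + 1 → (PB I).comap β = P (min I r)) ∧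
    (∀ I, I ≤ r + 1 → r + 1 < 2 * I → ∀ y ∈ PB I, ∃ c ∈ P (I - 1), y ^ q - α c ∈
      (PB I).nonunits) := by
  have h2 := S.two
  have hex : ∀ I, ∃ W : ValuationSubring B, I ≤ r + 1 →
      Over (gaussVal ht hπ) (algebraMap O K π) W ∧ W.comap α = P (I - 1) ∧
        W.comap β = P (min I r) := by
    intro I
    by_cases hI : I ≤ r + 1
    · obtain ⟨W, h⟩ := S.exists_at hI
      exact ⟨W, fun _ => h⟩
    · exact ⟨⊤, fun h => absurd h hI⟩
  choose PB hPB using hex
  have hov := fun I hI => (hPB I hI).1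
  have hα := fun I hI => (hPB I hI).2.1
  have hβ := fun I hI => (hPB I hI).2.2
  have hout : ∀ I, I ≤ r + 1 → Out t π q G r P α β mB I (PB I) := fun I hI =>
    S.out (hov I hI) hI (hα I hI) (hβ I hI)
  refine ⟨PB, ⟨hov, ?_, ?_, ?_, ?_, ?_, ?_, ?_, ?_, ?_, ?_, ?_, ?_, ?_⟩, hα, hβ,
    fun I hI => (hout I hI).ins⟩
  · intro W hW
    obtain ⟨I, hI, h3, h4⟩ := S.exists_I hW
    exact ⟨I, hI, (hout I hI).uniq W h3 h4⟩
  · intro I J hI hJ h
    have h3 := S.lev.inj (I - 1) (J - 1) (by omega) (by omega)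
      (by rw [← hα I hI, ← hα J hJ, h])
    have h4 := S.lev.inj (min I r) (min J r) (by omega) (by omega)
      (by rw [← hβ I hI, ← hβ J hJ, h])
    omega
  · intro a
    rw [S.mα 0 (by omega), S.lev.m0, S.αK]
  · intro I k hI hk
    exact S.comapB (hov I hI) hk
  · intro I k hk f hf
    rcases Nat.lt_or_ge k r with h | h
    · obtain ⟨g, hg, hg'⟩ := S.lev.Ff (I - 1) k (by omega) f hf
      have h3 := (nu_j (hα I (by omega))).mpr hg'
      rw [map_sub, map_pow, ← S.mα _ (by omega), ← S.mα _ (by omega)] at h3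
      exact ⟨g, hg, h3⟩
    · obtain ⟨l, rfl⟩ : ∃ l, k = l + 1 := ⟨k - 1, by omega⟩
      obtain ⟨g, hg, hg'⟩ := S.lev.Ff (min I r) l (by omega) f hf
      have h3 := (nu_j (hβ I (by omega))).mpr hg'
      rw [map_sub, map_pow, ← S.mβ _ (by omega), ← S.mβ _ (by omega)] at h3
      exact ⟨g, hg, h3⟩
  · intro I k hk
    rcases Nat.lt_or_ge k r with h | h
    · have h3 := (nu_j (hα I (by omega))).mpr (S.lev.Ft (I - 1) k (by omega))
      rw [map_sub, map_pow, ← S.mα _ (by omega), ← S.mα _ (by omega)] at h3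
      exact h3
    · obtain ⟨l, rfl⟩ : ∃ l, k = l + 1 := ⟨k - 1, by omega⟩
      have h3 := (nu_j (hβ I (by omega))).mpr (S.lev.Ft (min I r) l (by omega))
      rw [map_sub, map_pow, ← S.mβ _ (by omega), ← S.mβ _ (by omega)] at h3
      exact h3
  · intro I k hI hk hk' f hf
    rcases Nat.eq_zero_or_pos k with h | h
    · subst h
      obtain ⟨g, hg, hg'⟩ := S.lev.Vf (I - 1) 0 (by omega) (by omega) (by omega) f hf
      have h3 := (nu_j (hα I (by omega))).mpr hg'
      rw [map_sub, map_pow, ← S.mα _ (by omega), ← S.mα _ (by omega)] at h3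
      exact ⟨g, hg, h3⟩
    · obtain ⟨l, rfl⟩ : ∃ l, k = l + 1 := ⟨k - 1, by omega⟩
      obtain ⟨g, hg, hg'⟩ := S.lev.Vf (min I r) l (by omega) (by omega) (by omega) f hf
      have h3 := (nu_j (hβ I (by omega))).mpr hg'
      rw [map_sub, map_pow, ← S.mβ _ (by omega), ← S.mβ _ (by omega)] at h3
      exact ⟨g, hg, h3⟩
  · intro I k hI hk hk'
    rcases Nat.eq_zero_or_pos k with h | h
    · subst h
      have h3 := (nu_j (hα I (by omega))).mpr
        (S.lev.Vt (I - 1) 0 (by omega) (by omega) (by omega))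
      rw [map_sub, map_pow, ← S.mα _ (by omega), ← S.mα _ (by omega)] at h3
      exact h3
    · obtain ⟨l, rfl⟩ : ∃ l, k = l + 1 := ⟨k - 1, by omega⟩
      have h3 := (nu_j (hβ I (by omega))).mpr
        (S.lev.Vt (min I r) l (by omega) (by omega) (by omega))
      rw [map_sub, map_pow, ← S.mβ _ (by omega), ← S.mβ _ (by omega)] at h3
      exact h3
  · exact fun I hI => (hout I hI).unif
  · exact fun I h1 hI => (hout I (by omega)).pw h1 hI
  · exact fun I hI => (hout I (by omega)).res0 hI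
  · exact fun I hI h => (hout I hI).resr h
  · intro W hW
    rw [S.comap_mB_alpha W (by omega)] at hW ⊢
    exact S.lev.tr _ hW

end Step

end Step

end Fermat.Agent.CR
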