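import Mathlib
import Fermat.Agent.CR.Ind
import Fermat.Agent.CR.Base2

/-!
The components of `X₀(q ^ r M)` for all `r ≥ 2`: the induction.
-/

set_option autoImplicit false
set_option linter.unusedSectionVars false
set_option linter.unusedVariables false

open Polynomial

noncomputable section

universe u

namespace Fermat.Agent.CR

open Fermat.Agent.Geo Fermat.Agent.LG Fermat.Agent.CA Fermat.Agent.ModFun

section

variable {L : Type u} [Field L] {q M : ℕ} [NeZero q] [NeZero M] {O K : Type u} [CommRing O]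
  [IsDomain O] [IsDiscreteValuationRing O] [Field K] [Algebra O K] [Algebra K (F0 L M)]
  [∀ n : ℕ, Algebra O (F0 L (q ^ n * M))] [∀ n : ℕ, Algebra K (F0 L (q ^ n * M))]
  [∀ n : ℕ, IsScalarTower O K (F0 L (q ^ n * M))]
  {t : K} {π : O} {ht : IsParam O t} {hπ : Prime π} {G : ValuationSubring (F0 L M)}
  {c : ℕ → ℤ[X]}

/-- the induction -/
theorem lev_exists {P₂ : ℕ → ValuationSubring (F0 L (q ^ 2 * M))}
    (base : Lev ht hπ q G 2 (ev L (rfl : q ^ 2 * M = q ^ 2 * M)) P₂)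
    {α β : ∀ n : ℕ, F0 L (q ^ n * M) →+* F0 L (q ^ (n + 1) * M)}
    (hstep : ∀ n, 2 ≤ n → ∀ P : ℕ → ValuationSubring (F0 L (q ^ n * M)),
      Lev ht hπ q G n (ev L (rfl : q ^ n * M = q ^ n * M)) P →
      Step ht hπ q c G n (ev L (rfl : q ^ n * M = q ^ n * M)) P (α n) (β n)
        (ev L (rfl : q ^ (n + 1) * M = q ^ (n + 1) * M))) (n : ℕ) (hn : 2 ≤ n) :
    ∃ P : ℕ → ValuationSubring (F0 L (q ^ n * M)),
      Lev ht hπ q G n (ev L (rfl : q ^ n * M = q ^ n * M)) P := by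
  induction n, hn using Nat.le_induction with
  | base => exact ⟨P₂, base⟩
  | succ n hn ih =>
    obtain ⟨P, hP⟩ := ih
    obtain ⟨PB, hB, -⟩ := (hstep n hn P hP).exists_lev
    exact ⟨PB, hB⟩

/-- the components at the levels `q ^ (r + 1) M`, `q ^ (r + 2) M`, `r ≥ 1` -/
theorem lev_pair {P₂ : ℕ → ValuationSubring (F0 L (q ^ 2 * M))}
    (base : Lev ht hπ q G 2 (ev L (rfl : q ^ 2 * M = q ^ 2 * M)) P₂)
    {α β : ∀ n : ℕ, F0 L (q ^ n * M) →+* F0 L (q ^ (n + 1) * M)}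
    (hstep : ∀ n, 2 ≤ n → ∀ P : ℕ → ValuationSubring (F0 L (q ^ n * M)),
      Lev ht hπ q G n (ev L (rfl : q ^ n * M = q ^ n * M)) P →
      Step ht hπ q c G n (ev L (rfl : q ^ n * M = q ^ n * M)) P (α n) (β n)
        (ev L (rfl : q ^ (n + 1) * M = q ^ (n + 1) * M))) {r : ℕ} (hr : 1 ≤ r) :
    ∃ (PA : ℕ → ValuationSubring (F0 L (q ^ (r + 1) * M)))
      (PB : ℕ → ValuationSubring (F0 L (q ^ (r + 1 + 1) * M))),
      Lev ht hπ q G (r + 1) (ev L (rfl : q ^ (r + 1) * M = q ^ (r + 1) * M)) PA ∧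
      Lev ht hπ q G (r + 1 + 1) (ev L (rfl : q ^ (r + 1 + 1) * M = q ^ (r + 1 + 1) * M)) PB ∧
      (∀ I, I ≤ r + 1 + 1 → (PB I).comap (α (r + 1)) = PA (I - 1)) ∧
      (∀ I, I ≤ r + 1 + 1 → r + 1 + 1 < 2 * I → ∀ y ∈ PB I, ∃ c ∈ PA (I - 1),
        y ^ q - α (r + 1) c ∈ (PB I).nonunits) := by
  obtain ⟨PA, hA⟩ := lev_exists base hstep (r + 1) (by omega)
  obtain ⟨PB, hB, h1, -, h2⟩ := (hstep (r + 1) (by omega) PA hA).exists_lev
  exact ⟨PA, PB, hA, hB, h1, h2⟩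

end

end Fermat.Agent.CR
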