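import Mathlib
import Fermat.Agent.CR.Ind

/-!
The degree of the second embedding.
-/

set_option autoImplicit false
set_option linter.unusedSectionVars false
set_option linter.unusedVariables false
set_option linter.style.haveILetI false

noncomputable section

universe u

namespace Fermat.Agent.CR

variable {A B : Type u} [Field A] [Field B]

theorem DegLe.of_algebra [Algebra A B] [FiniteDimensional A B] {q : ℕ} {j : A →+* B}
    (hj : ∀ a, j a = algebraMap A B a) (h : Module.finrank A B ≤ q) : DegLe j q := by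
  obtain rfl : j = algebraMap A B := RingHom.ext hj
  have e : (algebraMap A B).toAlgebra = (inferInstance : Algebra A B) := by
    ext a b
    change algebraMap A B a * b = a • b
    rw [Algebra.smul_def]
  unfold DegLe
  rw [e]
  exact ⟨inferInstance, h⟩

theorem DegLe.exists_span {q : ℕ} {j : A →+* B} (h : DegLe j q) : ∃ n, n ≤ q ∧
    ∃ b : Fin n → B, ∀ z : B, ∃ c : Fin n → A, ∑ i, j (c i) * b i = z := by
  obtain ⟨h1, h2⟩ := h
  letI := j.toAlgebra
  haveI : FiniteDimensional A B := h1
  refine ⟨_, h2, Module.finBasis A B, fun z => ⟨fun i => (Module.finBasis A B).repr z i, ?_⟩⟩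
  refine Eq.trans ?_ ((Module.finBasis A B).sum_repr z)
  refine Finset.sum_congr rfl fun i _ => ?_
  rw [Algebra.smul_def]
  rfl

theorem DegLe.of_span {q : ℕ} {j : A →+* B} {n : ℕ} (hn : n ≤ q) {b : Fin n → B}
    (h : ∀ z : B, ∃ c : Fin n → A, ∑ i, j (c i) * b i = z) : DegLe j q := by
  letI := j.toAlgebra
  have htop : Submodule.span A (Set.range b) = ⊤ := by
    rw [eq_top_iff]
    intro z _
    obtain ⟨c, hc⟩ := h z
    rw [Submodule.mem_span_range_iff_exists_fun]
    refine ⟨c, ?_⟩
    rw [← hc]
    refine Finset.sum_congr rfl fun i _ => ?_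
    rw [Algebra.smul_def]
    rfl
  have h1 : Module.Finite A B :=
    ⟨⟨(Set.finite_range _).toFinset, by rw [Set.Finite.coe_toFinset]; exact htop⟩⟩
  refine ⟨h1, ?_⟩
  have h5 := finrank_range_le_card (R := A) b
  rw [Set.finrank, htop, finrank_top, Fintype.card_fin] at h5
  exact h5.trans hn

/-- Conjugation by automorphisms does not change the degree. -/
theorem DegLe.conj {q : ℕ} {α β : A →+* B} (h : DegLe α q) (eA : A ≃+* A) (eB : B ≃+* B)
    (hβ : ∀ x, β (eA x) = eB (α x)) : DegLe β q := by
  obtain ⟨n, hn, b, hb⟩ := h.exists_span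
  refine DegLe.of_span hn (b := fun i => eB (b i)) fun z => ?_
  obtain ⟨c, hc⟩ := hb (eB.symm z)
  refine ⟨fun i => eA (c i), ?_⟩
  have h3 := congrArg eB hc
  rw [eB.apply_symm_apply, map_sum] at h3
  rw [← h3]
  refine Finset.sum_congr rfl fun i _ => ?_
  rw [hβ, map_mul]

end Fermat.Agent.CR
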