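import Mathlib
import Fermat.Agent.CA.TriC
import Fermat.Agent.CR.Tow

/-!
The modular relations between `x k = t(q ^ k τ)` and `x (k + 1)`.
-/

set_option autoImplicit false
set_option linter.unusedSectionVars false

open IsLocalRing Polynomial ModularCurve IntermediateField

noncomputable section

universe u

namespace Fermat.Agent.CR

open Fermat.Agent.Geo Fermat.Agent.LG Fermat.Agent.ModFun
open Fermat.Agent.CA (MRel_of_inj)

/-- Relations are preserved by ring homomorphisms. -/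
theorem mrel_map {l : ℕ} {c : ℕ → ℤ[X]} {E E' : Type*} [CommRing E] [CommRing E']
    (f : E →+* E') {x y : E} (h : MRel l c x y) : MRel l c (f x) (f y) := by
  rw [MRel] at h ⊢
  rw [← map_zero f, ← h, map_sum]
  refine Finset.sum_congr rfl fun i _ => ?_
  have h2 : f (aeval y (c i)) = aeval (f y) (c i) :=
    (Polynomial.aeval_algHom_apply f.toIntAlgHom y (c i)).symm
  rw [map_mul, map_pow, h2]

variable {L : Type u} [Field L] {q M N : ℕ} [NeZero q] [NeZero M] [NeZero N]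

theorem pow_dvd_of_succ {k : ℕ} (h : q ^ (k + 1) * M ∣ N) : q ^ k * M ∣ N :=
  (mul_dvd_mul (pow_dvd_pow q (Nat.le_succ k)) dvd_rfl).trans h

/-- `x (k + 1)` is the expansion of `x 1`. -/
theorem qE_succ_coe {k : ℕ} (h : q ^ (k + 1) * M ∣ N) (f : F0 L M) :
    (qE (q ^ (k + 1)) h f : LaurentSeries L) =
      qExpand L (q ^ k) (qExpand L q (f : LaurentSeries L)) := by
  rw [qE_coe, qExpand_qExpand]
  congr! 1

/-- the relations for all `k` from the relations for `k = 0`. -/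
theorem rel_all {l : ℕ} {c : ℕ → ℤ[X]} {C₀ : ℤ} {s : LaurentSeries L}
    (r1 : MRel l c (qExpand L q s) s) (r2 : MRel l c s (qExpand L q s))
    (r3 : MRel l c ((C₀ : LaurentSeries L) / qExpand L q s) ((C₀ : LaurentSeries L) / s))
    (r4 : MRel l c ((C₀ : LaurentSeries L) / s) ((C₀ : LaurentSeries L) / qExpand L q s))
    {tM : F0 L M} (htM : (tM : LaurentSeries L) = s) {k : ℕ} (h' : q ^ (k + 1) * M ∣ N)
    (h : q ^ k * M ∣ N) :
    MRel l c (qE (q ^ (k + 1)) h' tM) (qE (q ^ k) h tM) ∧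
    MRel l c (qE (q ^ k) h tM) (qE (q ^ (k + 1)) h' tM) ∧
    MRel l c ((C₀ : F0 L N) / qE (q ^ (k + 1)) h' tM) ((C₀ : F0 L N) / qE (q ^ k) h tM) ∧
    MRel l c ((C₀ : F0 L N) / qE (q ^ k) h tM) ((C₀ : F0 L N) / qE (q ^ (k + 1)) h' tM) := by
  have hinj : Function.Injective (algebraMap (F0 L N) (LaurentSeries L)) :=
    (algebraMap (F0 L N) (LaurentSeries L)).injective
  have e1 : algebraMap (F0 L N) (LaurentSeries L) (qE (q ^ (k + 1)) h' tM) =
      qExpand L (q ^ k) (qExpand L q s) := by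
    rw [← htM]
    exact qE_succ_coe h' tM
  have e2 : algebraMap (F0 L N) (LaurentSeries L) (qE (q ^ k) h tM) = qExpand L (q ^ k) s := by
    rw [← htM]
    rfl
  refine ⟨MRel_of_inj _ hinj ?_, MRel_of_inj _ hinj ?_, MRel_of_inj _ hinj ?_,
    MRel_of_inj _ hinj ?_⟩
  · rw [e1, e2]
    exact mrel_map (qExpand L (q ^ k)) r1
  · rw [e1, e2]
    exact mrel_map (qExpand L (q ^ k)) r2
  · rw [map_div₀, map_div₀, map_intCast, e1, e2]
    have := mrel_map (qExpand L (q ^ k)) r3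
    rwa [map_div₀, map_div₀, map_intCast] at this
  · rw [map_div₀, map_div₀, map_intCast, e1, e2]
    have := mrel_map (qExpand L (q ^ k)) r4
    rwa [map_div₀, map_div₀, map_intCast] at this

/-- the same, from the relations in `F0 L (q ^ 2 M)` (fields of `Tri`). -/
theorem rel_all_of_tri {N₂ : ℕ} [NeZero N₂] {l : ℕ} {c : ℕ → ℤ[X]} {C₀ : ℤ} {tM : F0 L M}
    {T X₁ : F0 L N₂} (hT : (T : LaurentSeries L) = (tM : LaurentSeries L))
    (hX : (X₁ : LaurentSeries L) = qExpand L q (tM : LaurentSeries L))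
    (r1 : MRel l c X₁ T) (r2 : MRel l c T X₁)
    (r3 : MRel l c ((C₀ : F0 L N₂) / X₁) ((C₀ : F0 L N₂) / T))
    (r4 : MRel l c ((C₀ : F0 L N₂) / T) ((C₀ : F0 L N₂) / X₁))
    {k : ℕ} (h' : q ^ (k + 1) * M ∣ N) (h : q ^ k * M ∣ N) :
    MRel l c (qE (q ^ (k + 1)) h' tM) (qE (q ^ k) h tM) ∧
    MRel l c (qE (q ^ k) h tM) (qE (q ^ (k + 1)) h' tM) ∧
    MRel l c ((C₀ : F0 L N) / qE (q ^ (k + 1)) h' tM) ((C₀ : F0 L N) / qE (q ^ k) h tM) ∧
    MRel l c ((C₀ : F0 L N) / qE (q ^ k) h tM) ((C₀ : F0 L N) / qE (q ^ (k + 1)) h' tM) := by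
  set φ := algebraMap (F0 L N₂) (LaurentSeries L) with hφ
  have e1 : φ T = (tM : LaurentSeries L) := hT
  have e2 : φ X₁ = qExpand L q (tM : LaurentSeries L) := hX
  refine rel_all (s := (tM : LaurentSeries L)) ?_ ?_ ?_ ?_ rfl h' h
  · have := mrel_map φ r1
    rwa [e1, e2] at this
  · have := mrel_map φ r2
    rwa [e1, e2] at this
  · have := mrel_map φ r3
    rwa [map_div₀, map_div₀, map_intCast, e1, e2] at this
  · have := mrel_map φ r4
    rwa [map_div₀, map_div₀, map_intCast, e1, e2] at this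

end Fermat.Agent.CR
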