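import Mathlib
import Fermat.Agent.CR.Base
import Fermat.Agent.CR.DegB
import Fermat.Agent.CR.Rel

/-!
The induction step for the function fields of `X₀(q ^ r M)`.
-/

set_option autoImplicit false
set_option linter.unusedSectionVars false
set_option linter.unusedVariables false
set_option linter.style.haveILetI false

open Polynomial ModularCurve

noncomputable section

universe u

namespace Fermat.Agent.CR

open Fermat.Agent.Geo Fermat.Agent.LG Fermat.Agent.CA Fermat.Agent.ModFun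

section Al

variable {L : Type u} [Field L] {N N' : ℕ} [NeZero N] [NeZero N']

/-- the inclusion of function fields -/
def alC (L : Type u) [Field L] {N N' : ℕ} [NeZero N] [NeZero N'] (h : N ∣ N') :
    F0 L N →+* F0 L N' :=
  ((F0 L N).val.toRingHom).codRestrict (F0 L N').toSubring fun x => F0_mono h x.2

theorem alC_coe (h : N ∣ N') (x : F0 L N) : (alC L h x : LaurentSeries L) = x := rfl

theorem alC_deg (ι : L →+* ℂ) {q M r : ℕ} [NeZero M] (hq : q.Prime) (hqM : ¬ q ∣ M)
    (hN : N = q ^ (r + 1) * M) (hN' : N' = q ^ (r + 2) * M) (h : N ∣ N') :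
    DegLe (alC L h) q := by
  letI := algI (F0_mono (K := L) h)
  obtain ⟨h1, h2⟩ := finrank_step ι hq hqM r hN hN' h
  haveI := h1
  refine DegLe.of_algebra (fun a => Subtype.ext ?_) h2.le
  rw [alC_coe]
  exact (coe_algI (F0_mono (K := L) h) a).symm

theorem alC_eq (h : N ∣ N') {q : ℕ} [NeZero q] (h1 : q ^ 0 * N ∣ N') (x : F0 L N) :
    alC L h x = qE (q ^ 0) h1 x := by
  apply Subtype.ext
  rw [alC_coe, qE_coe]
  have key : ∀ a : ℕ, a = 1 → ∀ [NeZero a] (x : LaurentSeries L), qExpand L a x = x := by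
    intro a ha
    subst ha
    intro _ x
    rw [qExpand_one_apply]
  exact (key _ (pow_zero q) _).symm

theorem beC_deg (ι : L →+* ℂ) {q M r : ℕ} [NeZero q] [NeZero M] (hq : q.Prime)
    (hqM : ¬ q ∣ M) (hN : N = q ^ (r + 1) * M) (hN' : N' = q ^ (r + 2) * M) (h : N ∣ N')
    (h1 : q ^ 1 * N ∣ N') : DegLe (qE (K := L) (q ^ 1) h1) q := by
  have hco : q.Coprime M := (Nat.Prime.coprime_iff_not_dvd hq).mpr hqM
  obtain ⟨B⟩ := nonempty_bez (q := q ^ (r + 1)) (M := M) (hco.pow_left (r + 1))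
  obtain ⟨B'⟩ := nonempty_bez (q := q ^ (r + 2)) (M := M) (hco.pow_left (r + 2))
  have h0 : q ^ 0 * N ∣ N' := by rw [pow_zero, one_mul]; exact h
  refine DegLe.conj (alC_deg ι hq hqM hN hN' h) (wR B ι hq hN) (wR B' ι hq hN') fun x => ?_
  rw [alC_eq h h0]
  exact (wR_qE (ι := ι) B' B hq hN' hN (c := 0) (c' := 1) (by omega) h0 h1 x).symm

end Al

section Main

variable {O L : Type u} [CommRing O] [IsDomain O] [IsDiscreteValuationRing O] [Field L]
  [Algebra O L] {K : IntermediateField L (LaurentSeries L)} {q M N N' r : ℕ} [NeZero q]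
  [NeZero M] [NeZero N] [NeZero N'] [Algebra O K] [Algebra O (F0 L N)] [Algebra O (F0 L N')]
  [Algebra K (F0 L M)] [Algebra K (F0 L N)] [Algebra K (F0 L N')]
  [IsScalarTower O K (F0 L N)] [IsScalarTower O K (F0 L N')]

/-- **The step, concretely.** -/
theorem step_conc (ι : L →+* ℂ) (hKM : ∀ x : K, ((algebraMap K (F0 L M) x : F0 L M) :
      LaurentSeries L) = x)
    (hKF : ∀ x : K, ((algebraMap K (F0 L N) x : F0 L N) : LaurentSeries L) = x)
    (hKF' : ∀ x : K, ((algebraMap K (F0 L N') x : F0 L N') : LaurentSeries L) = x)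
    (hq : q.Prime) (hqM : ¬ q ∣ M) (hr : 2 ≤ r) (hN : N = q ^ r * M)
    (hN' : N' = q ^ (r + 1) * M) (h : N ∣ N') (h1 : q ^ 1 * N ∣ N')
    {t : K} {π : O} {ht : IsParam O t} {hπ : Prime π} {c : ℕ → ℤ[X]} (hc : KShape q c)
    (hqπ : (q : O) = π) {G : ValuationSubring (F0 L M)}
    (tG : algebraMap K (F0 L M) t ∈ G)
    (g1 : ∀ f ∈ G, algebraMap K (F0 L M) t - f ^ q ∉ G.nonunits)
    (g2 : algebraMap K (F0 L M) t ^ (q ^ 2) - algebraMap K (F0 L M) t ∉ G.nonunits)
    (ovG : Over (gaussVal ht hπ) (algebraMap O K π) G)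
    (r1 : MRel q c (qExpand L q (t : LaurentSeries L)) (t : LaurentSeries L))
    (r2 : MRel q c (t : LaurentSeries L) (qExpand L q (t : LaurentSeries L)))
    {P : ℕ → ValuationSubring (F0 L N)} (H : Lev ht hπ q G r (ev L hN) P) :
    Step ht hπ q c G r (ev L hN) P (alC L h) (qE (q ^ 1) h1) (ev L hN') := by
  obtain ⟨r', rfl⟩ : ∃ r', r = r' + 1 := ⟨r - 1, by omega⟩
  have hinj : Function.Injective (algebraMap (F0 L N') (LaurentSeries L)) :=
    (algebraMap (F0 L N') (LaurentSeries L)).injective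
  have e : ∀ k, k ≤ r' + 1 → algebraMap (F0 L N') (LaurentSeries L)
      (ev L hN' (k + 1) (algebraMap K (F0 L M) t)) =
      qExpand L (q ^ k) (qExpand L q (t : LaurentSeries L)) := by
    intro k hk
    have h3 := ev_coe hN' (k := k + 1) (by omega) (algebraMap K (F0 L M) t)
    rw [hKM] at h3
    refine h3.trans ?_
    rw [qExpand_qExpand]
    congr! 1
  have e' : ∀ k, k ≤ r' + 1 → algebraMap (F0 L N') (LaurentSeries L)
      (ev L hN' k (algebraMap K (F0 L M) t)) = qExpand L (q ^ k) (t : LaurentSeries L) := by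
    intro k hk
    have h3 := ev_coe hN' (k := k) (by omega) (algebraMap K (F0 L M) t)
    rw [hKM] at h3
    exact h3
  refine ⟨H, hr, hq, hc, hqπ, tG, g1, g2, ovG, alC_deg ι hq hqM hN hN' h,
    beC_deg ι hq hqM hN hN' h h1, ?_, ?_, ?_, ?_, ?_⟩
  · intro a
    apply Subtype.ext
    rw [alC_coe, hKF, hKF']
  · intro k hk f
    apply Subtype.ext
    rw [alC_coe, ev_coe hN' (by omega), ev_coe hN hk]
  · intro k hk f
    have h3 := qE_ev hN' hN (c := 1) h1 hk (by omega) f
    rw [h3, Nat.add_comm 1 k]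
  · intro k hk
    refine MRel_of_inj _ hinj ?_
    rw [e k hk, e' k hk]
    exact mrel_map (qExpand L (q ^ k)) r1
  · intro k hk
    refine MRel_of_inj _ hinj ?_
    rw [e k hk, e' k hk]
    exact mrel_map (qExpand L (q ^ k)) r2

end Main

end Fermat.Agent.CR
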