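import Mathlib
import Fermat.Agent.CR.LevN
import Fermat.Agent.CR.StepC

/-!
The components at the levels `q ^ (r + 1) M` and `q ^ (r + 2) M`, concretely.
-/

set_option autoImplicit false
set_option linter.unusedSectionVars false
set_option linter.unusedVariables false

open IsLocalRing Polynomial ModularCurve

noncomputable section

universe u

namespace Fermat.Agent.CR

open Fermat.Agent.Geo Fermat.Agent.LG Fermat.Agent.CA Fermat.Agent.ModFun

theorem dvd_next (q n M : ℕ) : q ^ n * M ∣ q ^ (n + 1) * M :=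
  mul_dvd_mul (pow_dvd_pow q (Nat.le_succ n)) dvd_rfl

theorem mul_dvd_next (q n M : ℕ) : q ^ 1 * (q ^ n * M) ∣ q ^ (n + 1) * M := by
  rw [← mul_assoc, ← pow_add, add_comm 1 n]

section

variable {O L : Type u} [CommRing O] [IsDomain O] [IsDiscreteValuationRing O] [Field L]
  [Algebra O L] {K : IntermediateField L (LaurentSeries L)} {q M : ℕ} [NeZero q] [NeZero M]
  [Algebra O K] [Algebra K (F0 L M)]
  [∀ n : ℕ, Algebra O (F0 L (q ^ n * M))] [∀ n : ℕ, Algebra K (F0 L (q ^ n * M))]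
  [∀ n : ℕ, IsScalarTower O K (F0 L (q ^ n * M))]

/-- **The components**, concretely. -/
theorem lev_pair_conc (ι : L →+* ℂ) (hKM : ∀ x : K, ((algebraMap K (F0 L M) x : F0 L M) :
      LaurentSeries L) = x)
    (hKF : ∀ (n : ℕ) (x : K), ((algebraMap K (F0 L (q ^ n * M)) x : F0 L (q ^ n * M)) :
      LaurentSeries L) = x)
    (hq : q.Prime) (hqM : ¬ q ∣ M)
    {t : K} {π : O} {ht : IsParam O t} {hπ : Prime π} {c : ℕ → ℤ[X]} (hc : KShape q c)
    (hqπ : (q : O) = π) {G : ValuationSubring (F0 L M)}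
    (tG : algebraMap K (F0 L M) t ∈ G)
    (g1 : ∀ f ∈ G, algebraMap K (F0 L M) t - f ^ q ∉ G.nonunits)
    (g2 : algebraMap K (F0 L M) t ^ (q ^ 2) - algebraMap K (F0 L M) t ∉ G.nonunits)
    (ovG : Over (gaussVal ht hπ) (algebraMap O K π) G)
    (r1 : MRel q c (qExpand L q (t : LaurentSeries L)) (t : LaurentSeries L))
    (r2 : MRel q c (t : LaurentSeries L) (qExpand L q (t : LaurentSeries L)))
    {P₂ : ℕ → ValuationSubring (F0 L (q ^ 2 * M))}
    (base : Lev ht hπ q G 2 (ev L (rfl : q ^ 2 * M = q ^ 2 * M)) P₂) {r : ℕ} (hr : 1 ≤ r) :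
    ∃ (PA : ℕ → ValuationSubring (F0 L (q ^ (r + 1) * M)))
      (PB : ℕ → ValuationSubring (F0 L (q ^ (r + 1 + 1) * M))),
      Lev ht hπ q G (r + 1) (ev L (rfl : q ^ (r + 1) * M = q ^ (r + 1) * M)) PA ∧
      Lev ht hπ q G (r + 1 + 1) (ev L (rfl : q ^ (r + 1 + 1) * M = q ^ (r + 1 + 1) * M)) PB ∧
      (∀ I, I ≤ r + 1 + 1 → (PB I).comap (alC L (dvd_next q (r + 1) M)) = PA (I - 1)) ∧
      (∀ I, I ≤ r + 1 + 1 → r + 1 + 1 < 2 * I → ∀ y ∈ PB I, ∃ c ∈ PA (I - 1),
        y ^ q - alC L (dvd_next q (r + 1) M) c ∈ (PB I).nonunits) :=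
  lev_pair (c := c) base (α := fun n => alC L (dvd_next q n M))
    (β := fun n => qE (q ^ 1) (mul_dvd_next q n M))
    (fun n hn P hP => step_conc ι hKM (hKF n) (hKF (n + 1)) hq hqM hn rfl rfl
      (dvd_next q n M) (mul_dvd_next q n M) hc hqπ tG g1 g2 ovG r1 r2 hP) hr

end

end Fermat.Agent.CR
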