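import Mathlib
import Fermat.Agent.CR.Kron

/-!
The leading coefficients of the local parameters `δ`.
-/

set_option autoImplicit false
set_option linter.unusedSectionVars false
set_option linter.unusedVariables false

open Polynomial

noncomputable section

universe u

namespace Fermat.Agent.CR

open Fermat.Agent.Geo Fermat.Agent.LG Fermat.Agent.CA

section Val

variable {F : Type u} [Field F] {W : ValuationSubring F} {q : ℕ}

theorem nonunits_of_pow {x : F} {n : ℕ} (h : x ^ n ∈ W.nonunits) : x ∈ W.nonunits := by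
  rw [ValuationSubring.mem_nonunits_iff, map_pow] at h
  rw [ValuationSubring.mem_nonunits_iff]
  by_contra hcon
  exact absurd h (not_lt.mpr (one_le_pow₀ (not_lt.mp hcon)))

theorem natq_mul (hqW : (q : F) ∈ W.nonunits) {x : F} (hx : x ∈ W) : (q : F) * x ∈ W.nonunits := by
  rw [mul_comm]; exact mul_mem_nonunits hx hqW

/-- Frobenius is additive modulo `𝔪` -/
theorem frob_add (hq : q.Prime) (hqW : (q : F) ∈ W.nonunits) {a b : F} (ha : a ∈ W)
    (hb : b ∈ W) : (a + b) ^ q - (a ^ q + b ^ q) ∈ W.nonunits := by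
  obtain ⟨γ, hγ⟩ := exists_add_pow_prime_eq hq (⟨a, ha⟩ : W) ⟨b, hb⟩
  have h : (a + b) ^ q = a ^ q + b ^ q + q * a * b * γ := by
    have := congrArg (fun z : W => (z : F)) hγ
    simpa using this
  rw [h]
  have e : a ^ q + b ^ q + q * a * b * γ - (a ^ q + b ^ q) = (q : F) * (a * b * γ) := by ring
  rw [e]
  exact natq_mul hqW (mul_mem (mul_mem ha hb) γ.2)

/-- Frobenius is injective modulo `𝔪` -/
theorem frob_inj (hq : q.Prime) (hqW : (q : F) ∈ W.nonunits) {a b : F} (ha : a ∈ W)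
    (hb : b ∈ W) (h : a ^ q - b ^ q ∈ W.nonunits) : a - b ∈ W.nonunits := by
  have h1 := frob_add hq hqW (sub_mem ha hb) hb
  rw [sub_add_cancel] at h1
  have h2 := nonunits_sub h h1
  have e : a ^ q - b ^ q - (a ^ q - ((a - b) ^ q + b ^ q)) = (a - b) ^ q := by ring
  rw [e] at h2
  exact nonunits_of_pow h2

theorem frob_inj_pow (hq : q.Prime) (hqW : (q : F) ∈ W.nonunits) {a b : F} (ha : a ∈ W)
    (hb : b ∈ W) (n : ℕ) (h : a ^ q ^ n - b ^ q ^ n ∈ W.nonunits) : a - b ∈ W.nonunits := by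
  induction n with
  | zero => simpa using h
  | succ n ih =>
    apply ih
    apply frob_inj hq hqW (pow_mem ha _) (pow_mem hb _)
    rw [← pow_mul, ← pow_mul, ← pow_succ]
    exact h

theorem frob_nat (hq : q.Prime) (hqW : (q : F) ∈ W.nonunits) (n : ℕ) :
    (n : F) ^ q - (n : F) ∈ W.nonunits := by
  induction n with
  | zero =>
    rw [Nat.cast_zero, zero_pow hq.ne_zero, sub_zero]
    exact Fermat.Agent.Geo.zero_mem_nonunits W
  | succ n ih =>
    have h1 := frob_add hq hqW (natCast_mem W n) W.one_mem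
    push_cast
    have h2 := nonunits_add h1 ih
    have e : ((n : F) + 1) ^ q - ((n : F) ^ q + 1 ^ q) + ((n : F) ^ q - n) =
        ((n : F) + 1) ^ q - ((n : F) + 1) := by rw [one_pow]; ring
    rwa [e] at h2

/-- the coordinates of the curves on a component with `a` Frobenius steps -/
structure XC (W : ValuationSubring F) (q : ℕ) (c : ℕ → ℤ[X]) (x : ℕ → F) (a r : ℕ) : Prop where
  mem : ∀ k ≤ r, x k ∈ W
  inv : ∀ k ≤ r, (x k)⁻¹ ∈ W
  ne : ∀ k ≤ r, x k ≠ 0
  Fst : ∀ k, k < a → x (k + 1) - x k ^ q ∈ W.nonunits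
  Vst : ∀ k, a ≤ k → k < r → x k - x (k + 1) ^ q ∈ W.nonunits
  tr : x a ^ q ^ 2 - x a ∉ W.nonunits
  rel : ∀ k < r, MRel q c (x (k + 1)) (x k)
  rel' : ∀ k < r, MRel q c (x k) (x (k + 1))

variable {c : ℕ → ℤ[X]} {x : ℕ → F} {a r : ℕ}

namespace XC

theorem down (X : XC W q c x a r) (har : a ≤ r) : ∀ j ≤ a, x a - x (a - j) ^ q ^ j ∈ W.nonunits := by
  intro j
  induction j with
  | zero =>
    intro _
    simpa using Fermat.Agent.Geo.zero_mem_nonunits W
  | succ j ih =>
    intro hj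
    have h1 := ih (by omega)
    have h2 := X.Fst (a - (j + 1)) (by omega)
    have e1 : a - (j + 1) + 1 = a - j := by omega
    rw [e1] at h2
    have h3 := nonunits_pow_sub (q ^ j) (X.mem (a - j) (by omega))
      (pow_mem (X.mem (a - (j + 1)) (by omega)) q) h2
    have h4 := nonunits_add h1 h3
    rw [sub_add_sub_cancel, ← pow_mul, ← pow_succ'] at h4
    exact h4

theorem up (X : XC W q c x a r) : ∀ j, a + j ≤ r → x a - x (a + j) ^ q ^ j ∈ W.nonunits := by
  intro j
  induction j with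
  | zero =>
    intro _
    simpa using Fermat.Agent.Geo.zero_mem_nonunits W
  | succ j ih =>
    intro hj
    have h1 := ih (by omega)
    have h2 := X.Vst (a + j) (by omega) (by omega)
    have h3 := nonunits_pow_sub (q ^ j) (X.mem (a + j) (by omega))
      (pow_mem (X.mem (a + j + 1) (by omega)) q) h2
    have h4 := nonunits_add h1 h3
    rw [sub_add_sub_cancel, ← pow_mul, ← pow_succ'] at h4
    exact h4

theorem opp (X : XC W q c x a r) (hq : q.Prime) (hqW : (q : F) ∈ W.nonunits) {j : ℕ}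
    (hj : j ≤ a) (hjr : a + j ≤ r) : x (a + j) - x (a - j) ∈ W.nonunits := by
  refine frob_inj_pow hq hqW (X.mem _ hjr) (X.mem _ (by omega)) j ?_
  have := nonunits_sub (X.down (by omega) j hj) (X.up j hjr)
  have e : x a - x (a - j) ^ q ^ j - (x a - x (a + j) ^ q ^ j) =
      x (a + j) ^ q ^ j - x (a - j) ^ q ^ j := by ring
  rwa [e] at this

theorem trd (X : XC W q c x a r) (har : a ≤ r) {j : ℕ} (hj : j + 1 ≤ a) :
    x (a - j) ^ q - x (a - (j + 1)) ∉ W.nonunits := by
  intro h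
  apply X.tr
  have h1 := nonunits_pow_sub (q ^ (j + 1)) (pow_mem (X.mem (a - j) (by omega)) q)
    (X.mem (a - (j + 1)) (by omega)) h
  have h2 := X.down har (j + 1) hj
  have h3 := nonunits_pow_sub (q ^ 2) (X.mem a har)
    (pow_mem (X.mem (a - j) (by omega)) _) (X.down har j (by omega))
  have e1 : (x (a - j) ^ q) ^ q ^ (j + 1) = (x (a - j) ^ q ^ j) ^ q ^ 2 := by
    rw [← pow_mul, ← pow_mul, ← pow_succ', ← pow_add]
  rw [e1] at h1
  have h4 := nonunits_sub (nonunits_add h3 h1) h2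
  have e2 : x a ^ q ^ 2 - (x (a - j) ^ q ^ j) ^ q ^ 2 + ((x (a - j) ^ q ^ j) ^ q ^ 2 -
      x (a - (j + 1)) ^ q ^ (j + 1)) - (x a - x (a - (j + 1)) ^ q ^ (j + 1)) =
      x a ^ q ^ 2 - x a := by ring
  rwa [e2] at h4

theorem tru (X : XC W q c x a r) {j : ℕ} (hj : a + j + 1 ≤ r) :
    x (a + j) ^ q - x (a + j + 1) ∉ W.nonunits := by
  intro h
  apply X.tr
  have h1 := nonunits_pow_sub (q ^ (j + 1)) (pow_mem (X.mem (a + j) (by omega)) q)
    (X.mem (a + j + 1) hj) h
  have h2 := X.up (j + 1) (by omega)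
  have h3 := nonunits_pow_sub (q ^ 2) (X.mem a (by omega))
    (pow_mem (X.mem (a + j) (by omega)) _) (X.up j (by omega))
  have e1 : (x (a + j) ^ q) ^ q ^ (j + 1) = (x (a + j) ^ q ^ j) ^ q ^ 2 := by
    rw [← pow_mul, ← pow_mul, ← pow_succ', ← pow_add]
  rw [e1] at h1
  rw [← add_assoc] at h2
  have h4 := nonunits_sub (nonunits_add h3 h1) h2
  have e2 : x a ^ q ^ 2 - (x (a + j) ^ q ^ j) ^ q ^ 2 + ((x (a + j) ^ q ^ j) ^ q ^ 2 -
      x (a + j + 1) ^ q ^ (j + 1)) - (x a - x (a + j + 1) ^ q ^ (j + 1)) =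
      x a ^ q ^ 2 - x a := by ring
  rwa [e2] at h4

/-- **the leading coefficient of `δ_s`** -/
theorem om (X : XC W q c x a r) (hq : q.Prime) (hc : KShape q c) (hqW : (q : F) ∈ W.nonunits)
    (hb : UC W ((x (a + 1) - x (a - 1)) ^ (q - 1) / (q : F))
      ((x (a + 1) - x (a - 1)) ^ (q - 1) / (q : F))) : ∀ s, s + 1 ≤ a → a + (s + 1) ≤ r →
    UC W ((x (a + (s + 1)) - x (a - (s + 1))) ^ (q ^ s * (q - 1)) / (q : F))
      ((x (a + 1) - x (a - 1)) ^ (q - 1) / (q : F)) := by
  intro s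
  induction s with
  | zero => intro _ _; simpa using hb
  | succ s ih =>
    intro h1 h2
    have IH := ih (by omega) (by omega)
    have e1 : a - (s + 1 + 1) + 1 = a - (s + 1) := by omega
    have e2 : a + (s + 1) + 1 = a + (s + 1 + 1) := by omega
    have hq2 := hq.two_le
    have hr1 := X.rel (a - (s + 1 + 1)) (by omega)
    rw [e1] at hr1
    have hr2 := X.rel' (a + (s + 1)) (by omega)
    rw [e2] at hr2
    have ht2 := X.tru (j := s + 1) (by omega)
    rw [e2] at ht2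
    have h3 := (delta_val (W := W) hq hc hqW (u0 := x (a - (s + 1 + 1)))
      (u1 := x (a - (s + 1))) (v0 := x (a + (s + 1 + 1))) (v1 := x (a + (s + 1)))
      (X.mem _ (by omega)) (X.mem _ (by omega)) (X.mem _ (by omega)) (X.mem _ (by omega))
      hr1 hr2 (X.trd (by omega) (j := s + 1) (by omega)) ht2
      (X.opp hq hqW (by omega) (by omega)) (n := q ^ s * (q - 1))
      (Nat.mul_pos (pow_pos (by omega) _) (by omega)) IH.rfl_left).2
    have e3 : q * (q ^ s * (q - 1)) = q ^ (s + 1) * (q - 1) := by rw [pow_succ]; ring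
    rw [e3] at h3
    exact h3.trans IH

end XC

/-! ### `q` odd: the function `z` with `z² = 1 + 64 / x` -/

theorem UC.of_mem_inv {b : F} (h0 : b ≠ 0) (h : b ∈ W) (h' : b⁻¹ ∈ W) : UC W b b :=
  UC.refl h0 h h'

/-- the quotient `(z' - z) / (x' - x)` -/
theorem conv_unit {x x' z z' : F} (hx : UC W x' x) (hz : UC W z' z) (e : x * z ^ 2 = x + 64)
    (e' : x' * z' ^ 2 = x' + 64) (hne : x' ≠ x) (h2 : (2 : F)⁻¹ ∈ W) (h20 : (2 : F) ≠ 0) :
    UC W ((z' - z) / (x' - x)) (-32 / (x ^ 2 * z)) := by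
  have hx0 := hx.ne'
  have hx0' := hx.ne
  have hz0 := hz.ne'
  have hz0' := hz.ne
  have hd : x' - x ≠ 0 := sub_ne_zero.mpr hne
  have h2W : (2 : F) ∈ W := by exact_mod_cast natCast_mem W 2
  have u2 : UC W (2 : F) 2 := UC.refl h20 h2W h2
  have u64 : UC W (-64 : F) (-64) := by
    have h1 := (u2.pow 6).mul (UC.refl (V := W) (a := (-1 : F)) (neg_ne_zero.mpr one_ne_zero)
      (neg_mem W.one_mem) (by rw [inv_neg, inv_one]; exact neg_mem W.one_mem))
    norm_num at h1
    exact h1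
  have hs : UC W (z' + z) (2 * z) := by
    refine UC.mk_right (mul_ne_zero h20 hz0) (mul_mem h2W hz.mem') ?_ ?_
    · rw [mul_inv]; exact mul_mem h2 hz.inv'
    · have e1 : z' + z - 2 * z = z' - z := by ring
      rw [e1]; exact hz.sub
  have h1 : (z' - z) / (x' - x) = -64 / (x' * x * (z' + z)) := by
    have hs0 := hs.ne
    have e2 : (z' - z) * (z' + z) * (x' * x) = -64 * (x' - x) := by
      linear_combination x * e' - x' * e
    field_simp
    linear_combination e2
  rw [h1]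
  have h3 := u64.div ((hx.mul hx.symm.rfl_left).mul hs)
  have e3 : (-64 : F) / (x * x * (2 * z)) = -32 / (x ^ 2 * z) := by
    field_simp
    norm_num
  rwa [e3] at h3

/-- the square of `-32 / (x ^ 2 * z)` -/
def Rx (x : F) : F := 1024 / (x ^ 3 * (x + 64))

theorem Rx_eq {x z : F} (hx : x ≠ 0) (hz : z ≠ 0) (e : x * z ^ 2 = x + 64) :
    (-32 / (x ^ 2 * z)) ^ 2 = Rx x := by
  rw [Rx, ← e]
  field_simp
  norm_num

/-- Frobenius step for `Rx` -/
theorem Rx_step (hq : q.Prime) (hqW : (q : F) ∈ W.nonunits) {x x' : F} (hx : x ∈ W)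
    (hxi : x⁻¹ ∈ W) (hx0 : x ≠ 0) (h64 : x + 64 ∉ W.nonunits) (h2 : (2 : F)⁻¹ ∈ W)
    (h20 : (2 : F) ≠ 0) (h : x' - x ^ q ∈ W.nonunits) :
    UC W (Rx x') (Rx x ^ q) := by
  have h2W : (2 : F) ∈ W := by exact_mod_cast natCast_mem W 2
  have u2 : UC W (2 : F) 2 := UC.refl h20 h2W h2
  have f64 : (64 : F) ^ q - 64 ∈ W.nonunits := by exact_mod_cast frob_nat hq hqW 64
  have f1024 : (1024 : F) ^ q - 1024 ∈ W.nonunits := by exact_mod_cast frob_nat hq hqW 1024
  have hx64 : x + 64 ∈ W := add_mem hx (by exact_mod_cast natCast_mem W 64)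
  have ux : UC W (x ^ q) (x ^ q) := (UC.refl hx0 hx hxi).pow q
  have ux' : UC W x' (x ^ q) := UC.mk_right ux.ne ux.mem ux.inv h
  have u1024 : UC W (1024 : F) (1024 : F) := by
    have h1 := u2.pow 10
    norm_num at h1
    exact h1
  have v1024 : UC W (1024 : F) (1024 ^ q) := (UC.mk_right u1024.ne u1024.mem u1024.inv f1024).symm
  have h640 : x + 64 ≠ 0 := fun h0 => h64 (h0 ▸ Fermat.Agent.Geo.zero_mem_nonunits W)
  have u64 : UC W (x + 64) (x + 64) := UC.refl h640 hx64 (inv_mem_of_notMem_nonunits h64)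
  have v64 : UC W (x' + 64) ((x + 64) ^ q) := by
    have k := (u64.pow q)
    refine UC.mk_right k.ne k.mem k.inv ?_
    have h1 := frob_add hq hqW hx (b := (64 : F)) (by exact_mod_cast natCast_mem W 64)
    have h3 := nonunits_sub (nonunits_sub h h1) f64
    have e : x' - x ^ q - ((x + 64) ^ q - (x ^ q + 64 ^ q)) - (64 ^ q - 64) =
        x' + 64 - (x + 64) ^ q := by ring
    rwa [e] at h3
  have h3 := v1024.div ((ux'.pow 3).mul v64)
  rw [Rx, Rx]
  convert h3 using 1
  rw [div_pow, mul_pow, ← pow_mul, ← pow_mul, mul_comm 3 q]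

end Val

end Fermat.Agent.CR
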