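import Mathlib
import Fermat.Agent.CR.Mul2
import Fermat.Agent.CR.Om

/-!
Local equations of the middle components at the ordinary noncuspidal points.
-/

set_option autoImplicit false
set_option linter.unusedSectionVars false
set_option linter.style.haveILetI false
set_option linter.unusedVariables false

open IsLocalRing Polynomial

universe u

namespace Fermat.Agent.CR

open Fermat.Agent.Geo Fermat.Agent.LG Fermat.Agent.CA

/-- a uniformiser of the component `V` without zeros at the ordinary noncuspidal points -/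
structure ODat {O F : Type u} [CommRing O] [Field F] [Algebra O F] (t : F) (π : O)
    (V : ValuationSubring F) (dd : F) (e : ℕ) : Prop where
  pos : 1 ≤ e
  ne : dd ≠ 0
  ch : dd ∈ overlap O t
  non : dd ∈ V.nonunits
  unif : ∀ x ∈ V.nonunits, x / dd ∈ V
  om : ∃ g : F, ∃ u : O, IsUnit u ∧ g ∈ overlap O t ∧ g ≠ 0 ∧ g⁻¹ ∈ V ∧
    dd ^ e / algebraMap O F π * g - algebraMap O F u ∈ V.nonunits

/-- the condition at level `q²` -/
def Om2 {O F : Type u} [CommRing O] [Field F] [Algebra O F] (t : F) (π : O)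
    (V : ValuationSubring F) (q : ℕ) (d : F) : Prop :=
  ∃ g : F, ∃ u : O, IsUnit u ∧ g ∈ overlap O t ∧ g ≠ 0 ∧ g⁻¹ ∈ V ∧
    d ^ (q - 1) / algebraMap O F π * g - algebraMap O F u ∈ V.nonunits

section Gen

variable {O K F : Type u} [CommRing O] [IsDomain O] [IsDiscreteValuationRing O]
  [Field K] [Field F] [Algebra O K] [Algebra O F] [Algebra K F] [IsScalarTower O K F]
  {t : K} {π : O} [FiniteDimensional K F] [Algebra.IsSeparable K F]
  {ht : IsParam O t} {hπ : Prime π} {ι : Type} [Fintype ι] {P : ι → ValuationSubring F}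

theorem locS_of_overlap {y : Ideal (chart O (algebraMap K F t))} [hy : y.IsPrime]
    (ht0 : algebraMap K F t ≠ 0) (hty : ¬ locM y (algebraMap K F t)) {x : F}
    (h : x ∈ overlap O (algebraMap K F t)) : x ∈ locS y := by
  obtain ⟨n, hn⟩ := h
  have h1 : algebraMap K F t ∈ locS y := mem_locS_of_mem (self_mem_chart _)
  have h2 := Subring.mul_mem _ (Subring.pow_mem _ (inv_mem_of_not_locM h1 hty) n)
    (mem_locS_of_mem hn)
  rwa [inv_pow, ← mul_assoc, inv_mul_cancel₀ (pow_ne_zero n ht0), one_mul] at h2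

/-- **the local equation at an ordinary point** -/
theorem ODat.locEq (S : CompSys ht hπ P) {y : Ideal (chart O (algebraMap K F t))}
    [hy : y.IsPrime] (hty : ¬ locM y (algebraMap K F t)) {i : ι} {dd : F} {e : ℕ}
    (E : ODat (algebraMap K F t) π (P i) dd e) (hm : Meets y (P i))
    (hne : ∀ b, b ≠ i → ¬ Meets y (P b)) : LocEq y (P i) dd := by
  have ht0 : algebraMap K F t ≠ 0 := by rw [Ne, map_eq_zero]; exact ht.ne_zero
  obtain ⟨g, u, hu, hg, hg0, hgi, hom⟩ := E.om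
  have hπ0 : algebraMap O F π ≠ 0 := pi_ne_zero ht hπ
  have hd0 := E.ne
  have he := E.pos
  have ld := locS_of_overlap ht0 hty E.ch
  have lg := locS_of_overlap ht0 hty hg
  have lu : algebraMap O F u ∈ locS y :=
    mem_locS_of_mem ((chart O (algebraMap K F t)).algebraMap_mem u)
  set ω := dd ^ e / algebraMap O F π with hω
  have huP : algebraMap O F u ∈ P i := mem_of_intOver (S.ov i).1 (intOver_of_mem_chart ht hπ
    ((chart O (algebraMap K F t)).algebraMap_mem u))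
  have hωP : ω ∈ P i := by
    have k1 : ω * g ∈ P i := by
      have := (P i).add_mem _ _ ((P i).nonunits_le hom) huP
      rwa [sub_add_cancel] at this
    have k2 := mul_mem k1 hgi
    rwa [mul_assoc, mul_inv_cancel₀ hg0, mul_one] at k2
  have hωl : ω ∈ locS y := by
    refine S.mem_locS (fun j hj => ?_) (n := 1) ?_
    · by_cases hja : j = i
      · rw [hja]; exact hωP
      · exact (hne j hja hj).elim
    · rw [pow_one, hω, mul_div_cancel₀ _ hπ0]
      exact Subring.pow_mem _ ld _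
  have k1 := locM_of_nonunits (S.ov i) hm (Subring.sub_mem _ (Subring.mul_mem _ hωl lg) lu) hom
  have hωM : ¬ locM y ω := by
    intro h
    have h4 := (h.mul_right lg).sub k1
    rw [sub_sub_cancel] at h4
    obtain ⟨v, rfl⟩ := hu
    have h5 := h4.mul_right (b := algebraMap O F (↑v⁻¹ : O))
      (mem_locS_of_mem ((chart O (algebraMap K F t)).algebraMap_mem _))
    rw [← map_mul, Units.mul_inv, map_one] at h5
    exact not_locM_one h5
  refine S.locEq hm hd0 ld E.non E.unif (fun j hj hm' => ?_) (n := 1) ?_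
  · exact (hne j hj hm').elim
  · rw [pow_one]
    have e1 : algebraMap O F π / dd = ω⁻¹ * dd ^ (e - 1) := by
      obtain ⟨n, hn⟩ : ∃ n, e = n + 1 := ⟨e - 1, by omega⟩
      rw [hω, hn, Nat.add_sub_cancel, inv_div, pow_succ]
      field_simp
    rw [e1]
    exact Subring.mul_mem _ (inv_mem_of_not_locM hωl hωM) (Subring.pow_mem _ ld _)

end Gen

section ZLem

variable {F : Type u} [Field F] {V : ValuationSubring F}

theorem z_unit {x z : F} (hx : UC V x x) (h64 : x + 64 ∉ V.nonunits)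
    (e : x * z ^ 2 = x + 64) : UC V z z := by
  have h640 : x + 64 ≠ 0 := fun h0 => h64 (h0 ▸ Fermat.Agent.Geo.zero_mem_nonunits V)
  have h1 : UC V (x + 64) (x + 64) := UC.refl h640
    (add_mem hx.mem (by exact_mod_cast natCast_mem V 64)) (inv_mem_of_notMem_nonunits h64)
  have h2 := h1.div hx
  have hx0 := hx.ne
  have e2 : (x + 64) / x = z ^ 2 := by rw [← e]; field_simp
  rw [e2] at h2
  have hz0 : z ≠ 0 := by
    rintro rfl
    exact h2.ne (by norm_num)
  exact UC.refl hz0 (mem_of_pow_mem' two_pos h2.mem)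
    (mem_of_pow_mem' two_pos (by rw [inv_pow]; exact h2.inv))

theorem nonunits_or {a b : F} (h : a * b ∈ V.nonunits) : a ∈ V.nonunits ∨ b ∈ V.nonunits := by
  rw [ValuationSubring.mem_nonunits_iff, map_mul] at h
  rw [ValuationSubring.mem_nonunits_iff, ValuationSubring.mem_nonunits_iff]
  by_contra hcon
  push Not at hcon
  exact absurd h (not_lt.mpr (one_le_mul hcon.1 hcon.2))

theorem two_unit {q : ℕ} (hq : q.Prime) (hq2 : q ≠ 2) (hqV : (q : F) ∈ V.nonunits) :
    (2 : F) ≠ 0 ∧ (2 : F)⁻¹ ∈ V := by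
  have h : (2 : F) ∉ V.nonunits := by
    intro h2
    obtain ⟨k, hk⟩ := hq.odd_of_ne_two hq2
    have h3 := mul_mem_nonunits (natCast_mem V k) h2
    have h4 := nonunits_sub hqV h3
    have e : (q : F) - (k : F) * 2 = 1 := by
      rw [hk]; push_cast; ring
    rw [e, ValuationSubring.mem_nonunits_iff] at h4
    simp at h4
  exact ⟨fun h0 => h (h0 ▸ Fermat.Agent.Geo.zero_mem_nonunits V), inv_mem_of_notMem_nonunits h⟩

theorem Rx_unit {x : F} (hx : UC V x x) (h64 : x + 64 ∉ V.nonunits) (h2 : (2 : F)⁻¹ ∈ V)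
    (h20 : (2 : F) ≠ 0) : UC V (Rx x) (Rx x) := by
  have h2W : (2 : F) ∈ V := by exact_mod_cast natCast_mem V 2
  have u2 : UC V (2 : F) 2 := UC.refl h20 h2W h2
  have h640 : x + 64 ≠ 0 := fun h0 => h64 (h0 ▸ Fermat.Agent.Geo.zero_mem_nonunits V)
  have h1 : UC V (x + 64) (x + 64) := UC.refl h640
    (add_mem hx.mem (by exact_mod_cast natCast_mem V 64)) (inv_mem_of_notMem_nonunits h64)
  have u1024 : UC V (1024 : F) (1024 : F) := by
    have h1 := u2.pow 10
    norm_num at h1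
    exact h1
  exact u1024.div ((hx.pow 3).mul h1)

theorem z_overlap {O : Type u} [CommRing O] [IsDomain O] [IsDiscreteValuationRing O]
    [Algebra O F] {t x z : F} (hx : x ∈ chart O t)
    (hxi : x⁻¹ ∈ overlap O t) (hx0 : x ≠ 0) (e : x * z ^ 2 = x + 64) : z ∈ overlap O t := by
  have h1 : x * z ∈ chart O t := by
    refine chart_intClosed (n := 2) (c := fun j => if j = 0 then -(x ^ 2 + 64 * x) else 0)
      (fun j hj => ?_) ?_
    · split_ifs
      · refine neg_mem (add_mem (pow_mem hx 2) (mul_mem ?_ hx))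
        exact_mod_cast natCast_mem (chart O t) 64
      · exact zero_mem _
    · have e2 : (x * z) ^ 2 = x ^ 2 + 64 * x := by linear_combination x * e
      rw [Finset.sum_range_succ, Finset.sum_range_one, e2]
      simp
  have h2 := mul_mem hxi (chart_le_overlap h1)
  rwa [← mul_assoc, inv_mul_cancel₀ hx0, one_mul] at h2

end ZLem

section

variable {O K M F F₂ : Type u} [CommRing O] [IsDomain O] [IsDiscreteValuationRing O] [CharZero O]
  [Field K] [Field M] [Field F] [Field F₂] [Algebra O K] [Algebra O M] [Algebra O F]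
  [Algebra O F₂] [Algebra K M] [Algebra K F] [Algebra K F₂] [Algebra M F] [Algebra M F₂]
  [IsScalarTower O K M] [IsScalarTower O K F] [IsScalarTower K M F] [IsScalarTower O M F]
  [IsScalarTower O K F₂] [IsScalarTower K M F₂] [IsScalarTower O M F₂]
  {t : K} {π : O} [FiniteDimensional K M] [Algebra.IsSeparable K M]
  [FiniteDimensional K F] [Algebra.IsSeparable K F]
  [FiniteDimensional K F₂] [Algebra.IsSeparable K F₂]
  {ht : IsParam O t} {hπ : Prime π} {q : ℕ} {c : ℕ → ℤ[X]} {C₀ : ℤ}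
  {P₂ : Fin 3 → ValuationSubring F₂} {w₂ : F₂ ≃+* F₂} {X₁ a1 a2 cc d : F₂}
  {r : ℕ} {P : Fin (r + 1) → ValuationSubring F} {w : F ≃+* F} {φ : ℕ → F₂ →+* F} {x : ℕ → F}

namespace Mul

variable (T : Tri (M := M) ht hπ q c C₀ P₂ w₂ X₁)
  (H : Mul (M := M) ht hπ q P₂ w₂ X₁ a1 cc r P w φ x)

include H T

theorem x_overlap (k : ℕ) (hk : k ≤ r) : x k ∈ overlap O (algebraMap K F t) :=
  chart_le_overlap (H.x_chart T k hk)

theorem x_inv_overlap (k : ℕ) (hk : k ≤ r) : (x k)⁻¹ ∈ overlap O (algebraMap K F t) := by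
  have h := H.x_inv_chart T k hk
  rw [map_inv₀] at h
  exact chart_inv_le_overlap (H.tF_ne) h

theorem φ_overlap {a : ℕ} (h1 : 1 ≤ a) (h2 : a < r) {z : F₂}
    (hz : z ∈ overlap O (algebraMap K F₂ t)) : φ a z ∈ overlap O (algebraMap K F t) := by
  obtain ⟨m, hm⟩ := hz
  have h3 := chart_le_overlap (H.φ_chart T h1 h2 hm)
  rw [map_mul, map_pow, H.φx0 a h1 h2] at h3
  have h4 := mul_mem (pow_mem (H.x_inv_overlap T (a - 1) (by omega)) m) h3
  rwa [inv_pow, ← mul_assoc, inv_mul_cancel₀ (pow_ne_zero _ (H.x_ne T (a - 1) (by omega))),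
    one_mul] at h4

theorem mem_of_overlap (i : Fin (r + 1)) {z : F} (hz : z ∈ overlap O (algebraMap K F t)) :
    z ∈ P i := by
  obtain ⟨m, hm⟩ := hz
  have h1 := chart_mem_over (H.sys.ov i) hm
  have h2 := (P i).mul_mem _ _ (pow_mem (H.t_inv_mem i) m) h1
  rwa [inv_pow, ← mul_assoc, inv_mul_cancel₀ (pow_ne_zero _ (H.tF_ne)), one_mul] at h2

theorem q_eq : ((q : ℕ) : F) = algebraMap O F π := by
  rw [← T.hq, map_natCast]

/-- the coordinates on the component `P i` -/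
theorem xc (i : Fin (r + 1)) : XC (P i) q c x (r - (i : ℕ)) r where
  mem k hk := H.x_mem T i k hk
  inv k hk := H.x_inv_mem T i k hk
  ne k hk := H.x_ne T k hk
  Fst k hk := H.stepF T i k (by omega)
  Vst k h1 h2 := H.stepV T i k h2 (by omega)
  rel k hk := H.rel T k hk
  rel' k hk := H.rel' T k hk
  tr := by
    have hi : (i : ℕ) ≤ r := Nat.lt_succ_iff.mp i.2
    have hq2 := T.q2
    intro h
    have h1 := H.x_up T i (r - (i : ℕ)) (by omega)
    have h2 := nonunits_pow_sub (q ^ 2) (H.x_mem T i (r - (i : ℕ)) (by omega))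
      (pow_mem (H.t_mem i) _) h1
    have h3 := nonunits_sub (nonunits_add h h1) h2
    have hB : ¬ (C π : O[X]) ∣ X ^ (q ^ (r - (i : ℕ)) * q ^ 2) - X ^ q ^ (r - (i : ℕ)) := by
      intro hdvd
      have h4 := (C_dvd_iff_dvd_coeff _ _).mp hdvd (q ^ (r - (i : ℕ)))
      rw [coeff_sub, coeff_X_pow, coeff_X_pow, if_neg, if_pos rfl, zero_sub, dvd_neg] at h4
      · exact hπ.not_isUnit (isUnit_of_dvd_one h4)
      · have h5 : 0 < q ^ (r - (i : ℕ)) := pow_pos (by omega) _
        have h6 : 4 ≤ q ^ 2 := by nlinarith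
        nlinarith
    refine aeval_notMem_nonunits (H.sys.ov i) hB ?_
    rw [map_sub, map_pow, map_pow, aeval_X, pow_mul]
    have e : x (r - (i : ℕ)) ^ q ^ 2 - x (r - (i : ℕ)) +
        (x (r - (i : ℕ)) - algebraMap K F t ^ q ^ (r - (i : ℕ))) -
        (x (r - (i : ℕ)) ^ q ^ 2 - (algebraMap K F t ^ q ^ (r - (i : ℕ))) ^ q ^ 2) =
        (algebraMap K F t ^ q ^ (r - (i : ℕ))) ^ q ^ 2 - algebraMap K F t ^ q ^ (r - (i : ℕ)) := by
      ring
    rw [e] at h3
    exact h3

theorem uc_one {i : Fin (r + 1)} (h0 : 0 < (i : ℕ)) (hr : (i : ℕ) < r) :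
    UC (P i) ((x (r - (i : ℕ) + 1) - x (r - (i : ℕ) - 1)) ^ (q - 1) / (q : F))
      ((x (r - (i : ℕ) + 1) - x (r - (i : ℕ) - 1)) ^ (q - 1) / (q : F)) := by
  set a := r - (i : ℕ) with ha
  have ha1 : 1 ≤ a := by omega
  have ha2 : a < r := by omega
  have hcm := H.cm1 a i ha1 ha2 (by omega)
  have hd : φ a (w₂ (algebraMap K F₂ t) - algebraMap K F₂ t) = x (a + 1) - x (a - 1) := by
    rw [map_sub, H.φx0 a ha1 ha2, H.φx2 a ha1 ha2]
  have hπF : φ a (algebraMap O F₂ π) = (q : F) := by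
    rw [H.φO a ha1 ha2, H.q_eq T]
  have h1 := (H.φ_mem hcm).mpr T.delq
  have h2 := (H.φ_mem hcm).mpr T.delq'
  rw [map_div₀, map_pow, hd, hπF] at h1 h2
  have hπ0 : ((q : ℕ) : F) ≠ 0 := by rw [H.q_eq T]; exact H.π_ne
  refine UC.refl ?_ h1 (by rw [inv_div]; exact h2)
  intro h0'
  -- zero is impossible
  have h3 : (w₂ (algebraMap K F₂ t) - algebraMap K F₂ t) ^ (q - 1) / algebraMap O F₂ π = 0 := by
    have : φ a ((w₂ (algebraMap K F₂ t) - algebraMap K F₂ t) ^ (q - 1) / algebraMap O F₂ π) = 0 := by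
      rw [map_div₀, map_pow, hd, hπF]; exact h0'
    rwa [map_eq_zero] at this
  have hq2 := T.q2
  rcases div_eq_zero_iff.mp h3 with h4 | h4
  · have h5 : w₂ (algebraMap K F₂ t) - algebraMap K F₂ t = 0 :=
      pow_eq_zero_iff (by omega) |>.mp h4
    exact T.del_ne (sub_eq_zero.mp h5)
  · exact T.π_ne h4

/-- the leading coefficient of `x (a + s) - x (a - s)` -/
theorem uc_s {i : Fin (r + 1)} (h0 : 0 < (i : ℕ)) (hr : (i : ℕ) < r) {s : ℕ}
    (hs : s + 1 ≤ r - (i : ℕ)) (hs' : s + 1 ≤ (i : ℕ)) :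
    UC (P i) ((x (r - (i : ℕ) + (s + 1)) - x (r - (i : ℕ) - (s + 1))) ^ (q ^ s * (q - 1)) / (q : F))
      ((x (r - (i : ℕ) + 1) - x (r - (i : ℕ) - 1)) ^ (q - 1) / (q : F)) :=
  (H.xc T i).om T.prime T.shape (H.q_nonunit T i) (H.uc_one T h0 hr) s (by omega) (by omega)

/-- transport of `Om2` to `F` -/
theorem om_of {i : Fin (r + 1)} (h0 : 0 < (i : ℕ)) (hr : (i : ℕ) < r) {d₂ : F₂}
    (hom : Om2 (algebraMap K F₂ t) π (P₂ 1) q d₂) {dd : F} {e : ℕ}
    (huc : UC (P i) (dd ^ e / algebraMap O F π)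
      (φ (r - (i : ℕ)) (d₂ ^ (q - 1) / algebraMap O F₂ π))) :
    ∃ g : F, ∃ u : O, IsUnit u ∧ g ∈ overlap O (algebraMap K F t) ∧ g ≠ 0 ∧ g⁻¹ ∈ P i ∧
      dd ^ e / algebraMap O F π * g - algebraMap O F u ∈ (P i).nonunits := by
  set a := r - (i : ℕ) with ha
  have ha1 : 1 ≤ a := by omega
  have ha2 : a < r := by omega
  have hcm := H.cm1 a i ha1 ha2 (by omega)
  obtain ⟨g, u, hu, hg, hg0, hgi, h⟩ := hom
  have hgo := H.φ_overlap T ha1 ha2 hg
  refine ⟨φ a g, u, hu, hgo, by rwa [Ne, map_eq_zero], ?_, ?_⟩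
  · rw [← map_inv₀]; exact (H.φ_mem hcm).mpr hgi
  · have h1 := (H.φ_non hcm).mpr h
    rw [map_sub, map_mul, H.φO a ha1 ha2] at h1
    have h2 := mul_mem_nonunits (H.mem_of_overlap T i hgo) huc.sub
    have h3 := nonunits_add h2 h1
    have e1 : φ a g * (dd ^ e / algebraMap O F π - φ a (d₂ ^ (q - 1) / algebraMap O F₂ π)) +
        (φ a (d₂ ^ (q - 1) / algebraMap O F₂ π) * φ a g - algebraMap O F u) =
        dd ^ e / algebraMap O F π * φ a g - algebraMap O F u := by ring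
    rwa [e1] at h3

/-- the case `d₂ = w t - t` (used for `q = 2`) -/
theorem odat_x {i : Fin (r + 1)} (h0 : 0 < (i : ℕ)) (hr : (i : ℕ) < r)
    (hom : Om2 (algebraMap K F₂ t) π (P₂ 1) q (w₂ (algebraMap K F₂ t) - algebraMap K F₂ t))
    {s : ℕ} (hs : s + 1 ≤ r - (i : ℕ)) (hs' : s + 1 ≤ (i : ℕ))
    (dl : x (r - (i : ℕ) + (s + 1)) - x (r - (i : ℕ) - (s + 1)) ∈ (P i).nonunits)
    (dlu : ∀ z ∈ (P i).nonunits, z / (x (r - (i : ℕ) + (s + 1)) - x (r - (i : ℕ) - (s + 1))) ∈
      P i) : ODat (algebraMap K F t) π (P i)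
        (x (r - (i : ℕ) + (s + 1)) - x (r - (i : ℕ) - (s + 1))) (q ^ s * (q - 1)) := by
  have hq2 := T.q2
  have hu := H.uc_s T h0 hr hs hs'
  have hpos : 1 ≤ q ^ s * (q - 1) := Nat.mul_pos (pow_pos (by omega) _) (by omega)
  have hne : x (r - (i : ℕ) + (s + 1)) - x (r - (i : ℕ) - (s + 1)) ≠ 0 := by
    intro h
    have := hu.ne
    rw [h, zero_pow (by omega), zero_div] at this
    exact this rfl
  refine ⟨hpos, hne, sub_mem (H.x_overlap T _ (by omega)) (H.x_overlap T _ (by omega)), dl, dlu,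
    H.om_of T h0 hr hom ?_⟩
  have e1 : φ (r - (i : ℕ)) ((w₂ (algebraMap K F₂ t) - algebraMap K F₂ t) ^ (q - 1) /
      algebraMap O F₂ π) = (x (r - (i : ℕ) + 1) - x (r - (i : ℕ) - 1)) ^ (q - 1) / (q : F) := by
    rw [map_div₀, map_pow, map_sub, H.φx0 _ (by omega) (by omega), H.φx2 _ (by omega) (by omega),
      H.φO _ (by omega) (by omega), H.q_eq T]
  rw [e1, ← H.q_eq T]
  exact hu

/-- `x k + 64` is a unit on `P i` -/
theorem add64 {i : Fin (r + 1)} {k : ℕ} (hk : k + (i : ℕ) ≤ r) :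
    x k + 64 ∉ (P i).nonunits := by
  intro h
  have hq2 := T.q2
  have h1 := H.x_up T i k hk
  have h2 := nonunits_sub h h1
  have hB : ¬ (C π : O[X]) ∣ X ^ (q ^ k) + C 64 := by
    intro hdvd
    have h4 := (C_dvd_iff_dvd_coeff _ _).mp hdvd (q ^ k)
    have h5 : 0 < q ^ k := pow_pos (by omega) _
    rw [coeff_add, coeff_X_pow, if_pos rfl, coeff_C, if_neg h5.ne', add_zero] at h4
    exact hπ.not_isUnit (isUnit_of_dvd_one h4)
  refine aeval_notMem_nonunits (H.sys.ov i) hB ?_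
  have e : x k + 64 - (x k - algebraMap K F t ^ q ^ k) = algebraMap K F t ^ q ^ k + 64 := by ring
  rw [e] at h2
  rw [map_add, map_pow, aeval_X, aeval_C, map_ofNat]
  exact h2

theorem ux (i : Fin (r + 1)) (k : ℕ) (hk : k ≤ r) : UC (P i) (x k) (x k) :=
  UC.refl (H.x_ne T k hk) (H.x_mem T i k hk) (H.x_inv_mem T i k hk)

theorem Rx_iter {i : Fin (r + 1)} (hq2 : q ≠ 2) {k : ℕ} (j : ℕ) (hk : k + j + (i : ℕ) ≤ r) :
    UC (P i) (Rx (x (k + j))) (Rx (x k) ^ q ^ j) := by
  obtain ⟨h20, h2⟩ := two_unit T.prime hq2 (H.q_nonunit T i)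
  induction j with
  | zero =>
    rw [add_zero, pow_zero, pow_one]
    exact Rx_unit (H.ux T i k (by omega)) (H.add64 T (by omega)) h2 h20
  | succ j ih =>
    have h1 := ih (by omega)
    have h3 := Rx_step T.prime (H.q_nonunit T i) (H.x_mem T i (k + j) (by omega))
      (H.x_inv_mem T i (k + j) (by omega)) (H.x_ne T (k + j) (by omega))
      (H.add64 T (by omega)) h2 h20 (H.stepF T i (k + j) (by omega))
    have h4 := h3.trans (h1.pow q)
    rwa [← pow_mul, ← pow_succ] at h4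

/-- the case `q` odd -/
theorem odat_z {i : Fin (r + 1)} (h0 : 0 < (i : ℕ)) (hr : (i : ℕ) < r) {z : M}
    (hz : algebraMap K M t * z ^ 2 = algebraMap K M t + 64) (hq2 : q ≠ 2)
    (hom : Om2 (algebraMap K F₂ t) π (P₂ 1) q (w₂ (algebraMap M F₂ z) - algebraMap M F₂ z))
    {s : ℕ} (hs : s + 1 ≤ r - (i : ℕ)) (hs' : s + 1 ≤ (i : ℕ))
    (dl : x (r - (i : ℕ) + (s + 1)) - x (r - (i : ℕ) - (s + 1)) ∈ (P i).nonunits)
    (dlu : ∀ z ∈ (P i).nonunits, z / (x (r - (i : ℕ) + (s + 1)) - x (r - (i : ℕ) - (s + 1))) ∈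
      P i) : ∃ dd : F, ODat (algebraMap K F t) π (P i) dd (q ^ s * (q - 1)) := by
  have hq3 := T.q2
  obtain ⟨h20, h2⟩ := two_unit T.prime hq2 (H.q_nonunit T i)
  set a := r - (i : ℕ) with ha
  have ha1 : 1 ≤ a := by omega
  have ha2 : a < r := by omega
  have hcm := H.cm1 a i ha1 ha2 (by omega)
  have hu := H.uc_s T h0 hr hs hs'
  have hu1 := H.uc_one T h0 hr
  rw [← ha] at hu hu1
  set X₀ := x (a - (s + 1)) with hX₀
  set X₂ := x (a + (s + 1)) with hX₂
  -- the relations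
  have rel2 : algebraMap K F₂ t * (algebraMap M F₂ z) ^ 2 = algebraMap K F₂ t + 64 := by
    have := congrArg (algebraMap M F₂) hz
    simpa only [map_mul, map_pow, map_add, map_ofNat, ← IsScalarTower.algebraMap_apply] using this
  have rel2w : w₂ (algebraMap K F₂ t) * (w₂ (algebraMap M F₂ z)) ^ 2 =
      w₂ (algebraMap K F₂ t) + 64 := by
    have := congrArg w₂ rel2
    simpa only [map_mul, map_pow, map_add, map_ofNat] using this
  have relm : ∀ b, 1 ≤ b → b < r → x (b - 1) * (φ b (algebraMap M F₂ z)) ^ 2 = x (b - 1) + 64 := by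
    intro b hb1 hb2
    have := congrArg (φ b) rel2
    simpa only [map_mul, map_pow, map_add, map_ofNat, H.φx0 b hb1 hb2] using this
  have relp : ∀ b, 1 ≤ b → b < r → x (b + 1) * (φ b (w₂ (algebraMap M F₂ z))) ^ 2 =
      x (b + 1) + 64 := by
    intro b hb1 hb2
    have := congrArg (φ b) rel2w
    simpa only [map_mul, map_pow, map_add, map_ofNat, H.φx2 b hb1 hb2] using this
  set zm := φ (a - s) (algebraMap M F₂ z) with hzm
  set zp := φ (a + s) (w₂ (algebraMap M F₂ z)) with hzp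
  have em : X₀ * zm ^ 2 = X₀ + 64 := by
    have := relm (a - s) (by omega) (by omega)
    have e : a - s - 1 = a - (s + 1) := by omega
    rwa [e] at this
  have ep : X₂ * zp ^ 2 = X₂ + 64 := relp (a + s) (by omega) (by omega)
  have e1m := relm a ha1 ha2
  have e1p := relp a ha1 ha2
  -- units
  have u0 := H.ux T i (a - (s + 1)) (by omega)
  have u2 := H.ux T i (a + (s + 1)) (by omega)
  have u1m := H.ux T i (a - 1) (by omega)
  have u1p := H.ux T i (a + 1) (by omega)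
  have c0 : X₀ + 64 ∉ (P i).nonunits := H.add64 T (by omega)
  have c2 : X₂ + 64 ∉ (P i).nonunits := by
    intro h
    apply c0
    have := nonunits_sub h dl
    rwa [add_sub_right_comm, sub_sub_cancel] at this
  have opp1 : x (a + 1) - x (a - 1) ∈ (P i).nonunits :=
    (H.xc T i).opp T.prime (H.q_nonunit T i) (j := 1) (by omega) (by omega)
  have c1m : x (a - 1) + 64 ∉ (P i).nonunits := H.add64 T (by omega)
  have c1p : x (a + 1) + 64 ∉ (P i).nonunits := by
    intro h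
    apply c1m
    have := nonunits_sub h opp1
    rwa [add_sub_right_comm, sub_sub_cancel] at this
  have uzm := z_unit u0 c0 em
  have uzp := z_unit u2 c2 ep
  have uz1m := z_unit u1m c1m e1m
  have uz1p := z_unit u1p c1p e1p
  have hne : X₂ ≠ X₀ := by
    intro h
    have := hu.ne
    rw [sub_eq_zero.mpr h, zero_pow (by
      have : 1 ≤ q ^ s * (q - 1) := Nat.mul_pos (pow_pos (by omega) _) (by omega)
      omega), zero_div] at this
    exact this rfl
  have hne1 : x (a + 1) ≠ x (a - 1) := by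
    intro h
    have := hu1.ne
    rw [sub_eq_zero.mpr h, zero_pow (by omega), zero_div] at this
    exact this rfl
  -- the sign
  obtain ⟨zm', hsq, uzm', hsub, hov⟩ : ∃ zm' : F, zm' ^ 2 = zm ^ 2 ∧ UC (P i) zm' zm' ∧
      zp - zm' ∈ (P i).nonunits ∧ zm' ∈ overlap O (algebraMap K F t) := by
    have hprod : (zp - zm) * (zp + zm) ∈ (P i).nonunits := by
      have e : (zp - zm) * (zp + zm) = (-64 * (X₂⁻¹ * X₀⁻¹)) * (X₂ - X₀) := by
        have h1 := u0.ne
        have h3 := u2.ne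
        have e3 : (zp - zm) * (zp + zm) * (X₂ * X₀) = -64 * (X₂ - X₀) := by
          linear_combination X₀ * ep - X₂ * em
        have e4 : -64 * (X₂⁻¹ * X₀⁻¹) * (X₂ - X₀) = (-64 * (X₂ - X₀)) * (X₂ * X₀)⁻¹ := by
          rw [mul_inv]; ring
        rw [e4, ← e3, mul_assoc _ (X₂ * X₀), mul_inv_cancel₀ (mul_ne_zero h3 h1), mul_one]
      rw [e]
      refine mul_mem_nonunits (mul_mem (neg_mem ?_) (mul_mem u2.inv u0.inv)) dl
      exact_mod_cast natCast_mem (P i) 64
    have hzo : zm ∈ overlap O (algebraMap K F t) :=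
      z_overlap (H.x_chart T (a - (s + 1)) (by omega)) (H.x_inv_overlap T _ (by omega)) u0.ne em
    rcases nonunits_or hprod with h | h
    · exact ⟨zm, rfl, uzm, h, hzo⟩
    · refine ⟨-zm, by ring, UC.refl (neg_ne_zero.mpr uzm.ne) (neg_mem uzm.mem)
        (by rw [inv_neg]; exact neg_mem uzm.inv), by rwa [sub_neg_eq_add], neg_mem hzo⟩
  have em' : X₀ * zm' ^ 2 = X₀ + 64 := by rw [hsq]; exact em
  have uz : UC (P i) zp zm' := UC.mk_right uzm'.ne uzm'.mem uzm'.inv hsub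
  have uX : UC (P i) X₂ X₀ := UC.mk_right u0.ne u0.mem u0.inv dl
  have k1 := conv_unit uX uz em' ep hne h2 h20
  -- the base
  have hz1 : φ a (w₂ (algebraMap M F₂ z)) - φ a (algebraMap M F₂ z) ∈ (P i).nonunits := by
    rw [← map_sub]
    refine (H.φ_non hcm).mpr (T.wM z ?_)
    have h3 : algebraMap M F₂ z ^ 2 ∈ P₂ 0 := by
      have e : algebraMap M F₂ z ^ 2 = (algebraMap K F₂ t)⁻¹ * (algebraMap K F₂ t + 64) := by
        rw [← rel2, ← mul_assoc, inv_mul_cancel₀ T.tF_ne, one_mul]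
      rw [e]
      exact mul_mem (T.t_inv_mem 0) (add_mem (T.t_mem 0) (by exact_mod_cast natCast_mem (P₂ 0) 64))
    exact mem_of_pow_mem' two_pos h3
  have uz1 : UC (P i) (φ a (w₂ (algebraMap M F₂ z))) (φ a (algebraMap M F₂ z)) :=
    UC.mk_right uz1m.ne uz1m.mem uz1m.inv hz1
  have uX1 : UC (P i) (x (a + 1)) (x (a - 1)) := UC.mk_right u1m.ne u1m.mem u1m.inv opp1
  have k2 := conv_unit uX1 uz1 e1m e1p hne1 h2 h20
  -- comparison
  obtain ⟨h, hh⟩ := T.prime.odd_of_ne_two hq2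
  have hq1 : q - 1 = 2 * h := by omega
  have kR : UC (P i) ((-32 / (X₀ ^ 2 * zm')) ^ (q ^ s * (q - 1)))
      ((-32 / (x (a - 1) ^ 2 * φ a (algebraMap M F₂ z))) ^ (q - 1)) := by
    have h3 := (H.Rx_iter T hq2 (i := i) (k := a - (s + 1)) s (by omega)).symm.pow h
    have e3 : a - (s + 1) + s = a - 1 := by omega
    rw [e3, ← Rx_eq u0.ne uzm'.ne em', ← Rx_eq u1m.ne uz1m.ne e1m] at h3
    rw [hq1]
    convert h3 using 1
    · rw [← pow_mul, ← pow_mul]
      congr 1
      ring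
    · rw [← pow_mul]
  have hqπ := H.q_eq T
  have hδ0 : X₂ - X₀ ≠ 0 := sub_ne_zero.mpr hne
  have hδ1 : x (a + 1) - x (a - 1) ≠ 0 := sub_ne_zero.mpr hne1
  have uA : UC (P i) ((zp - zm') ^ (q ^ s * (q - 1)) / algebraMap O F π)
      ((-32 / (X₀ ^ 2 * zm')) ^ (q ^ s * (q - 1)) *
        ((x (a + 1) - x (a - 1)) ^ (q - 1) / (q : F))) := by
    have h3 := (k1.pow (q ^ s * (q - 1))).mul hu
    convert h3 using 1
    rw [← hqπ, div_pow, div_mul_div_comm, mul_comm ((X₂ - X₀) ^ _) ((q : ℕ) : F),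
      mul_comm ((zp - zm') ^ _), mul_comm ((q : ℕ) : F), mul_div_mul_left _ _ (pow_ne_zero _ hδ0)]
  have uB : UC (P i) (φ a ((w₂ (algebraMap M F₂ z) - algebraMap M F₂ z) ^ (q - 1) /
      algebraMap O F₂ π)) ((-32 / (x (a - 1) ^ 2 * φ a (algebraMap M F₂ z))) ^ (q - 1) *
        ((x (a + 1) - x (a - 1)) ^ (q - 1) / (q : F))) := by
    have h3 := (k2.pow (q - 1)).mul hu1
    convert h3 using 1
    rw [map_div₀, map_pow, map_sub, H.φO a ha1 ha2, ← hqπ, div_pow, div_mul_div_comm,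
      mul_comm ((φ a (w₂ (algebraMap M F₂ z)) - φ a (algebraMap M F₂ z)) ^ _),
      mul_div_mul_left _ _ (pow_ne_zero _ hδ1)]
  have uAB := uA.trans ((kR.mul hu1).trans uB.symm)
  have hdd0 : zp - zm' ≠ 0 := by
    intro h3
    have := k1.ne
    rw [h3, zero_div] at this
    exact this rfl
  refine ⟨zp - zm', Nat.mul_pos (pow_pos (by omega) _) (by omega), hdd0, sub_mem ?_ hov, hsub,
    fun v hv => ?_, H.om_of T h0 hr hom uAB⟩
  · exact z_overlap (H.x_chart T (a + (s + 1)) (by omega)) (H.x_inv_overlap T _ (by omega)) u2.ne ep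
  · have h3 := mul_mem (dlu v hv) k1.inv
    have e : v / (X₂ - X₀) * ((zp - zm') / (X₂ - X₀))⁻¹ = v / (zp - zm') := by
      field_simp
    rwa [e] at h3

end Mul

end

end Fermat.Agent.CR
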