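import Mathlib
import Fermat.Agent.CR.OrdM
import Fermat.Agent.CR.Ord
import Fermat.Agent.CR.Lev

/-!
The data `MD` from the uniformisers `dlt` and the condition at level `q²`.
-/

set_option autoImplicit false
set_option linter.unusedSectionVars false
set_option linter.style.haveILetI false
set_option linter.unusedVariables false

open IsLocalRing Polynomial

universe u

namespace Fermat.Agent.CR

open Fermat.Agent.Geo Fermat.Agent.LG Fermat.Agent.CA

theorem md_of_odat {O F : Type u} [CommRing O] [Field F] [Algebra O F] {t : F} {π : O} {r : ℕ}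
    {P : Fin (r + 1) → ValuationSubring F}
    (h : ∀ i : Fin (r + 1), 0 < (i : ℕ) → (i : ℕ) < r → ∃ dd : F, ∃ e : ℕ, ODat t π (P i) dd e) :
    ∃ (dd : Fin (r + 1) → F) (ed : Fin (r + 1) → ℕ),
      MD t π r (fun a => P (Fin.rev a)) dd ed := by
  have h' : ∀ a : Fin (r + 1), ∃ dd : F, ∃ e : ℕ, 1 ≤ (a : ℕ) → (a : ℕ) < r →
      ODat t π (P (Fin.rev a)) dd e := by
    intro a
    by_cases ha : 1 ≤ (a : ℕ) ∧ (a : ℕ) < r
    · obtain ⟨dd, e, hd⟩ := h (Fin.rev a) (by rw [Fin.val_rev]; omega) (by rw [Fin.val_rev]; omega)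
      exact ⟨dd, e, fun _ _ => hd⟩
    · exact ⟨0, 0, fun h1 h2 => absurd ⟨h1, h2⟩ ha⟩
  choose dd ed hd using h'
  exact ⟨dd, ed, fun a h1 h2 => (hd a h1 h2).pos, fun a h1 h2 => (hd a h1 h2).ne,
    fun a h1 h2 => (hd a h1 h2).ch, fun a h1 h2 => (hd a h1 h2).non,
    fun a h1 h2 => (hd a h1 h2).unif, fun a h1 h2 => (hd a h1 h2).om⟩

section

variable {O K M F F₂ : Type u} [CommRing O] [IsDomain O] [IsDiscreteValuationRing O] [CharZero O]
  [Field K] [Field M] [Field F] [Field F₂] [Algebra O K] [Algebra O M] [Algebra O F]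
  [Algebra O F₂] [Algebra K M] [Algebra K F] [Algebra K F₂] [Algebra M F] [Algebra M F₂]
  [IsScalarTower O K M] [IsScalarTower O K F] [IsScalarTower K M F] [IsScalarTower O M F]
  [IsScalarTower O K F₂] [IsScalarTower K M F₂] [IsScalarTower O M F₂]
  {t : K} {π : O} [FiniteDimensional K M] [Algebra.IsSeparable K M]
  [FiniteDimensional K F] [Algebra.IsSeparable K F]
  [FiniteDimensional K F₂] [Algebra.IsSeparable K F₂]
  {ht : IsParam O t} {hπ : Prime π} {q : ℕ} {c : ℕ → ℤ[X]} {C₀ : ℤ}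
  {P₂ : Fin 3 → ValuationSubring F₂} {w₂ : F₂ ≃+* F₂} {X₁ a1 a2 cc d : F₂}
  {r : ℕ} {P : Fin (r + 1) → ValuationSubring F} {w : F ≃+* F} {φ : ℕ → F₂ →+* F} {x : ℕ → F}

namespace Mul

variable (T : Tri (M := M) ht hπ q c C₀ P₂ w₂ X₁)
  (H : Mul (M := M) ht hπ q P₂ w₂ X₁ a1 cc r P w φ x)

theorem dlt_eq {i : ℕ} (h0 : 0 < i) (hr : i < r) (ϖ : F) : ∃ s, s + 1 ≤ r - i ∧ s + 1 ≤ i ∧
    dlt ϖ r x i = x (r - i + (s + 1)) - x (r - i - (s + 1)) := by
  refine ⟨min (r - i) i - 1, by omega, by omega, ?_⟩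
  rw [dlt, if_neg (by omega)]
  have e : min (r - i) i - 1 + 1 = min (r - i) i := by omega
  rw [e]

include T H

/-- `q = 2` -/
theorem md_x (hun : ∀ i : Fin (r + 1), Uni (P i) (dlt (algebraMap O F π) r x i))
    (hom : Om2 (algebraMap K F₂ t) π (P₂ 1) q (w₂ (algebraMap K F₂ t) - algebraMap K F₂ t)) :
    ∃ (dd : Fin (r + 1) → F) (ed : Fin (r + 1) → ℕ),
      MD (algebraMap K F t) π r (fun a => P (Fin.rev a)) dd ed := by
  refine md_of_odat fun i h0 hr => ?_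
  obtain ⟨s, hs, hs', e⟩ := dlt_eq (x := x) h0 hr (algebraMap O F π)
  have hU := hun i
  rw [e] at hU
  exact ⟨_, _, H.odat_x T h0 hr hom hs hs' hU.non hU.dvd⟩

/-- `q` odd -/
theorem md_z (hun : ∀ i : Fin (r + 1), Uni (P i) (dlt (algebraMap O F π) r x i)) {z : M}
    (hz : algebraMap K M t * z ^ 2 = algebraMap K M t + 64) (hq2 : q ≠ 2)
    (hom : Om2 (algebraMap K F₂ t) π (P₂ 1) q (w₂ (algebraMap M F₂ z) - algebraMap M F₂ z)) :
    ∃ (dd : Fin (r + 1) → F) (ed : Fin (r + 1) → ℕ),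
      MD (algebraMap K F t) π r (fun a => P (Fin.rev a)) dd ed := by
  refine md_of_odat fun i h0 hr => ?_
  obtain ⟨s, hs, hs', e⟩ := dlt_eq (x := x) h0 hr (algebraMap O F π)
  have hU := hun i
  rw [e] at hU
  obtain ⟨dd, hd⟩ := H.odat_z T h0 hr hz hq2 hom hs hs' hU.non hU.dvd
  exact ⟨dd, _, hd⟩

end Mul

end

end Fermat.Agent.CR
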