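import Mathlib
import Fermat.Agent.CR.Base
import Fermat.Agent.CR.LevC
import Fermat.Agent.CR.MulU
import Fermat.Agent.CA.NC3

/-!
The structure `Mul` for the function field of `X₀(q ^ r M)`.
-/

set_option autoImplicit false
set_option linter.unusedSectionVars false
set_option linter.unusedVariables false

open IsLocalRing Polynomial ModularCurve

noncomputable section

universe u

namespace Fermat.Agent.CR

open Fermat.Agent.Geo Fermat.Agent.LG Fermat.Agent.CA Fermat.Agent.ModFun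

section Phi

variable {L : Type u} [Field L] {q M N₂ N r : ℕ} [NeZero q] [NeZero M] [NeZero N₂] [NeZero N]

theorem qExpand_congr {a b : ℕ} [NeZero a] [NeZero b] (h : a = b) (x : LaurentSeries L) :
    qExpand L a x = qExpand L b x := by
  subst h
  rfl

theorem phiR_dvd (hN₂ : N₂ = q ^ 2 * M) (hN : N = q ^ r * M) (hr : 2 ≤ r) (a : ℕ) :
    q ^ min (a - 1) (r - 2) * N₂ ∣ N := by
  rw [hN₂, hN, ← mul_assoc, ← pow_add]
  exact mul_dvd_mul (pow_dvd_pow q (by have := min_le_right (a - 1) (r - 2); omega)) dvd_rfl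

/-- the embedding of the level `q² M` at the curves `a - 1, a, a + 1` -/
def phiR (L : Type u) [Field L] (hN₂ : N₂ = q ^ 2 * M) (hN : N = q ^ r * M) (hr : 2 ≤ r) (a : ℕ) :
    F0 L N₂ →+* F0 L N :=
  qE (q ^ min (a - 1) (r - 2)) (phiR_dvd hN₂ hN hr a)

theorem coe_phiR (hN₂ : N₂ = q ^ 2 * M) (hN : N = q ^ r * M) (hr : 2 ≤ r) {a : ℕ} (ha : a < r)
    (z : F0 L N₂) : ((phiR L hN₂ hN hr a z : F0 L N) : LaurentSeries L) =
      qExpand L (q ^ (a - 1)) (z : LaurentSeries L) := by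
  rw [phiR, qE_coe]
  exact qExpand_congr (by rw [min_eq_left (by omega)]) _

theorem phiR_eq (hN₂ : N₂ = q ^ 2 * M) (hN : N = q ^ r * M) (hr : 2 ≤ r) {a : ℕ} (ha : a < r)
    (h : q ^ (a - 1) * N₂ ∣ N) (z : F0 L N₂) : phiR L hN₂ hN hr a z = qE (q ^ (a - 1)) h z := by
  apply Subtype.ext
  rw [coe_phiR hN₂ hN hr ha, qE_coe]

theorem phiR_w {ι : L →+* ℂ} (B₂ : Bez (q ^ 2) M) (B : Bez (q ^ r) M) (hq : q.Prime)
    (hN₂ : N₂ = q ^ 2 * M) (hN : N = q ^ r * M) (hr : 2 ≤ r) {a : ℕ} (h1 : 1 ≤ a) (ha : a < r)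
    (z : F0 L N₂) : wR B ι hq hN (phiR L hN₂ hN hr a z) =
      phiR L hN₂ hN hr (r - a) (B₂.wF2 ι hq hN₂ z) := by
  have d1 : q ^ (a - 1) * N₂ ∣ N := by
    rw [hN₂]; nth_rewrite 1 [hN]; exact dvd_aux M (c' := r - a - 1) (by omega)
  have d2 : q ^ (r - a - 1) * N₂ ∣ N := by
    rw [hN₂]; nth_rewrite 1 [hN]; exact dvd_aux M (c' := a - 1) (by omega)
  rw [phiR_eq hN₂ hN hr ha d1, phiR_eq hN₂ hN hr (a := r - a) (by omega) d2]
  exact wR_qE B B₂ hq hN hN₂ (c := a - 1) (c' := r - a - 1) (by omega) d1 d2 z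

end Phi

section Conc

variable {O L : Type u} [CommRing O] [IsDomain O] [IsDiscreteValuationRing O] [CharZero O]
    [Field L] [Algebra O L] [IsFractionRing O L]
    {q M N₂ N r p : ℕ} [NeZero q] [NeZero M] [NeZero N₂] [NeZero N] [Fact p.Prime] {κ : ℤ} {π : O}
    {ι : L →+* ℂ}
    [Algebra O (Kt L p κ)] [Algebra O (F0 L M)] [Algebra O (F0 L N)] [Algebra O (F0 L N₂)]
    [Algebra (Kt L p κ) (F0 L M)] [Algebra (Kt L p κ) (F0 L N)] [Algebra (Kt L p κ) (F0 L N₂)]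
    [Algebra (F0 L M) (F0 L N)] [Algebra (F0 L M) (F0 L N₂)]
    [IsScalarTower O (Kt L p κ) (F0 L M)] [IsScalarTower O (Kt L p κ) (F0 L N)]
    [IsScalarTower O (Kt L p κ) (F0 L N₂)]
    [IsScalarTower O (F0 L M) (F0 L N)] [IsScalarTower (Kt L p κ) (F0 L M) (F0 L N)]
    [IsScalarTower O (F0 L M) (F0 L N₂)] [IsScalarTower (Kt L p κ) (F0 L M) (F0 L N₂)]
    [FiniteDimensional (Kt L p κ) (F0 L M)] [Algebra.IsSeparable (Kt L p κ) (F0 L M)]
    [FiniteDimensional (Kt L p κ) (F0 L N)] [Algebra.IsSeparable (Kt L p κ) (F0 L N)]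
    [FiniteDimensional (Kt L p κ) (F0 L N₂)] [Algebra.IsSeparable (Kt L p κ) (F0 L N₂)]

/-- **The structure `Mul` for the function field of `X₀(q ^ r M)`.** -/
theorem mul_conc (C₂ : Cpt O (Kt L p κ) (F0 L M) (F0 L N₂))
    (C : Cpt O (Kt L p κ) (F0 L M) (F0 L N)) (B₂ : Bez (q ^ 2) M) (B : Bez (q ^ r) M)
    (hq : q.Prime) (hN₂ : N₂ = q ^ 2 * M) (hN : N = q ^ r * M) (hr : 2 ≤ r)
    {ht : IsParam O (tK L p κ)} {hπ : Prime π} {c : ℕ → ℤ[X]} {C₀ : ℤ}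
    {P₂ : Fin 3 → ValuationSubring (F0 L N₂)} {X₁ : F0 L N₂}
    (T : Tri (M := F0 L M) ht hπ q c C₀ P₂ (B₂.wF2 ι hq hN₂) X₁)
    (hX : (X₁ : LaurentSeries L) = qExpand L q (tS L p κ))
    {a1 : F0 L (q * M)} {cc : F0 L N₂} (hcc : cc = psq hN₂ a1 / inc1 L hN₂ a1)
    (ha1 : inc1 L hN₂ a1 ≠ 0)
    {G : ValuationSubring (F0 L M)} {P : ℕ → ValuationSubring (F0 L N)}
    (H : Lev ht hπ q G r (ev L hN) P) :
    Mul (M := F0 L M) ht hπ q P₂ (B₂.wF2 ι hq hN₂) X₁ (inc1 L hN₂ a1) cc r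
      (fun i : Fin (r + 1) => P i) (wR B ι hq hN) (phiR L hN₂ hN hr)
      (fun k => ev L hN k (algebraMap (Kt L p κ) (F0 L M) (tK L p κ))) := by
  have htM : ((algebraMap (Kt L p κ) (F0 L M) (tK L p κ) : F0 L M) : LaurentSeries L) =
      tS L p κ := C.KM (tK L p κ)
  have hev : ∀ {k : ℕ} (hk : k ≤ r) (f : F0 L M), ((ev L hN k f : F0 L N) : LaurentSeries L) =
      qExpand L (q ^ k) (f : LaurentSeries L) := fun hk f => ev_coe hN hk f
  refine H.mul T hr (fun f => ?_) (w := wR B ι hq hN) (fun a => ?_) (fun z => wR_wR B hq hN z)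
    (fun k hk f => wR_ev' B hq hN hk f) (φ := phiR L hN₂ hN hr) (fun a _ _ b => ?_)
    (fun a h1 h2 z => phiR_w B₂ B hq hN₂ hN hr h1 h2 z) (fun a h1 h2 f => ?_)
    (fun a h1 h2 => ?_) (fun a h1 h2 => ?_) (fun a h1 h2 => ⟨1, isUnit_one, ?_⟩)
  · apply Subtype.ext
    rw [ev_zero_coe, C.MF]
  · rw [C.OL, wR_C]
  · rw [C₂.OL, C.OL]
    exact qE_C _ _
  · apply Subtype.ext
    rw [coe_phiR hN₂ hN hr h2, hev (by omega), C₂.MF]
  · apply Subtype.ext
    rw [coe_phiR hN₂ hN hr h2, hev (by omega), hX, htM, qExpand_qExpand]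
    exact qExpand_congr (by rw [← pow_succ]; congr 1; omega) _
  · have e : B₂.wF2 ι hq hN₂ (algebraMap (Kt L p κ) (F0 L N₂) (tK L p κ)) =
        ev L hN₂ 2 (algebraMap (Kt L p κ) (F0 L M) (tK L p κ)) := by
      have e0 : algebraMap (Kt L p κ) (F0 L N₂) (tK L p κ) =
          ev L hN₂ 0 (algebraMap (Kt L p κ) (F0 L M) (tK L p κ)) := by
        apply Subtype.ext
        rw [ev_zero_coe, htM, C₂.KF]
        rfl
      rw [e0]
      exact wR_ev' B₂ hq hN₂ (Nat.zero_le 2) _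
    rw [e]
    apply Subtype.ext
    rw [coe_phiR hN₂ hN hr h2, hev (by omega), ev_coe hN₂ le_rfl, qExpand_qExpand]
    exact qExpand_congr (by rw [← pow_add]; congr 1; omega) _
  · rw [hcc, mul_div_cancel₀ _ ha1, map_one, one_mul]
    apply Subtype.ext
    rw [coe_phiR hN₂ hN hr h2, coe_phiR hN₂ hN hr (by omega), coe_inc1]
    change _ = qExpand L (q ^ (a - 1)) (qExpand L q (a1 : LaurentSeries L))
    rw [qExpand_qExpand]
    exact qExpand_congr (by rw [← pow_succ]; congr 1; omega) _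

end Conc

end Fermat.Agent.CR
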