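import Mathlib
import Fermat.Agent.CR.OrdM

/-!
The condition `Om2` from the modular units.
-/

set_option autoImplicit false
set_option linter.unusedSectionVars false
set_option linter.unusedVariables false
set_option linter.style.haveILetI false

open IsLocalRing Polynomial

universe u

namespace Fermat.Agent.CR

open Fermat.Agent.Geo Fermat.Agent.LG Fermat.Agent.CA

variable {O K M F : Type u} [CommRing O] [IsDomain O] [IsDiscreteValuationRing O] [CharZero O]
  [Field K] [Field M] [Field F] [Algebra O K] [Algebra O M] [Algebra O F] [Algebra K M]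
  [Algebra K F] [Algebra M F] [IsScalarTower O K M] [IsScalarTower O K F] [IsScalarTower K M F]
  [IsScalarTower O M F]
  {t : K} {π : O} [FiniteDimensional K M] [Algebra.IsSeparable K M]
  [FiniteDimensional K F] [Algebra.IsSeparable K F]
  {ht : IsParam O t} {hπ : Prime π} {q : ℕ} {c : ℕ → ℤ[X]} {C₀ : ℤ}
  {P : Fin 3 → ValuationSubring F} {w : F ≃+* F} {X₁ : F} {a1 a2 cc d : F}

theorem om2_of_nc (T : Tri (M := M) ht hπ q c C₀ P w X₁)
    (D : NC (algebraMap K F t) π q P w a1 a2 cc d) :
    Om2 (algebraMap K F t) π (P 1) q d := by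
  obtain ⟨l, n, u, hu, h⟩ := D.om
  have h1 : a1 ∈ overlap O (algebraMap K F t) := D.ch1
  have h2 : algebraMap K F t ∈ overlap O (algebraMap K F t) :=
    chart_le_overlap (self_mem_chart _)
  refine ⟨a1 ^ l * algebraMap K F t ^ n, u, hu, mul_mem (pow_mem h1 l) (pow_mem h2 n),
    mul_ne_zero (pow_ne_zero _ (NC.a1_ne T D)) (pow_ne_zero _ T.tF_ne), ?_, ?_⟩
  · rw [mul_inv, ← inv_pow, ← inv_pow]
    exact mul_mem (pow_mem D.a1_1 l) (pow_mem (T.t_inv_mem 1) n)
  · rw [← mul_assoc]
    exact h

end Fermat.Agent.CR
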