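import Mathlib
import Fermat.Agent.CA.NC5
import Fermat.Agent.CR.OrdM

/-!
The differential of the Hauptmodul of level `3` in characteristic `2`.
-/

set_option autoImplicit false
set_option linter.unusedSectionVars false
set_option linter.unusedVariables false
set_option linter.style.haveILetI false

open IsLocalRing Polynomial ModularCurve IntermediateField

noncomputable section

universe u

namespace Fermat.Agent.CR

open Fermat.Agent.Geo Fermat.Agent.LG Fermat.Agent.ModFun Fermat.Agent.CB Fermat.Agent.CA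
open Fermat.Agent.ESCore (HauptFn haupt2 haupt3)
open Fermat.Agent.Eis16 (sigSer)

section Sig

theorem sigma3_two (m : ℕ) : ∃ c : ℤ, (ArithmeticFunction.sigma 3 (2 * m) : ℤ) =
    (ArithmeticFunction.sigma 3 m : ℤ) + 2 * c := by
  rcases Nat.eq_zero_or_pos m with rfl | hm
  · exact ⟨0, by simp⟩
  obtain ⟨a, b, hb, rfl⟩ := Nat.exists_eq_two_pow_mul_odd hm.ne'
  have hco : ∀ n, Nat.Coprime (2 ^ n) b := fun n =>
    Nat.Coprime.pow_left n ((Nat.coprime_two_left).mpr hb)
  have h1 : ArithmeticFunction.sigma 3 (2 * (2 ^ a * b)) =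
      ArithmeticFunction.sigma 3 (2 ^ (a + 1)) * ArithmeticFunction.sigma 3 b := by
    rw [← mul_assoc, ← pow_succ']
    exact ArithmeticFunction.isMultiplicative_sigma.map_mul_of_coprime (hco _)
  have h2 : ArithmeticFunction.sigma 3 (2 ^ a * b) =
      ArithmeticFunction.sigma 3 (2 ^ a) * ArithmeticFunction.sigma 3 b :=
    ArithmeticFunction.isMultiplicative_sigma.map_mul_of_coprime (hco _)
  have h3 : ArithmeticFunction.sigma 3 (2 ^ (a + 1)) =
      ArithmeticFunction.sigma 3 (2 ^ a) + 2 ^ ((a + 1) * 3) := by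
    rw [ArithmeticFunction.sigma_apply_prime_pow Nat.prime_two,
      ArithmeticFunction.sigma_apply_prime_pow Nat.prime_two, Finset.sum_range_succ]
  refine ⟨2 ^ (a * 3 + 2) * (ArithmeticFunction.sigma 3 b : ℤ), ?_⟩
  rw [h1, h2, h3]
  push_cast
  ring

theorem US_two (m : ℕ) : ∃ c : ℤ, PowerSeries.coeff (2 * m) (Fermat.Agent.ESCore.US 3) =
    PowerSeries.coeff m (Fermat.Agent.ESCore.US 3) + 2 * c := by
  rw [Fermat.Agent.ESCore.US, map_sub, map_sub, PowerSeries.coeff_expand,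
    PowerSeries.coeff_expand]
  have hs : ∀ n, PowerSeries.coeff n (sigSer 3) = (ArithmeticFunction.sigma 3 n : ℤ) := fun n =>
    PowerSeries.coeff_mk _ _
  obtain ⟨c, hc⟩ := sigma3_two m
  by_cases h : 3 ∣ m
  · obtain ⟨l, rfl⟩ := h
    obtain ⟨c', hc'⟩ := sigma3_two l
    refine ⟨c - c', ?_⟩
    rw [if_pos (Dvd.intro (2 * l) (by ring)), if_pos (dvd_mul_right 3 l),
      show 2 * (3 * l) / 3 = 2 * l by omega, Nat.mul_div_cancel_left l (by norm_num), hs, hs, hs,
      hs, hc, hc']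
    ring
  · refine ⟨c, ?_⟩
    rw [if_neg (by omega), if_neg h, hs, hs, hc]
    ring

theorem VS_three : ∃ A : PowerSeries ℤ, Fermat.Agent.ESCore.VS 3 3 =
    1 + Fermat.Agent.ESCore.US 3 + 2 * A := by
  refine ⟨122 * PowerSeries.expand 3 (NeZero.ne 3) (sigSer 3) - 2 * sigSer 3, ?_⟩
  rw [Fermat.Agent.ESCore.VS, Fermat.Agent.ESCore.US]
  have h3 : (PowerSeries.C (3 : ℤ) : PowerSeries ℤ) = 3 := map_ofNat _ 3
  have h81 : (PowerSeries.C (((3 : ℕ) : ℤ) ^ 4) : PowerSeries ℤ) = 81 := by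
    norm_num
  rw [h3, h81]
  ring

theorem tZ_mul_US : tZ 3 3 * HahnSeries.ofPowerSeries ℤ ℤ (Fermat.Agent.ESCore.US 3) =
    HahnSeries.ofPowerSeries ℤ ℤ (Fermat.Agent.ESCore.VS 3 3) := by
  have h1 := Fermat.Agent.ESCore.VS_mul_TS 3 3
  have h2 := Fermat.Agent.ESCore.TS_eq 3 3
  have h3 := Fermat.Agent.ESCore.TW_mul_TWi 3 3 (by norm_num)
  have h4 : (HahnSeries.single (-1 : ℤ) (1 : ℤ)) * HahnSeries.ofPowerSeries ℤ ℤ PowerSeries.X =
      1 := by
    rw [HahnSeries.ofPowerSeries_X, HahnSeries.single_mul_single, neg_add_cancel, one_mul]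
    rfl
  rw [tZ, ← h1, h2, map_mul, map_mul]
  calc _ = (HahnSeries.single (-1 : ℤ) (1 : ℤ) * HahnSeries.ofPowerSeries ℤ ℤ PowerSeries.X) *
        HahnSeries.ofPowerSeries ℤ ℤ (Fermat.Agent.ESCore.TW 3 3 *
          Fermat.Agent.ESCore.TWi 3 3) *
          HahnSeries.ofPowerSeries ℤ ℤ (Fermat.Agent.ESCore.VS 3 3) := by
        rw [map_mul]; ring
    _ = _ := by rw [h4, h3, map_one, one_mul, one_mul]

end Sig

section Char2

variable {k : Type*} [Field k]

/-- the reduction of `US 3` -/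
def uk (k : Type*) [Field k] : LaurentSeries k :=
  coeffMap (Int.castRingHom k) (HahnSeries.ofPowerSeries ℤ ℤ (Fermat.Agent.ESCore.US 3))

theorem thD_uk (h2 : (2 : k) = 0) : thD (uk k) = uk k + uk k ^ 2 := by
  haveI : CharP k 2 := CharTwo.of_one_ne_zero_of_two_eq_zero one_ne_zero h2
  haveI : Fact (Nat.Prime 2) := ⟨Nat.prime_two⟩
  haveI : ExpChar k 2 := ExpChar.prime Nat.prime_two
  have h3 : uk k ^ 2 = qExpand k 2 (uk k) := by
    rw [pow_eq_qExpand]
    congr 1
    ext n
    rw [coeffMap_coeff, uk, coeffMap_coeff, eq_intCast, map_intCast]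
  rw [h3]
  ext n
  rw [thD_coeff, HahnSeries.coeff_add]
  have hneg : ∀ n : ℤ, n < 0 → (uk k).coeff n = 0 := by
    intro n hn
    rw [uk, coeffMap_coeff, ofPowerSeries_coeff_of_neg _ hn, map_zero]
  have hnn : ∀ n : ℕ, (uk k).coeff (n : ℤ) =
      ((PowerSeries.coeff n (Fermat.Agent.ESCore.US 3) : ℤ) : k) := by
    intro n
    rw [uk, coeffMap_coeff, HahnSeries.ofPowerSeries_apply_coeff]
    rfl
  rcases Int.even_or_odd' n with ⟨m, rfl | rfl⟩
  · rw [show (2 : ℤ) * m = ((2 : ℕ) : ℤ) * m by norm_num, qExpand_coeff_mul]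
    have e1 : (((2 : ℕ) : ℤ) * m) • (uk k).coeff (((2 : ℕ) : ℤ) * m) = 0 := by
      rw [zsmul_eq_mul]
      push_cast
      rw [h2, zero_mul, zero_mul]
    rw [e1]
    rcases lt_or_ge m 0 with hm | hm
    · rw [hneg _ hm, hneg _ (by push_cast; omega), add_zero]
    · obtain ⟨j, rfl⟩ := Int.eq_ofNat_of_zero_le hm
      have e2 : ((2 : ℕ) : ℤ) * (j : ℤ) = ((2 * j : ℕ) : ℤ) := by push_cast; ring
      rw [e2, hnn, hnn]
      obtain ⟨c, hc⟩ := US_two j
      rw [hc]
      push_cast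
      rw [h2, zero_mul, add_zero, ← two_mul, h2, zero_mul]
  · rw [qExpand_coeff_of_not_dvd 2 _ (by push_cast; omega), add_zero, zsmul_eq_mul]
    push_cast
    rw [h2, zero_mul, zero_add, one_mul]

theorem thD_tS_three (h2 : (2 : k) = 0) : thD (tS k 3 3) = tS k 3 3 := by
  have h2' : (2 : LaurentSeries k) = 0 := by
    have : (2 : LaurentSeries k) = HahnSeries.C (2 : k) := (map_ofNat _ 2).symm
    rw [this, h2, map_zero]
  have hv : coeffMap (Int.castRingHom k) (HahnSeries.ofPowerSeries ℤ ℤ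
      (Fermat.Agent.ESCore.VS 3 3)) = 1 + uk k := by
    obtain ⟨A, hA⟩ := VS_three
    rw [hA, map_add, map_add, map_add, map_add, map_one, map_one, map_mul, map_mul, map_ofNat,
      map_ofNat, h2', zero_mul, add_zero]
    rfl
  have h3 : tS k 3 3 * uk k = 1 + uk k := by
    rw [← hv, uk, tS, ← map_mul, tZ_mul_US]
  have h5 : thD (1 : LaurentSeries k) = 0 := by
    rw [← map_one (HahnSeries.C : k →+* LaurentSeries k)]
    exact thD_C 1
  have h4 : tS k 3 3 * (uk k + uk k ^ 2) + uk k * thD (tS k 3 3) = uk k + uk k ^ 2 := by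
    have e1 : thD (tS k 3 3 * uk k) = tS k 3 3 * thD (uk k) + uk k * thD (tS k 3 3) :=
      thFun_mul _ _
    rw [h3, map_add, h5, zero_add, thD_uk h2] at e1
    exact e1.symm
  have h6 : uk k ≠ 0 := by
    intro h0
    have h7 := congrArg (fun x : LaurentSeries k => x.coeff ((1 : ℕ) : ℤ)) h0
    simp only [HahnSeries.coeff_zero] at h7
    rw [uk, coeffMap_coeff, HahnSeries.ofPowerSeries_apply_coeff,
      Fermat.Agent.ESCore.coeff_one_US 3 (by norm_num), map_one] at h7
    exact one_ne_zero h7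
  apply mul_left_cancel₀ h6
  linear_combination h4 - (2 + uk k) * h3 - (1 + uk k) * h2'

end Char2

section Abs

variable {O L O' L' K M F : Type u} [CommRing O] [IsDomain O] [IsDiscreteValuationRing O]
    [CharZero O]
    [Field L] [Algebra O L] [IsFractionRing O L] [CommRing O'] [IsDomain O']
    [IsDiscreteValuationRing O'] [Field L'] [Algebra O' L'] [IsFractionRing O' L']
    [Field K] [Field M] [Field F] [Algebra O K] [Algebra O M] [Algebra O F] [Algebra K M]
    [Algebra K F] [Algebra M F] [IsScalarTower O K M] [IsScalarTower O K F]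
    [IsScalarTower K M F] [IsScalarTower O M F] {q : ℕ} [NeZero q] {t : K}
    {θ : F →+* LaurentSeries L} {θ₁ : F →+* LaurentSeries L'} {i : L →+* L'} {i' : O →+* O'}
    {ζ : O'ˣ} {w : F ≃+* F} {π : O}

theorem l2_om2 (D : L2 M q t (tS O 3 3) θ θ₁ i i' ζ w) (hq2 : q = 2) (hζ : IsPrimitiveRoot ζ q)
    (hqπ : (q : O) = π) (ht0 : algebraMap K F t ≠ 0) (htm : algebraMap K F t ∈ D.P1)
    (hti : (algebraMap K F t)⁻¹ ∈ D.P1) (hp0 : algebraMap O F π ≠ 0) :
    Om2 (algebraMap K F t) π (D.PP 1) q (w (algebraMap K F t) - algebraMap K F t) := by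
  haveI := D.loc
  subst hq2
  have hζ1 : (ζ : O') = -1 := by
    have h1 : (ζ : O') ^ 2 = 1 := by
      have := congrArg (fun z : O'ˣ => (z : O')) hζ.pow_eq_one
      simpa using this
    have h2 : ((ζ : O') - 1) * ((ζ : O') + 1) = 0 := by linear_combination h1
    exact eq_neg_of_add_eq_zero_left ((mul_eq_zero.mp h2).resolve_left D.ζirr.ne_zero)
  have h20 : (2 : O') ≠ 0 := by
    intro h
    apply D.ζirr.ne_zero
    rw [hζ1]
    linear_combination -h
  have hres : residue O' (2 : O') = 0 := by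
    have h1 := D.resζ
    rw [hζ1, map_neg, map_one] at h1
    rw [map_ofNat]
    linear_combination -h1
  have h2k : (2 : ResidueField O') = 0 := by rwa [map_ofNat] at hres
  set T' : LaurentSeries O' := coeffMap i' (tS O 3 3) with hT'
  have hT'k : toK O' T' = tS (ResidueField O') 3 3 := by rw [hT', coeffMap_tS', toK_tS]
  have h1 : θ₁ (w (algebraMap K F t) - algebraMap K F t) = toL O' L' (twist ζ T' - T') := by
    rw [map_sub, L2.tM (M := M), D.θ₁w, D.θ₁M, ← L2.tM (M := M), D.θt, coeffMap_toL D.comp,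
      twist_toL, map_sub]
  have h2 : toK O' (twist ζ T' - T') = 0 := by
    rw [map_sub, toK_twist D.resζ, sub_self]
  obtain ⟨U, hU⟩ := exists_eq_mul_of_toK_eq_zero D.ζirr h2
  have hthD := thD_tS_three h2k
  have hUk : toK O' U = tS (ResidueField O') 3 3 := by
    ext n
    have h3 := congrArg (fun x : LaurentSeries O' => x.coeff n) hU
    simp only [HahnSeries.coeff_sub, twist_coeff, HahnSeries.C_mul_eq_smul, HahnSeries.coeff_smul,
      smul_eq_mul] at h3
    have h4 := congrArg (fun x : LaurentSeries (ResidueField O') => x.coeff n) hthD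
    simp only [thD_coeff] at h4
    have h5 : ((ζ : O') - 1) = -2 := by rw [hζ1]; norm_num
    have hζu : ζ = -1 := Units.ext (by rw [hζ1]; rfl)
    rw [h5] at h3
    rw [toK_coeff]
    rcases Int.even_or_odd n with hn | hn
    · have h6 : ζ ^ n = 1 := by rw [hζu]; exact hn.neg_one_zpow
      rw [h6, Units.val_one, one_mul, sub_self] at h3
      have h7 : U.coeff n = 0 := by
        rcases mul_eq_zero.mp h3.symm with h8 | h8
        · exact absurd (neg_eq_zero.mp h8) h20
        · exact h8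
      rw [h7, map_zero, ← h4]
      obtain ⟨m, rfl⟩ := hn
      rw [zsmul_eq_mul]
      push_cast
      rw [← two_mul, h2k, zero_mul, zero_mul]
    · have h6 : ζ ^ n = -1 := by rw [hζu]; exact hn.neg_one_zpow
      rw [h6] at h3
      have h7 : U.coeff n = T'.coeff n := by
        have h8 : (-2 : O') * U.coeff n = (-2 : O') * T'.coeff n := by
          rw [← h3]
          push_cast
          ring
        exact mul_left_cancel₀ (neg_ne_zero.mpr h20) h8
      rw [h7, ← hT'k, toK_coeff]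
  set y : F := (w (algebraMap K F t) - algebraMap K F t) / algebraMap O F π with hy
  have hπF : algebraMap O F π = 2 := by
    rw [← hqπ, map_natCast]; norm_num
  have h2L : (2 : LaurentSeries L') ≠ 0 := by
    have := (map_ne_zero θ₁).mpr hp0
    rwa [hπF, map_ofNat] at this
  have hθy : θ₁ y = toL O' L' (-U) := by
    rw [hy, map_div₀, h1, hU, hπF, map_ofNat, div_eq_iff h2L, hζ1, map_mul]
    have h5 : (HahnSeries.C ((-1 : O') - 1) : LaurentSeries O') = -2 := by
      rw [show ((-1 : O') - 1) = -2 by norm_num, map_neg, map_ofNat]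
    rw [h5, map_neg, map_ofNat, map_neg]
    ring
  have hyt : y - algebraMap K F t ∈ D.P1.nonunits := by
    have h5 : θ₁ (y - algebraMap K F t) = toL O' L' (-U - T') := by
      rw [map_sub, hθy, D.θ₁t, map_sub]
    have hV : θ₁ (y - algebraMap K F t) ∈ gV O' L' := by rw [h5]; exact toL_mem_gV _
    refine (mem_nonunits_iff_gR (hθ := D.hgK') hV).mpr ?_
    have e : (⟨_, hV⟩ : gV O' L') = ⟨toL O' L' (-U - T'), toL_mem_gV _⟩ := Subtype.ext h5
    have h7 := gR_toL (L := L') (-U - T')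
    rw [e, h7, map_sub, map_neg, hUk, hT'k]
    have h6 : (2 : LaurentSeries (ResidueField O')) = 0 := by
      have : (2 : LaurentSeries (ResidueField O')) = HahnSeries.C (2 : ResidueField O') :=
        (map_ofNat _ 2).symm
      rw [this, h2k, map_zero]
    linear_combination -(tS (ResidueField O') 3 3) * h6
  refine ⟨(algebraMap K F t)⁻¹, 1, isUnit_one, ⟨1, ?_⟩, inv_ne_zero ht0, ?_, ?_⟩
  · rw [pow_one, mul_inv_cancel₀ ht0]; exact one_mem _
  · rw [inv_inv]; exact htm
  · have e : (w (algebraMap K F t) - algebraMap K F t) ^ (2 - 1) / algebraMap O F π *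
        (algebraMap K F t)⁻¹ - algebraMap O F 1 =
        (algebraMap K F t)⁻¹ * (y - algebraMap K F t) := by
      rw [map_one, hy, show 2 - 1 = 1 by norm_num, pow_one, mul_sub, inv_mul_cancel₀ ht0]
      ring
    rw [e]
    exact mul_mem_nonunits hti hyt

end Abs

section Three

variable {O L O' L' : Type u} [CommRing O] [IsDomain O] [IsDiscreteValuationRing O] [CharZero O]
    [Field L] [Algebra O L] [IsFractionRing O L] [CommRing O'] [IsDomain O']
    [IsDiscreteValuationRing O'] [Field L'] [Algebra O' L'] [IsFractionRing O' L']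
    {q M N : ℕ} [NeZero q] [NeZero M] [NeZero N]
    {i : L →+* L'} {i' : O →+* O'} {ζ : O'ˣ} {ι : L →+* ℂ} {π : O}
    [Algebra O (Kt L 3 3)] [Algebra O (F0 L M)] [Algebra O (F0 L N)]
    [Algebra (Kt L 3 3) (F0 L M)] [Algebra (Kt L 3 3) (F0 L N)] [Algebra (F0 L M) (F0 L N)]
    [IsScalarTower O (Kt L 3 3) (F0 L M)] [IsScalarTower O (Kt L 3 3) (F0 L N)]
    [IsScalarTower O (F0 L M) (F0 L N)] [IsScalarTower (Kt L 3 3) (F0 L M) (F0 L N)]

/-- `Om2` at level `q²M`, `q = 2` -/
theorem om2_three (B : Bez (q ^ 2) M)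
    (hq : q.Prime) (hN : N = q ^ 2 * M) (hq2 : q = 2)
    {θ₁ : F0 L N →+* LaurentSeries L'}
    (hζ : IsPrimitiveRoot ζ q) (hπ : Prime π) (hqπ : (q : O) = π)
    [FiniteDimensional (Kt L 3 3) (F0 L M)] [Algebra.IsSeparable (Kt L 3 3) (F0 L M)]
    [FiniteDimensional (Kt L 3 3) (F0 L N)] [Algebra.IsSeparable (Kt L 3 3) (F0 L N)]
    (D : L2 (O := O) (L := L) (O' := O') (L' := L') (K := Kt L 3 3) (F := F0 L N) (F0 L M) q
      (tK L 3 3) (tS O 3 3) (algebraMap (F0 L N) (LaurentSeries L)) θ₁ i i' ζ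
      (B.wF2 ι hq hN)) (ht : IsParam O (tK L 3 3))
    {c : ℕ → ℤ[X]} {C₀ : ℤ} {X₁ : F0 L N}
    (T : Tri (M := F0 L M) ht hπ q c C₀ D.PP (B.wF2 ι hq hN) X₁) :
    Om2 (algebraMap (Kt L 3 3) (F0 L N) (tK L 3 3)) π (D.PP 1) q
      (B.wF2 ι hq hN (algebraMap (Kt L 3 3) (F0 L N) (tK L 3 3)) -
        algebraMap (Kt L 3 3) (F0 L N) (tK L 3 3)) :=
  l2_om2 D hq2 hζ hqπ T.tF_ne (T.t_mem 1) (T.t_inv_mem 1) T.π_ne

end Three

end Fermat.Agent.CR
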