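import Mathlib
import Fermat.Agent.CA.CarI
import Fermat.Agent.CR.NC5R
import Fermat.Agent.CR.Two2
import Fermat.Agent.CR.OmNC
import Fermat.Agent.CR.MdM
import Fermat.Agent.CR.MulC
import Fermat.Agent.CR.NmC
import Fermat.Agent.CR.CoreA
import Fermat.Agent.CR.Base2
import Fermat.Agent.CR.Core2
import Fermat.Agent.CR.LevP
import Fermat.Agent.CR.GT
import Fermat.Agent.SF.WR

/-!
The vanishing theorem, over a field `L` with a discrete valuation.
-/

set_option autoImplicit false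
set_option linter.unusedSectionVars false
set_option linter.unusedVariables false
set_option linter.style.haveILetI false

open IsLocalRing Polynomial ModularCurve IntermediateField

noncomputable section

universe u

namespace Fermat.Agent.CR

open Fermat.Agent.Geo Fermat.Agent.LG Fermat.Agent.ModFun Fermat.Agent.CA
open Fermat.Agent.ESCore (HauptFn haupt2 haupt3)
open CongruenceSubgroup (Gamma0)

variable {O L O' L' : Type u} [CommRing O] [IsDomain O] [IsDiscreteValuationRing O]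
    [Field L] [Algebra O L] [IsFractionRing O L] [CommRing O'] [IsDomain O']
    [IsDiscreteValuationRing O'] [Field L'] [Algebra O' L'] [IsFractionRing O' L']
    {q M p r : ℕ} [NeZero q] [NeZero M] [Fact p.Prime] {κ : ℤ}
    {i : L →+* L'} {i' : O →+* O'} {ζ : O'ˣ} {ι : L →+* ℂ} {ι' : L' →+* ℂ} {π : O}
    {H : HauptFn p κ} {S : Set ℤ} {k : ℕ} {P : Polynomial ℤ}

section

variable [Algebra O (Kt L p κ)] [Algebra O (F0 L M)] [Algebra (Kt L p κ) (F0 L M)]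
    [IsScalarTower O (Kt L p κ) (F0 L M)]
    [∀ n : ℕ, Algebra O (F0 L (q ^ n * M))] [∀ n : ℕ, Algebra (Kt L p κ) (F0 L (q ^ n * M))]
    [∀ n : ℕ, Algebra (F0 L M) (F0 L (q ^ n * M))]
    [∀ n : ℕ, IsScalarTower O (Kt L p κ) (F0 L (q ^ n * M))]
    [∀ n : ℕ, IsScalarTower O (F0 L M) (F0 L (q ^ n * M))]
    [∀ n : ℕ, IsScalarTower (Kt L p κ) (F0 L M) (F0 L (q ^ n * M))]

set_option maxHeartbeats 4000000 in
theorem carR_core_gen [CharZero O] [PerfectField (ResidueField O)] [ExpChar (ResidueField O) q]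
    (C : ∀ n : ℕ, Cpt O (Kt L p κ) (F0 L M) (F0 L (q ^ n * M)))
    (B : Bez (q ^ (r + 2)) M) (B₂ : Bez (q ^ 2) M)
    (hH : HautData H S k P) (hι : ι'.comp i = ι)
    {ζM : Lˣ} (hζM : ι ζM = Complex.exp (2 * Real.pi * Complex.I / M)) (hMu : IsUnit (M : O))
    (hS : ∀ c ∈ S, ∀ c' ∈ S, c ≠ c' → IsUnit ((c - c' : ℤ) : O))
    (hq0 : (q : ResidueField O) = 0) (hq : q.Prime) (hqp : ¬ q ∣ p)
    (hr : 1 ≤ r) (hqM : ¬ q ∣ M) (hpM : p ∣ M) (hπ : Prime π) (hqπ : (q : O) = π)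
    (comp : ∀ a, i (algebraMap O L a) = algebraMap O' L' (i' a)) (loc : IsLocalHom i')
    (inj' : Function.Injective i') (hζ : IsPrimitiveRoot ζ q) (ζirr : Irreducible ((ζ : O') - 1))
    (ζpow : ∃ v : O'ˣ, ((ζ : O') - 1) ^ (q - 1) = v * q)
    (hC0 : IsUnit (((κ ^ 2 * (p : ℤ) ^ 4 : ℤ)) : O))
    (dF : O ≃+* O) (hdF : ∀ a, dbar dF a = a ^ q)
    [FiniteDimensional (Kt L p κ) (F0 L M)] [Algebra.IsSeparable (Kt L p κ) (F0 L M)]
    [FiniteDimensional (Kt L p κ) (F0 L (q ^ (r + 2) * M))]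
    [Algebra.IsSeparable (Kt L p κ) (F0 L (q ^ (r + 2) * M))]
    [FiniteDimensional (Kt L p κ) (F0 L (q ^ 2 * M))]
    [Algebra.IsSeparable (Kt L p κ) (F0 L (q ^ 2 * M))]
    (ht : IsParam O (tK L p κ)) (good : ∃ S : Set O, GoodRed ht hπ S (F0 L M))
    (huniq : ∀ W : ValuationSubring (F0 L M),
      Over (gaussVal ht hπ) (algebraMap O (Kt L p κ) π) W →
      ∀ x : F0 L M, x ∈ W ↔ (x : LaurentSeries L) ∈ gV O L)
    (hNC : ∀ θ₁ : F0 L (q ^ 2 * M) →+* LaurentSeries L', IsTh i q M (q ^ 2 * M) (CA.zL L' ζ) θ₁ →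
      ∀ (D : L2 (O := O) (L := L) (O' := O') (L' := L') (K := Kt L p κ) (F := F0 L (q ^ 2 * M))
      (F0 L M) q
      (tK L p κ) (tS O p κ) (algebraMap (F0 L (q ^ 2 * M)) (LaurentSeries L)) θ₁ i i' ζ
      (B₂.wF2 ι hq rfl)) (c : ℕ → ℤ[X]) (C₀ : ℤ) (X₁ : F0 L (q ^ 2 * M)),
      Tri (M := F0 L M) ht hπ q c C₀ D.PP (B₂.wF2 ι hq rfl) X₁ →
      ∃ (a1 : F0 L (q * M)) (a2 cc d : F0 L (q ^ 2 * M)),
        cc = psq rfl a1 / inc1 L rfl a1 ∧
        NC (algebraMap (Kt L p κ) (F0 L (q ^ 2 * M)) (tK L p κ)) π q D.PP (B₂.wF2 ι hq rfl)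
          (inc1 L rfl a1) a2 cc d ∧
        ((q ≠ 2 ∧ ∃ z : F0 L M, algebraMap (Kt L p κ) (F0 L M) (tK L p κ) * z ^ 2 =
            algebraMap (Kt L p κ) (F0 L M) (tK L p κ) + 64 ∧
            Om2 (algebraMap (Kt L p κ) (F0 L (q ^ 2 * M)) (tK L p κ)) π (D.PP 1) q
              (B₂.wF2 ι hq rfl (algebraMap (F0 L M) (F0 L (q ^ 2 * M)) z) -
                algebraMap (F0 L M) (F0 L (q ^ 2 * M)) z)) ∨
          Om2 (algebraMap (Kt L p κ) (F0 L (q ^ 2 * M)) (tK L p κ)) π (D.PP 1) q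
            (B₂.wF2 ι hq rfl (algebraMap (Kt L p κ) (F0 L (q ^ 2 * M)) (tK L p κ)) -
              algebraMap (Kt L p κ) (F0 L (q ^ 2 * M)) (tK L p κ))))
    {E : Type u} [Field E] [Algebra O E] [Algebra (Kt L p κ) E]
    [Algebra (F0 L (q ^ (r + 2) * M)) E]
    [IsScalarTower O (Kt L p κ) E] [IsScalarTower (Kt L p κ) (F0 L (q ^ (r + 2) * M)) E]
    [IsScalarTower O (F0 L (q ^ (r + 2) * M)) E]
    [FiniteDimensional (Kt L p κ) E] [Algebra.IsSeparable (Kt L p κ) E]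
    [FiniteDimensional (F0 L (q ^ (r + 2) * M)) E] [IsGalois (F0 L (q ^ (r + 2) * M)) E]
    (hinj : Function.Injective (algebraMap O E))
    (hO : ∀ x : E, IsIntegral O x → ∃ o : O, algebraMap O E o = x)
    (hNE : NoEll (q ^ (r + 2) * M)) {m : ℕ} (hm : 0 < m) (hqm : ¬ q ∣ m) (hmu : IsUnit (m : O))
    {ζm : O} (hζm : IsPrimitiveRoot ζm m) (hroot : ∀ u : O, IsUnit u → ∃ v : O, v ^ m = u)
    {χ : Gamma0 (q ^ (r + 2) * M) →* ℂˣ} (hχ : IsPar χ) (hχm : χ ^ m = 1)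
    {y : LaurentSeries L}
    (hy : XSer ι (q ^ (r + 2) * M) χ y) (hy0 : y ≠ 0)
    (hP1 : PowC (SF.hN2 rfl) m (⟨y ^ m, hy.pow_mem_F0 hχm⟩ : F0 L (q ^ (r + 2) * M)))
    (hP2 : PowC (SF.hN2 rfl) m (SF.wFR B ι hq rfl
      (⟨y ^ m, hy.pow_mem_F0 hχm⟩ : F0 L (q ^ (r + 2) * M)))) {yE : E}
    (hyE : yE ^ m = algebraMap (F0 L (q ^ (r + 2) * M)) E ⟨y ^ m, hy.pow_mem_F0 hχm⟩) :
    ∃ a : F0 L (q ^ (r + 2) * M), yE = algebraMap (F0 L (q ^ (r + 2) * M)) E a := by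
  obtain ⟨θ₁, hθ⟩ := exists_isTh (M := M) (N := q ^ 2 * M) hι hq hqM rfl
    (hζ.map_of_injective (f := Units.map (algebraMap O' L' : O' →* L'))
      (Units.map_injective (IsFractionRing.injective O' L')))
  have D := l2_conc (C 2) B₂ hH hι hζM hMu hπ hS hq0 hq hqp rfl hqM hpM comp loc inj' hζ ζirr
    ζpow hθ
  have hD := D.complete ht hπ hqπ
  have huniq' : ∀ W : ValuationSubring (F0 L M),
      Over (gaussVal ht hπ) (algebraMap O (Kt L p κ) π) W → ∀ x : F0 L M,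
      x ∈ W ↔ (algebraMap (F0 L (q ^ 2 * M)) (LaurentSeries L))
        (algebraMap (F0 L M) (F0 L (q ^ 2 * M)) x) ∈ gV O L := by
    intro W hW x
    have e : (algebraMap (F0 L (q ^ 2 * M)) (LaurentSeries L))
        (algebraMap (F0 L M) (F0 L (q ^ 2 * M)) x) = (x : LaurentSeries L) := (C 2).MF x
    rw [e]
    exact huniq W hW x
  obtain ⟨c, X₁, hX₁, T⟩ := tri_conc (C 2) B₂ hq hqp rfl H hθ hπ hqπ D ht hC0
    (D.gmodel good huniq')
  obtain ⟨a1, a2, cc, d, hcc, hNC, hOm⟩ := hNC θ₁ hθ D c _ X₁ T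
  have hL2 := lev_base D (C 2) hθ hX₁ T dF hdF
  have ha1 : inc1 L (rfl : q ^ 2 * M = q ^ 2 * M) a1 ≠ 0 := by
    intro h0
    have h1 := hNC.prod
    rw [h0, zero_mul, zero_mul] at h1
    exact (T.π_ne) h1.symm
  have r1 : MRel q c (qExpand L q (tK L p κ : LaurentSeries L)) (tK L p κ : LaurentSeries L) := by
    have h := mrel_map (algebraMap (F0 L (q ^ 2 * M)) (LaurentSeries L)) T.rel
    have e : (algebraMap (F0 L (q ^ 2 * M)) (LaurentSeries L))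
        (algebraMap (Kt L p κ) (F0 L (q ^ 2 * M)) (tK L p κ)) = (tK L p κ : LaurentSeries L) :=
      (C 2).KF _
    have e' : (algebraMap (F0 L (q ^ 2 * M)) (LaurentSeries L)) X₁ =
        qExpand L q (tK L p κ : LaurentSeries L) := hX₁
    rwa [e, e'] at h
  have r2 : MRel q c (tK L p κ : LaurentSeries L) (qExpand L q (tK L p κ : LaurentSeries L)) := by
    have h := mrel_map (algebraMap (F0 L (q ^ 2 * M)) (LaurentSeries L)) T.rel'
    have e : (algebraMap (F0 L (q ^ 2 * M)) (LaurentSeries L))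
        (algebraMap (Kt L p κ) (F0 L (q ^ 2 * M)) (tK L p κ)) = (tK L p κ : LaurentSeries L) :=
      (C 2).KF _
    have e' : (algebraMap (F0 L (q ^ 2 * M)) (LaurentSeries L)) X₁ =
        qExpand L q (tK L p κ : LaurentSeries L) := hX₁
    rwa [e, e'] at h
  obtain ⟨PA, PB, HA, HB, hα, hins⟩ := lev_pair_conc (c := c) ι (C 2).KM (fun n => (C n).KF) hq
    hqM T.shape hqπ (l2_tG D ht hπ) (l2_g1 D) (l2_g2 D ht hπ) (l2_ovG D) r1 r2 hL2 hr
  have hM := mul_conc (C 2) (C (r + 2)) B₂ B hq rfl rfl (by omega) T hX₁ hcc ha1 HB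
  have hun := fun i : Fin (r + 2 + 1) => HB.unif i (Nat.lt_succ_iff.mp i.2)
  have md : ∃ (dd : Fin (r + 2 + 1) → F0 L (q ^ (r + 2) * M)) (ed : Fin (r + 2 + 1) → ℕ),
      MD (algebraMap (Kt L p κ) (F0 L (q ^ (r + 2) * M)) (tK L p κ)) π (r + 2)
        (fun a : Fin (r + 2 + 1) => PB (Fin.rev a : Fin (r + 2 + 1))) dd ed := by
    rcases hOm with ⟨hq2, z, hz, hom⟩ | hom
    · exact hM.md_z T hun hz hq2 hom
    · exact hM.md_x T hun hom
  refine core_of_lev (C (r + 2)) (C (r + 1)).KF hq hqM hr rfl rfl rfl B T hNC HA HB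
    (α := alC L (dvd_next q (r + 1) M)) (fun x => rfl) hα hins
    (φ := phiR L rfl rfl (by omega)) ?_ hM md hinj hO hNE hm hqm hmu hζm hroot hχ hχm hy hy0
    hP1 hP2 hyE
  intro z
  rw [coe_phiR rfl rfl (by omega) (by omega)]
  have h : ∀ (n : ℕ) [NeZero n] (_ : n = 1), qExpand L n (z : LaurentSeries L) = z := by
    rintro n _ rfl
    ext j
    have h2 := qExpand_coeff_mul 1 (z : LaurentSeries L) j
    rwa [Nat.cast_one, one_mul] at h2
  exact h _ (pow_zero q)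

end

end Fermat.Agent.CR
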