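import Mathlib
import Fermat.Agent.CD.Dvr
import Fermat.Agent.GaloisBasics.FrobeniusExists

/-!
A lift of the Frobenius to the valuation ring of the inertia field.
-/

set_option autoImplicit false

namespace Fermat.Agent.CR

open Fermat.Agent.LG

/-- A Frobenius lift on the valuation ring of an arithmetic setting. -/
theorem exists_frob_ar {A : ValuationSubring (AlgebraicClosure ℚ)} {q : ℕ}
    {L : IntermediateField ℚ (AlgebraicClosure ℚ)} (h : Ar A q L)
    [IsDiscreteValuationRing (OL A L)] :
    ∃ d : OL A L ≃+* OL A L, ∀ a, dbar d a = a ^ q := by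
  obtain ⟨φ, hφ⟩ := Fermat.Agent.GaloisBasics.exists_isFrobeniusAt h.hq A h.hA
  exact ⟨h.resO hφ.mem_decompositionSubgroup, fun a => h.dbar_frob hφ a⟩

/-- A Frobenius lift on the valuation ring of the inertia field. -/
theorem exists_frob {A : ValuationSubring (AlgebraicClosure ℚ)} {q : ℕ} (hq : q.Prime)
    (hA : A.LiesOverPrime q) [IsDiscreteValuationRing (OL A (KI A))] :
    ∃ d : OL A (KI A) ≃+* OL A (KI A), ∀ a, dbar d a = a ^ q :=
  exists_frob_ar (CD.ar_KI hq hA)

end Fermat.Agent.CR
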