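import Mathlib
import Fermat.Agent.CR.FinS
import Fermat.Agent.CR.FrobKI
import Fermat.Agent.CD.Dvr
import Fermat.Agent.CD.Desc
import Fermat.Agent.SF.CarR

/-!
The vanishing theorem for the characters fixed by inertia, `q ^ (r + 2) ∥ N`.
-/

set_option autoImplicit false
set_option linter.unusedSectionVars false
set_option linter.unusedVariables false
set_option linter.style.haveILetI false

open IsLocalRing Polynomial ModularCurve IntermediateField

noncomputable section

namespace Fermat.Agent.CR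

open Fermat.Agent.Geo Fermat.Agent.LG Fermat.Agent.ModFun Fermat.Agent.ESCore Fermat.Agent.CA
open CongruenceSubgroup (Gamma0)

theorem carR_prop : SF.CARRProp := by
  intro q M N r _ _ _ hq hqM hG hr hN A hA B
  refine ⟨1, one_ne_zero, ?_⟩
  intro m hm hqm χ hpar hI T1 T2
  haveI i0 := CD.dvr_KI hq hA
  have h := CD.ar_KI hq hA
  haveI i1 := h.isAlgClosed
  haveI i2 := h.expChar_residue
  haveI i3 := Ar.charZero A (KI A)
  obtain ⟨ζM, hζM⟩ := h.exists_zeta hqM
  have hMu : IsUnit (M : OL A (KI A)) := h.isUnit_natCast hqM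
  have hq0 := h.natCast_residue
  obtain ⟨L', hle, dvr', ζ, hprim, hirr, hv⟩ := CD.exists_ram hq hA
  haveI := dvr'
  have hζ : IsPrimitiveRoot ζ q := by
    have h1 : IsPrimitiveRoot ((Units.map (algebraMap (OL A L') L' : OL A L' →* L')) ζ : L'ˣ) q :=
      IsPrimitiveRoot.coe_units_iff.mp hprim
    exact IsPrimitiveRoot.of_map_of_injective h1
      (Units.map_injective (IsFractionRing.injective (OL A L') L'))
  obtain ⟨dF, hdF⟩ := exists_frob hq hA
  obtain ⟨y, hy0, hy⟩ := CD.exists_xSer_KI hm χ hI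
  have hχm : χ.1 ^ m = 1 := χ.2.1
  obtain ⟨ζm, hζm⟩ := CD.exists_root hq hA hm hqm
  have hι : (ιL L').comp (IntermediateField.inclusion hle : KI A →+* L') = ιL (KI A) := by
    apply RingHom.ext
    intro x
    rfl
  have hNE : NoEll N := by
    rcases hG with ⟨-, h⟩ | ⟨-, h⟩
    · exact noEll_of_four_dvd (hN ▸ h.trans (dvd_mul_left _ _))
    · exact noEll_of_nine_dvd (hN ▸ h.trans (dvd_mul_left _ _))
  have hP1 := SF.powCR hq hqM (SF.hN2 hN) hy hy0 hm hχm T1
  have hP2 := SF.powCR_w B hq hqM hN hy hy0 hm hχm T2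
  have key : χ.1 = 1 := by
    rcases hG with ⟨hq2, h4⟩ | ⟨hq2, h9⟩
    · exact carR_two (O := OL A (KI A)) (L := KI A) (O' := OL A L') (L' := L') B hr hι hζM hMu
        hq0 hq hq2 hN hqM h4 (CD.prime_q hq hA) rfl (fun a => (CD.algebraMap_incO hle a).symm)
        inferInstance (CD.incO_injective hle) hζ hirr hv dF hdF hNE hm hqm
        (CD.isUnit_natCast_KI hq hA hqm) hζm (fun u hu => CD.unit_root hq hA hm hqm hu) hpar hχm
        hy hy0 hP1 hP2
    · exact carR_three (O := OL A (KI A)) (L := KI A) (O' := OL A L') (L' := L') B hr hι hζM hMu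
        hq0 hq hq2 hN hqM h9 (CD.prime_q hq hA) rfl (fun a => (CD.algebraMap_incO hle a).symm)
        inferInstance (CD.incO_injective hle) hζ hirr hv dF hdF hNE hm hqm
        (CD.isUnit_natCast_KI hq hA hqm) hζm (fun u hu => CD.unit_root hq hA hm hqm hu) hpar hχm
        hy hy0 hP1 hP2
  rw [pow_one]
  exact Subtype.ext key

end Fermat.Agent.CR
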