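import Mathlib
import Fermat.Agent.CR.GeoL
import Fermat.Agent.CR.MdM
import Fermat.Agent.CR.OmNC
import Fermat.Agent.CR.MulU

/-!
The geometric data `GeoR` from `Lev`, `Mul`, `Tri` and `NC`.
-/

set_option autoImplicit false
set_option linter.unusedSectionVars false
set_option linter.style.haveILetI false
set_option linter.unusedVariables false

open IsLocalRing Polynomial ModularCurve

noncomputable section

universe u

namespace Fermat.Agent.CR

open Fermat.Agent.Geo Fermat.Agent.LG Fermat.Agent.CA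

variable {O K M F F₂ : Type u} [CommRing O] [IsDomain O] [IsDiscreteValuationRing O] [CharZero O]
  [Field K] [Field M] [Field F] [Field F₂] [Algebra O K] [Algebra O M] [Algebra O F]
  [Algebra O F₂] [Algebra K M] [Algebra K F] [Algebra K F₂] [Algebra M F] [Algebra M F₂]
  [IsScalarTower O K M] [IsScalarTower O K F] [IsScalarTower K M F] [IsScalarTower O M F]
  [IsScalarTower O K F₂] [IsScalarTower K M F₂] [IsScalarTower O M F₂]
  {t : K} {π : O} [FiniteDimensional K M] [Algebra.IsSeparable K M]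
  [FiniteDimensional K F] [Algebra.IsSeparable K F]
  [FiniteDimensional K F₂] [Algebra.IsSeparable K F₂]
  {ht : IsParam O t} {hπ : Prime π} {q : ℕ} {c : ℕ → ℤ[X]} {C₀ : ℤ}
  {P₂ : Fin 3 → ValuationSubring F₂} {w₂ : F₂ ≃+* F₂} {X₁ a1 a2 cc d : F₂}
  {G : ValuationSubring M} {r : ℕ} {m : ℕ → M →+* F} {P : ℕ → ValuationSubring F}
  {w : F ≃+* F} {φ : ℕ → F₂ →+* F}

/-- `q` odd -/
theorem Lev.geoR_z (H : Lev ht hπ q G r m P) (T : Tri (M := M) ht hπ q c C₀ P₂ w₂ X₁)
    (hM : Mul (M := M) ht hπ q P₂ w₂ X₁ a1 cc r (fun i : Fin (r + 1) => P i) w φ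
      (fun k => m k (algebraMap K M t)))
    (D : NC (algebraMap K F₂ t) π q P₂ w₂ a1 a2 cc d) (hq2 : q ≠ 2) {z : M}
    (hz : algebraMap K F₂ t * algebraMap M F₂ z ^ 2 = algebraMap K F₂ t + 64)
    (hd : d = w₂ (algebraMap M F₂ z) - algebraMap M F₂ z) :
    ∃ (dd : Fin (r + 1) → F) (ed : Fin (r + 1) → ℕ),
    GeoR (M := M) ht hπ q r c C₀ (fun i : Fin (r + 1) => P i) w
      (fun k => m k (algebraMap K M t)) (mulV r φ a1 cc) (mulW r w φ a1 cc) dd ed
      (fun i => dlt (algebraMap O F π) r (fun k => m k (algebraMap K M t)) i) (eR q r) := by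
  have hzM : algebraMap K M t * z ^ 2 = algebraMap K M t + 64 := by
    apply (algebraMap M F₂).injective
    rw [map_mul, map_pow, map_add, map_ofNat, ← IsScalarTower.algebraMap_apply]
    exact hz
  have hom := om2_of_nc T D
  rw [hd] at hom
  obtain ⟨dd, ed, md⟩ := hM.md_z T (fun i => H.unif i (Nat.lt_succ_iff.mp i.2)) hzM hq2 hom
  exact ⟨dd, ed, H.geoR T hM (Mul.mu T hM D) md⟩

/-- `q = 2` -/
theorem Lev.geoR_x (H : Lev ht hπ q G r m P) (T : Tri (M := M) ht hπ q c C₀ P₂ w₂ X₁)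
    (hM : Mul (M := M) ht hπ q P₂ w₂ X₁ a1 cc r (fun i : Fin (r + 1) => P i) w φ
      (fun k => m k (algebraMap K M t)))
    (D : NC (algebraMap K F₂ t) π q P₂ w₂ a1 a2 cc d)
    (hom : Om2 (algebraMap K F₂ t) π (P₂ 1) q (w₂ (algebraMap K F₂ t) - algebraMap K F₂ t)) :
    ∃ (dd : Fin (r + 1) → F) (ed : Fin (r + 1) → ℕ),
    GeoR (M := M) ht hπ q r c C₀ (fun i : Fin (r + 1) => P i) w
      (fun k => m k (algebraMap K M t)) (mulV r φ a1 cc) (mulW r w φ a1 cc) dd ed
      (fun i => dlt (algebraMap O F π) r (fun k => m k (algebraMap K M t)) i) (eR q r) := by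
  obtain ⟨dd, ed, md⟩ := hM.md_x T (fun i => H.unif i (Nat.lt_succ_iff.mp i.2)) hom
  exact ⟨dd, ed, H.geoR T hM (Mul.mu T hM D) md⟩

end Fermat.Agent.CR
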